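import Mathlib
import Fermat.Prelude.Def_FLTPrelim_FreyPackage
import Fermat.Prelude.Def_FLTPrelim_GaloisRep
import Fermat.Prelude.Def_FLTPrelim_Modularity
import Fermat.Prelude.Def_FLTPrelim_Ramification
import Fermat.Prelude.Def_ModularCurve_ReductionModL
import Fermat.Prelude.Def_ModularCurve_HeckeModule
import Fermat.Prelude.Def_ModularCurve_ModularUnit

/-!
# Mazur's principle at `p`: shared definitions

* `qTheta`, `qDlog`: the operator `q d/dq` and the logarithmic derivative on Laurent series;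
  `deltaR`: the series of `Δ`; `ssUnit k p`: the series `Δ^(1-p)`.
* `IsHeckeEigen c ℓ a`: the weight two coefficient relation for `T_ℓ = a` on a series `c`.
* `EigenPart W p N`: a nonzero Galois stable subgroup of `J₀(N)[p]` on which Galois satisfies the
  linear relations of `E[p]` and the good `T_ℓ` act by `a_ℓ`.
* `RamData W p A`: a bound on the ramification of `E[p]` at a place `A` over `p`.
-/

set_option autoImplicit false

noncomputable section

open AlgebraicCurve ModularCurve WeierstrassCurve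

namespace FLTAgent.MazurP

local notation "Qb" => AlgebraicClosure ℚ
local notation "Γℚ" => (AlgebraicClosure ℚ ≃ₐ[ℚ] AlgebraicClosure ℚ)

section Series

variable {R : Type*} [CommRing R]

/-- `q d/dq` on Laurent series. -/
def qTheta (y : LaurentSeries R) : LaurentSeries R where
  coeff n := (n : R) * y.coeff n
  isPWO_support' := y.isPWO_support.mono fun n hn h0 => hn (by simp [h0])

@[simp] theorem qTheta_coeff (y : LaurentSeries R) (n : ℤ) :
    (qTheta y).coeff n = (n : R) * y.coeff n := rfl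

/-- The discriminant `q ∏ (1 - q^n)^24` with coefficients in `R`. -/
def deltaR (R : Type*) [CommRing R] : LaurentSeries R :=
  HahnSeries.single (1 : ℤ) 1 *
    HahnSeries.ofPowerSeries ℤ R (dedekindEtaUnit.map (Int.castRingHom R))

variable {k : Type*} [Field k]

/-- `q d/dq log` on Laurent series. -/
def qDlog (y : LaurentSeries k) : LaurentSeries k := qTheta y / y

/-- `Δ^(1-p)`: the reduction modulo `p` of `Δ(z) / Δ(pz)`. Off the cusps it vanishes exactly at
the supersingular points. -/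
def ssUnit (k : Type*) [Field k] (p : ℕ) : LaurentSeries k := (deltaR k ^ (p - 1))⁻¹

/-- The weight two coefficient relation for `T_ℓ` with eigenvalue `a`. -/
def IsHeckeEigen (c : LaurentSeries k) (ℓ : ℕ) (a : ℤ) : Prop :=
  ∀ n : ℤ, c.coeff ((ℓ : ℤ) * n) + (if (ℓ : ℤ) ∣ n then (ℓ : k) * c.coeff (n / (ℓ : ℤ)) else 0) =
    (a : k) * c.coeff n

end Series

/-- The geometric points of the curve of an integral Weierstrass model. -/
abbrev CurvePoint (W : WeierstrassCurve ℤ) : Type :=
  ((W.map (Int.castRingHom ℚ))⁄(AlgebraicClosure ℚ)).toAffine.Point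

/-- `σ` fixes `E[p]` pointwise. -/
def FixesTorsion (W : WeierstrassCurve ℤ) (p : ℕ) (σ : Γℚ) : Prop :=
  ∀ x : CurvePoint W, p • x = 0 → σ • x = x

/-- A subgroup of the `p`-torsion of `J₀(N)` on which Galois satisfies every linear relation that
it satisfies on `E[p]`, and on which `T_ℓ = a_ℓ` for the good `ℓ`. -/
structure EigenPart (W : WeierstrassCurve ℤ) (p N : ℕ) [NeZero N] where
  /-- The subgroup. -/
  S : AddSubgroup (JZero N)
  ne_bot : S ≠ ⊥
  torsion : ∀ z ∈ S, p • z = 0
  galois_mem : ∀ (σ : Γℚ), ∀ z ∈ S, σ • z ∈ S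
  hecke : ∀ (ℓ : ℕ) (hℓ : ℓ.Prime), W.IsGoodPrimeFor ℓ → ¬ ℓ ∣ N → ℓ ≠ p → ∀ z ∈ S,
    heckeOperatorBar N ⟨ℓ, hℓ⟩ z = W.apOfModel ℓ • z
  rel : ∀ c : Γℚ →₀ ℤ, (∀ x : CurvePoint W, p • x = 0 → (c.sum fun σ a => a • (σ • x)) = 0) →
    ∀ z ∈ S, (c.sum fun σ a => a • (σ • z)) = 0

/-- The local information on `E[p]` at a place over `p`: inertia contains a group `H` fixing
`E[p]` whose fixed field has value group in `(1/e) ℤ`; either `p ∤ e`, or `p² ∤ e` and some inertia
element `σ` has ramification break `j < p` at a uniformiser of that field. -/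
structure RamData (W : WeierstrassCurve ℤ) (p : ℕ) (A : ValuationSubring Qb) where
  /-- The subgroup of inertia. -/
  H : Subgroup Γℚ
  H_le : H ≤ A.inertiaSubgroupIn ℚ
  fixes : ∀ τ ∈ H, FixesTorsion W p τ
  /-- The ramification index. -/
  e : ℕ
  e_pos : 0 < e
  val : ∀ x : Qb, x ≠ 0 → (∀ τ ∈ H, τ x = x) →
    ∃ n : ℤ, A.valuation x ^ e = A.valuation (p : Qb) ^ n
  wild : p ∣ e → ¬ p ^ 2 ∣ e ∧ ∃ σ ∈ A.inertiaSubgroupIn ℚ, ∃ π : Qb, ∃ j : ℕ,
    (∀ τ ∈ H, σ⁻¹ * τ * σ ∈ H) ∧ (∀ τ ∈ H, τ π = π) ∧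
    A.valuation π ^ e = A.valuation (p : Qb) ∧ 0 < j ∧ j < p ∧
    A.valuation (σ π - π) ^ e = A.valuation (p : Qb) ^ (j + 1)

end FLTAgent.MazurP
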