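import Fermat.Agent.Local.CurveFacts

/-!
# Torsion of a node curve and translation by the formal group

The roots of the odd division polynomial outside the valuation ring have bounded product
(`valuation_natCast_mul_prod_le`), so for `|c| ≤ |n|` not all `n`-torsion of the node curve
reduces to the origin (`exists_root_valuation_le_one`). Adding a point of the kernel of
reduction with parameter `t` to an integral point moves its `x` by `|x| |t|`
(`exists_valuation_add_sub`).
-/

set_option autoImplicit false

noncomputable section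

open Polynomial WeierstrassCurve
open scoped WeierstrassCurve.Affine

namespace FLTAgent.MazurP

variable {K : Type*} [Field K] {A : ValuationSubring K}

/-- Some coefficient of `∏ (X - r)` is at least `∏ max 1 |r|`. -/
theorem exists_coeff_prod_ge (s : Multiset K) :
    ∃ i, (s.map fun r => max 1 (A.valuation r)).prod ≤
      A.valuation ((s.map fun r => X - C r).prod.coeff i) := by
  classical
  induction s using Multiset.induction with
  | empty => exact ⟨0, by simp⟩
  | cons r s ih =>
    obtain ⟨i₀, hi₀⟩ := ih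
    set P := (s.map fun r => X - C r).prod
    simp only [Multiset.map_cons, Multiset.prod_cons]
    set M := (s.map fun r => max 1 (A.valuation r)).prod with hM
    have hPne : P.support.Nonempty := Polynomial.support_nonempty.mpr
      (monic_multiset_prod_of_monic _ _ fun r _ => monic_X_sub_C r).ne_zero
    obtain ⟨j₀, hj₀, hmax⟩ := P.support.exists_max_image (fun i => A.valuation (P.coeff i)) hPne
    have hle : ∀ i, A.valuation (P.coeff i) ≤ A.valuation (P.coeff j₀) := fun i => by
      by_cases hi : i ∈ P.support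
      · exact hmax i hi
      · rw [Polynomial.notMem_support_iff.mp hi, map_zero]; exact zero_le
    set m := A.valuation (P.coeff j₀) with hm
    have hMm : M ≤ m := hi₀.trans (hle i₀)
    have hm0 : 0 < m := zero_lt_iff.mpr
      ((Valuation.ne_zero_iff _).mpr (Polynomial.mem_support_iff.mp hj₀))
    set T := P.support.filter fun i => A.valuation (P.coeff i) = m
    have hT : T.Nonempty := ⟨j₀, Finset.mem_filter.mpr ⟨hj₀, rfl⟩⟩
    have hout : ∀ i, i ∉ T → A.valuation (P.coeff i) < m := fun i hi => by
      by_cases hi' : i ∈ P.support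
      · exact (hle i).lt_of_ne fun h => hi (Finset.mem_filter.mpr ⟨hi', h⟩)
      · rw [Polynomial.notMem_support_iff.mp hi', map_zero]; exact hm0
    rcases le_or_gt (A.valuation r) 1 with hr | hr
    · rw [max_eq_left hr, one_mul]
      obtain ⟨j, hj, hjmax⟩ : ∃ j ∈ T, ∀ i ∈ T, i ≤ j := T.exists_max_image id hT
      refine ⟨j + 1, hMm.trans (le_of_eq ?_)⟩
      have h1 : A.valuation (r * P.coeff (j + 1)) < m := by
        rw [map_mul]
        exact lt_of_le_of_lt (mul_le_of_le_one_left' hr)
          (hout _ fun h => by have := hjmax _ h; omega)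
      have h2 : A.valuation (P.coeff j) = m := (Finset.mem_filter.mp hj).2
      rw [sub_mul, coeff_sub, coeff_X_mul, coeff_C_mul,
        Valuation.map_sub_eq_of_lt_left _ (h2.symm ▸ h1), h2]
    · rw [max_eq_right hr.le]
      obtain ⟨j, hj, hjmin⟩ : ∃ j ∈ T, ∀ i ∈ T, j ≤ i := T.exists_min_image id hT
      have h2 : A.valuation (P.coeff j) = m := (Finset.mem_filter.mp hj).2
      refine ⟨j, (mul_le_mul_right hMm _).trans (le_of_eq ?_)⟩
      rw [sub_mul, coeff_sub, coeff_C_mul]
      have h1 : A.valuation ((X * P).coeff j) < A.valuation (r * P.coeff j) := by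
        rw [map_mul, h2]
        rcases j with _ | j
        · rw [coeff_X_mul_zero, map_zero]
          exact mul_pos (zero_lt_one.trans hr) hm0
        · rw [coeff_X_mul]
          refine lt_of_lt_of_le (hout _ fun h => by have := hjmin _ h; omega) ?_
          exact le_mul_of_one_le_left' hr.le
      rw [Valuation.map_sub_eq_of_lt_right _ h1, map_mul, h2]

/-- Distinct roots outside the valuation ring of the odd division polynomial. -/
theorem valuation_natCast_mul_prod_le [IsAlgClosed K] [CharZero K] (W₀ : WeierstrassCurve A)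
    {n : ℕ} (hn : Odd n) (T : Finset K)
    (hT : ∀ r ∈ T, ((EllLocal.genCurve A W₀).preΨ' n).eval r = 0) :
    A.valuation (n : K) * ∏ r ∈ T, A.valuation r ≤ 1 := by
  classical
  set g := (EllLocal.genCurve A W₀).preΨ' n with hg
  have hnK : (n : K) ≠ 0 := Nat.cast_ne_zero.mpr (Nat.ne_of_gt hn.pos)
  have hlead : g.leadingCoeff = (n : K) := by
    rw [hg, leadingCoeff_preΨ' _ hnK, if_neg (Nat.not_even_iff_odd.mpr hn)]
  have hg0 : g ≠ 0 := fun h => hnK (by rw [← hlead, h, leadingCoeff_zero])
  obtain ⟨i, hi⟩ := exists_coeff_prod_ge (A := A) g.roots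
  have hc : A.valuation (g.coeff i) ≤ 1 := by
    rw [hg, show (EllLocal.genCurve A W₀).preΨ' n = (W₀.preΨ' n).map A.subtype from map_preΨ' _ _ n,
      coeff_map]
    exact A.valuation_le_one _
  have hsplit : g.coeff i = (n : K) * ((g.roots.map fun r => X - C r).prod.coeff i) := by
    conv_lhs => rw [(IsAlgClosed.splits g).eq_prod_roots]
    rw [coeff_C_mul, hlead]
  rw [hsplit, map_mul] at hc
  refine le_trans (mul_le_mul_right (le_trans ?_ hi) _) hc
  have hsub : T.val ≤ g.roots :=
    (Multiset.le_iff_subset T.nodup).mpr fun r hr => (mem_roots hg0).mpr (hT r hr)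
  obtain ⟨u, hu⟩ := Multiset.le_iff_exists_add.mp hsub
  rw [hu, Multiset.map_add, Multiset.prod_add, Finset.prod_eq_multiset_prod]
  refine le_mul_of_le_of_one_le ?_ (Multiset.one_le_prod_of_one_le fun x hx => ?_)
  · exact Multiset.prod_map_le_prod_map _ _ fun r _ => le_max_right _ _
  · obtain ⟨r, -, rfl⟩ := Multiset.mem_map.mp hx
    exact le_max_left _ _

/-- When `|c| ≤ |n|` the `n`-torsion of a node curve is not all in the kernel of reduction. -/
theorem exists_root_valuation_le_one [IsAlgClosed K] [CharZero K] {c : A} {n : ℕ} (hn : Odd n)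
    (h3 : 3 ≤ n) (hcn : A.valuation (c : K) ≤ A.valuation (n : K)) :
    ∃ r : K, ((EllLocal.nodeGen c).preΨ' n).eval r = 0 ∧ A.valuation r ≤ 1 := by
  classical
  by_contra hcon
  push Not at hcon
  set f := (EllLocal.nodeCurve c).preΨ' n with hf
  set g := (EllLocal.nodeGen c).preΨ' n with hg
  have hnK : (n : K) ≠ 0 := Nat.cast_ne_zero.mpr (by omega)
  have hlead : g.leadingCoeff = (n : K) := by
    rw [hg, leadingCoeff_preΨ' _ hnK, if_neg (Nat.not_even_iff_odd.mpr hn)]
  have hg0 : g ≠ 0 := fun h => hnK (by rw [← hlead, h, leadingCoeff_zero])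
  have hdiv : f.eval 0 ∈ Ideal.span {c} := by
    rw [← Ideal.Quotient.eq_zero_iff_mem]
    have h := eval_map_apply (f := Ideal.Quotient.mk (Ideal.span {c})) (p := f) (x := 0)
    rw [map_zero, hf, ← map_preΨ', EllLocal.map_nodeCurve,
      Ideal.Quotient.eq_zero_iff_mem.mpr (Ideal.mem_span_singleton_self c),
      Local.Curve.preΨ'_nodeZero_eval n h3] at h
    exact h.symm
  obtain ⟨d, hd⟩ := Ideal.mem_span_singleton.mp hdiv
  have hev : g.eval 0 = ((f.eval 0 : A) : K) := by
    rw [hg, show (EllLocal.nodeGen c).preΨ' n = f.map A.subtype from map_preΨ' _ _ n,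
      show (0 : K) = A.subtype 0 from (map_zero _).symm, eval_map_apply]
    rfl
  have hle : A.valuation (g.eval 0) ≤ A.valuation (n : K) := by
    rw [hev, hd]
    push_cast
    rw [map_mul]
    exact (mul_le_of_le_one_right' (A.valuation_le_one d)).trans hcn
  have hprod : g.eval 0 = (n : K) * (g.roots.map fun r => 0 - r).prod := by
    conv_lhs => rw [(IsAlgClosed.splits g).eq_prod_roots]
    rw [eval_mul, eval_C, hlead, eval_multiset_prod, Multiset.map_map]
    simp
  have hroots : g.roots ≠ 0 := by
    intro h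
    have h1 := (IsAlgClosed.splits g).natDegree_eq_card_roots
    have hnZ : ((n : ℕ) : K) ≠ 0 := hnK
    rw [h, Multiset.card_zero, hg, natDegree_preΨ' _ hnZ,
      if_neg (Nat.not_even_iff_odd.mpr hn)] at h1
    have : 9 ≤ n ^ 2 := by nlinarith
    omega
  obtain ⟨r, hr⟩ := Multiset.exists_mem_of_ne_zero hroots
  have h1 : 1 < A.valuation ((g.roots.map fun r => 0 - r).prod) := by
    obtain ⟨u, hu⟩ := Multiset.exists_cons_of_mem hr
    rw [hu, Multiset.map_cons, Multiset.prod_cons, map_mul, zero_sub, Valuation.map_neg]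
    refine one_lt_mul_of_lt_of_le' (hcon r ((mem_roots hg0).mp hr)) ?_
    rw [map_multiset_prod, Multiset.map_map]
    refine Multiset.one_le_prod_of_one_le fun x hx => ?_
    obtain ⟨t, ht, rfl⟩ := Multiset.mem_map.mp hx
    have htr : t ∈ g.roots := hu ▸ Multiset.mem_cons_of_mem ht
    simpa [Valuation.map_neg] using (hcon t ((mem_roots hg0).mp htr)).le
  rw [hprod, map_mul] at hle
  have hpos : 0 < A.valuation (n : K) := zero_lt_iff.mpr ((Valuation.ne_zero_iff _).mpr hnK)
  exact (lt_mul_of_one_lt_right hpos h1).not_ge hle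

open EllLocal in
/-- Translating a point of a node curve by a point of `E₁` moves `x` by `|x| |t|`, where
`|t| ^ 2 = 1 / |x(R)|`. -/
theorem exists_valuation_add_sub [DecidableEq K] {c : A} {a b X Y : K}
    (h₁ : (nodeGen c).Nonsingular a b) (h₂ : (nodeGen c).Nonsingular X Y)
    (ha : A.valuation a ≤ 1) (hb : A.valuation b ≤ A.valuation a)
    (h2b : A.valuation (2 * b + a) = A.valuation a) (ha0 : a ≠ 0)
    (hca : A.valuation (c : K) ≤ A.valuation a) (hX : X ∉ A) {x₃ y₃ : K}
    {h₃ : (nodeGen c).Nonsingular x₃ y₃}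
    (hsum : (Affine.Point.some a b h₁ : (nodeGen c).Point) + .some X Y h₂ = .some x₃ y₃ h₃) :
    ∃ t : K, A.valuation t < 1 ∧ A.valuation t ^ 2 * A.valuation X = 1 ∧
      A.valuation (x₃ - a) = A.valuation a * A.valuation t := by
  obtain ⟨t, u, hπt, hπu, ht0, rfl, rfl, hE⟩ := exists_scaling h₂.1 hX
  have vt : A.valuation (t : K) < 1 := valuation_lt_of_residue_eq_zero A hπt
  have vu1 : A.valuation ((u : K) - 1) < 1 := by
    have := valuation_lt_of_residue_eq_zero A (z := u - 1) (by rw [map_sub, hπu, map_one, sub_self])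
    simpa using this
  have vu : A.valuation (u : K) = 1 :=
    (A.valuation_eq_one_iff u).mp (isUnit_of_residue_ne_zero A (by rw [hπu]; exact one_ne_zero))
  have hu0 : (u : K) ≠ 0 := fun h => by simp [h] at vu
  refine ⟨t, vt, ?_, ?_⟩
  · rw [map_div₀, map_pow, vu, one_div,
      mul_inv_cancel₀ (pow_ne_zero 2 ((Valuation.ne_zero_iff _).mpr ht0))]
  have hEK : (u : K) ^ 2 + t * u ^ 2 = u ^ 3 + c * t ^ 6 := by
    have := congrArg (fun z : A => (z : K)) hE
    simpa [nodeCurve] using this
  have hax : a ≠ (u : K) / (t : K) ^ 2 := fun h => hX (h ▸ (A.valuation_le_one_iff a).mp ha)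
  rw [Affine.Point.add_of_X_ne hax] at hsum
  simp only [Affine.Point.some.injEq] at hsum
  obtain ⟨hx₃, -⟩ := hsum
  set D := (u : K) - a * t ^ 2 with hD
  have vat : A.valuation (a * (t : K) ^ 2) < 1 := by
    rw [map_mul, map_pow]
    exact lt_of_le_of_lt (mul_le_of_le_one_left' ha) (pow_lt_one₀ zero_le vt two_ne_zero)
  have vD : A.valuation D = 1 := by
    rw [hD, Valuation.map_sub_eq_of_lt_left _ (vu.symm ▸ vat), vu]
  have hD0 : D ≠ 0 := fun h => by simp [h] at vD
  set l := (nodeGen c).slope a ((u : K) / t ^ 2) b ((u : K) / t ^ 3) with hl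
  set ν := (a - b * t) / D with hν
  have hlK : l = 1 / (t : K) + t * ν := by
    rw [hl, Affine.slope_of_X_ne hax, div_eq_iff (sub_ne_zero.mpr hax), hν]
    field_simp
    ring
  set g := (c : K) * t ^ 3 / u ^ 2 with hg
  set h' := (-b - a + a * t ^ 2 * g + a ^ 2 * t) / D with hh'
  have hg' : 1 - (u : K) + t = t ^ 3 * g := by
    rw [hg]
    field_simp
    linear_combination hEK
  have hν' : ν - a = t * h' := by
    rw [hν, hh']
    field_simp
    rw [hD]
    linear_combination a * hg'
  have hX3 : x₃ - a = t * (g + 2 * h' + t * ν ^ 2 + ν) := by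
    rw [← hx₃, addX_node, hlK]
    field_simp
    linear_combination hg' + 2 * (t : K) ^ 2 * hν'
  have hva : 0 < A.valuation a := zero_lt_iff.mpr ((Valuation.ne_zero_iff _).mpr ha0)
  have small : ∀ {z : K}, A.valuation z < 1 → ∀ {w : K}, A.valuation w ≤ A.valuation a →
      A.valuation (z * w) < A.valuation a := by
    intro z hz w hw
    rw [map_mul]
    calc A.valuation z * A.valuation w ≤ A.valuation z * A.valuation a := mul_le_mul_right hw _
      _ < 1 * A.valuation a := mul_lt_mul_of_pos_right hz hva
      _ = _ := one_mul _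
  have vν : A.valuation ν ≤ A.valuation a := by
    rw [hν, map_div₀, vD, div_one]
    refine A.valuation.map_sub_le le_rfl ?_
    rw [map_mul]
    exact (mul_le_of_le_one_right' vt.le).trans hb
  have vg : A.valuation g < A.valuation a := by
    rw [hg, map_div₀, map_pow A.valuation (u : K), vu, one_pow, div_one, mul_comm]
    exact small (by rw [map_pow]; exact pow_lt_one₀ zero_le vt three_ne_zero) hca
  have vh1 : A.valuation (a * (t : K) ^ 2 * g + a ^ 2 * t) < A.valuation a := by
    refine A.valuation.map_add_lt (small vat vg.le) ?_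
    rw [show a ^ 2 * (t : K) = (a * t) * a by ring]
    refine small ?_ le_rfl
    rw [map_mul]
    exact lt_of_le_of_lt (mul_le_of_le_one_left' ha) vt
  have vh : A.valuation (h' + b + a) < A.valuation a := by
    have e : h' + b + a = ((a * (t : K) ^ 2 * g + a ^ 2 * t) +
        ((u : K) - 1 - a * t ^ 2) * (b + a)) / D := by
      rw [hh']
      field_simp
      rw [hD]
      ring
    rw [e, map_div₀, vD, div_one]
    exact A.valuation.map_add_lt vh1
      (small (A.valuation.map_sub_lt vu1 vat) (A.valuation.map_add_le hb le_rfl))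
  have vh' : A.valuation h' ≤ A.valuation a := by
    rw [show h' = (h' + b + a) - b - a by ring]
    exact A.valuation.map_sub_le (A.valuation.map_sub_le vh.le hb) le_rfl
  have vtν : A.valuation ((t : K) * ν ^ 2) < A.valuation a := by
    rw [show (t : K) * ν ^ 2 = (t * ν) * ν by ring]
    refine small ?_ vν
    rw [map_mul]
    exact lt_of_le_of_lt (mul_le_of_le_one_right' (vν.trans ha)) vt
  have vν' : A.valuation (ν - a) < A.valuation a := by
    rw [hν']; exact small vt vh'
  have vrest : A.valuation (g + 2 * (h' + b + a) + t * ν ^ 2 + (ν - a)) < A.valuation a := by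
    refine A.valuation.map_add_lt (A.valuation.map_add_lt (A.valuation.map_add_lt vg ?_) vtν) vν'
    rw [two_mul]
    exact A.valuation.map_add_lt vh vh
  rw [hX3, map_mul, mul_comm (A.valuation a)]
  congr 1
  rw [show g + 2 * h' + t * ν ^ 2 + ν =
    (g + 2 * (h' + b + a) + t * ν ^ 2 + (ν - a)) - (2 * b + a) by ring,
    Valuation.map_sub_eq_of_lt_right _ (h2b.symm ▸ vrest), h2b]

end FLTAgent.MazurP
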