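import Fermat.Agent.Local.CurveFacts
import Fermat.Agent.MazurChain.Chi

/-!
# The line `E[p] ∩ E₁` at a multiplicative place over `p`

`nodeHom` reads geometric points in node coordinates; `E₁` corresponds to nonintegral
coordinates (`nodeHom_mem_E1_iff`). The line `E[p] ∩ E₁` has order `p` when it is proper
(`natCard_torsionE1`), inertia is trivial on the quotient by it (`smul_sub_mem_line`) and acts
on it by the cyclotomic character (`smul_eq_cyc`, from the determinant).
-/

set_option autoImplicit false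
set_option linter.style.haveILetI false

noncomputable section

open Polynomial WeierstrassCurve WeierstrassCurve.Affine.Point
open scoped WeierstrassCurve.Affine Pointwise

namespace FLTAgent.MazurP

open FLTAgent.EllP

local notation "Qb" => AlgebraicClosure ℚ
local notation "Γℚ" => (AlgebraicClosure ℚ ≃ₐ[ℚ] AlgebraicClosure ℚ)

variable {W : WeierstrassCurve ℤ} {A : ValuationSubring (AlgebraicClosure ℚ)}

section Node

variable {C : VariableChange (AlgebraicClosure ℚ)} {c : A}
  (hC : C • EllLocal.genCurve A (modelAt A W) = EllLocal.genCurve A (EllLocal.nodeCurve c))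

/-- The geometric points in node coordinates. -/
def nodeHom : QPoint W →+ (EllLocal.nodeGen c).Point :=
  (EllLocal.modelHom C hC).comp (toModel A).toAddMonoidHom

theorem nodeHom_injective : Function.Injective (nodeHom hC) :=
  (EllLocal.modelHom_injective hC).comp (toModel A).injective

theorem nodeHom_smul {σ : Γℚ} (hσC : C.map (σ : Qb →+* Qb) = C) {P : QPoint W} {a b : Qb}
    {h : (EllLocal.nodeGen c).Nonsingular a b} (hP : nodeHom hC P = .some a b h) :
    ∃ h', nodeHom hC (σ • P) = .some (σ a) (σ b) h' := by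
  have h1 : EllLocal.IsConjPoint (σ : Qb →+* Qb) (nodeHom hC P) (nodeHom hC (σ • P)) :=
    EllLocal.IsConjPoint.modelHom hC hσC (isConjPoint_toModel (A := A) σ P)
  rw [hP] at h1
  exact h1.eq_some

/-- A point in the kernel of reduction has nonintegral node coordinates, and conversely. -/
theorem nodeHom_mem_E1_iff (hu : A.valuation (C.u : Qb) = 1) (hr : C.r ∈ A) {P : QPoint W} :
    nodeHom hC P ∈ EllLocal.E1 A (EllLocal.nodeCurve c) ↔
      toModel A P ∈ EllLocal.E1 A (modelAt A W) := by
  rcases P with _ | ⟨x, y, h⟩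
  · rw [← Affine.Point.zero_def, _root_.map_zero, _root_.map_zero]
    exact iff_of_true (zero_mem _) (zero_mem _)
  · rw [show nodeHom hC (Affine.Point.some x y h : QPoint W) =
      EllLocal.modelHom C hC (toModel A (Affine.Point.some x y h : QPoint W)) from rfl,
      toModel_some, EllLocal.modelHom_some]
    show (¬ EllLocal.vcX C x ∈ A) ↔ ¬ x ∈ A
    refine not_congr ?_
    rw [← A.valuation_le_one_iff, ← A.valuation_le_one_iff, EllLocal.vcX, map_mul, map_pow,
      Units.val_inv_eq_inv_val, map_inv₀, hu, inv_one, one_pow, one_mul]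
    have hr' := (A.valuation_le_one_iff _).mpr hr
    constructor <;> intro h1
    · simpa using A.valuation.map_add_le h1 hr'
    · exact A.valuation.map_sub_le h1 hr'

include hC in
theorem isElliptic_nodeGen (hΔ : W.Δ ≠ 0) : (EllLocal.nodeGen c).IsElliptic := by
  haveI : (EllLocal.genCurve A (modelAt A W)).IsElliptic := by
    rw [genCurve_modelAt]; exact isElliptic_baseChange hΔ
  have : (C • EllLocal.genCurve A (modelAt A W)).IsElliptic := inferInstance
  rwa [hC] at this

/-- All torsion of the node curve comes from the curve. -/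
theorem exists_nodeHom_eq (hΔ : W.Δ ≠ 0) {n : ℕ} (hn : n ≠ 0) {R : (EllLocal.nodeGen c).Point}
    (hR : n • R = 0) : ∃ P : QTorsion W n, nodeHom hC (P : QPoint W) = R := by
  haveI := isElliptic_nodeGen hC hΔ
  haveI hEQ : ((W.map (Int.castRingHom ℚ))⁄Qb).toAffine.IsElliptic := isElliptic_baseChange hΔ
  have hnK : (n : Qb) ≠ 0 := Nat.cast_ne_zero.mpr hn
  let φn : QTorsion W n → Submodule.torsionBy ℤ (EllLocal.nodeGen c).Point n := fun P =>
    ⟨nodeHom hC P.1, by
      rw [Submodule.mem_torsionBy_iff, natCast_zsmul, ← map_nsmul, ← natCast_zsmul,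
        (Submodule.mem_torsionBy_iff _ _).mp P.2, _root_.map_zero]⟩
  have hbij : Function.Bijective φn := by
    haveI : Finite (Submodule.torsionBy ℤ (EllLocal.nodeGen c).Point n) :=
      Nat.finite_of_card_ne_zero (by
        rw [EllTorsion.natCard_torsionBy n hnK]; exact pow_ne_zero _ hn)
    refine (Nat.bijective_iff_injective_and_card φn).mpr
      ⟨fun P Q h => Subtype.ext (nodeHom_injective hC (congrArg Subtype.val h)), ?_⟩
    exact (EllTorsion.natCard_torsionBy (W := ((W.map (Int.castRingHom ℚ))⁄Qb).toAffine) n hnK).trans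
      (EllTorsion.natCard_torsionBy n hnK).symm
  obtain ⟨P, hP⟩ := hbij.2 ⟨R, by rw [Submodule.mem_torsionBy_iff, natCast_zsmul, hR]⟩
  exact ⟨P, congrArg Subtype.val hP⟩

theorem nsmul_nodeHom {n : ℕ} (P : QTorsion W n) : n • nodeHom hC (P : QPoint W) = 0 := by
  rw [← map_nsmul, ← natCast_zsmul, (Submodule.mem_torsionBy_iff _ _).mp P.2, _root_.map_zero]

end Node

section Galois

variable {p : ℕ} [Fact p.Prime] (hΔ : W.Δ ≠ 0)

omit [Fact p.Prime] in
theorem charSMul_eq_zero (P : QTorsion W p) : p • P = 0 :=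
  Subtype.ext (by
    rw [Submodule.coe_smul_of_tower, ← natCast_zsmul, (Submodule.mem_torsionBy_iff _ _).mp P.2]
    rfl)

include hΔ in
/-- An element trivial on `E[p]` fixes the `p`-th roots of unity. -/
theorem cyc_eq_one_of_trivial {σ : Γℚ} (h : ∀ P : QTorsion W p, σ • P = P) :
    MazurChain.cyc p σ = 1 := by
  rw [← MazurChain.det_smul hΔ]
  have : galoisRepModuleEnd (K := Qb) ℚ (W.map (Int.castRingHom ℚ)) p σ = 1 :=
    LinearMap.ext fun P => by rw [galoisRepModuleEnd_apply]; exact h P
  rw [this, map_one]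

include hΔ in
theorem cyc_pow (σ : Γℚ) (n : ℕ) : MazurChain.cyc p (σ ^ n) = MazurChain.cyc p σ ^ n := by
  rw [← MazurChain.det_smul hΔ, ← MazurChain.det_smul hΔ, map_pow, map_pow]

include hΔ in
/-- An element of period `p` on `E[p]` has trivial cyclotomic character. -/
theorem cyc_eq_one_of_pow {σ : Γℚ} (h : ∀ P : QTorsion W p, (σ ^ p) • P = P) :
    MazurChain.cyc p σ = 1 := by
  rw [← ZMod.pow_card (MazurChain.cyc p σ), ← cyc_pow hΔ, cyc_eq_one_of_trivial hΔ h]

include hΔ in
theorem natCard_eq_sq : Nat.card (QTorsion W p) = p ^ 2 :=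
  MazurChain.natCard_qTorsion hΔ p (Fact.out : p.Prime).ne_zero

variable (hA : A.LiesOverPrime p) (hp2 : p ≠ 2) (hss : (p : ℤ) ∣ W.Δ → ¬(p : ℤ) ∣ W.c₄)

include hΔ hA hp2 hss in
/-- The line `E[p] ∩ E₁` is not trivial. -/
theorem torsionE1_ne_bot : (torsionE1 A : Submodule (ZMod p) (QTorsion W p)) ≠ ⊥ := by
  intro hbot
  have hp : p.Prime := Fact.out
  obtain ⟨σ, hσ, hne⟩ := MazurChain.exists_inertia_cyc_ne_one p hp2 hA
  apply hne
  have hfix : ∀ P ∈ (torsionE0 A : Submodule (ZMod p) (QTorsion W p)), σ • P = P := by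
    intro P hP
    have := smul_sub_mem_torsionE1 hp hA hσ hP
    rw [hbot, Submodule.mem_bot, sub_eq_zero] at this
    exact this
  refine cyc_eq_one_of_pow hΔ fun P => ?_
  have hR := hfix (σ • P - P)
    (inertiaMovesIntoE0_of_semistable hp hA hΔ hss (hp.odd_of_ne_two hp2) σ hσ P)
  have key : ∀ n : ℕ, (σ ^ n) • P = P + n • (σ • P - P) := by
    intro n
    induction n with
    | zero => simp
    | succ n ih =>
      rw [pow_succ', mul_smul, ih, smul_add, smul_comm σ n (σ • P - P), hR, succ_nsmul]
      abel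
  rw [key, charSMul_eq_zero, add_zero]

variable (htop : (torsionE1 A : Submodule (ZMod p) (QTorsion W p)) ≠ ⊤)

include hΔ hA hp2 hss htop in
/-- A proper line `E[p] ∩ E₁` has `p` elements. -/
theorem natCard_torsionE1 :
    Nat.card (torsionE1 A : Submodule (ZMod p) (QTorsion W p)) = p := by
  rcases submodule_card_cases (natCard_eq_sq hΔ)
    (torsionE1 A : Submodule (ZMod p) (QTorsion W p)) with h | h | h
  · exact absurd h (torsionE1_ne_bot hΔ hA hp2 hss)
  · exact h
  · exact absurd h htop

include hΔ hA hp2 hss htop in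
/-- Inertia is trivial on the quotient by the line. -/
theorem smul_sub_mem_line {σ : Γℚ} (hσ : σ ∈ A.inertiaSubgroupIn ℚ) (P : QTorsion W p) :
    σ • P - P ∈ (torsionE1 A : Submodule (ZMod p) (QTorsion W p)) := by
  have hp : p.Prime := Fact.out
  rcases eq_of_le_line (natCard_eq_sq hΔ) (natCard_torsionE1 hΔ hA hp2 hss htop)
    (torsionE1_le_torsionE0 A) with h | h
  · rw [← h]
    exact inertiaMovesIntoE0_of_semistable hp hA hΔ hss (hp.odd_of_ne_two hp2) σ hσ P
  · exact smul_sub_mem_torsionE1 hp hA hσ (h ▸ Submodule.mem_top)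

include hΔ hA hp2 hss htop in
/-- Inertia acts on the line by the cyclotomic character. -/
theorem smul_eq_cyc {σ : Γℚ} (hσ : σ ∈ A.inertiaSubgroupIn ℚ) {R : QTorsion W p}
    (hR : R ∈ (torsionE1 A : Submodule (ZMod p) (QTorsion W p))) :
    σ • R = MazurChain.cyc p σ • R := by
  set L : Submodule (ZMod p) (QTorsion W p) := torsionE1 A
  rcases eq_or_ne R 0 with rfl | hR0
  · rw [smul_zero, smul_zero]
  have hcard : Nat.card L = p := natCard_torsionE1 hΔ hA hp2 hss htop
  have hspan : L = Submodule.span (ZMod p) {R} := by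
    rcases submodule_card_cases (natCard_eq_sq hΔ) (Submodule.span (ZMod p) {R}) with h | h | h
    · exact absurd (Submodule.span_singleton_eq_bot.mp h) hR0
    · refine ((eq_of_le_line (natCard_eq_sq hΔ) h
        ((Submodule.span_singleton_le_iff_mem R L).mpr hR)).resolve_right htop)
    · exact absurd (top_unique (h ▸ (Submodule.span_singleton_le_iff_mem R L).mpr hR)) htop
  obtain ⟨Q, hQ⟩ : ∃ Q, Q ∉ L := by
    by_contra h
    push Not at h
    exact htop (Submodule.eq_top_iff'.mpr h)
  have hmem := smul_sub_mem_line hΔ hA hp2 hss htop hσ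
  obtain ⟨a, ha⟩ := Submodule.mem_span_singleton.mp ((SetLike.ext_iff.mp hspan _).mp (show σ • R ∈ L by simpa using add_mem (hmem R) hR))
  obtain ⟨b, hb⟩ := Submodule.mem_span_singleton.mp ((SetLike.ext_iff.mp hspan _).mp (hmem Q))
  have hdet := MazurChain.det_eq_mul (MazurChain.finrank_qTorsion (p := p) hΔ)
    (galoisRepModuleEnd (K := Qb) ℚ (W.map (Int.castRingHom ℚ)) p σ) hR0 (fun h => hQ ((SetLike.ext_iff.mp hspan _).mpr h))
    (a := a) (b := b) (d := 1) (by rw [galoisRepModuleEnd_apply]; exact ha.symm)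
    (by rw [galoisRepModuleEnd_apply, one_smul, hb, sub_add_cancel])
  rw [MazurChain.det_smul hΔ, mul_one] at hdet
  rw [hdet, ha]

end Galois

end FLTAgent.MazurP
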