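import Fermat.Agent.MazurP.RamVal
import Fermat.Agent.MazurP.RamNode
import Fermat.Agent.MazurP.RamTorsion
import Fermat.Agent.Mazur.Eis.Kill

/-!
# Inertia on the line `E[p] ∩ E₁`

`torsPerm` is the action of inertia on `E[p]`; `p - 1` divides the order of its image
(`pred_dvd_card_range`) as inertia realises every value of the cyclotomic character
(`exists_inertia_cyc_eq`). So all nonzero points of the line are conjugate, and the bound on the
roots of the division polynomial gives `|p| ≤ |t|^(p-1)` for their parameters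
(`valuation_pred_le`).
-/

set_option autoImplicit false
set_option linter.style.haveILetI false

noncomputable section

open Polynomial WeierstrassCurve WeierstrassCurve.Affine.Point
open scoped WeierstrassCurve.Affine Pointwise

namespace FLTAgent.MazurP

open FLTAgent.EllP

local notation "Qb" => AlgebraicClosure ℚ
local notation "Γℚ" => (AlgebraicClosure ℚ ≃ₐ[ℚ] AlgebraicClosure ℚ)

variable (W : WeierstrassCurve ℤ) (A : ValuationSubring (AlgebraicClosure ℚ)) (p : ℕ)
  [Fact p.Prime]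

/-- The permutations of `E[p]` given by inertia. -/
def torsPerm : A.inertiaSubgroupIn ℚ →* Equiv.Perm (QTorsion W p) :=
  (MulAction.toPermHom Γℚ (QTorsion W p)).comp (A.inertiaSubgroupIn ℚ).subtype

variable {W A p}

omit [Fact p.Prime] in
theorem torsPerm_eq_one_iff {σ : A.inertiaSubgroupIn ℚ} :
    torsPerm W A p σ = 1 ↔ ∀ P : QTorsion W p, (σ : Γℚ) • P = P :=
  Equiv.ext_iff

variable (hΔ : W.Δ ≠ 0)

include hΔ in
theorem finite_range_torsPerm : Finite (torsPerm W A p).range := by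
  haveI : Finite (QTorsion W p) := Nat.finite_of_card_ne_zero
    (natCard_eq_sq (p := p) hΔ ▸ pow_ne_zero _ (Fact.out : p.Prime).ne_zero)
  infer_instance

include hΔ in
/-- An element trivial on `E[p]` fixes `ζ`. -/
theorem apply_root_eq {σ : Γℚ} (h : ∀ P : QTorsion W p, σ • P = P) {ζ : Qb} (hζ : ζ ^ p = 1) :
    σ ζ = ζ :=
  MazurChain.fix_of_cyc_eq_one p σ (cyc_eq_one_of_trivial hΔ h) hζ

include hΔ in
/-- `p - 1` divides the order of the image of inertia. -/
theorem pred_dvd_card_range (hA : A.LiesOverPrime p) :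
    (p - 1) ∣ Nat.card (torsPerm W A p).range := by
  have hp : p.Prime := Fact.out
  haveI := finite_range_torsPerm (p := p) (A := A) hΔ
  haveI : NeZero (p : Qb) := ⟨Nat.cast_ne_zero.mpr hp.ne_zero⟩
  obtain ⟨ζ, hζ⟩ := HasEnoughRootsOfUnity.exists_primitiveRoot Qb p
  have h0 : ζ - 1 ≠ 0 := sub_ne_zero.mpr (hζ.ne_one hp.one_lt)
  obtain ⟨k, hk⟩ := valuation_pow_card_range hp hA (torsPerm W A p) h0 fun σ hσ => by
    rw [map_sub, map_one, apply_root_eq hΔ (torsPerm_eq_one_iff.mp hσ) hζ.pow_eq_one]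
  set e := Nat.card (torsPerm W A p).range
  have h1 := congrArg (· ^ (p - 1)) hk
  rw [← pow_mul, mul_comm e, pow_mul, Mazur.Eis.valuation_sub_one_pow hp A hζ, ← zpow_natCast,
    ← zpow_natCast (A.valuation (p : Qb) ^ k), ← zpow_mul] at h1
  have hp0 : A.valuation (p : Qb) ≠ 0 :=
    (Valuation.ne_zero_iff _).mpr (Nat.cast_ne_zero.mpr hp.ne_zero)
  have hinj := (zpow_right_strictAnti₀ (pos_of_ne_zero hp0) (hA : A.valuation (p : Qb) < 1)).injective h1
  exact Int.natCast_dvd_natCast.mp ⟨k, by rw [hinj]; ring⟩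

omit W in
/-- Inertia realises every value of the cyclotomic character. -/
theorem exists_inertia_cyc_eq (hA : A.LiesOverPrime p) (a : (ZMod p)ˣ) :
    ∃ σ ∈ A.inertiaSubgroupIn ℚ, MazurChain.cyc p σ = a := by
  have hp : p.Prime := Fact.out
  haveI : NeZero p := ⟨hp.ne_zero⟩
  let χ : A.inertiaSubgroupIn ℚ →* (ZMod p)ˣ :=
    { toFun := fun σ => modularCyclotomicCharacter Qb (EllTorsion.card_rootsOfUnity_Qbar p)
        ((σ : Γℚ) : Qb ≃+* Qb)
      map_one' := map_one _
      map_mul' := fun σ τ => map_mul (modularCyclotomicCharacter Qb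
        (EllTorsion.card_rootsOfUnity_Qbar p)) ((σ : Γℚ) : Qb ≃+* Qb) ((τ : Γℚ) : Qb ≃+* Qb) }
  haveI : NeZero (p : Qb) := ⟨Nat.cast_ne_zero.mpr hp.ne_zero⟩
  obtain ⟨ζ, hζ⟩ := HasEnoughRootsOfUnity.exists_primitiveRoot Qb p
  have h0 : ζ - 1 ≠ 0 := sub_ne_zero.mpr (hζ.ne_one hp.one_lt)
  obtain ⟨k, hk⟩ := valuation_pow_card_range hp hA χ h0 fun σ hσ => by
    rw [map_sub, map_one, MazurChain.fix_of_cyc_eq_one p (σ : Γℚ) ?_ hζ.pow_eq_one]
    rw [MazurChain.cyc_eq]
    exact (congrArg Units.val hσ).trans Units.val_one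
  set m := Nat.card χ.range
  have h1 := congrArg (· ^ (p - 1)) hk
  rw [← pow_mul, mul_comm m, pow_mul, Mazur.Eis.valuation_sub_one_pow hp A hζ, ← zpow_natCast,
    ← zpow_natCast (A.valuation (p : Qb) ^ k), ← zpow_mul] at h1
  have hp0 : A.valuation (p : Qb) ≠ 0 :=
    (Valuation.ne_zero_iff _).mpr (Nat.cast_ne_zero.mpr hp.ne_zero)
  have hinj := (zpow_right_strictAnti₀ (pos_of_ne_zero hp0) (hA : A.valuation (p : Qb) < 1)).injective h1
  have hdvd : (p - 1) ∣ m := Int.natCast_dvd_natCast.mp ⟨k, by rw [hinj]; ring⟩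
  have htop : χ.range = ⊤ := by
    refine Subgroup.eq_top_of_card_eq _ (Nat.dvd_antisymm (Subgroup.card_subgroup_dvd_card _) ?_)
    rwa [Nat.card_eq_fintype_card (α := (ZMod p)ˣ), ZMod.card_units]
  obtain ⟨σ, hσ⟩ := (htop ▸ Subgroup.mem_top a : a ∈ χ.range)
  exact ⟨σ, σ.2, by rw [MazurChain.cyc_eq]; exact congrArg Units.val hσ⟩

variable (hA : A.LiesOverPrime p) (hp2 : p ≠ 2) (hss : (p : ℤ) ∣ W.Δ → ¬(p : ℤ) ∣ W.c₄)
  (htop : (torsionE1 A : Submodule (ZMod p) (QTorsion W p)) ≠ ⊤)
  {C : VariableChange (AlgebraicClosure ℚ)} {c : A}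
  (hC : C • EllLocal.genCurve A (modelAt A W) = EllLocal.genCurve A (EllLocal.nodeCurve c))
  (hu : A.valuation (C.u : Qb) = 1) (hr : C.r ∈ A)
  (hfix : ∀ σ ∈ A.inertiaSubgroupIn ℚ, C.map ((σ : Γℚ) : Qb →+* Qb) = C)

include hΔ hA hp2 hss htop hu hr hfix in
/-- The parameter `t` of a nonzero point of the line satisfies `|ζ - 1| ≤ |t|`. -/
theorem valuation_pred_le {R : QTorsion W p}
    (hR : R ∈ (torsionE1 A : Submodule (ZMod p) (QTorsion W p))) {X Y : Qb}
    {h : (EllLocal.nodeGen c).Nonsingular X Y} (hRe : nodeHom hC (R : QPoint W) = .some X Y h)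
    {t : Qb} (ht : A.valuation t ^ 2 * A.valuation X = 1) :
    A.valuation (p : Qb) ≤ A.valuation t ^ (p - 1) := by
  classical
  have hp : p.Prime := Fact.out
  set L : Submodule (ZMod p) (QTorsion W p) := torsionE1 A
  haveI : Finite (QTorsion W p) := Nat.finite_of_card_ne_zero
    (natCard_eq_sq (p := p) hΔ ▸ pow_ne_zero _ hp.ne_zero)
  haveI := Fintype.ofFinite L
  haveI := isElliptic_nodeGen hC hΔ
  have hR0 : R ≠ 0 := by
    rintro rfl
    rw [Submodule.coe_zero, _root_.map_zero] at hRe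
    exact some_ne_zero h hRe.symm
  have hX : 1 < A.valuation X := by
    have h1 := (nodeHom_mem_E1_iff hC hu hr).mpr (show toModel A (R : QPoint W) ∈ _ from hR)
    rw [hRe] at h1
    exact lt_of_not_ge fun h2 => (show X ∉ A from h1) ((A.valuation_le_one_iff X).mp h2)
  have hall : ∀ P ∈ L, P ≠ 0 → ∃ x y h', nodeHom hC (P : QPoint W) = .some x y h' ∧
      A.valuation x = A.valuation X := by
    intro P hP hP0
    have hspan : L = Submodule.span (ZMod p) {R} := by
      rcases submodule_card_cases (natCard_eq_sq hΔ) (Submodule.span (ZMod p) {R}) with h1 | h1 | h1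
      · exact absurd (Submodule.span_singleton_eq_bot.mp h1) hR0
      · exact (eq_of_le_line (natCard_eq_sq hΔ) h1
          ((Submodule.span_singleton_le_iff_mem R L).mpr hR)).resolve_right htop
      · exact absurd (top_unique (h1 ▸ (Submodule.span_singleton_le_iff_mem R L).mpr hR)) htop
    obtain ⟨a, rfl⟩ := Submodule.mem_span_singleton.mp ((SetLike.ext_iff.mp hspan _).mp hP)
    have ha : a ≠ 0 := fun h1 => hP0 (by rw [h1, zero_smul])
    obtain ⟨σ, hσ, hσa⟩ := exists_inertia_cyc_eq hA (Units.mk0 a ha)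
    obtain ⟨h', he⟩ := nodeHom_smul hC (hfix σ hσ) hRe
    refine ⟨σ X, σ Y, h', ?_, Mazur.Tame.valuation_map
      (GalCommon.inertiaSubgroupIn_le_decomposition hσ) X⟩
    rw [← he, show a = MazurChain.cyc p σ from hσa.symm,
      ← smul_eq_cyc hΔ hA hp2 hss htop hσ hR]
    rfl
  let S : Finset L := Finset.univ.filter (· ≠ 0)
  let xf : L → Qb := fun P => match nodeHom hC ((P : QTorsion W p) : QPoint W) with
    | .zero => 0
    | .some x _ _ => x
  have hS : S.card = p - 1 := by
    simp only [S, Finset.filter_ne']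
    rw [Finset.card_erase_of_mem (Finset.mem_univ _), Finset.card_univ, ← Nat.card_eq_fintype_card]
    exact congrArg (· - 1) (natCard_torsionE1 hΔ hA hp2 hss htop)
  set T := S.image xf
  have hT : p - 1 ≤ 2 * T.card := by
    rw [← hS]
    refine Finset.card_le_mul_card_image S 2 fun b hb => ?_
    obtain ⟨P, hP, rfl⟩ := Finset.mem_image.mp hb
    refine (Finset.card_le_card (t := {P, -P}) fun Q hQ => ?_).trans Finset.card_le_two
    simp only [Finset.mem_filter, S, Finset.mem_univ, true_and] at hQ hP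
    obtain ⟨x, y, hn, hPe, -⟩ := hall P P.2 (fun h1 => hP (Subtype.ext h1))
    obtain ⟨x', y', hn', hQe, -⟩ := hall Q Q.2 (fun h1 => hQ.1 (Subtype.ext h1))
    obtain ⟨hQ0, hxx⟩ := hQ
    simp only [xf, hPe, hQe] at hxx
    rw [Finset.mem_insert, Finset.mem_singleton]
    rcases Affine.Y_eq_of_X_eq hn'.1 hn.1 hxx with h1 | h1
    · refine Or.inl (Subtype.ext (Subtype.ext (nodeHom_injective hC ?_)))
      rw [hPe, hQe]
      simp only [Affine.Point.some.injEq]
      exact ⟨hxx, h1⟩
    · refine Or.inr (Subtype.ext (Subtype.ext (nodeHom_injective hC ?_)))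
      rw [NegMemClass.coe_neg, NegMemClass.coe_neg, map_neg, hPe, hQe, Affine.Point.neg_some]
      simp only [Affine.Point.some.injEq]
      exact ⟨hxx, h1⟩
  have hroot : ∀ r ∈ T, ((EllLocal.genCurve A (EllLocal.nodeCurve c)).preΨ' p).eval r = 0 ∧
      A.valuation r = A.valuation X := by
    intro r hrT
    obtain ⟨P, hP, rfl⟩ := Finset.mem_image.mp hrT
    simp only [Finset.mem_filter, S, Finset.mem_univ, true_and] at hP
    obtain ⟨x, y, hn, hPe, hvx⟩ := hall P P.2 (fun h1 => hP (Subtype.ext h1))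
    simp only [xf, hPe]
    refine ⟨(EllTorsion.nsmul_some_eq_zero_iff_preΨ' (hp.odd_of_ne_two hp2) hn).mp ?_, hvx⟩
    rw [← hPe]
    exact nsmul_nodeHom hC _
  have hle := valuation_natCast_mul_prod_le (A := A) (EllLocal.nodeCurve c) (hp.odd_of_ne_two hp2) T
    fun r hrT => (hroot r hrT).1
  rw [Finset.prod_congr rfl (fun r hrT => (hroot r hrT).2), Finset.prod_const] at hle
  obtain ⟨m, hm⟩ := (hp.odd_of_ne_two hp2).exists_bit1
  have hmT : m ≤ T.card := by omega
  have hle' : A.valuation (p : Qb) * A.valuation X ^ m ≤ 1 :=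
    (mul_le_mul_right (pow_le_pow_right₀ hX.le hmT) _).trans hle
  calc A.valuation (p : Qb)
      = A.valuation (p : Qb) * (A.valuation t ^ 2 * A.valuation X) ^ m := by
        rw [ht, one_pow, mul_one]
    _ = (A.valuation (p : Qb) * A.valuation X ^ m) * A.valuation t ^ (p - 1) := by
        rw [mul_pow, ← pow_mul, show p - 1 = 2 * m by omega]
        ac_rfl
    _ ≤ A.valuation t ^ (p - 1) := mul_le_of_le_one_left' hle'

end FLTAgent.MazurP
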