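import Fermat.Agent.MazurP.Defs
import Fermat.Agent.MazurP.RamLine

/-!
# The shape of `E[p]` at a multiplicative place over `p`

For a node curve with `p ∣ v(Δ)`, inertia acts on `E[p]` through a group of order at most
`p (p - 1)` (`card_range_le`), and in the wild case some element has break `j < p` at a
uniformiser of the fixed field (`exists_wild_data`); this gives `nonempty_ramData`, and
`nonempty_ramData_frey` for every integral model of a Frey curve with `p ∣ abc`. Also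
`exists_inertia_not_cyclotomic_scalar`: inertia at `p` does not act on `E[p]` by the cyclotomic
scalar.
-/

set_option autoImplicit false
set_option linter.style.haveILetI false

noncomputable section

open WeierstrassCurve WeierstrassCurve.Affine.Point
open scoped WeierstrassCurve.Affine Pointwise

namespace FLTAgent.MazurP

open FLTAgent.EllP

local notation "Qb" => AlgebraicClosure ℚ
local notation "Γℚ" => (AlgebraicClosure ℚ ≃ₐ[ℚ] AlgebraicClosure ℚ)

/-- The valuation of a nonzero integer at a place over `p`. -/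
theorem valuation_intCast_eq_pow {p : ℕ} (hp : p.Prime) {A : ValuationSubring Qb}
    (hA : A.LiesOverPrime p) {n : ℤ} (hn : n ≠ 0) :
    A.valuation (n : Qb) = A.valuation (p : Qb) ^ padicValInt p n := by
  haveI : Fact p.Prime := ⟨hp⟩
  set m := padicValInt p n
  obtain ⟨r, hr⟩ := padicValInt_dvd (p := p) n
  have hr' : ¬ (p : ℤ) ∣ r := fun h => by
    obtain ⟨s, hs⟩ := h
    have : (p : ℤ) ^ (m + 1) ∣ n := ⟨s, by rw [pow_succ, mul_assoc, ← hs, ← hr]⟩
    rcases (padicValInt_dvd_iff (m + 1) n).mp this with h | h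
    · exact hn h
    · exact absurd h (by show ¬ (m + 1 ≤ m); omega)
  have hvr : A.valuation (r : Qb) = 1 := by
    refine le_antisymm ((A.valuation_le_one_iff _).2 (intCast_mem A _)) (not_lt.1 fun h' => hr' ?_)
    exact (intCast_mem_nonunits hp hA).1 h'
  rw [hr]
  push_cast
  rw [map_mul, map_pow, hvr, mul_one]

section Point

variable {W : WeierstrassCurve ℤ} {A : ValuationSubring (AlgebraicClosure ℚ)} {p : ℕ}
  [Fact p.Prime] (hΔ : W.Δ ≠ 0) (hA : A.LiesOverPrime p) (hp2 : p ≠ 2)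
  (hv : p ∣ padicValInt p W.Δ)
  {C : VariableChange (AlgebraicClosure ℚ)} {c : A}
  (hC : C • EllLocal.genCurve A (modelAt A W) = EllLocal.genCurve A (EllLocal.nodeCurve c))
  (hc : IsLocalRing.residue A c = 0) (hc0 : (c : Qb) ≠ 0)
  (hvc : A.valuation (c : Qb) = A.valuation (W.Δ : Qb))
  (hu : A.valuation (C.u : Qb) = 1) (hr : C.r ∈ A)

include hΔ hA hp2 hv hc hc0 hvc hu hr in
/-- Node coordinates `(a, b)` of a point of `E[p]` off the line: translation by the line moves `a`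
at the first order, and `|a|` is an integral power of `|p|`. -/
theorem exists_coords_of_notMem {Q : QTorsion W p}
    (hQ : Q ∉ (torsionE1 A : Submodule (ZMod p) (QTorsion W p))) :
    ∃ a b h, nodeHom hC (Q : QPoint W) = .some a b h ∧ A.valuation a ≤ 1 ∧ a ≠ 0 ∧
      A.valuation b ≤ A.valuation a ∧ A.valuation (2 * b + a) = A.valuation a ∧
      A.valuation (c : Qb) ≤ A.valuation a ∧
      ∃ n : ℤ, A.valuation a = A.valuation (p : Qb) ^ n := by
  classical
  have hp : p.Prime := Fact.out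
  have hE1 : nodeHom hC (Q : QPoint W) ∉ EllLocal.E1 A (EllLocal.nodeCurve c) :=
    fun h => hQ ((nodeHom_mem_E1_iff hC hu hr).mp h)
  have hcv : A.valuation (c : Qb) < 1 := EllLocal.valuation_c_lt_one hc
  by_cases hE0 : nodeHom hC (Q : QPoint W) ∈ EllLocal.E0 A (EllLocal.nodeCurve c)
  · rcases hE0 with h | ⟨⟨a, ha⟩, ⟨b, hb⟩, ⟨h, he⟩, hns⟩
    · exact absurd h hE1
    simp only at he h
    have ha1 : A.valuation a = 1 := by
      refine le_antisymm ((A.valuation_le_one_iff a).mpr ha) (not_lt.mp fun h1 => ?_)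
      exact (EllLocal.notMem_E0_some hc h).mpr h1 (Or.inr ⟨⟨a, ha⟩, ⟨b, hb⟩, ⟨h, rfl⟩, hns⟩)
    have hb1 : A.valuation b ≤ 1 := (A.valuation_le_one_iff b).mpr hb
    refine ⟨a, b, h, he, ha1.le, fun h0 => by simp [h0] at ha1, ha1 ▸ hb1, ?_,
      ha1 ▸ hcv.le, 0, by rw [zpow_zero, ha1]⟩
    rw [ha1]
    refine le_antisymm (A.valuation.map_add_le ?_ ha1.le) (not_lt.mp fun hlt => hQ ?_)
    · rw [two_mul]; exact A.valuation.map_add_le hb1 hb1
    have hsum : (EllLocal.redCurve A (EllLocal.nodeCurve c)).negY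
        (IsLocalRing.residue A ⟨a, ha⟩) (IsLocalRing.residue A ⟨b, hb⟩) =
          IsLocalRing.residue A ⟨b, hb⟩ := by
      have h2 := EllLocal.residue_eq_zero_of_valuation_lt A
        (z := 2 * ⟨b, hb⟩ + ⟨a, ha⟩)
        (by simpa [show ((2 : A) : Qb) = 2 from map_ofNat A.subtype 2] using hlt)
      simp only [map_add, map_mul, map_ofNat] at h2
      simp [Affine.negY, EllLocal.nodeCurve]
      linear_combination -h2
    have h2Q := EllLocal.add_inE1 (W₀ := EllLocal.nodeCurve c) (a₁ := ⟨a, ha⟩) (b₁ := ⟨b, hb⟩)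
      ⟨h, he⟩ ⟨h, he⟩ hns rfl hsum.symm
    rw [← map_add] at h2Q
    have hmem : Q + Q ∈ (torsionE1 A : Submodule (ZMod p) (QTorsion W p)) :=
      (nodeHom_mem_E1_iff hC hu hr).mp h2Q
    have h2 : (2 : ZMod p) ≠ 0 := by
      intro h0
      have h1 : ((2 : ℕ) : ZMod p) = 0 := by exact_mod_cast h0
      rw [ZMod.natCast_eq_zero_iff 2 p] at h1
      exact hp2 ((Nat.prime_dvd_prime_iff_eq hp Nat.prime_two).mp h1)
    have h3 := Submodule.smul_mem (torsionE1 A : Submodule (ZMod p) (QTorsion W p))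
      (2 : ZMod p)⁻¹ hmem
    rwa [← two_smul (ZMod p) Q, smul_smul, inv_mul_cancel₀ h2, one_smul] at h3
  · obtain ⟨a, b, h, he, ha1, hkind, k, hk⟩ :=
      EllLocal.exists_zpow_of_torsion hc hc0 hE0 (hp.odd_of_ne_two hp2) (nsmul_nodeHom hC Q)
    have hsq : A.valuation (c : Qb) < A.valuation a ^ 2 := by
      rcases hkind with h | h <;> exact h.1
    have ha0 : a ≠ 0 := by
      intro h0
      simp [h0] at hsq
    obtain ⟨hb, h2b⟩ : A.valuation b ≤ A.valuation a ∧
        A.valuation (2 * b + a) = A.valuation a := by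
      rw [show 2 * b + a = b + (b + a) by ring]
      rcases hkind with ⟨-, h1, h2⟩ | ⟨-, h1, h2⟩
      · exact ⟨h1.le, by rw [Valuation.map_add_eq_of_lt_left _ (h1.symm ▸ h2), h1]⟩
      · exact ⟨h2.le, by rw [Valuation.map_add_eq_of_lt_right _ (h1.symm ▸ h2), h1]⟩
    have hca : A.valuation (c : Qb) ≤ A.valuation a := by
      refine hsq.le.trans ?_
      rw [sq]
      exact mul_le_of_le_one_right' ha1.le
    obtain ⟨m, hm⟩ := hv
    refine ⟨a, b, h, he, ha1.le, ha0, hb, h2b, hca, m * k, ?_⟩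
    refine (pow_left_inj₀ zero_le zero_le hp.ne_zero).mp ?_
    rw [hk, hvc, valuation_intCast_eq_pow hp hA hΔ, hm]
    simp only [← zpow_natCast, ← zpow_mul]
    congr 1
    push_cast
    ring

end Point

section Bound

variable {W : WeierstrassCurve ℤ} {A : ValuationSubring (AlgebraicClosure ℚ)} {p : ℕ}
  [Fact p.Prime] (hΔ : W.Δ ≠ 0) (hA : A.LiesOverPrime p) (hp2 : p ≠ 2)
  (hss : (p : ℤ) ∣ W.Δ → ¬(p : ℤ) ∣ W.c₄)
  (htop : (torsionE1 A : Submodule (ZMod p) (QTorsion W p)) ≠ ⊤)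

include hΔ hA hp2 hss htop in
/-- The image of inertia has order at most `(p - 1) p`. -/
theorem card_range_le : Nat.card (torsPerm W A p).range ≤ (p - 1) * p := by
  classical
  have hp : p.Prime := Fact.out
  have hV := MazurChain.finrank_qTorsion (p := p) hΔ
  set L : Submodule (ZMod p) (QTorsion W p) := torsionE1 A
  haveI : Finite (QTorsion W p) := Nat.finite_of_card_ne_zero
    (natCard_eq_sq (p := p) hΔ ▸ pow_ne_zero _ hp.ne_zero)
  obtain ⟨R, hRL, hR0⟩ := L.exists_mem_ne_zero_of_ne_bot (torsionE1_ne_bot hΔ hA hp2 hss)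
  obtain ⟨Q, hQ⟩ : ∃ Q, Q ∉ L := by
    by_contra h
    push Not at h
    exact htop (Submodule.eq_top_iff'.mpr h)
  have hQR : Q ∉ Submodule.span (ZMod p) {R} :=
    fun h => hQ ((Submodule.span_singleton_le_iff_mem R L).mpr hRL h)
  let ψ : (torsPerm W A p).range → {x : L // x ≠ 0} × L := fun g =>
    (⟨⟨g.1 R, by
        obtain ⟨σ, hσ⟩ := g.2
        rw [← hσ]
        show (σ : Γℚ) • R ∈ L
        simpa using add_mem (smul_sub_mem_line hΔ hA hp2 hss htop σ.2 R) hRL⟩,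
      fun h => hR0 (by
        obtain ⟨σ, hσ⟩ := g.2
        have h1 : g.1 R = 0 := congrArg Subtype.val h
        rw [← hσ] at h1
        exact (smul_eq_zero_iff_eq (σ : Γℚ)).mp h1)⟩,
     ⟨g.1 Q - Q, by
        obtain ⟨σ, hσ⟩ := g.2
        rw [← hσ]
        exact smul_sub_mem_line hΔ hA hp2 hss htop σ.2 Q⟩)
  have hψ : Function.Injective ψ := by
    rintro ⟨g, σ, rfl⟩ ⟨g', τ, rfl⟩ h
    simp only [ψ, Prod.mk.injEq, Subtype.mk.injEq, sub_left_inj] at h
    refine Subtype.ext (Equiv.ext fun P => ?_)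
    obtain ⟨a, b, rfl⟩ := MazurChain.exists_coeffs hV hR0 hQR P
    show (σ : Γℚ) • (a • R + b • Q) = (τ : Γℚ) • (a • R + b • Q)
    rw [smul_add, smul_add, smul_comm _ a R, smul_comm _ b Q, smul_comm _ a R, smul_comm _ b Q,
      show (σ : Γℚ) • R = (τ : Γℚ) • R from h.1, show (σ : Γℚ) • Q = (τ : Γℚ) • Q from h.2]
  refine (Nat.card_le_card_of_injective ψ hψ).trans (le_of_eq ?_)
  haveI := Fintype.ofFinite L
  have hL : Fintype.card L = p := by
    rw [← Nat.card_eq_fintype_card]; exact natCard_torsionE1 hΔ hA hp2 hss htop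
  rw [Nat.card_prod, Nat.card_eq_fintype_card, Nat.card_eq_fintype_card,
    Fintype.card_subtype_compl, Fintype.card_subtype_eq, hL]

end Bound

/-- The data in wild position: a uniformiser of the fixed field and the break. -/
theorem exists_wild_data {W : WeierstrassCurve ℤ} {A : ValuationSubring (AlgebraicClosure ℚ)}
    {p : ℕ} [Fact p.Prime] (hΔ : W.Δ ≠ 0) (hA : A.LiesOverPrime p) (hp2 : p ≠ 2)
    (hqc : ¬(p : ℤ) ∣ W.c₄) (hv : p ∣ padicValInt p W.Δ)
    (htop : (torsionE1 A : Submodule (ZMod p) (QTorsion W p)) ≠ ⊤)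
    (hwild : p ∣ Nat.card (torsPerm W A p).range)
    {C : VariableChange (AlgebraicClosure ℚ)} {c : A}
    (hC : C • EllLocal.genCurve A (modelAt A W) = EllLocal.genCurve A (EllLocal.nodeCurve c))
    (hc : IsLocalRing.residue A c = 0) (hc0 : (c : Qb) ≠ 0)
    (hvc : A.valuation (c : Qb) = A.valuation (W.Δ : Qb))
    (hu : A.valuation (C.u : Qb) = 1) (hr : C.r ∈ A)
    (hfix : ∀ σ ∈ A.inertiaSubgroupIn ℚ, C.map ((σ : Γℚ) : Qb →+* Qb) = C) :
    ∃ σ ∈ A.inertiaSubgroupIn ℚ, ∃ π : Qb, ∃ j : ℕ,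
      (∀ τ ∈ A.inertiaSubgroupIn ℚ, (∀ P : QTorsion W p, τ • P = P) → τ π = π) ∧
      A.valuation π ^ Nat.card (torsPerm W A p).range = A.valuation (p : Qb) ∧ 0 < j ∧ j < p ∧
      A.valuation (σ π - π) ^ Nat.card (torsPerm W A p).range = A.valuation (p : Qb) ^ (j + 1) := by
  classical
  have hp : p.Prime := Fact.out
  have hss : (p : ℤ) ∣ W.Δ → ¬(p : ℤ) ∣ W.c₄ := fun _ => hqc
  set f := torsPerm W A p with hf
  haveI := finite_range_torsPerm (p := p) (A := A) hΔ
  set e := Nat.card f.range with he_def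
  have he : e = p * (p - 1) := by
    have h1 : p * (p - 1) ∣ e := Nat.Coprime.mul_dvd_of_dvd_of_dvd
      ((hp.coprime_iff_not_dvd).mpr fun h => by
        have h3 := Nat.le_of_dvd (by have := hp.two_le; omega) h
        have := hp.two_le
        omega)
      hwild (pred_dvd_card_range hΔ hA)
    refine le_antisymm ?_ (Nat.le_of_dvd Nat.card_pos h1)
    rw [mul_comm]
    exact card_range_le hΔ hA hp2 hss htop
  have he0 : e ≠ 0 := Nat.card_pos.ne'
  haveI := Fintype.ofFinite f.range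
  obtain ⟨g, hg⟩ := exists_prime_orderOf_dvd_card' p hwild
  obtain ⟨σ, hσg⟩ := g.2
  have hfp : f (σ ^ p) = 1 := by
    rw [map_pow, hσg, ← SubgroupClass.coe_pow,
      orderOf_dvd_iff_pow_eq_one.mp (dvd_of_eq hg)]; rfl
  have hσp : ∀ P : QTorsion W p, ((σ : Γℚ) ^ p) • P = P := torsPerm_eq_one_iff.mp hfp
  have hcyc : MazurChain.cyc p (σ : Γℚ) = 1 := cyc_eq_one_of_pow hΔ hσp
  set L : Submodule (ZMod p) (QTorsion W p) := torsionE1 A
  have hline : ∀ R ∈ L, (σ : Γℚ) • R = R := fun R hR => by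
    rw [smul_eq_cyc hΔ hA hp2 hss htop σ.2 hR, hcyc, one_smul]
  obtain ⟨Q, hQ⟩ : ∃ Q, Q ∉ L := by
    by_contra h
    push Not at h
    exact htop (Submodule.eq_top_iff'.mpr h)
  set R := (σ : Γℚ) • Q - Q with hRdef
  have hRL : R ∈ L := smul_sub_mem_line hΔ hA hp2 hss htop σ.2 Q
  have hR0 : R ≠ 0 := by
    intro h0
    obtain ⟨R₁, hR₁L, hR₁⟩ := L.exists_mem_ne_zero_of_ne_bot (torsionE1_ne_bot hΔ hA hp2 hss)
    have hQR : Q ∉ Submodule.span (ZMod p) {R₁} :=
      fun h => hQ ((Submodule.span_singleton_le_iff_mem R₁ L).mpr hR₁L h)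
    have h1 : f σ = 1 := torsPerm_eq_one_iff.mpr fun P => by
      obtain ⟨a, b, rfl⟩ :=
        MazurChain.exists_coeffs (MazurChain.finrank_qTorsion (p := p) hΔ) hR₁ hQR P
      rw [smul_add, smul_comm (σ : Γℚ) a R₁, smul_comm (σ : Γℚ) b Q, hline R₁ hR₁L,
        sub_eq_zero.mp h0]
    have h2 : g = 1 := Subtype.ext (hσg ▸ h1)
    rw [h2, orderOf_one] at hg
    exact hp.ne_one hg.symm
  obtain ⟨a, b, hab, hQe, ha1, ha0, hb, h2b, hca, n, hn⟩ :=
    exists_coords_of_notMem hΔ hA hp2 hv hC hc hc0 hvc hu hr hQ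
  obtain ⟨X, Y, hXY, hRe⟩ : ∃ X Y h, nodeHom hC (R : QPoint W) = .some X Y h := by
    rcases hcase : nodeHom hC (R : QPoint W) with _ | ⟨X, Y, hXY⟩
    · exact absurd (Subtype.ext (nodeHom_injective hC (hcase.trans (_root_.map_zero _).symm))) hR0
    · exact ⟨X, Y, hXY, rfl⟩
  have hX : X ∉ A := by
    have h1 := (nodeHom_mem_E1_iff hC hu hr).mpr (show toModel A (R : QPoint W) ∈ _ from hRL)
    rw [hRe] at h1
    exact h1
  obtain ⟨h', hσQ⟩ := nodeHom_smul hC (hfix σ σ.2) hQe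
  have hsum : (Affine.Point.some a b hab : (EllLocal.nodeGen c).Point) + .some X Y hXY =
      .some ((σ : Γℚ) a) ((σ : Γℚ) b) h' := by
    rw [← hσQ, ← hQe, ← hRe, ← map_add, hRdef]
    congr 1
    exact add_sub_cancel (Q : QPoint W) _
  obtain ⟨t, ht1, htX, htdiff⟩ := exists_valuation_add_sub hab hXY ha1 hb h2b ha0 hca hX hsum
  have ht0 : A.valuation t ≠ 0 := fun h => by simp [h] at htX
  have hp0' : (p : Qb) ≠ 0 := Nat.cast_ne_zero.mpr hp.ne_zero
  set z := a / (p : Qb) ^ n with hz_def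
  have hvpn : A.valuation ((p : Qb) ^ n) = A.valuation a := by rw [map_zpow₀, hn]
  have hva0 : A.valuation a ≠ 0 := (Valuation.ne_zero_iff _).mpr ha0
  have hz : A.valuation z = 1 := by rw [hz_def, map_div₀, hvpn, div_self hva0]
  have hσz : A.valuation ((σ : Γℚ) z - z) = A.valuation t := by
    rw [hz_def, map_div₀, map_zpow₀, map_natCast, ← sub_div, map_div₀ A.valuation, hvpn, htdiff,
      mul_div_cancel_left₀ _ hva0]
  haveI : NeZero (p : Qb) := ⟨hp0'⟩
  obtain ⟨ζ, hζ⟩ := HasEnoughRootsOfUnity.exists_primitiveRoot Qb p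
  set lam := ζ - 1 with hlam
  have hlam0 : lam ≠ 0 := sub_ne_zero.mpr (hζ.ne_one hp.one_lt)
  have hvl : A.valuation lam ^ (p - 1) = A.valuation (p : Qb) :=
    Mazur.Eis.valuation_sub_one_pow hp A hζ
  have hp1 : p - 1 ≠ 0 := by have := hp.two_le; omega
  have hlt' : A.valuation lam ≤ A.valuation t := by
    refine (pow_le_pow_iff_left₀ zero_le zero_le hp1).mp ?_
    rw [hvl]
    exact valuation_pred_le hΔ hA hp2 hss htop hC hu hr hfix hRL hRe htX
  let H : Subgroup Γℚ :=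
    A.inertiaSubgroupIn ℚ ⊓ (MulAction.toPermHom Γℚ (QTorsion W p)).ker
  set K := IntermediateField.fixedField H
  have hKmem : ∀ x : Qb, x ∈ K ↔
      ∀ τ ∈ A.inertiaSubgroupIn ℚ, (∀ P : QTorsion W p, τ • P = P) → τ x = x := by
    intro x
    rw [IntermediateField.mem_fixedField_iff]
    exact ⟨fun h τ h1 h2 => h τ ⟨h1, Equiv.ext h2⟩,
      fun h τ hτ => h τ hτ.1 fun P => Equiv.ext_iff.mp hτ.2 P⟩
  have hK : ∀ x : Qb, (∀ τ ∈ A.inertiaSubgroupIn ℚ, τ x = x) → x ∈ K := fun x hx =>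
    (hKmem x).mpr fun τ hτ _ => hx τ hτ
  have hlamK : lam ∈ K := (hKmem _).mpr fun τ _ hτ => by
    rw [hlam, map_sub, map_one, apply_root_eq hΔ hτ hζ.pow_eq_one]
  have hσlam : (σ : Γℚ) lam = lam := by
    rw [hlam, map_sub, map_one, MazurChain.fix_of_cyc_eq_one p _ hcyc hζ.pow_eq_one]
  have hzK : z ∈ K := (hKmem _).mpr fun τ hτI hτ => by
    obtain ⟨h'', hτQ⟩ := nodeHom_smul hC (hfix τ hτI) hQe
    rw [show τ • (Q : QPoint W) = (Q : QPoint W) from congrArg Subtype.val (hτ Q), hQe] at hτQ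
    simp only [Affine.Point.some.injEq] at hτQ
    rw [hz_def, map_div₀, map_zpow₀, map_natCast, ← hτQ.1]
  have hσK : ∀ x ∈ K, (σ : Γℚ) x ∈ K := fun x hx => (hKmem _).mpr fun τ hτI hτ => by
    have h1 := (hKmem x).mp hx ((σ : Γℚ)⁻¹ * τ * σ) (mul_mem (mul_mem (inv_mem σ.2) hτI) σ.2)
      fun P => by rw [mul_smul, mul_smul, hτ, inv_smul_smul]
    rw [AlgEquiv.mul_apply, AlgEquiv.mul_apply] at h1
    conv_rhs => rw [← h1]
    rw [← AlgEquiv.mul_apply (σ : Γℚ) (σ : Γℚ)⁻¹, mul_inv_cancel, AlgEquiv.one_apply]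
  have hval : ∀ x ∈ K, x ≠ 0 → ∃ k : ℤ, A.valuation x ^ e = A.valuation (p : Qb) ^ k :=
    fun x hx hx0 => valuation_pow_card_range hp hA f hx0 fun τ hτ =>
      (hKmem x).mp hx τ τ.2 (torsPerm_eq_one_iff.mp hτ)
  set v := A.valuation
  have hvp1 : v (p : Qb) < 1 := hA
  have hvp0 : v (p : Qb) ≠ 0 := (Valuation.ne_zero_iff _).mpr hp0'
  have hlam1 : v lam < 1 := by
    by_contra h
    exact hvp1.not_ge (hvl ▸ one_le_pow₀ (not_lt.mp h))
  obtain ⟨w, hwK, k, hwk, hpk⟩ : ∃ w ∈ K, ∃ k : ℤ, v w ^ e = v (p : Qb) ^ k ∧ ¬ (p : ℤ) ∣ k := by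
    by_contra hcon
    push Not at hcon
    have hval' : ∀ x ∈ K, x ≠ 0 → ∃ m : ℤ, v x = v lam ^ m := by
      intro x hx hx0
      obtain ⟨k, hk⟩ := hval x hx hx0
      obtain ⟨m, rfl⟩ := hcon x hx k hk
      refine ⟨m, (pow_left_inj₀ zero_le zero_le he0).mp ?_⟩
      rw [hk, ← hvl, he]
      simp only [← zpow_natCast, ← zpow_mul]
      congr 1
      push_cast
      ring
    have h1 := eq_self_of_fix_uniformizer hp hA K hK hlamK hlam1 hlam0 hval' σ.2 hσK hσlam hzK hz.le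
    rw [h1, sub_self, _root_.map_zero] at hσz
    exact ht0 hσz.symm
  obtain ⟨u, w', huw⟩ := (Prime.coprime_iff_not_dvd (Nat.prime_iff_prime_int.mp hp)).mpr hpk
  have hvw0 : w ≠ 0 := by
    rintro rfl
    rw [_root_.map_zero, zero_pow he0] at hwk
    exact zpow_ne_zero _ hvp0 hwk.symm
  set π := w ^ w' * lam ^ u with hπ_def
  have hπK : π ∈ K := K.mul_mem (zpow_mem hwK _) (zpow_mem hlamK _)
  have hπ0 : π ≠ 0 := mul_ne_zero (zpow_ne_zero _ hvw0) (zpow_ne_zero _ hlam0)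
  have hlame : v lam ^ e = v (p : Qb) ^ (p : ℤ) := by
    rw [he, mul_comm, pow_mul, hvl, zpow_natCast]
  have hcomm : ∀ (x : A.ValueGroup) (m : ℤ), (x ^ m) ^ e = (x ^ e) ^ m := fun x m => by
    rw [← zpow_natCast x e, ← zpow_natCast (x ^ m) e, ← zpow_mul, ← zpow_mul, mul_comm]
  have hπe : v π ^ e = v (p : Qb) := by
    rw [hπ_def, map_mul, map_zpow₀, map_zpow₀, mul_pow, hcomm, hcomm, hwk, hlame, ← zpow_mul,
      ← zpow_mul, ← zpow_add₀ hvp0,
      show k * w' + (p : ℤ) * u = 1 by linear_combination huw, zpow_one]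
  have hπ1 : v π < 1 := by
    by_contra h
    exact hvp1.not_ge (hπe ▸ one_le_pow₀ (not_lt.mp h))
  have hvπ : 0 < v π := zero_lt_iff.mpr ((Valuation.ne_zero_iff _).mpr hπ0)
  have hval2 : ∀ x ∈ K, x ≠ 0 → ∃ m : ℤ, v x = v π ^ m := by
    intro x hx hx0
    obtain ⟨k', hk'⟩ := hval x hx hx0
    refine ⟨k', (pow_left_inj₀ zero_le zero_le he0).mp ?_⟩
    rw [hk', ← hπe]
    simp only [← zpow_natCast, ← zpow_mul]
    rw [mul_comm]
  have hlamπ : v lam = v π ^ p := by
    refine (pow_left_inj₀ zero_le zero_le he0).mp ?_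
    rw [hlame, ← pow_mul, mul_comm, pow_mul, hπe, zpow_natCast]
  have hbound : v π ^ p ≤ v ((σ : Γℚ) π - π) := by
    have h1 := valuation_sub_le_max hp hA K hK hπK hπ1 hπ0 hval2 σ.2 (p + 1) hzK hz.le
    rw [hσz] at h1
    refine (le_max_iff.mp ((hlamπ ▸ hlt').trans h1)).resolve_right (not_le.mpr ?_)
    exact pow_lt_pow_right_of_lt_one₀ hvπ hπ1 (Nat.lt_succ_self p)
  have hd0 : (σ : Γℚ) π - π ≠ 0 := fun h => by
    rw [h, _root_.map_zero] at hbound
    exact (pow_pos hvπ p).not_ge hbound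
  obtain ⟨m, hm⟩ := hval2 _ (K.sub_mem (hσK π hπK) hπK) hd0
  have hlow : v ((σ : Γℚ) π - π) < v π :=
    valuation_sub_lt_self hp hA σ.2 hπ0
      ((hKmem π).mp hπK _ (pow_mem σ.2 p) hσp)
  have hm1 : 1 < m := by
    refine (zpow_lt_zpow_iff_right_of_lt_one₀ hvπ hπ1).mp ?_
    rwa [zpow_one, ← hm]
  have hmp : m ≤ p := by
    refine (zpow_le_zpow_iff_right_of_lt_one₀ hvπ hπ1).mp ?_
    rw [zpow_natCast, ← hm]
    exact hbound
  refine ⟨σ, σ.2, π, m.toNat - 1, (hKmem π).mp hπK, hπe, by omega, by omega, ?_⟩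
  rw [hm, show m.toNat - 1 + 1 = m.toNat by omega, ← hπe, ← pow_mul, ← zpow_natCast, ← zpow_mul,
    ← zpow_natCast]
  congr 1
  rw [Nat.cast_mul, Int.toNat_of_nonneg (by omega)]
  ring

/-- The peu ramifié shape of `E[p]` at `p`.

Proof: a node curve with `p ∣ v(Δ)`. The line `L = E[p] ∩ E₁` has order `p`; inertia is
cyclotomic on it and trivial on `E[p]/L`, so its image has order at most `p (p - 1)` and the
fixed field contains `ζ_p`. The other torsion points have node coordinate `x` of valuation an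
integral power of `|p|`, and if `σ Q = Q + R` with `0 ≠ R ∈ L` then `|σ x / x - 1| ≥ |ζ_p - 1|`,
which forces `j < p`. -/
theorem nonempty_ramData (W : WeierstrassCurve ℤ) (hΔ0 : W.Δ ≠ 0) {p : ℕ} (hp : p.Prime)
    (hp2 : p ≠ 2) (hΔ : (p : ℤ) ∣ W.Δ) (hc₄ : ¬ (p : ℤ) ∣ W.c₄)
    (hv : p ∣ padicValInt p W.Δ) {A : ValuationSubring Qb} (hA : A.LiesOverPrime p) :
    Nonempty (RamData W p A) := by
  haveI : Fact p.Prime := ⟨hp⟩
  obtain ⟨C, c, hC, hc, hc0, hvc, hu, hr, -, -, hfix⟩ := node_data hp hA hΔ0 hΔ hc₄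
  have hfixC : ∀ σ ∈ A.inertiaSubgroupIn ℚ, C.map ((σ : Γℚ) : Qb →+* Qb) = C :=
    fun σ hσ => (hfix σ hσ).1
  have hcn : A.valuation (c : Qb) ≤ A.valuation (p : Qb) := by
    rw [hvc, valuation_intCast_eq_pow hp hA hΔ0]
    refine pow_le_of_le_one zero_le (le_of_lt hA) fun h0 => ?_
    rcases padicValInt.eq_zero_iff.mp h0 with h | h | h
    · exact hp.ne_one h
    · exact hΔ0 h
    · exact h hΔ
  have htop : (torsionE1 A : Submodule (ZMod p) (QTorsion W p)) ≠ ⊤ := by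
    intro htop
    haveI := isElliptic_nodeGen hC hΔ0
    have h3 : 3 ≤ p := by have := hp.two_le; omega
    obtain ⟨r, hr0, hr1⟩ := exists_root_valuation_le_one (hp.odd_of_ne_two hp2) h3 hcn
    obtain ⟨y, hy⟩ := EllTorsion.exists_nonsingular (W := EllLocal.nodeGen c) r
    obtain ⟨P, hP⟩ := exists_nodeHom_eq hC hΔ0 hp.ne_zero
      ((EllTorsion.nsmul_some_eq_zero_iff_preΨ' (hp.odd_of_ne_two hp2) hy).mpr hr0)
    have h1 := (nodeHom_mem_E1_iff hC hu hr).mpr
      (show toModel A (P : QPoint W) ∈ _ from (htop ▸ Submodule.mem_top : P ∈ torsionE1 A))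
    rw [hP] at h1
    exact (show r ∉ A from h1) ((A.valuation_le_one_iff r).mp hr1)
  haveI := finite_range_torsPerm (p := p) (A := A) hΔ0
  have hfixes : ∀ τ : Γℚ, (∀ P : QTorsion W p, τ • P = P) ↔ FixesTorsion W p τ := by
    intro τ
    constructor
    · intro h x hx
      exact congrArg Subtype.val
        (h ⟨x, by rw [Submodule.mem_torsionBy_iff, natCast_zsmul]; exact hx⟩)
    · intro h P
      exact Subtype.ext (h P.1 (by rw [← natCast_zsmul]; exact (Submodule.mem_torsionBy_iff _ _).mp P.2))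
  let H : Subgroup Γℚ := A.inertiaSubgroupIn ℚ ⊓ (MulAction.toPermHom Γℚ (QTorsion W p)).ker
  have hH : ∀ τ, τ ∈ H ↔ τ ∈ A.inertiaSubgroupIn ℚ ∧ ∀ P : QTorsion W p, τ • P = P :=
    fun τ => ⟨fun h => ⟨h.1, fun P => Equiv.ext_iff.mp h.2 P⟩, fun h => ⟨h.1, Equiv.ext h.2⟩⟩
  refine ⟨{
    H := H
    H_le := fun τ h => h.1
    fixes := fun τ h => (hfixes τ).mp ((hH τ).mp h).2
    e := Nat.card (torsPerm W A p).range
    e_pos := Nat.card_pos
    val := fun x hx0 hx => valuation_pow_card_range hp hA (torsPerm W A p) hx0 fun τ hτ =>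
      hx τ ((hH _).mpr ⟨τ.2, torsPerm_eq_one_iff.mp hτ⟩)
    wild := fun hwild => ?_ }⟩
  constructor
  · intro h
    have h1 := (Nat.le_of_dvd Nat.card_pos h).trans (card_range_le hΔ0 hA hp2 (fun _ => hc₄) htop)
    rw [sq] at h1
    exact absurd (Nat.le_of_mul_le_mul_right h1 hp.pos) (by have := hp.pos; omega)
  obtain ⟨σ, hσ, π, j, hπ, hπe, hj0, hjp, hd⟩ :=
    exists_wild_data hΔ0 hA hp2 hc₄ hv htop hwild hC hc hc0 hvc hu hr hfixC
  refine ⟨σ, hσ, π, j, fun τ hτ => ?_, fun τ hτ => hπ τ ((hH τ).mp hτ).1 ((hH τ).mp hτ).2,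
    hπe, hj0, hjp, hd⟩
  obtain ⟨h1, h2⟩ := (hH τ).mp hτ
  exact (hH _).mpr ⟨mul_mem (mul_mem (inv_mem hσ) h1) hσ,
    fun P => by rw [mul_smul, mul_smul, h2, inv_smul_smul]⟩

/-- An injective equivariant map of torsion transports the data. -/
theorem RamData.transport {W W' : WeierstrassCurve ℤ} {p : ℕ} {A : ValuationSubring Qb}
    (D : RamData W p A) (φ : CurvePoint W' →+ CurvePoint W) (hinj : Function.Injective φ)
    (hφ : ∀ (σ : Γℚ) (x : CurvePoint W'), φ (σ • x) = σ • φ x) : Nonempty (RamData W' p A) :=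
  ⟨{ H := D.H
     H_le := D.H_le
     fixes := fun τ hτ x hx => hinj (by
       rw [hφ]
       exact D.fixes τ hτ (φ x) (by rw [← map_nsmul, hx, _root_.map_zero]))
     e := D.e
     e_pos := D.e_pos
     val := D.val
     wild := D.wild }⟩

/-- The Frey curve, in any integral model (transport along the change of variables). -/
theorem nonempty_ramData_frey (P : FreyPackage) (hp : (P.p : ℤ) ∣ P.a * P.b * P.c)
    {W : WeierstrassCurve ℤ} (hW : W.IsIntegralModelOf P.freyCurve)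
    {A : ValuationSubring Qb} (hA : A.LiesOverPrime P.p) : Nonempty (RamData W P.p A) := by
  have hpp := P.pp
  have hp2 : P.p ≠ 2 := by have := P.hp5; omega
  have hΔ0 := frey_Δ_ne_zero P
  haveI : Fact P.p.Prime := ⟨hpp⟩
  have hpZ := Nat.prime_iff_prime_int.mp hpp
  have h256 : ¬ (P.p : ℤ) ∣ 256 := fun h =>
    hp2 ((Nat.prime_dvd_prime_iff_eq hpp Nat.prime_two).mp
      (hpp.dvd_of_dvd_pow (n := 8) (Int.natCast_dvd_natCast.mp (by simpa using h))))
  have hΔm := frey_Δ_mul P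
  rw [← mul_pow, ← mul_pow, ← pow_mul, mul_comm P.p 2, pow_mul] at hΔm
  have hΔ : (P.p : ℤ) ∣ P.freyCurveInt.Δ := by
    refine (hpZ.dvd_or_dvd ?_).resolve_left h256
    rw [hΔm, ← pow_mul]
    exact dvd_pow hp (mul_ne_zero two_ne_zero P.pp.ne_zero)
  have hv : P.p ∣ padicValInt P.p P.freyCurveInt.Δ := by
    have hm := congrArg (padicValInt P.p) hΔm
    rw [padicValInt.mul (by norm_num) hΔ0, padicValInt.eq_zero_of_not_dvd h256, zero_add] at hm
    rw [hm]
    simp only [padicValInt, Int.natAbs_pow, padicValNat.pow]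
    exact dvd_mul_right _ _
  obtain ⟨D⟩ := nonempty_ramData P.freyCurveInt hΔ0 hpp hp2 hΔ
    (frey_isSemistableModel P P.p hpp hΔ) hv hA
  obtain ⟨C, hC⟩ := hW
  have hC' : C⁻¹ • W.map (Int.castRingHom ℚ) = P.freyCurveInt.map (Int.castRingHom ℚ) := by
    rw [← hC, inv_smul_smul, frey_map_eq]
  set C' := C⁻¹.map (algebraMap ℚ Qb)
  have hC'' : C' • ((W.map (Int.castRingHom ℚ))⁄Qb).toAffine =
      ((P.freyCurveInt.map (Int.castRingHom ℚ))⁄Qb).toAffine := by
    rw [← hC']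
    exact map_variableChange _ _ _
  let φ : CurvePoint W →+ CurvePoint P.freyCurveInt :=
    (pointCongr hC'').toAddMonoidHom.comp (EllLocal.vcPoint _ C')
  refine D.transport φ ((pointCongr hC'').injective.comp (EllLocal.vcPoint_injective _))
    fun σ x => ?_
  rcases x with _ | ⟨x, y, h⟩
  · rw [← Affine.Point.zero_def, smul_zero (A := CurvePoint W) σ, _root_.map_zero,
      smul_zero (A := CurvePoint P.freyCurveInt) σ]
  obtain ⟨h', e⟩ := smul_some_qbar (W := W) σ h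
  have hσC : C'.map (σ : Qb →+* Qb) = C' := by
    ext <;> simp [C', VariableChange.map]
  show pointCongr hC'' (EllLocal.vcPoint _ C' (σ • (Affine.Point.some x y h : CurvePoint W))) = _
  erw [e, EllLocal.vcPoint_some, pointCongr_some]
  show _ = σ • pointCongr hC'' (EllLocal.vcPoint _ C' (Affine.Point.some x y h))
  erw [EllLocal.vcPoint_some, pointCongr_some]
  obtain ⟨h'', e'⟩ := smul_some_qbar (W := P.freyCurveInt) σ
    (hC'' ▸ EllLocal.nonsingular_vc C' h)
  erw [e']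
  simp only [Affine.Point.some.injEq]
  exact ⟨(EllLocal.map_vcX C' hσC x).symm, (EllLocal.map_vcY C' hσC x y).symm⟩

/-- Inertia at `p` does not act on `E[p]` by the cyclotomic scalar (its determinant is cyclotomic,
and `ζ_p` is ramified). -/
theorem exists_inertia_not_cyclotomic_scalar (W : WeierstrassCurve ℤ) (hΔ0 : W.Δ ≠ 0) {p : ℕ}
    (hp : p.Prime) (hp2 : p ≠ 2) {A : ValuationSubring Qb} (hA : A.LiesOverPrime p) :
    ∃ τ ∈ A.inertiaSubgroupIn ℚ, ∀ (ζ : Qb) (a : ℕ), IsPrimitiveRoot ζ p → τ ζ = ζ ^ a →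
      ∃ x : CurvePoint W, p • x = 0 ∧ τ • x ≠ a • x := by
  haveI : Fact p.Prime := ⟨hp⟩
  obtain ⟨τ, hτ, hne⟩ := MazurChain.exists_inertia_cyc_ne_one p hp2 hA
  refine ⟨τ, hτ, fun ζ a hζ hτζ => ?_⟩
  by_contra hcon
  push Not at hcon
  have hρ : galoisRepModuleEnd (K := Qb) ℚ (W.map (Int.castRingHom ℚ)) p τ =
      (a : ZMod p) • LinearMap.id := by
    refine LinearMap.ext fun P => ?_
    rw [galoisRepModuleEnd_apply, LinearMap.smul_apply, LinearMap.id_apply, Nat.cast_smul_eq_nsmul]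
    exact Subtype.ext (hcon P.1 (by
      rw [← natCast_zsmul]; exact (Submodule.mem_torsionBy_iff _ _).mp P.2))
  have hdet := MazurChain.det_smul (p := p) hΔ0 τ
  erw [hρ, LinearMap.det_smul, MazurChain.finrank_qTorsion hΔ0, LinearMap.det_id, mul_one] at hdet
  have hcyc : MazurChain.cyc p τ = (a : ZMod p) := by
    haveI : NeZero p := ⟨hp.ne_zero⟩
    have h1 : τ ζ = ζ ^ (MazurChain.cyc p τ).val := by
      rw [MazurChain.cyc_eq]
      have := modularCyclotomicCharacter.spec Qb (EllTorsion.card_rootsOfUnity_Qbar p)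
        (τ : Qb ≃+* Qb) (t := (hζ.isUnit hp.ne_zero).unit)
        (by rw [mem_rootsOfUnity, Units.ext_iff, Units.val_pow_eq_pow_val]
            simpa using hζ.pow_eq_one)
      simpa using this
    rw [hτζ] at h1
    have h2 := ((hζ.isOfFinOrder hp.ne_zero).pow_eq_pow_iff_modEq).mp h1
    rw [← hζ.eq_orderOf] at h2
    rw [(ZMod.natCast_eq_natCast_iff _ _ _).mpr h2, ZMod.natCast_zmod_val]
  have ha0 : (a : ZMod p) ≠ 0 := by
    rw [← hcyc, MazurChain.cyc_eq]
    exact Units.ne_zero _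
  refine hne (hcyc.trans (mul_left_cancel₀ ha0 ?_))
  rw [mul_one, ← sq, hdet, hcyc]

end FLTAgent.MazurP
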