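import Fermat.Agent.Mazur.CuspNontrivial
import Fermat.Agent.Reduction.GaussGenus
import Fermat.Agent.ModularCosets.CosetIndex
import Fermat.Agent.ModularPlaces.Genus

/-!
# Counting the crossings of `X₀(Mp)`

From the genus formula at levels `M` and `Mp` (`p ∤ M`), a number `n` with `g + 1 = 2 g' + n`
satisfies `(p - 1) ψ(M) ≤ 12 n` (`crossings_ge`), with equality when `4 ∣ M`, as there are then
no elliptic points (`crossings_eq`); in particular it is positive (`crossings_pos`).
-/

set_option autoImplicit false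
set_option linter.style.haveILetI false
set_option linter.unusedSectionVars false

noncomputable section

open ModularCurve

namespace FLTAgent.MazurP

variable {M p : ℕ} [NeZero M] [NeZero p]

theorem cuspCount_mul_prime (hp : p.Prime) (hpM : ¬ p ∣ M) :
    cuspCount (M * p) = 2 * cuspCount M := by
  classical
  have hM := NeZero.ne M
  have hdiv : (M * p).divisors = M.divisors ∪ M.divisors.image (· * p) := by
    ext d
    simp only [Nat.mem_divisors, Finset.mem_union, Finset.mem_image]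
    constructor
    · rintro ⟨hd, -⟩
      by_cases hpd : p ∣ d
      · obtain ⟨e, rfl⟩ := hpd
        rw [mul_comm p e] at hd ⊢
        exact Or.inr ⟨e, ⟨(Nat.mul_dvd_mul_iff_right hp.pos).mp hd, hM⟩, rfl⟩
      · exact Or.inl ⟨(Nat.Coprime.dvd_of_dvd_mul_right
          ((hp.coprime_iff_not_dvd.mpr hpd).symm) hd), hM⟩
    · rintro (⟨hd, -⟩ | ⟨e, ⟨he, -⟩, rfl⟩)
      · exact ⟨hd.mul_right p, mul_ne_zero hM hp.ne_zero⟩
      · exact ⟨Nat.mul_dvd_mul_right he p, mul_ne_zero hM hp.ne_zero⟩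
  have hdisj : Disjoint M.divisors (M.divisors.image (· * p)) := by
    rw [Finset.disjoint_right]
    intro d hd hd'
    obtain ⟨e, -, rfl⟩ := Finset.mem_image.mp hd
    exact hpM ((dvd_mul_left p e).trans (Nat.mem_divisors.mp hd').1)
  have hcop : ∀ d, d ∣ M → Nat.Coprime p d := fun d hd =>
    hp.coprime_iff_not_dvd.mpr fun h => hpM (h.trans hd)
  rw [cuspCount, cuspCount, hdiv, Finset.sum_union hdisj,
    Finset.sum_image (fun a _ b _ h => Nat.eq_of_mul_eq_mul_right hp.pos h), two_mul]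
  congr 1
  · refine Finset.sum_congr rfl fun d hd => congrArg Nat.totient ?_
    have hd' := (Nat.mem_divisors.mp hd).1
    rw [Nat.mul_comm M p, Nat.mul_div_assoc p hd', Nat.Coprime.gcd_mul_left_cancel_right _ (hcop d hd')]
  · refine Finset.sum_congr rfl fun d hd => congrArg Nat.totient ?_
    have hd' := (Nat.mem_divisors.mp hd).1
    rw [Nat.mul_div_mul_right M d hp.pos, mul_comm d p,
      Nat.Coprime.gcd_mul_left_cancel _ (hcop (M / d) (Nat.div_dvd_of_dvd hd'))]

theorem natCard_roots_mul_le {m n : ℕ} [NeZero m] [NeZero n] (h : Nat.Coprime m n) (a b : ℕ) :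
    Nat.card {x : ZMod (m * n) // x ^ 2 + (a : ZMod (m * n)) * x + (b : ZMod (m * n)) = 0} ≤
      Nat.card {x : ZMod m // x ^ 2 + (a : ZMod m) * x + (b : ZMod m) = 0} *
        Nat.card {x : ZMod n // x ^ 2 + (a : ZMod n) * x + (b : ZMod n) = 0} := by
  rw [← Nat.card_prod]
  let e := ZMod.chineseRemainder h
  have h1 : ∀ x : {x : ZMod (m * n) // x ^ 2 + (a : ZMod (m * n)) * x + (b : ZMod (m * n)) = 0},
      (e x.1).1 ^ 2 + (a : ZMod m) * (e x.1).1 + (b : ZMod m) = 0 ∧
      (e x.1).2 ^ 2 + (a : ZMod n) * (e x.1).2 + (b : ZMod n) = 0 := fun x => by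
    have h := congrArg e x.2
    simp only [map_add, map_mul, map_pow, map_natCast, map_zero] at h
    exact ⟨by simpa using congrArg Prod.fst h, by simpa using congrArg Prod.snd h⟩
  refine Nat.card_le_card_of_injective (fun x => (⟨_, (h1 x).1⟩, ⟨_, (h1 x).2⟩)) ?_
  intro x y hxy
  simp only [Prod.mk.injEq, Subtype.mk.injEq] at hxy
  exact Subtype.ext (e.injective (Prod.ext hxy.1 hxy.2))

theorem nuTwo_mul_prime_le (hp : p.Prime) (hpM : ¬ p ∣ M) : nuTwo (M * p) ≤ 2 * nuTwo M := by
  haveI := Fact.mk hp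
  have h := natCard_roots_mul_le (hp.coprime_iff_not_dvd.mpr hpM).symm 0 1
  simp only [Nat.cast_zero, Nat.cast_one, zero_mul, add_zero] at h
  exact h.trans (by rw [mul_comm]; exact Nat.mul_le_mul_right _ (Mazur.nuTwo_le_two p))

theorem nuThree_mul_prime_le (hp : p.Prime) (hpM : ¬ p ∣ M) :
    nuThree (M * p) ≤ 2 * nuThree M := by
  haveI := Fact.mk hp
  have h := natCard_roots_mul_le (hp.coprime_iff_not_dvd.mpr hpM).symm 1 1
  simp only [Nat.cast_one, one_mul] at h
  exact h.trans (by rw [mul_comm]; exact Nat.mul_le_mul_right _ (Mazur.nuThree_le_two p))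

/-- The crossings are at least `(p - 1) ψ(M) / 12` in number. -/
theorem crossings_ge (hp : p.Prime) (hpM : ¬ p ∣ M) {g g' n : ℕ}
    (hg : g = AlgebraicCurve.genusFF (AlgebraicClosure ℚ) (modularFunctionFieldBar (M * p)))
    (hg' : g' = AlgebraicCurve.genusFF (AlgebraicClosure ℚ) (modularFunctionFieldBar M))
    (hn : (g : ℤ) + 1 = 2 * g' + n) :
    (p - 1) * dedekindPsi M ≤ 12 * n := by
  have h1 := ModularPlaces.genusFF_bar (M * p)
  have h2 := ModularPlaces.genusFF_bar M
  rw [← hg, genusFormula, cuspCount_mul_prime hp hpM,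
    ModularCosets.dedekindPsi_mul_prime M hp, if_neg hpM] at h1
  rw [← hg', genusFormula] at h2
  have h3 : (nuTwo (M * p) : ℚ) ≤ 2 * nuTwo M := by exact_mod_cast nuTwo_mul_prime_le hp hpM
  have h4 : (nuThree (M * p) : ℚ) ≤ 2 * nuThree M := by exact_mod_cast nuThree_mul_prime_le hp hpM
  have h5 : (g : ℚ) + 1 = 2 * g' + n := by exact_mod_cast hn
  push_cast at h1 h2
  have h6 : (((p - 1) * dedekindPsi M : ℕ) : ℚ) ≤ ((12 * n : ℕ) : ℚ) := by
    push_cast [Nat.cast_sub hp.one_le]
    linarith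
  exact_mod_cast h6

/-- Exactly `(p - 1) ψ(M) / 12` crossings without elliptic points. -/
theorem crossings_eq (hp : p.Prime) (hpM : ¬ p ∣ M) (h4 : 4 ∣ M) {g g' n : ℕ}
    (hg : g = AlgebraicCurve.genusFF (AlgebraicClosure ℚ) (modularFunctionFieldBar (M * p)))
    (hg' : g' = AlgebraicCurve.genusFF (AlgebraicClosure ℚ) (modularFunctionFieldBar M))
    (hn : (g : ℤ) + 1 = 2 * g' + n) :
    (p - 1) * dedekindPsi M = 12 * n := by
  have h1 := ModularPlaces.genusFF_bar (M * p)
  have h2 := ModularPlaces.genusFF_bar M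
  rw [← hg, genusFormula, cuspCount_mul_prime hp hpM,
    ModularCosets.dedekindPsi_mul_prime M hp, if_neg hpM,
    Reduction.nuTwo_eq_zero (Or.inl (h4.mul_right p)),
    Reduction.nuThree_eq_zero (Or.inl (h4.mul_right p))] at h1
  rw [← hg', genusFormula, Reduction.nuTwo_eq_zero (Or.inl h4),
    Reduction.nuThree_eq_zero (Or.inl h4)] at h2
  have h5 : (g : ℚ) + 1 = 2 * g' + n := by exact_mod_cast hn
  push_cast at h1 h2
  have h6 : (((p - 1) * dedekindPsi M : ℕ) : ℚ) = ((12 * n : ℕ) : ℚ) := by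
    push_cast [Nat.cast_sub hp.one_le]
    linarith
  exact_mod_cast h6

/-- There is at least one crossing. -/
theorem crossings_pos (hp : p.Prime) (hpM : ¬ p ∣ M) {g g' n : ℕ}
    (hg : g = AlgebraicCurve.genusFF (AlgebraicClosure ℚ) (modularFunctionFieldBar (M * p)))
    (hg' : g' = AlgebraicCurve.genusFF (AlgebraicClosure ℚ) (modularFunctionFieldBar M))
    (hn : (g : ℤ) + 1 = 2 * g' + n) : 0 < n := by
  have h := crossings_ge hp hpM hg hg' hn
  have h' : 0 < (p - 1) * dedekindPsi M :=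
    Nat.mul_pos (by have := hp.two_le; omega) (ModularCosets.dedekindPsi_pos M)
  omega

end FLTAgent.MazurP
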