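import Fermat.Agent.MazurP.Chart
import Fermat.Agent.Mazur.Descent.Tame

/-!
# Inertia acts by the cyclotomic character on classes with `p`-th power reductions

`act_sub_smul_principal`: if `p D = div f`, both reductions of `f` and both norms to level `M`
are `p`-th powers, and `τ ζ = ζ^a` for an inertia element `τ`, then `τ D - a D` is principal.
In chart coordinates the norm condition gives `|c|^(p-1) ≤ |p|` (`Chart.valuation_pow_le`); the
coordinates of `τ D - a D` are then smaller still, and such deep coordinates vanish because a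
regular pair with simple poles at the base points has no residues (`Chart.eq_zero_of_deep`).
-/

set_option autoImplicit false
set_option linter.style.haveILetI false
set_option linter.unusedSectionVars false

noncomputable section

open AlgebraicCurve SemilinearAut
open scoped Classical

namespace FLTAgent.MazurP

open FLTAgent.Reduction

local notation "Qb" => AlgebraicClosure ℚ
local notation "Γℚ" => (AlgebraicClosure ℚ ≃ₐ[ℚ] AlgebraicClosure ℚ)

section Local

variable {A : ValuationSubring Qb} {σ : Γℚ}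

theorem inertia_valuation (hσ : σ ∈ A.inertiaSubgroupIn ℚ) (x : Qb) :
    A.valuation (σ x) = A.valuation x :=
  Mazur.Tame.valuation_map (GalCommon.inertiaSubgroupIn_le_decomposition hσ) x

theorem inertia_sub_lt (hσ : σ ∈ A.inertiaSubgroupIn ℚ) {u : Qb} (hu : A.valuation u ≤ 1) :
    A.valuation (σ u - u) < 1 :=
  (GalCommon.mem_inertiaSubgroupIn_iff.mp hσ).2 u ((A.valuation_le_one_iff u).mp hu)

theorem valuation_zeta_sub_one_pow {p : ℕ} (hp : p.Prime) (A : ValuationSubring Qb) {ζ : Qb}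
    (hζ : IsPrimitiveRoot ζ p) :
    A.valuation (ζ - 1) ^ (p - 1) = A.valuation (p : Qb) := by
  have : Fact p.Prime := ⟨hp⟩
  have hle : ∀ {x : Qb}, IsPrimitiveRoot x p → ∀ i : ℕ,
      A.valuation (x ^ i - 1) ≤ A.valuation (x - 1) := by
    intro x hx i
    rw [← geom_sum_mul x i, map_mul]
    refine mul_le_of_le_one_left zero_le (A.valuation.map_sum_le fun k _ => ?_)
    have h1 : A.valuation x ^ p = 1 := by rw [← map_pow, hx.pow_eq_one, map_one]
    rw [map_pow, (pow_eq_one_iff_of_nonneg zero_le hp.ne_zero).1 h1, one_pow]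
  have heq : ∀ μ ∈ primitiveRoots p Qb, A.valuation (1 - μ) = A.valuation (ζ - 1) := by
    intro μ hμ
    have hμ' : IsPrimitiveRoot μ p := (mem_primitiveRoots hp.pos).1 hμ
    obtain ⟨i, -, hi⟩ := hζ.eq_pow_of_pow_eq_one hμ'.pow_eq_one
    obtain ⟨j, -, hj⟩ := hμ'.eq_pow_of_pow_eq_one hζ.pow_eq_one
    rw [Valuation.map_sub_swap]
    exact le_antisymm (hi ▸ hle hζ i) (hj ▸ hle hμ' j)
  have h1 := Polynomial.eval_one_cyclotomic_prime (R := Qb) (p := p)
  rw [Polynomial.cyclotomic_eq_prod_X_sub_primitiveRoots hζ, Polynomial.eval_prod] at h1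
  rw [← h1, map_prod, Finset.prod_congr rfl fun μ hμ => ?_, Finset.prod_const,
    hζ.card_primitiveRoots, Nat.totient_prime hp]
  simpa using heq μ hμ

/-- An element of valuation at most one, as an element of `A`. -/
def toA (A : ValuationSubring Qb) (c : Qb) : A :=
  if h : A.valuation c ≤ 1 then ⟨c, (A.valuation_le_one_iff c).mp h⟩ else 0

theorem coe_toA {c : Qb} (h : A.valuation c ≤ 1) : (toA A c : Qb) = c := by
  rw [toA, dif_pos h]

end Local

namespace Frame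

variable {A : ValuationSubring Qb} {k : Type*} [Field k] {π : A →+* k} {p : ℕ}
  {F E : Type*} [Field F] [Field E] [Algebra Qb F] [Algebra k E] {Fr : Frame A π p F E}

theorem res_toA_eq_zero (Fr : Frame A π p F E) {c : Qb} (h : A.valuation c < 1) :
    π (toA A c) = 0 := by
  rw [res_eq_zero_iff_lt Fr, coe_toA h.le]
  exact h

theorem fo_add {b : Bool} {ε α β : Qb} (hε0 : ε ≠ 0) (hα : A.valuation α ≤ A.valuation ε)
    (hβ : A.valuation β ≤ A.valuation ε) {y z : F} (hy : y ∈ (Fr.G b).V) (hz : z ∈ (Fr.G b).V) :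
    Fr.FO b ε (1 + α • y + β • z)
      (π (toA A (α / ε)) • (Fr.G b).red y + π (toA A (β / ε)) • (Fr.G b).red z) := by
  have h : ∀ γ : Qb, A.valuation γ ≤ A.valuation ε → A.valuation (γ / ε) ≤ 1 := fun γ hγ => by
    rw [map_div₀, div_le_one₀ (zero_lt_iff.mpr ((map_ne_zero _).mpr hε0))]
    exact hγ
  refine ⟨(toA A (α / ε) : Qb) • y + (toA A (β / ε) : Qb) • z,
    (Fr.G b).V.add_mem ((Fr.G b).smul_mem _ hy) ((Fr.G b).smul_mem _ hz), ?_, ?_⟩
  · rw [coe_toA (h α hα), coe_toA (h β hβ), smul_add, smul_smul, smul_smul,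
      mul_div_cancel₀ _ hε0, mul_div_cancel₀ _ hε0, add_assoc]
  · rw [(Fr.G b).red_add ((Fr.G b).smul_mem _ hy) ((Fr.G b).smul_mem _ hz),
      (Fr.G b).red_smul _ hy, (Fr.G b).red_smul _ hz]

theorem exists_normalise (Fr : Frame A π p F E) {Q₀ : Place Qb F} {h : F} (hh : h ≠ 0) (h0 : Q₀.ord h = 0) :
    ∃ γ : Qb, γ ≠ 0 ∧ valAt Q₀ (γ • h) = 1 ∧ ∀ Q : Place Qb F, Q.ord (γ • h) = Q.ord h := by
  have hv : Vanish Q₀ h 0 := Or.inr h0.ge
  have hne : valAt Q₀ h ≠ 0 := fun he => by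
    have := ((Fr.curve.vanish_one_iff hv).mpr he).resolve_left hh
    omega
  refine ⟨(valAt Q₀ h)⁻¹, inv_ne_zero hne, ?_, fun Q => ?_⟩
  · rw [Fr.curve.valAt_smul _ hv, inv_mul_cancel₀ hne]
  · rw [Algebra.smul_def, Q.ord_mul (by simpa using inv_ne_zero hne) hh, FF.ord_algebraMap,
      zero_add]

namespace Chart

variable (C : Fr.Chart) {x : Bool × Place k E}

theorem inv_t_mem (hx : x ∈ C.B) :
    (C.t x)⁻¹ ∈ (Fr.G x.1).V ∧ (Fr.G x.1).red (C.t x)⁻¹ = ((Fr.G x.1).red (C.t x))⁻¹ := by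
  have ht := C.param x hx
  have ht0 : C.t x ≠ 0 := by simpa using ht.sub_ne_zero (c := 0) (by simp)
  have hi := (Fr.G x.1).inv_mem ht.mem ht.red_ne_zero
  refine ⟨hi, ?_⟩
  have := (Fr.G x.1).red_mul ht.mem hi
  rw [mul_inv_cancel₀ ht0, (Fr.G x.1).red_one] at this
  exact eq_inv_of_mul_eq_one_right this.symm

theorem factor_eq (hx : x ∈ C.B) (c : Qb) :
    C.factor x c = 1 + (-c) • (C.t x)⁻¹ := by
  have ht0 : C.t x ≠ 0 := by simpa using (C.param x hx).sub_ne_zero (c := 0) (by simp)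
  rw [factor, Algebra.smul_def, map_neg, sub_div, div_self ht0]
  ring

theorem fo_factor (hx : x ∈ C.B) {ε c : Qb} (hε0 : ε ≠ 0)
    (hc : A.valuation c ≤ A.valuation ε) :
    Fr.FO x.1 ε (C.factor x c)
      (π (toA A (-c / ε)) • ((Fr.G x.1).red (C.t x))⁻¹) := by
  have h := fo_add (Fr := Fr) (b := x.1) (ε := ε) (α := -c) (β := 0) hε0
    (by rwa [Valuation.map_neg]) (by simp) (C.inv_t_mem hx).1 (Fr.G x.1).V.zero_mem
  rw [smul_zero, add_zero, (Fr.G x.1).red_zero, smul_zero, add_zero, (C.inv_t_mem hx).2] at h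
  rwa [← C.factor_eq hx] at h

theorem fo_factor_pow (hx : x ∈ C.B) {ε c : Qb} (hc : A.valuation c < 1) (hε0 : ε ≠ 0)
    (h1 : A.valuation c ^ p ≤ A.valuation ε)
    (h2 : A.valuation (p : Qb) * A.valuation c ≤ A.valuation ε) :
    Fr.FO x.1 ε (C.factor x c ^ p)
      (π (toA A ((-c) ^ p / ε)) • ((Fr.G x.1).red (C.t x))⁻¹ ^ p +
        π (toA A ((p : Qb) * (-c) / ε)) • ((Fr.G x.1).red (C.t x))⁻¹) := by
  obtain ⟨hu, hur⟩ := C.inv_t_mem hx
  set u := (C.t x)⁻¹ with hudef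
  have hnc : A.valuation (-c) < 1 := by rwa [Valuation.map_neg]
  obtain ⟨hy, hyr⟩ := smul_mem_red_zero (Fr := Fr) hnc hu
  obtain ⟨R, hR⟩ := one_add_pow_prime Fr.p_prime (⟨(-c) • u, hy⟩ : (Fr.G x.1).V)
  have hyR := (Fr.G x.1).V.mul_mem hy R.2
  have h1R := (Fr.G x.1).V.add_mem (Fr.G x.1).V.one_mem hyR
  have hW := (Fr.G x.1).V.mul_mem hu h1R
  have hWr : (Fr.G x.1).red (u * (1 + (-c) • u * R)) = ((Fr.G x.1).red (C.t x))⁻¹ := by
    rw [(Fr.G x.1).red_mul hu h1R, (Fr.G x.1).red_add (Fr.G x.1).V.one_mem hyR,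
      (Fr.G x.1).red_one, (Fr.G x.1).red_mul hy R.2, hyr, zero_mul, add_zero, mul_one, hur]
  have h := fo_add (Fr := Fr) (b := x.1) (ε := ε) (α := (-c) ^ p) (β := (p : Qb) * (-c)) hε0
    (by rwa [map_pow, Valuation.map_neg]) (by rwa [map_mul, Valuation.map_neg])
    (pow_mem hu p) hW
  rw [(Fr.G x.1).red_pow hu, hur, hWr] at h
  have he := congrArg (fun t : (Fr.G x.1).V => (t : F)) hR
  push_cast at he
  rw [show C.factor x c ^ p = 1 + (-c) ^ p • u ^ p +
      ((p : Qb) * (-c)) • (u * (1 + (-c) • u * R)) by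
    rw [C.factor_eq hx, ← hudef, he, smul_pow, ← smul_smul, Algebra.smul_def (p : Qb), map_natCast,
      mul_assoc, smul_mul_assoc]]
  exact h

/-- A regular pair with simple poles at `B` has no residues. -/
theorem residue_eq_zero (v : Bool → E) (s : Bool × Place k E → k)
    (hout : ∀ x, Fr.IsPoint x → x ∉ C.B → Fr.RegAt v x)
    (hB : ∀ x ∈ C.B, Fr.RegAt (fun b => v b - s x • ((Fr.G b).red (C.t x))⁻¹) x) :
    ∀ x ∈ C.B, s x = 0 := by
  have hB' : ∀ x ∈ C.B, Vanish x.2 (v x.1 - s x • ((Fr.G x.1).red (C.t x))⁻¹) 0 := fun x hx => by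
    have := (hB x hx).1 x.1 (onComp_self x)
    rwa [branch_self] at this
  have hpole : ∀ x ∈ C.B, ∀ a : k, Vanish x.2 (a • ((Fr.G x.1).red (C.t x))⁻¹) (-1) :=
    fun x hx a => (show Vanish x.2 ((Fr.G x.1).red (C.t x))⁻¹ (-1) from
      Or.inr (by rw [Place.ord_inv, (C.param x hx).ord_red])).smul a
  obtain ⟨a, ha⟩ := C.only v ⟨hout, fun x hx => by
    have := ((hB' x hx).mono (show (-1 : ℤ) ≤ 0 by omega)).add (hpole x hx (s x))
    rwa [sub_add_cancel] at this⟩
  intro x hx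
  by_contra hs
  have h := (Vanish.const (v := x.2) a).sub (hB' x hx)
  rw [ha, sub_sub_cancel] at h
  have h2 := h.resolve_left (smul_ne_zero hs (inv_ne_zero (C.param x hx).red_ne_zero))
  rw [Algebra.smul_def, x.2.ord_mul (by simpa using hs)
    (inv_ne_zero (C.param x hx).red_ne_zero), FF.ord_algebraMap, Place.ord_inv,
    (C.param x hx).ord_red] at h2
  omega

theorem exists_max {c : Bool × Place k E → Qb} (hne : ∃ x ∈ C.B, c x ≠ 0) :
    ∃ xm ∈ C.B, c xm ≠ 0 ∧ ∀ x ∈ C.B, A.valuation (c x) ≤ A.valuation (c xm) := by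
  obtain ⟨x₁, hx₁, hne⟩ := hne
  obtain ⟨xm, hxm, hmax⟩ := Finset.exists_max_image C.B (fun x => A.valuation (c x)) ⟨x₁, hx₁⟩
  refine ⟨xm, hxm, fun h0 => hne ?_, hmax⟩
  have := hmax x₁ hx₁
  simpa [h0] using this

/-- The first order expansion of a normalised function with divisor `p` times `div c`. -/
theorem exists_expansion [IsAlgClosed k] {c : Bool × Place k E → Qb}
    (hc : ∀ x, A.valuation (c x) < 1) {ε : Qb} (hε0 : ε ≠ 0) (hε : A.valuation ε < 1)
    {h : F} (hval : valAt C.Q₀ h = 1)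
    (hdiv : ∀ Q : Place Qb F, Q.ord h = (p : ℤ) * C.div c Q)
    (h1 : ∀ x ∈ C.B, A.valuation (c x) ^ p ≤ A.valuation ε)
    (h2 : ∀ x ∈ C.B, A.valuation (p : Qb) * A.valuation (c x) ≤ A.valuation ε) :
    ∃ w : F, (∀ b, w ∈ (Fr.G b).V) ∧ h = 1 + ε • w ∧
      (∀ x, Fr.IsPoint x → x ∉ C.B → Fr.RegAt (Fr.rp w) x) ∧
      ∀ x ∈ C.B, Fr.RegAt (fun b => Fr.rp w b -
        (π (toA A ((-c x) ^ p / ε)) • ((Fr.G b).red (C.t x))⁻¹ ^ p +
          π (toA A ((p : Qb) * (-c x) / ε)) • ((Fr.G b).red (C.t x))⁻¹)) x := by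
  obtain ⟨w, hw, hh, hout, hB, -⟩ := exists_first_order (Fr := Fr) hε0 hε C.B
    (fun x b => π (toA A ((-c x) ^ p / ε)) • ((Fr.G b).red (C.t x))⁻¹ ^ p +
      π (toA A ((p : Qb) * (-c x) / ε)) • ((Fr.G b).red (C.t x))⁻¹)
    C.smooth₀ C.notMem₀ hval
    (fun x hx _ => ⟨C.factor x (c x) ^ p, fun b hb => by
      obtain rfl := onComp_smooth (C.smooth x hx) hb
      exact C.fo_factor_pow hx (hc x) hε0 (h1 x hx) (h2 x hx), fun Q hQ => by
      rw [hdiv, FF.ord_pow, C.ord_factor hx hc hQ]⟩)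
    (fun x _ hxB Q hQ => by rw [hdiv, C.div_apply_out hc (hQ.symm ▸ hxB), mul_zero])
  exact ⟨w, hw, hh, hout, fun x hx => hB x hx (Or.inl (C.smooth x hx))⟩

/-- Coordinates with `|c|^(p-1) < |p|` of a class killed by `p` vanish. -/
theorem eq_zero_of_deep [IsAlgClosed k] {c : Bool × Place k E → Qb}
    (hc : ∀ x, A.valuation (c x) < 1)
    (hdeep : ∀ x ∈ C.B, A.valuation (c x) ^ (p - 1) < A.valuation (p : Qb))
    {h : F} (hh : h ≠ 0) (hdiv : ∀ Q : Place Qb F, Q.ord h = (p : ℤ) * C.div c Q) :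
    ∀ x ∈ C.B, c x = 0 := by
  by_contra hne
  push Not at hne
  obtain ⟨xm, hxm, hm0, hmax⟩ := C.exists_max hne
  have hp0 : (p : Qb) ≠ 0 := by exact_mod_cast Fr.p_prime.ne_zero
  set ε := (p : Qb) * c xm with hεdef
  have hε0 : ε ≠ 0 := mul_ne_zero hp0 hm0
  have hε : A.valuation ε < 1 := by
    rw [hεdef, map_mul]
    exact (mul_le_of_le_one_left' Fr.p_nonunit.le).trans_lt (hc xm)
  have hpow : ∀ x ∈ C.B, A.valuation (c x) ^ p < A.valuation ε := fun x hx => by
    refine lt_of_le_of_lt (pow_le_pow_left₀ zero_le (hmax x hx) p) ?_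
    rw [hεdef, map_mul]
    conv_lhs => rw [← Nat.sub_add_cancel Fr.p_prime.one_le, pow_succ]
    exact mul_lt_mul_of_pos_right (hdeep xm hxm) (zero_lt_iff.mpr ((map_ne_zero _).mpr hm0))
  obtain ⟨γ, -, hval, hord⟩ := exists_normalise Fr (Q₀ := C.Q₀) hh
    (by rw [hdiv, C.div_apply_out hc C.notMem₀, mul_zero])
  obtain ⟨w, -, -, hout, hB⟩ := C.exists_expansion hc hε0 hε hval
    (fun Q => by rw [hord, hdiv]) (fun x hx => (hpow x hx).le) (fun x hx => by
      rw [hεdef, map_mul]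
      exact mul_le_mul_right (hmax x hx) _)
  have hzero := C.residue_eq_zero (Fr.rp w)
    (fun x => π (toA A ((p : Qb) * (-c x) / ε))) hout fun x hx => by
      have := hB x hx
      have h0 : π (toA A ((-c x) ^ p / ε)) = 0 := res_toA_eq_zero Fr (by
        rw [map_div₀, map_pow, Valuation.map_neg,
          div_lt_one₀ (zero_lt_iff.mpr ((map_ne_zero _).mpr hε0))]
        exact hpow x hx)
      simpa [h0] using this
  have hm := hzero xm hxm
  rw [res_eq_zero_iff_lt Fr] at hm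
  have he : (p : Qb) * (-c xm) / ε = -1 := by rw [hεdef]; field_simp
  rw [he, coe_toA (by simp)] at hm
  simp at hm

/-- If the norms of `h` are `p`-th powers the coordinates satisfy `|c|^(p-1) ≤ |p|`. -/
theorem valuation_pow_le [IsAlgClosed k] {c : Bool × Place k E → Qb}
    (hc : ∀ x, A.valuation (c x) < 1) {h : F} (hh : h ≠ 0)
    (hdiv : ∀ Q : Place Qb F, Q.ord h = (p : ℤ) * C.div c Q)
    (hN : ∀ b, ∃ X, Fr.N b h = X ^ p) :
    ∀ x ∈ C.B, A.valuation (c x) ^ (p - 1) ≤ A.valuation (p : Qb) := by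
  by_contra hne
  push Not at hne
  obtain ⟨x₁, hx₁, hlt⟩ := hne
  have hp2 := Fr.p_prime.two_le
  have hne₁ : c x₁ ≠ 0 := fun h0 => by
    rw [h0, map_zero, zero_pow (by omega)] at hlt
    exact not_lt_zero hlt
  obtain ⟨xm, hxm, hm0, hmax⟩ := C.exists_max ⟨x₁, hx₁, hne₁⟩
  have hbig : A.valuation (p : Qb) < A.valuation (c xm) ^ (p - 1) :=
    hlt.trans_le (pow_le_pow_left₀ zero_le (hmax x₁ hx₁) _)
  have hvm : 0 < A.valuation (c xm) := zero_lt_iff.mpr ((map_ne_zero _).mpr hm0)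
  set ε := c xm ^ p with hεdef
  have hε0 : ε ≠ 0 := pow_ne_zero _ hm0
  have hε : A.valuation ε < 1 := by
    rw [hεdef, map_pow]
    exact pow_lt_one₀ zero_le (hc xm) Fr.p_prime.ne_zero
  have hlin : ∀ x ∈ C.B, A.valuation (p : Qb) * A.valuation (c x) < A.valuation ε := by
    intro x hx
    refine lt_of_le_of_lt (mul_le_mul_right (hmax x hx) _) ?_
    rw [hεdef, map_pow]
    conv_rhs => rw [← Nat.sub_add_cancel Fr.p_prime.one_le, pow_succ]
    exact mul_lt_mul_of_pos_right hbig hvm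
  obtain ⟨γ, hγ0, hval, hord⟩ := exists_normalise Fr (Q₀ := C.Q₀) hh
    (by rw [hdiv, C.div_apply_out hc C.notMem₀, mul_zero])
  obtain ⟨γ', hγ'⟩ := IsAlgClosed.exists_pow_nat_eq (γ ^ (p + 1)) Fr.p_prime.pos
  obtain ⟨w, hw, hhw, hout, hB⟩ := C.exists_expansion hc hε0 hε hval
    (fun Q => by rw [hord, hdiv])
    (fun x hx => by rw [hεdef, map_pow]; exact pow_le_pow_left₀ zero_le (hmax x hx) p)
    (fun x hx => (hlin x hx).le)
  have hroot : ∀ b, ∃ v, (Fr.G b).red w = v ^ p := fun b => by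
    obtain ⟨X, hX⟩ := hN b
    obtain ⟨z, hz, hNz, hzr⟩ := Fr.N_spec b w (hw false) (hw true) ε hε
    obtain ⟨v, hv⟩ := red_eq_pow_of_eq (Fr := Fr) (X := algebraMap Qb F γ' * X) hm0 (hc xm) hbig
      hz (by
        rw [← hεdef, ← hNz, ← hhw, Algebra.smul_def, map_mul, Fr.N_const, hX, mul_pow,
          ← map_pow, hγ'])
    exact ⟨v, hzr ▸ hv⟩
  choose v hv using hroot
  haveI := charP_E Fr
  haveI := Fact.mk Fr.p_prime
  have hzero := C.residue_eq_zero v (fun x => π (toA A (-c x / c xm)))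
    (fun x hx hxB => regAt_of_pow (regAt_congr (fun b _ => hv b) (hout x hx hxB)))
    fun x hx => regAt_of_pow (regAt_congr (fun b _ => ?_) (hB x hx))
  · have hm := hzero xm hxm
    rw [res_eq_zero_iff_lt Fr] at hm
    have he : -c xm / c xm = -1 := by field_simp
    rw [he, coe_toA (by simp)] at hm
    simp at hm
  · have h0 : π (toA A ((p : Qb) * (-c x) / ε)) = 0 := res_toA_eq_zero Fr (by
      rw [map_div₀, map_mul, Valuation.map_neg,
        div_lt_one₀ (zero_lt_iff.mpr ((map_ne_zero _).mpr hε0))]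
      exact hlin x hx)
    have hle : A.valuation (-c x / c xm) ≤ 1 := by
      rw [map_div₀, Valuation.map_neg, div_le_one₀ hvm]
      exact hmax x hx
    have h1 : toA A ((-c x) ^ p / ε) = toA A (-c x / c xm) ^ p := by
      rw [hεdef, ← div_pow]
      refine Subtype.ext ?_
      push_cast
      rw [coe_toA (by rw [map_pow]; exact pow_le_one₀ zero_le hle), coe_toA hle]
    simp only [rp, h0, zero_smul, add_zero, h1, map_pow, hv]
    rw [sub_pow_char, smul_pow]

end Chart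

/-- Inertia acts through the cyclotomic character. -/
theorem act_sub_smul_principal [IsAlgClosed k] (D : Divisor Qb F) (hD : Divisor.degree D = 0)
    {f : F} (hdiv : ∀ Q : Place Qb F, Q.ord f = (p : ℤ) * D Q) (hpp : ∀ b, Fr.IsPP b f)
    (hN : ∀ b, ∃ X, Fr.N b f = X ^ p) {τ : Γℚ} (hτ : τ ∈ A.inertiaSubgroupIn ℚ) {ζ : Qb}
    (hζ : IsPrimitiveRoot ζ p) {a : ℕ} (hτζ : τ ζ = ζ ^ a) :
    Fr.act τ • D - a • D ∈ Divisor.principal (K := Qb) (F := F) := by
  obtain ⟨P₀, hP₀, -⟩ := exists_smooth (Fr := Fr) false ∅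
  obtain ⟨C, -⟩ := exists_chart hP₀
  have hf : f ≠ 0 := (hpp false).ne_zero
  obtain ⟨c, h₁, hc, hh₁, hnf₁⟩ := C.normal_form D hD hdiv hpp
  have hdiv₁ : ∀ Q : Place Qb F, Q.ord (f * h₁ ^ p) = (p : ℤ) * C.div c Q := fun Q => by
    rw [← hnf₁, Q.ord_mul hf (pow_ne_zero _ hh₁), hdiv, FF.ord_pow, Finsupp.add_apply,
      Fr.curve.divOf_apply]
    ring
  have hN₁ : ∀ b, ∃ X, Fr.N b (f * h₁ ^ p) = X ^ p := fun b => by
    obtain ⟨X, hX⟩ := hN b
    exact ⟨X * Fr.N b h₁, by rw [map_mul, map_pow, hX, mul_pow]⟩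
  have hsmall := C.valuation_pow_le hc (mul_ne_zero hf (pow_ne_zero _ hh₁)) hdiv₁ hN₁
  -- `π₀ = ζ - 1`
  set π₀ := ζ - 1 with hπ₀
  have hp1 : p - 1 ≠ 0 := by have := Fr.p_prime.two_le; omega
  have hπ₀0 : π₀ ≠ 0 := sub_ne_zero.mpr (hζ.ne_one Fr.p_prime.one_lt)
  have hvπ : A.valuation π₀ ^ (p - 1) = A.valuation (p : Qb) :=
    valuation_zeta_sub_one_pow Fr.p_prime A hζ
  have hπ₀1 : A.valuation π₀ < 1 := by
    by_contra hge
    push Not at hge
    exact absurd (hvπ ▸ one_le_pow₀ hge) (not_le.mpr Fr.p_nonunit)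
  have hcπ : ∀ x ∈ C.B, A.valuation (c x) ≤ A.valuation π₀ := fun x hx =>
    le_of_pow_le_pow_left₀ hp1 zero_le ((hsmall x hx).trans hvπ.ge)
  -- the second class
  set D₂ := Fr.act τ • D - a • D with hD₂
  have hD₂deg : Divisor.degree D₂ = 0 := by
    rw [hD₂, map_sub, SemilinearAut.degree_smul, map_nsmul, hD, smul_zero, sub_zero]
  have hordτ : ∀ (g : F) (Q : Place Qb F),
      Q.ord (Fr.act τ • g) = ((Fr.act τ)⁻¹ • Q).ord g := fun g Q => by
    have h := SemilinearAut.ord_smul (Fr.act τ) ((Fr.act τ)⁻¹ • Q) g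
    rwa [smul_inv_smul] at h
  have hτne : ∀ {g : F}, g ≠ 0 → Fr.act τ • g ≠ 0 := fun hg h0 =>
    hg (smul_left_cancel (Fr.act τ) (h0.trans (smul_zero _).symm))
  set f₂ := Fr.act τ • f * (f ^ a)⁻¹ with hf₂
  have hf₂0 : f₂ ≠ 0 := mul_ne_zero (hτne hf) (inv_ne_zero (pow_ne_zero _ hf))
  have hdiv₂ : ∀ Q : Place Qb F, Q.ord f₂ = (p : ℤ) * D₂ Q := fun Q => by
    rw [hf₂, Q.ord_mul (hτne hf) (inv_ne_zero (pow_ne_zero _ hf)), Place.ord_inv,
      FF.ord_pow, hordτ, hdiv, hdiv, hD₂, Finsupp.sub_apply,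
      SemilinearAut.divisor_smul_apply, Finsupp.smul_apply, nsmul_eq_mul]
    ring
  have hpp₂ : ∀ b, Fr.IsPP b f₂ := fun b => ((hpp b).act hτ).mul ((hpp b).pow a).inv
  obtain ⟨c₂, h₂, hc₂, hh₂, hnf₂⟩ := C.normal_form D₂ hD₂deg hdiv₂ hpp₂
  have hdiv₂' : ∀ Q : Place Qb F, Q.ord (f₂ * h₂ ^ p) = (p : ℤ) * C.div c₂ Q := fun Q => by
    rw [← hnf₂, Q.ord_mul hf₂0 (pow_ne_zero _ hh₂), hdiv₂, FF.ord_pow, Finsupp.add_apply,
      Fr.curve.divOf_apply]
    ring
  -- the relation between the coordinates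
  have hτc : ∀ x, A.valuation (τ (c x)) < 1 := fun x => by rw [inertia_valuation hτ]; exact hc x
  set H := h₂ * h₁ ^ a * (Fr.act τ • h₁)⁻¹ with hH
  have hH0 : H ≠ 0 :=
    mul_ne_zero (mul_ne_zero hh₂ (pow_ne_zero _ hh₁)) (inv_ne_zero (hτne hh₁))
  have hordH : ∀ Q : Place Qb F, Q.ord H =
      C.div c₂ Q - C.div (fun x => τ (c x)) Q + (a : ℤ) * C.div c Q := fun Q => by
    rw [← C.act_div hτ hc, ← hnf₁, ← hnf₂, hD₂, hH,
      Q.ord_mul (mul_ne_zero hh₂ (pow_ne_zero _ hh₁)) (inv_ne_zero (hτne hh₁)),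
      Q.ord_mul hh₂ (pow_ne_zero _ hh₁), Place.ord_inv, FF.ord_pow, hordτ]
    simp only [Finsupp.add_apply, Finsupp.sub_apply, SemilinearAut.divisor_smul_apply,
      Finsupp.smul_apply, Fr.curve.divOf_apply, nsmul_eq_mul]
    ring
  obtain ⟨γ, -, hval, hordγ⟩ := exists_normalise Fr (Q₀ := C.Q₀) hH0 (by
    rw [hordH, C.div_apply_out hc₂ C.notMem₀, C.div_apply_out hτc C.notMem₀,
      C.div_apply_out hc C.notMem₀]
    simp)
  have hmain : ∀ ε : Qb, ε ≠ 0 → A.valuation ε < 1 → A.valuation π₀ ≤ A.valuation ε →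
      (∀ x ∈ C.B, A.valuation (c₂ x) ≤ A.valuation ε) →
      ∀ x ∈ C.B, π (toA A (-c₂ x / ε)) - π (toA A (-τ (c x) / ε)) +
        (a : k) * π (toA A (-c x / ε)) = 0 := by
    intro ε hε0 hε hπε hc₂ε
    obtain ⟨w, -, -, hout, hB, -⟩ := exists_first_order (Fr := Fr) hε0 hε C.B
      (fun x b => (π (toA A (-c₂ x / ε)) - π (toA A (-τ (c x) / ε)) +
        (a : k) * π (toA A (-c x / ε))) • ((Fr.G b).red (C.t x))⁻¹)
      C.smooth₀ C.notMem₀ hval
      (fun x hx _ => ⟨C.factor x (c₂ x) * (C.factor x (τ (c x)))⁻¹ * C.factor x (c x) ^ a,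
        fun b hb => by
          obtain rfl := onComp_smooth (C.smooth x hx) hb
          have e1 := C.fo_factor hx hε0 (hc₂ε x hx)
          have e2 := C.fo_factor hx hε0 (c := τ (c x))
            (by rw [inertia_valuation hτ]; exact (hcπ x hx).trans hπε)
          have e3 := C.fo_factor hx hε0 ((hcπ x hx).trans hπε)
          have := (e1.mul hε (e2.inv hε)).mul hε (e3.pow hε a)
          rwa [← sub_eq_add_neg, ← sub_smul, ← Nat.cast_smul_eq_nsmul k, smul_smul,
            ← add_smul] at this,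
        fun Q hQ => by
          have hne : ∀ d : Qb, A.valuation d < 1 → C.factor x d ≠ 0 := fun d hd =>
            div_ne_zero ((C.param x hx).sub_ne_zero hd)
              (by simpa using (C.param x hx).sub_ne_zero (c := 0) (by simp))
          rw [hordγ, hordH, Q.ord_mul (mul_ne_zero (hne _ (hc₂ x)) (inv_ne_zero (hne _ (hτc x))))
            (pow_ne_zero _ (hne _ (hc x))), Q.ord_mul (hne _ (hc₂ x)) (inv_ne_zero (hne _ (hτc x))),
            Place.ord_inv, FF.ord_pow, C.ord_factor hx hc₂ hQ,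
            C.ord_factor hx (d := fun y => τ (c y)) hτc hQ, C.ord_factor hx hc hQ]
          ring⟩)
      (fun x _ hxB Q hQ => by
        rw [hordγ, hordH, C.div_apply_out hc₂ (hQ.symm ▸ hxB),
          C.div_apply_out hτc (hQ.symm ▸ hxB), C.div_apply_out hc (hQ.symm ▸ hxB)]
        simp)
    exact C.residue_eq_zero (Fr.rp w) _ hout fun x hx => hB x hx (Or.inl (C.smooth x hx))
  -- `c₂` is bounded by `π₀`
  have hc₂π : ∀ x ∈ C.B, A.valuation (c₂ x) ≤ A.valuation π₀ := by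
    by_contra hne
    push Not at hne
    obtain ⟨x₁, hx₁, hlt⟩ := hne
    have hne₁ : c₂ x₁ ≠ 0 := fun h0 => by
      rw [h0, map_zero] at hlt
      exact not_lt_zero hlt
    obtain ⟨xm, hxm, hm0, hmax⟩ := C.exists_max ⟨x₁, hx₁, hne₁⟩
    have hgt : A.valuation π₀ < A.valuation (c₂ xm) := hlt.trans_le (hmax x₁ hx₁)
    have hvm : 0 < A.valuation (c₂ xm) := zero_lt_iff.mpr ((map_ne_zero _).mpr hm0)
    have h := hmain (c₂ xm) hm0 (hc₂ xm) hgt.le hmax xm hxm
    have hz : ∀ d : Qb, A.valuation d ≤ A.valuation π₀ → π (toA A (-d / c₂ xm)) = 0 :=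
      fun d hd => res_toA_eq_zero Fr (by
        rw [map_div₀, Valuation.map_neg, div_lt_one₀ hvm]
        exact hd.trans_lt hgt)
    rw [hz (τ (c xm)) (by rw [inertia_valuation hτ]; exact hcπ xm hxm), hz (c xm) (hcπ xm hxm), mul_zero,
      sub_zero, add_zero, res_eq_zero_iff_lt Fr] at h
    have he : -c₂ xm / c₂ xm = -1 := by field_simp
    rw [he, coe_toA (by simp)] at h
    simp at h
  -- hence it is deep
  have hvπ₀ : 0 < A.valuation π₀ := zero_lt_iff.mpr ((map_ne_zero _).mpr hπ₀0)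
  have hdiv1 : ∀ {d : Qb}, A.valuation d ≤ A.valuation π₀ → A.valuation (d / π₀) ≤ 1 :=
    fun hd => by rw [map_div₀, div_le_one₀ hvπ₀]; exact hd
  have hdeep : ∀ x ∈ C.B, A.valuation (c₂ x) ^ (p - 1) < A.valuation (p : Qb) := by
    intro x hx
    have h := hmain π₀ hπ₀0 hπ₀1 le_rfl hc₂π x hx
    have hu := hdiv1 (d := -c x) (by rw [Valuation.map_neg]; exact hcπ x hx)
    -- `τ π₀ / π₀ ≡ a`
    have hgeom : τ π₀ = (∑ i ∈ Finset.range a, ζ ^ i) * π₀ := by
      rw [hπ₀, map_sub, map_one, hτζ, geom_sum_mul]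
    have hvζ : A.valuation ζ ≤ 1 := by
      have h1 : A.valuation ζ ^ p = 1 := by rw [← map_pow, hζ.pow_eq_one, map_one]
      exact ((pow_eq_one_iff.mp h1).resolve_right Fr.p_prime.ne_zero).le
    have hζA : ζ ∈ A := (A.valuation_le_one_iff _).mp hvζ
    have hζπ : π ⟨ζ, hζA⟩ = 1 := by
      have h1 : π (⟨ζ, hζA⟩ - 1) = 0 := (res_eq_zero_iff_lt Fr _).mpr (by
        push_cast
        exact hπ₀1)
      rwa [map_sub, map_one, sub_eq_zero] at h1
    have hsum : π (∑ i ∈ Finset.range a, (⟨ζ, hζA⟩ : A) ^ i) = (a : k) := by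
      rw [map_sum, Finset.sum_congr rfl fun i _ => by rw [map_pow, hζπ, one_pow]]
      simp
    have hτu : π (toA A (-τ (c x) / π₀)) = (a : k) * π (toA A (-c x / π₀)) := by
      have e : -τ (c x) / π₀ =
          τ (-c x / π₀) * ∑ i ∈ Finset.range a, ζ ^ i := by
        rw [map_div₀, map_neg, hgeom]
        by_cases hs : ∑ i ∈ Finset.range a, ζ ^ i = 0
        · have : τ π₀ = 0 := by rw [hgeom, hs, zero_mul]
          exact absurd this (by simpa using hπ₀0)
        · field_simp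
      have hτu1 : A.valuation (τ (-c x / π₀)) ≤ 1 := by rw [inertia_valuation hτ]; exact hu
      have e2 : toA A (-τ (c x) / π₀) =
          toA A (τ (-c x / π₀)) * ∑ i ∈ Finset.range a, (⟨ζ, hζA⟩ : A) ^ i := by
        refine Subtype.ext ?_
        rw [e]
        push_cast
        rw [coe_toA hτu1, coe_toA]
        rw [map_mul]
        refine mul_le_one' hτu1 ?_
        refine A.valuation.map_sum_le fun i _ => ?_
        rw [map_pow]
        exact pow_le_one₀ zero_le hvζ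
      have e3 : π (toA A (τ (-c x / π₀))) = π (toA A (-c x / π₀)) := by
        rw [← sub_eq_zero, ← map_sub, res_eq_zero_iff_lt Fr]
        push_cast
        rw [coe_toA hτu1, coe_toA hu]
        exact inertia_sub_lt hτ hu
      rw [e2, map_mul, e3, hsum, mul_comm]
    rw [hτu, sub_add_cancel, res_eq_zero_iff_lt Fr,
      coe_toA (hdiv1 (by rw [Valuation.map_neg]; exact hc₂π x hx)), map_div₀, Valuation.map_neg,
      div_lt_one₀ hvπ₀] at h
    exact (pow_lt_pow_left₀ h zero_le hp1).trans_eq hvπ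
  have hzero := C.eq_zero_of_deep hc₂ hdeep (mul_ne_zero hf₂0 (pow_ne_zero _ hh₂)) hdiv₂'
  have hdiv0 : C.div c₂ = 0 := Finset.sum_eq_zero fun x hx => by
    rw [hzero x hx, sub_self]
  refine ⟨h₂⁻¹, inv_ne_zero hh₂, fun Q => ?_⟩
  have := congrArg (fun D' : Divisor Qb F => D' Q) (hnf₂.trans hdiv0)
  simp only [Finsupp.add_apply, Fr.curve.divOf_apply, Finsupp.zero_apply] at this
  rw [Place.ord_inv]
  omega

end Frame

end FLTAgent.MazurP
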