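import Fermat.Agent.MazurP.Residual
import Fermat.Agent.LowerQ.Algebra

/-!
# Scalars on the isotypic part come from scalars on `E[p]`

`EigenPart.smul_eq_of_forall`: if `E[p]` is irreducible and `τ` is multiplication by `a` on an
`EigenPart`, it is multiplication by `a` on `E[p]`, because the group ring image of an
irreducible two dimensional odd representation is detected on any nonzero module satisfying its
relations (`LowerQ.eval_eq_zero`).
-/

set_option autoImplicit false
set_option linter.unusedSectionVars false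

noncomputable section

open AlgebraicCurve ModularCurve WeierstrassCurve
open scoped WeierstrassCurve.Affine

namespace FLTAgent.MazurP

local notation "Qb" => AlgebraicClosure ℚ
local notation "Γℚ" => (AlgebraicClosure ℚ ≃ₐ[ℚ] AlgebraicClosure ℚ)

/-- If `τ` is multiplication by `a` on the isotypic part, it is so on `E[p]`. -/
theorem EigenPart.smul_eq_of_forall {W : WeierstrassCurve ℤ} {p N : ℕ} [NeZero N] [Fact p.Prime]
    (E : EigenPart W p N) (hΔ0 : W.Δ ≠ 0) (hp2 : p ≠ 2) (hirr : W.ModRepIsIrreducible p)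
    (τ : Γℚ) (a : ℕ) (h : ∀ z ∈ E.S, τ • z = a • z) (x : CurvePoint W) (hx : p • x = 0) :
    τ • x = a • x := by
  obtain ⟨c₀, hc2, hc⟩ := exists_conj
  set ρ := modRep W p with hρ
  have hrel : ∀ y, LowerQ.evalV ρ y = 0 → ∀ z ∈ E.S, LowerQ.evalJ Γℚ (JZero N) y z = 0 := by
    intro y hy z hz
    have h := E.rel y.coeff (fun v hv => ?_) z hz
    · rw [LowerQ.evalJ, MonoidAlgebra.lift_apply]
      refine (AddMonoidHom.finsuppSum_apply ..).trans (Eq.trans ?_ h)
      exact Finsupp.sum_congr fun σ _ => rfl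
    · have hv' : v ∈ Submodule.torsionBy ℤ (CurvePoint W) p := by
        rw [Submodule.mem_torsionBy_iff, natCast_zsmul]; exact hv
      have h1 := congrArg Subtype.val (LinearMap.congr_fun hy ⟨v, hv'⟩)
      rw [LowerQ.evalV, MonoidAlgebra.lift_apply, Finsupp.sum, LinearMap.sum_apply,
        AddSubmonoidClass.coe_finsetSum] at h1
      exact h1
  have hirr' : ∀ N' : Submodule (ZMod p) (TorsSpace W p),
      (∀ σ, ∀ v ∈ N', ρ σ v ∈ N') → N' = ⊥ ∨ N' = ⊤ := fun N' hN' => hirr.2 N' hN'
  have h0 := LowerQ.eval_eq_zero ρ hirr' (finrank_torsSpace hΔ0) hp2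
    (c₀ := c₀) (by rw [← map_mul, hc2, map_one]) (modDet_conj hΔ0 hc) E.S E.ne_bot E.torsion
    E.galois_mem hrel (x := MonoidAlgebra.of ℤ Γℚ τ - (a : MonoidAlgebra ℤ Γℚ)) fun z hz => by
      rw [map_sub, map_natCast]
      change LowerQ.evalJ Γℚ (JZero N) _ z - (a : AddMonoid.End (JZero N)) z = 0
      rw [LowerQ.evalJ_of, AddMonoid.End.natCast_apply, h z hz, sub_self]
  rw [map_sub, map_natCast, LowerQ.evalV_of, sub_eq_zero] at h0
  have hv' : x ∈ Submodule.torsionBy ℤ (CurvePoint W) p := by
    rw [Submodule.mem_torsionBy_iff, natCast_zsmul]; exact hx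
  have h2 := congrArg Subtype.val (LinearMap.congr_fun h0 ⟨x, hv'⟩)
  rw [hρ, coe_modRep, Module.End.natCast_apply] at h2
  exact h2

end FLTAgent.MazurP
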