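import Fermat.Agent.MazurP.Constant
import Fermat.Agent.MazurP.Transfer
import Fermat.Agent.MazurP.Scalar
import Fermat.Agent.MazurP.EllAtP
import Fermat.Agent.LowerQ.Core

/-!
# Mazur's principle at `p`

`isResiduallyModularOfLevel_of_ramData`: for `p ≥ 5`, `p ∤ M`, if `E[p]` is irreducible, has
`RamData` at the places over `p` and is modular of level `Mp`, it is modular of level `M`.
Otherwise the functions of the classes in the isotypic part have `p`-th power reductions on both
components (`isPP_false`, and the Atkin-Lehner involution) and `p`-th power norms to level `M`;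
so inertia acts on the isotypic part, hence on `E[p]`, by the cyclotomic scalar, which is
false.
-/

set_option autoImplicit false
set_option linter.style.haveILetI false
set_option maxHeartbeats 1000000
set_option synthInstance.maxHeartbeats 400000

noncomputable section

open AlgebraicCurve ModularCurve
open scoped Classical

namespace FLTAgent.MazurP

local notation "Qb" => AlgebraicClosure ℚ
local notation "Γℚ" => (AlgebraicClosure ℚ ≃ₐ[ℚ] AlgebraicClosure ℚ)

variable {p : ℕ} [NeZero p] [Fact p.Prime] {A : ValuationSubring Qb} {M : ℕ} [NeZero M]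

local notation "kA" => IsLocalRing.ResidueField A

/-- The reduction on the first component is a `p`-th power. -/
theorem isPP_false (hp5 : 5 ≤ p) {W : WeierstrassCurve ℤ} (hΔ0 : W.Δ ≠ 0)
    (hirr : W.ModRepIsIrreducible p) (hram : Nonempty (RamData W p A))
    (hnot : ¬ W.IsResiduallyModularOfLevel p M)
    {hp : p.Prime} {hpM : ¬ p ∣ M} {hA : A.LiesOverPrime p} (T : ModFrame A p M hp hpM hA)
    (E : EigenPart W p (M * p))
    (D : Divisor.degZero (K := Qb) (F := modularFunctionFieldBar (M * p)))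
    (hz : Pic0.mk D ∈ E.S) {f : modularFunctionFieldBar (M * p)} (hf : f ≠ 0)
    (hdiv : ∀ v, v.ord f = (p : ℤ) * (D : Divisor Qb (modularFunctionFieldBar (M * p))) v) :
    T.Fr.IsPP false f := by
  obtain ⟨r, hr, hrs, heig⟩ := exists_redSeries hA hf
  have hθ := qTheta_redSeries_eq_zero hp5 hpM hΔ0 hirr hram hA hnot E D hz hf hdiv hr hrs (heig D hdiv)
  obtain ⟨a, ha, hser⟩ := hrs _ hp hpM hA T f rfl
  obtain ⟨u, hu⟩ := exists_pow_eq_of_qTheta_eq_zero A hA hpM (g := T.Fr.nred false f) (by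
    by_contra h
    rw [hser, ← ne_eq, qTheta_ne_zero_iff (mul_ne_zero (by simpa using ha) hr),
      qDlog_C_mul ha hr, ← qTheta_ne_zero_iff hr] at h
    exact h hθ)
  exact Frame.IsPP.of_nred hf hu

omit [Fact p.Prime] in
theorem isPP_true_of_atkinLehner {hp : p.Prime} {hpM : ¬ p ∣ M} {hA : A.LiesOverPrime p}
    (T : ModFrame A p M hp hpM hA) {f : modularFunctionFieldBar (M * p)}
    (h : T.Fr.IsPP false (BadQ.atkinLehner hp hpM f)) : T.Fr.IsPP true f := by
  obtain ⟨d, u, hd, hu, hmem, hred⟩ := h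
  rw [T.G_false] at hmem hred
  have he : BadQ.atkinLehner hp hpM (d • f) = d • BadQ.atkinLehner hp hpM f := by
    rw [Algebra.smul_def, Algebra.smul_def, map_mul, AlgHom.commutes]
  refine ⟨d, u, hd, hu, ?_, ?_⟩
  · rw [T.G_true]
    show BadQ.atkinLehner hp hpM (d • f) ∈ BadQ.VI A M p
    rw [he]; exact hmem
  · rw [T.G_true]
    show (BadQ.gaussInf A M p hp hpM hA).red (BadQ.atkinLehner hp hpM (d • f)) = u ^ p
    rw [he]; exact hred

theorem ord_smul_of_ord_eq {K F : Type*} [Field K] [Field F] [Algebra K F] {p : ℕ}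
    (g : SemilinearAut K F) {D : Divisor K F} {f : F}
    (h : ∀ P : Place K F, P.ord f = (p : ℤ) * D P) (P : Place K F) :
    P.ord (g • f) = (p : ℤ) * (g • D) P := by
  rw [SemilinearAut.divisor_smul_apply, ← h, ← SemilinearAut.ord_smul g (g⁻¹ • P) f, smul_inv_smul]

/-- A trivial pushforward makes the norm a `p`-th power. -/
theorem exists_normBack_eq_pow [NeZero (M * p)]
    (φ : modularFunctionFieldBar M →ₐ[Qb] modularFunctionFieldBar (M * p))
    (hφ : φ.toRingHom.IsIntegral)
    (D : Divisor.degZero (K := Qb) (F := modularFunctionFieldBar (M * p)))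
    {f : modularFunctionFieldBar (M * p)} (hf : f ≠ 0)
    (hdiv : ∀ v, v.ord f = (p : ℤ) * (D : Divisor Qb (modularFunctionFieldBar (M * p))) v)
    (hpush : Divisor.pushforwardAlong φ hφ (D : Divisor Qb (modularFunctionFieldBar (M * p))) ∈
      Divisor.principal (K := Qb) (F := modularFunctionFieldBar M)) :
    ∃ X, normBack φ f = X ^ p := by
  haveI := Kronecker.isFF_bar M
  haveI := Kronecker.isFF_bar (M * p)
  have hfin : FiniteAlong Qb φ := FF.finiteAlong φ
  have hN : NormFormulaAlong Qb φ hfin := FF.normFormulaAlong φ hfin (FF.separableAlong φ)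
  obtain ⟨g, hg, hgd⟩ := hpush
  letI := algebraAlong φ
  haveI := isScalarTower_along φ
  haveI := isIntegral_along φ hφ
  haveI : Module.Finite (modularFunctionFieldBar M) (modularFunctionFieldBar (M * p)) := hfin
  set n := Algebra.norm (modularFunctionFieldBar M) f with hn
  have hn0 : n ≠ 0 := Algebra.norm_ne_zero_iff.mpr hf
  obtain ⟨c, hc⟩ := exists_smul_of_ord_eq hn0 (pow_ne_zero p hg) fun v => by
    have h1 := hN f hf ((p : ℤ) • (D : Divisor Qb (modularFunctionFieldBar (M * p))))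
      (fun w => by rw [Finsupp.smul_apply, smul_eq_mul, hdiv]) v
    rw [map_zsmul, Finsupp.smul_apply, smul_eq_mul] at h1
    rw [hn, ← h1, FF.ord_pow, ← hgd v]
    rfl
  obtain ⟨s, hs⟩ := IsAlgClosed.exists_pow_nat_eq c (Fact.out : p.Prime).pos
  refine ⟨φ (algebraMap Qb _ s * g), ?_⟩
  show φ n = _
  rw [hc, ← hs, map_pow, ← mul_pow, map_pow]

/-- **Mazur's principle at `p`**. -/
theorem isResiduallyModularOfLevel_of_ramData (W : WeierstrassCurve ℤ) (hΔ0 : W.Δ ≠ 0)
    (hp5 : 5 ≤ p) (hirr : W.ModRepIsIrreducible p)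
    (hram : ∀ A : ValuationSubring Qb, A.LiesOverPrime p → Nonempty (RamData W p A))
    (hpM : ¬ p ∣ M) (hmod : W.IsResiduallyModularOfLevel p (M * p)) :
    W.IsResiduallyModularOfLevel p M := by
  by_contra hnot
  have hp : p.Prime := Fact.out
  have hp2 : p ≠ 2 := by omega
  haveI : NeZero (M * p) := ⟨mul_ne_zero (NeZero.ne M) (NeZero.ne p)⟩
  obtain ⟨A, hA, -⟩ := GalCommon.exists_place_frobenius hp
  haveI := GalCommon.isAlgClosed_residueField A hp hA
  obtain ⟨T⟩ := nonempty_modFrame A hp hpM hA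
  obtain ⟨E⟩ := nonempty_eigenPart W hΔ0 hp2 hirr hmod
  obtain ⟨z₀, hz₀, hz₀0⟩ : ∃ z ∈ E.S, z ≠ 0 := by
    by_contra h
    push Not at h
    exact E.ne_bot ((AddSubgroup.eq_bot_iff_forall _).mpr h)
  obtain ⟨E', hE'⟩ := EigenPart.exists_map hp2 hΔ0 E (LowerQ.wHom hp hpM)
    (LowerQ.wHom_galois hp hpM) ⟨z₀, hz₀, fun h => hz₀0 (by
      rw [← LowerQ.wHom_wHom hp hpM z₀, h, map_zero])⟩
  obtain ⟨ζ, hζ⟩ := HasEnoughRootsOfUnity.exists_primitiveRoot Qb p
  obtain ⟨τ, hτ, hτne⟩ := exists_inertia_not_cyclotomic_scalar W hΔ0 hp hp2 hA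
  obtain ⟨a, -, ha⟩ := hζ.eq_pow_of_pow_eq_one (ξ := τ ζ)
    (by rw [← map_pow, hζ.pow_eq_one, map_one])
  obtain ⟨x, hx, hxne⟩ := hτne ζ a hζ ha.symm
  refine hxne (E.smul_eq_of_forall hΔ0 hp2 hirr τ a (fun z hz => ?_) x hx)
  obtain ⟨D, f, rfl, hf, hdiv⟩ := exists_fun_of_nsmul_eq_zero (E.torsion z hz)
  -- both reductions are `p`-th powers
  have hpp : ∀ b, T.Fr.IsPP b f
    | false => isPP_false hp5 hΔ0 hirr (hram A hA) hnot T E D hz hf hdiv
    | true => by
      refine isPP_true_of_atkinLehner T ?_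
      refine isPP_false hp5 hΔ0 hirr (hram A hA) hnot T E'
        (SemilinearAut.degZeroSMulHom (LowerQ.wAut hp hpM) D) ?_ ((map_ne_zero _).mpr hf) ?_
      · rw [hE']
        exact ⟨Pic0.mk D, hz, rfl⟩
      · intro v
        rw [← LowerQ.wAut_smul hp hpM f, SemilinearAut.coe_degZeroSMulHom]
        exact ord_smul_of_ord_eq _ hdiv v
  -- the norms
  have hα : HeckeAlphaBarIntegral Qb M p := (Kronecker.heckeInputs_bar M p).choose
  have hβ : HeckeBetaBarIntegral Qb M p := (Kronecker.heckeInputs_bar M p).choose_spec.choose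
  obtain ⟨hpα, hpβ⟩ := pushforward_mem_principal hp2 hΔ0 hnot E hα hβ D hz
  have hN : ∀ b, ∃ X, T.Fr.N b f = X ^ p
    | false => by rw [T.N_false]; exact exists_normBack_eq_pow _ hα D hf hdiv hpα
    | true => by rw [T.N_true]; exact exists_normBack_eq_pow _ hβ D hf hdiv hpβ
  have hmain := T.Fr.act_sub_smul_principal _ D.2 hdiv hpp hN hτ hζ ha.symm
  rw [T.act_eq] at hmain
  rw [galois_smul_pic0_def, SemilinearAut.pic0_smul_mk,
    show a • Pic0.mk D = Pic0.mk (a • D) from rfl]
  refine (QuotientAddGroup.eq_iff_sub_mem).mpr (AddSubgroup.mem_addSubgroupOf.mpr ?_)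
  rw [AddSubgroupClass.coe_sub, SemilinearAut.coe_degZeroSMulHom, AddSubgroupClass.coe_nsmul]
  exact hmain

end FLTAgent.MazurP
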