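import Fermat.Agent.MazurP.QEigenSeries
import Fermat.Agent.ModularDiff.QSeries
import Fermat.Agent.ModularPlaces.Genus
import Fermat.Agent.Eisen.Duality
import Fermat.Agent.Eisen.HasQ
import Fermat.Agent.Mazur.CuspUnit

/-!
# Integral cusp forms as differentials over `ℂ` and `ℚ̄`

`formSeries` is the series of an element of the integral lattice of weight two cusp forms of
level `N`, and `quotSeries g = g / θj`. `exists_quotFun` realises it over `ℂ` as a function `h`
for which `h dj` is a regular differential, phrased as bounds on the orders of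
`h⁶ j⁴ (j - 1728)³` (`ord_sixth`); `exists_quotFun_bar` does the same over `ℚ̄`.
-/

set_option autoImplicit false
set_option linter.style.haveILetI false
set_option maxHeartbeats 1000000
set_option synthInstance.maxHeartbeats 400000

noncomputable section

open UpperHalfPlane ModularCurve AlgebraicCurve CongruenceSubgroup CuspForm
open scoped MatrixGroups

namespace FLTAgent.MazurP

open FLTAgent.ModularPlaces (jC jB)
open FLTAgent.Modular (FC ev)

local notation "Qb" => AlgebraicClosure ℚ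

/-! ### Series -/

/-- The series of an integral form. -/
def formSeries (N : ℕ) [NeZero N] : ↥(intLattice N 2) →ₗ[ℤ] LaurentSeries ℤ where
  toFun g := HahnSeries.ofPowerSeries ℤ ℤ (PowerSeries.mk fun n => Eisen.coeffInt N n g)
  map_add' g g' := by
    rw [← map_add]
    congr 1
    ext n
    simp only [PowerSeries.coeff_mk, map_add]
    exact map_add (Eisen.coeffIntLin N n) g g'
  map_smul' c g := by
    rw [RingHom.id_apply, ← map_zsmul]
    congr 1
    ext n
    simp only [PowerSeries.coeff_mk, map_zsmul, ← Eisen.coeffIntLin_apply]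

variable {N : ℕ} [NeZero N]

theorem formSeries_coeff (g : ↥(intLattice N 2)) (n : ℕ) :
    (formSeries N g).coeff (n : ℤ) = Eisen.coeffInt N n g := by
  show (HahnSeries.ofPowerSeries ℤ ℤ (PowerSeries.mk fun n => Eisen.coeffInt N n g)).coeff (n : ℤ)
    = _
  rw [HahnSeries.ofPowerSeries_apply_coeff, PowerSeries.coeff_mk]

theorem formSeries_coeff_neg (g : ↥(intLattice N 2)) {n : ℤ} (hn : n < 0) :
    (formSeries N g).coeff n = 0 :=
  ModularCurve.ofPowerSeries_coeff_of_neg _ hn

theorem hasQExp_formSeries (g : ↥(intLattice N 2)) :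
    Modular.HasQExp 1 (⇑(g : CuspForm (Gamma0 N) 2))
      (coeffMap (Int.castRingHom ℂ) (formSeries N g)) := by
  haveI : Fact (IsCusp OnePoint.infty
      (Subgroup.map (Matrix.SpecialLinearGroup.mapGL ℝ) (Gamma0 N))) :=
    ⟨Subgroup.isCusp_of_mem_strictPeriods one_pos (IntStr.one_mem_periods N)⟩
  have hq := Eisen.hasQ_modularForm (g : CuspForm (Gamma0 N) 2) one_pos (IntStr.one_mem_periods N)
  have heq : coeffMap (Int.castRingHom ℂ) (formSeries N g) =
      Modular.psC (qExpansion 1 ⇑(g : CuspForm (Gamma0 N) 2)) := by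
    ext k
    rw [coeffMap_coeff, Modular.psC]
    rcases le_or_gt 0 k with h | h
    · obtain ⟨n, rfl⟩ := Int.eq_ofNat_of_zero_le h
      rw [formSeries_coeff, HahnSeries.ofPowerSeries_apply_coeff, eq_intCast,
        ← Eisen.coeffInt_spec]
      rfl
    · rw [formSeries_coeff_neg g h, ModularCurve.ofPowerSeries_coeff_of_neg _ h, map_zero]
  rw [heq]
  exact Modular.hasQExp_ofPowerSeries (Filter.Eventually.of_forall fun z => hq z)

theorem isUnit_qTheta_jqModC : IsUnit (qTheta (jqModC ℤ)) := by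
  have hc : (qTheta (jqModC ℤ)).coeff (-1) = -1 := by
    have h : ((jqModC ℤ).coeff (-1) : ℚ) = 1 := by
      rw [← eq_intCast (Int.castRingHom ℚ), ← coeffMap_coeff, coeffMap_jqModC,
        coeff_jqModC_neg_one]
    rw [qTheta_coeff, show (jqModC ℤ).coeff (-1) = 1 by exact_mod_cast h]
    simp
  have hlow : ∀ k : ℤ, k < -1 → (qTheta (jqModC ℤ)).coeff k = 0 := fun k hk => by
    have h : ((jqModC ℤ).coeff k : ℚ) = 0 := by
      rw [← eq_intCast (Int.castRingHom ℚ), ← coeffMap_coeff, coeffMap_jqModC]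
      exact HahnSeries.coeff_eq_zero_of_lt_order (by rwa [Mazur.order_jqModC'])
    rw [qTheta_coeff, show (jqModC ℤ).coeff k = 0 by exact_mod_cast h, mul_zero]
  have hne : qTheta (jqModC ℤ) ≠ 0 := fun h => by simp [h] at hc
  have hord : (qTheta (jqModC ℤ)).order = -1 :=
    le_antisymm (HahnSeries.order_le_of_coeff_ne_zero (by rw [hc]; norm_num))
      (le_of_not_gt fun h => hne (HahnSeries.leadingCoeff_eq_zero.mp (by
        rw [HahnSeries.leadingCoeff_eq]; exact hlow _ h)))
  rw [HahnSeries.isUnit_iff, HahnSeries.leadingCoeff_eq, hord, hc]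
  exact isUnit_one.neg

/-- The integral series of `g / θj`. -/
def quotSeries (g : ↥(intLattice N 2)) : LaurentSeries ℤ :=
  formSeries N g * (↑(isUnit_qTheta_jqModC.unit⁻¹) : LaurentSeries ℤ)

theorem quotSeries_mul_qTheta (g : ↥(intLattice N 2)) :
    quotSeries g * qTheta (jqModC ℤ) = formSeries N g := by
  rw [quotSeries, mul_assoc]
  exact (congrArg (formSeries N g * ·) isUnit_qTheta_jqModC.val_inv_mul).trans (mul_one _)

/-! ### Over `ℂ` -/

theorem isSep_jC : FF.IsSep ℂ (jC N) where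
  transcendental := ModularPlaces.transcendental_jC N
  finite := ModularPlaces.finiteDimensional_jC N
  separable := by
    haveI := ModularPlaces.finiteDimensional_jC N
    exact Algebra.IsAlgebraic.isSeparable_of_perfectField

theorem ord_sub_eq_zero {K F : Type*} [Field K] [Field F] [Algebra K F] (v : Place K F) {x : F}
    {a b : K} (hab : a ≠ b) (h : 0 < v.ord (x - algebraMap K F a)) :
    v.ord (x - algebraMap K F b) = 0 := by
  have hc : algebraMap K F (a - b) ≠ 0 := (_root_.map_ne_zero _).mpr (sub_ne_zero.mpr hab)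
  have e : x - algebraMap K F b = algebraMap K F (a - b) + (x - algebraMap K F a) := by
    rw [map_sub]; ring
  rw [e, (FF.ord_add_of_lt v hc (g := x - algebraMap K F a)
    (Or.inr (by rw [FF.ord_algebraMap]; exact h))).2, FF.ord_algebraMap]

theorem ord_jC_sub_le {a : ℂ} {b : ℕ} {z : ℍ} (hz : ModularPlaces.jE z = a)
    (hb : Modular.ellOrder 1 z = b) (hb0 : 0 < b) (v : Place ℂ (FC N))
    (hv : 0 < v.ord (jC N - algebraMap ℂ (FC N) a)) :
    v.ord (jC N - algebraMap ℂ (FC N) a) ≤ b := by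
  subst hz
  obtain ⟨x, rfl⟩ := ModularPlaces.exists_placeZ_eq v z hv
  induction x using QuotientGroup.induction_on with
  | _ γ =>
    have h := ModularPlaces.degZ_mul_multAt (N := N) z γ
    have h2 : ModularPlaces.multAt (ModularPlaces.jE z)
        (ModularPlaces.fibreMap z (γ : _)) ≤ b :=
      Nat.le_of_dvd hb0 ⟨_, (hb ▸ h).symm.trans (mul_comm _ _)⟩
    have h3 := Int.self_le_toNat ((ModularPlaces.fibreMap z (γ : _) : Place ℂ (FC N)).ord
      (jC N - algebraMap ℂ (FC N) (ModularPlaces.jE z)))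
    exact h3.trans (by exact_mod_cast h2)

/-- The orders of `h⁶ j⁴ (j - 1728)³`. -/
theorem ord_sixth (h : FC N) (h0 : h ≠ 0) (hreg : ∀ v : Place ℂ (FC N),
      0 ≤ v.ordDifferential (h • KaehlerDifferential.D ℂ (FC N) (jC N)))
    (v : Place ℂ (FC N)) :
    let y := h ^ 6 * jC N ^ 4 * (jC N - algebraMap ℂ (FC N) 1728) ^ 3
    y ≠ 0 ∧ (0 ≤ v.ord (jC N) → 0 ≤ v.ord y) ∧ (v.ord (jC N) < 0 → 6 + v.ord (jC N) ≤ v.ord y) := by
  intro y
  have hj0 : jC N ≠ 0 := fun e => (ModularPlaces.transcendental_jC N) (e ▸ isAlgebraic_zero)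
  have hj1 : jC N - algebraMap ℂ (FC N) 1728 ≠ 0 := fun e =>
    (ModularPlaces.transcendental_jC N) (by rw [sub_eq_zero.mp e]; exact isAlgebraic_algebraMap _)
  have hsep := isSep_jC (N := N)
  have hy : v.ord y = 6 * v.ord h + 4 * v.ord (jC N)
      + 3 * v.ord (jC N - algebraMap ℂ (FC N) 1728) := by
    simp only [y]
    rw [v.ord_mul (mul_ne_zero (pow_ne_zero _ h0) (pow_ne_zero _ hj0)) (pow_ne_zero _ hj1),
      v.ord_mul (pow_ne_zero _ h0) (pow_ne_zero _ hj0), FF.ord_pow, FF.ord_pow, FF.ord_pow]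
    push_cast; ring
  refine ⟨mul_ne_zero (mul_ne_zero (pow_ne_zero _ h0) (pow_ne_zero _ hj0)) (pow_ne_zero _ hj1),
    fun hv => ?_, fun hv => ?_⟩
  · have hreg' := hreg v
    rw [FF.ordDifferential_smul_of_ne_zero v h0 (FF.D_ne_zero_of_isSep hsep),
      FF.ordDifferential_D_of_tame_finite hsep v hv
        (Nat.cast_ne_zero.mpr (FF.ramX_pos hsep v).ne')] at hreg'
    obtain ⟨c, hc⟩ := FF.exists_residue_of_isSep hsep v hv
    have he := FF.ord_sub_eq_ramX hsep v hc
    rw [← he] at hreg'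
    rcases eq_or_ne c 0 with rfl | hc0
    · have hle := ord_jC_sub_le (b := 3) ModularPlaces.jE_rho ModularPlaces.ellOrder_one_rho
        (by norm_num) v hc
      have h1 := ord_sub_eq_zero v (b := (1728 : ℂ)) (by norm_num) hc
      rw [map_zero, sub_zero] at hreg' hle
      rw [hy, h1]; push_cast at hle; omega
    have h4 : v.ord (jC N) = 0 := by
      simpa using ord_sub_eq_zero v (b := (0 : ℂ)) hc0 hc
    rcases eq_or_ne c 1728 with rfl | hc1
    · have hle := ord_jC_sub_le (b := 2) ModularPlaces.jE_I ModularPlaces.ellOrder_one_I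
        (by norm_num) v hc
      rw [hy, h4]; push_cast at hle; omega
    · have h1 := ord_sub_eq_zero v (b := (1728 : ℂ)) hc1 hc
      rw [ModularPlaces.ord_eq_one_generic v hc0 hc1 hc] at hreg'
      rw [hy, h4, h1]; omega
  · have hreg' := hreg v
    rw [FF.ordDifferential_smul_of_ne_zero v h0 (FF.D_ne_zero_of_isSep hsep),
      FF.ordDifferential_D_of_tame_infinite hsep v hv
        (Nat.cast_ne_zero.mpr (FF.ramX_pos hsep v).ne')] at hreg'
    have he := FF.ord_eq_neg_ramX hsep v hv
    have h1 : v.ord (jC N - algebraMap ℂ (FC N) 1728) = v.ord (jC N) := by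
      rw [sub_eq_add_neg, ← map_neg]
      exact (FF.ord_add_of_lt v hj0 (g := algebraMap ℂ (FC N) (-1728))
        (Or.inr (by rw [FF.ord_algebraMap]; exact hv))).2
    rw [hy, h1]; omega

theorem qTheta_eq_thetaSeries (y : LaurentSeries ℂ) : qTheta y = ModularDiff.thetaSeries y := by
  ext n; simp

theorem coe_jC : (jC N : LaurentSeries ℂ) = jqModC ℂ := by
  show coeffEmb ℂ jq = _
  rw [ModularCosets.coeffEmb_jq_eq]

/-- The function `g / θj` over `ℂ`, with regular differential. -/
theorem exists_quotFun (g : ↥(intLattice N 2)) (hg : g ≠ 0) :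
    ∃ h : FC N, h ≠ 0 ∧ (h : LaurentSeries ℂ) = coeffMap (Int.castRingHom ℂ) (quotSeries g) ∧
      ∀ v : Place ℂ (FC N),
        0 ≤ v.ordDifferential (h • KaehlerDifferential.D ℂ (FC N) (jC N)) := by
  set G : CuspForm (Gamma0 N) 2 := (g : CuspForm (Gamma0 N) 2)
  have hjj : ModularDiff.jFC N = jC N := Subtype.ext rfl
  set c : ℂ := 2 * Real.pi * Complex.I with hc
  have hc0 : c ≠ 0 := by simp [hc, Real.pi_ne_zero]
  have hsE : Modular.HasQExp 1 (ModularDiff.djH N) (c • qTheta (jqModC ℂ)) := by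
    rw [qTheta_eq_thetaSeries, ← coe_jC (N := N), ← hjj]
    have := ModularDiff.hasQExp_dH one_pos (Modular.ev_spec (ModularDiff.jFC N)).2
    simpa [ModularDiff.djH, hc] using this
  have hθ : qTheta (jqModC ℂ) ≠ 0 := fun h => by
    have := congrArg (fun x : LaurentSeries ℂ => x.coeff (-1)) h
    simp [coeff_jqModC_neg_one] at this
  have hsE0 : c • qTheta (jqModC ℂ) ≠ 0 := smul_ne_zero hc0 hθ
  obtain ⟨y, hy, hcod⟩ := ModularDiff.exists_quotient (ModularDiff.isWForm_cuspForm G)
    ModularDiff.isWForm_djH (hasQExp_formSeries g) hsE hsE0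
  have hq : ModularDiff.quotForm N ⇑G = y :=
    ModularDiff.quotForm_unique (ModularDiff.isWForm_cuspForm G) hcod
  have hω : ModularDiff.cuspToDiff N G = y • KaehlerDifferential.D ℂ (FC N) (jC N) := by
    show ModularDiff.diffOf N ⇑G = _
    rw [ModularDiff.diffOf, hq, hjj]
  have hω0 : ModularDiff.cuspToDiff N G ≠ 0 := fun e => hg (Subtype.ext
    (ModularDiff.cuspToDiff_injective (e.trans (map_zero (ModularDiff.cuspToDiff N)).symm)))
  have hy0 : y ≠ 0 := fun e => hω0 (by rw [hω, e, zero_smul])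
  refine ⟨algebraMap ℂ (FC N) c * y, mul_ne_zero (by simpa using hc0) hy0, ?_, fun v => ?_⟩
  · have hmap : coeffMap (Int.castRingHom ℂ) (quotSeries g) * qTheta (jqModC ℂ) =
        coeffMap (Int.castRingHom ℂ) (formSeries N g) := by
      rw [← quotSeries_mul_qTheta, map_mul, coeffMap_qTheta, coeffMap_jqModC]
    rw [MulMemClass.coe_mul, hy, ← hmap, ← HahnSeries.C_mul_eq_smul,
      show ((algebraMap ℂ (FC N) c : FC N) : LaurentSeries ℂ) = HahnSeries.C c from
        algebraMap_laurentSeries_eq_single ℂ c]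
    have hC : (HahnSeries.C c : LaurentSeries ℂ) ≠ 0 := by simpa using hc0
    field_simp
  · have hh := ModularDiff.cuspToDiff_holomorphic G hω0 v
    rw [hω, FF.ordDifferential_smul_of_ne_zero v hy0 (FF.D_ne_zero_of_isSep isSep_jC)] at hh
    rw [FF.ordDifferential_smul_of_ne_zero v (mul_ne_zero (by simpa using hc0) hy0)
      (FF.D_ne_zero_of_isSep isSep_jC), v.ord_mul (by simpa using hc0) hy0, FF.ord_algebraMap]
    omega

/-- The function `g / θj` over `ℚ̄`, and the orders of `h⁶ j⁴ (j - 1728)³`. -/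
theorem exists_quotFun_bar (g : ↥(intLattice N 2)) (hg : g ≠ 0) :
    ∃ h : modularFunctionFieldBar N,
      (h : LaurentSeries Qb) = coeffMap (Int.castRingHom Qb) (quotSeries g) ∧
      let y := h ^ 6 * jB N ^ 4 * (jB N - algebraMap Qb _ 1728) ^ 3
      y ≠ 0 ∧ ∀ v : Place Qb (modularFunctionFieldBar N),
        (0 ≤ v.ord (jB N) → 0 ≤ v.ord y) ∧ (v.ord (jB N) < 0 → 6 + v.ord (jB N) ≤ v.ord y) := by
  let ι : Torsion.Qb →+* ℂ := ModularCosets.iotaBar
  obtain ⟨hC, h0, hser, hreg⟩ := exists_quotFun g hg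
  have hmap : coeffMap ι (coeffMap (Int.castRingHom Qb) (quotSeries g)) = (hC : LaurentSeries ℂ) := by
    rw [hser, coeffMap_coeffMap]
    exact coeffMap_congr (Subsingleton.elim _ _) _
  refine ⟨⟨_, Mazur.mem_bar_of_coeffMap_mem ι (by rw [hmap]; exact hC.2)⟩, rfl, ?_⟩
  intro y
  have hemb : Torsion.embFC N ι y =
      hC ^ 6 * jC N ^ 4 * (jC N - algebraMap ℂ (FC N) 1728) ^ 3 := by
    set h' : modularFunctionFieldBar N :=
      ⟨coeffMap (Int.castRingHom Qb) (quotSeries g), _⟩ with hh'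
    have e1 : Torsion.embFC N ι h' = hC := Subtype.ext ((Torsion.coe_embFC ι h').trans hmap)
    have e2 := ModularPlaces.embFC_jB N ι
    have e3 : Torsion.embFC N ι (jB N - algebraMap Qb (modularFunctionFieldBar N) 1728) =
        jC N - algebraMap ℂ (FC N) 1728 :=
      (ModularPlaces.embFC_jB_sub N ι 1728).trans (congrArg (fun c : ℂ => jC N - algebraMap ℂ (FC N) c) (map_ofNat ι 1728))
    simp only [y]
    rw [map_mul, map_mul, map_pow, map_pow, map_pow, e1, e2, e3]
  obtain ⟨vC⟩ : Nonempty (Place ℂ (FC N)) := ⟨ModularPlaces.placeZ UpperHalfPlane.I⟩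
  refine ⟨fun e => (ord_sixth hC h0 hreg vC).1 (by rw [← hemb, e, map_zero]), fun v => ?_⟩
  obtain ⟨-, h1, h2⟩ := ord_sixth hC h0 hreg (Torsion.placeExt ι v)
  rw [← hemb, ← ModularPlaces.embFC_jB N ι, Torsion.ord_placeExt, Torsion.ord_placeExt] at h1 h2
  exact ⟨h1, h2⟩

end FLTAgent.MazurP
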