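import Fermat.Agent.MazurP.QEigenNorm
import Fermat.Agent.Kronecker.HeckeReduction
import Fermat.Agent.Reduction.InputsTower
import Fermat.Agent.Reduction.IgusaModEq

/-!
# The norm from level `M ℓ` to level `M` over the residue field

`normRes` commutes with reduction and satisfies the product formula (`normRes_betaC_expToRes`),
so the logarithmic derivative of the norm of `f(q^ℓ)` is `T_ℓ` of that of `f`
(`qDlog_normRes`); it preserves divisibility by `p` of the orders away from the poles of `j`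
(`dvd_ord_normRes`).
-/

set_option autoImplicit false
set_option linter.style.haveILetI false

noncomputable section

open AlgebraicCurve ModularCurve

namespace FLTAgent.MazurP

local notation "Qb" => AlgebraicClosure ℚ

open FLTAgent.Kronecker (alphaC betaC)
open FLTAgent.Reduction (integralExp expToBar expToRes modularGauss)

section ResidueNorm

variable {M ℓ p : ℕ} [NeZero M] [NeZero ℓ] [Fact p.Prime]
variable (A : ValuationSubring Qb)

local notation "kA" => IsLocalRing.ResidueField A

variable (M ℓ)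

/-- The norm from level `M ℓ` to level `M` over the residue field. -/
def normRes : modularFunctionFieldFullC kA (M * ℓ) →* modularFunctionFieldFullC kA M :=
  letI := algebraAlong (alphaC kA M ℓ)
  Algebra.norm _

variable {A M ℓ}

omit [NeZero M] [NeZero ℓ] in
theorem not_dvd_mul_prime (hpM : ¬ p ∣ M) (hℓ : ℓ.Prime) (hℓp : ℓ ≠ p) : ¬ p ∣ M * ℓ := fun h =>
  ((Fact.out : p.Prime).dvd_mul.mp h).elim hpM fun h' =>
    hℓp ((Nat.prime_dvd_prime_iff_eq Fact.out hℓ).mp h').symm

/-- The lift of `y ↦ y (q^ℓ)` to integral expansions. -/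
theorem qExpand_mem_integralExp (y : integralExp A M) :
    qExpand A ℓ (y : LaurentSeries A) ∈ integralExp A (M * ℓ) := by
  obtain ⟨h1, h2⟩ := Reduction.mem_integralExp.mp y.2
  haveI : NeZero (M * ℓ) := ⟨mul_ne_zero (NeZero.ne M) (NeZero.ne ℓ)⟩
  refine Reduction.mem_integralExp.mpr ⟨?_, ?_⟩
  · rw [ModularCurve.coeffMap_qExpand, ← coe_heckeBetaBar M ℓ
      (⟨_, h1⟩ : laurentBaseChange Qb (modularFunctionFieldFull M))]
    exact SetLike.coe_mem _
  · rw [ModularCurve.coeffMap_qExpand, ← Kronecker.coe_betaC kA M ℓ ⟨_, h2⟩]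
    exact SetLike.coe_mem _

/-- The norm of an integral function commutes with reduction, with its product formula. -/
theorem normRes_betaC_expToRes (hA : A.LiesOverPrime p) (hpM : ¬ p ∣ M) (hℓ : ℓ.Prime)
    (hℓM : ¬ ℓ ∣ M) (hℓp : ℓ ≠ p) (y : integralExp A M) (hy : expToRes A M y ≠ 0) :
    (normRes M ℓ A (betaC kA M ℓ (expToRes A M y)) : LaurentSeries kA) ≠ 0 ∧
      ∀ n, (qDlog (normRes M ℓ A (betaC kA M ℓ (expToRes A M y)) : LaurentSeries kA)).coeff n =
        heckeCoeff ℓ (qDlog (expToRes A M y : LaurentSeries kA)) n := by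
  haveI := Fact.mk hℓ
  haveI : NeZero (M * ℓ) := ⟨mul_ne_zero (NeZero.ne M) (NeZero.ne ℓ)⟩
  have hpMℓ := not_dvd_mul_prime hpM hℓ hℓp
  have hdvd : M ∣ M * ℓ := dvd_mul_right M ℓ
  haveI := GalCommon.isAlgClosed_residueField A (Fact.out : p.Prime) hA
  haveI := GalCommon.charP_residueField (Fact.out : p.Prime) hA
  haveI := Reduction.isFF_fullC_residue M A hA hpM
  haveI := Reduction.isFF_fullC_residue (M * ℓ) A hA hpMℓ
  haveI := Reduction.isFF_bar_curve M
  haveI := Reduction.isFF_bar_curve (M * ℓ)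
  letI := Reduction.barAlgebra hdvd
  letI := Reduction.resAlgebra A hdvd
  haveI := Reduction.barTower hdvd
  haveI := Reduction.resTower A hdvd
  haveI := FF.module_finite_extension Qb (F := modularFunctionFieldBar M)
    (F' := modularFunctionFieldBar (M * ℓ))
  haveI := FF.module_finite_extension kA (F := modularFunctionFieldFullC kA M)
    (F' := modularFunctionFieldFullC kA (M * ℓ))
  set Y : integralExp A (M * ℓ) := ⟨_, qExpand_mem_integralExp (ℓ := ℓ) y⟩ with hY
  obtain ⟨hV, hred⟩ := (Reduction.subRed_modularGauss A hdvd).norm_mem_red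
    (Reduction.modularGauss_scale A M hA hpM) (Reduction.finrank_tower_eq A hA hpMℓ hdvd)
    (Reduction.expToBar_mem Y)
  rw [Reduction.red_expToBar] at hred
  set N₀ := Algebra.norm (modularFunctionFieldBar M) (expToBar A (M * ℓ) Y) with hN₀
  -- the two norms
  have eY : expToBar A (M * ℓ) Y = heckeBetaBar Qb M ℓ (expToBar A M y) := Subtype.ext (by
    rw [Reduction.coe_expToBar]
    exact (ModularCurve.coeffMap_qExpand _ ℓ _).trans (coe_heckeBetaBar M ℓ
      (expToBar A M y : laurentBaseChange Qb (modularFunctionFieldFull M))).symm)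
  have eY' : expToRes A (M * ℓ) Y = betaC kA M ℓ (expToRes A M y) := Subtype.ext (by
    rw [Reduction.coe_expToRes, Kronecker.coe_betaC]
    exact ModularCurve.coeffMap_qExpand _ ℓ _)
  have hres : normRes M ℓ A (betaC kA M ℓ (expToRes A M y)) =
      (modularGauss A M).red N₀ := by
    rw [hred, ← eY']
    rfl
  obtain ⟨ζ, hζ⟩ := Kronecker.exists_primitiveRoot hℓ A
  obtain ⟨hα, hβ, hP', hfin, -, -⟩ := Kronecker.heckeInputs_bar M ℓ
  obtain ⟨u, z, hu, hz, hprod⟩ := exists_integral_norm hfin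
    (Kronecker.finrankAlong_alpha M hℓ hℓM)
    (Kronecker.hasSwap Qb Kronecker.embComplex (N := M) hℓ hℓM) ζ hζ (y : LaurentSeries A)
    (Reduction.mem_integralExp.mp y.2).1
  have hzN : coeffMap A.subtype z = (N₀ : LaurentSeries Qb) := by
    rw [hz, hN₀, eY]
    rfl
  have hzero : (coeffMap (IsLocalRing.residue A) y : LaurentSeries kA) ≠ 0 := fun h =>
    hy (Subtype.ext (by rw [Reduction.coe_expToRes, h]; rfl))
  have hℓk : (ℓ : kA) ≠ 0 := fun e =>
    hℓp ((Nat.prime_dvd_prime_iff_eq Fact.out hℓ).mp ((CharP.cast_eq_zero_iff kA p ℓ).mp e)).symm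
  obtain ⟨hz0, hdz⟩ := reduced_norm (IsLocalRing.residue A) hℓk hu hprod hzero
  obtain ⟨a, b, hb, hab⟩ := Reduction.modularGauss_mem.mp hV
  have hzab : z * (b : LaurentSeries A) = (a : LaurentSeries A) := by
    refine HahnSeries.ext (funext fun i => Subtype.ext ?_)
    have := congrArg (fun x : modularFunctionFieldBar M => (x : LaurentSeries Qb).coeff i) hab
    simp only [MulMemClass.coe_mul, Reduction.coe_expToBar, ← hzN, ← map_mul] at this
    exact this
  have hser : ((modularGauss A M).red N₀ : LaurentSeries kA) = coeffMap (IsLocalRing.residue A) z := by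
    have hb' : (expToRes A M b : LaurentSeries kA) ≠ 0 := fun h => hb (Subtype.ext h)
    rw [Reduction.modularGauss_red hb hab, IntermediateField.coe_div, div_eq_iff hb',
      Reduction.coe_expToRes, Reduction.coe_expToRes, ← map_mul, hzab]
  rw [hres, hser]
  exact ⟨hz0, fun n => by rw [hdz n, Reduction.coe_expToRes]⟩

/-- `T_ℓ` of a logarithmic derivative of the reduced curve is again one. -/
theorem qDlog_normRes (hA : A.LiesOverPrime p) (hpM : ¬ p ∣ M) (hℓ : ℓ.Prime) (hℓM : ¬ ℓ ∣ M)
    (hℓp : ℓ ≠ p) {u : modularFunctionFieldFullC kA M} (hu : u ≠ 0) :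
    normRes M ℓ A (betaC kA M ℓ u) ≠ 0 ∧
      ∀ n, (qDlog (normRes M ℓ A (betaC kA M ℓ u) : LaurentSeries kA)).coeff n =
        heckeCoeff ℓ (qDlog (u : LaurentSeries kA)) n := by
  obtain ⟨a, b, hb, rfl⟩ := Reduction.exists_frac u
  have ha : expToRes A M a ≠ 0 := (div_ne_zero_iff.mp hu).1
  obtain ⟨ha0, hda⟩ := normRes_betaC_expToRes hA hpM hℓ hℓM hℓp a ha
  obtain ⟨hb0, hdb⟩ := normRes_betaC_expToRes hA hpM hℓ hℓM hℓp b hb
  have hmul : normRes M ℓ A (betaC kA M ℓ (expToRes A M a / expToRes A M b)) *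
      normRes M ℓ A (betaC kA M ℓ (expToRes A M b)) =
        normRes M ℓ A (betaC kA M ℓ (expToRes A M a)) := by
    rw [← map_mul, ← map_mul, div_mul_cancel₀ _ hb]
  have hb1 : normRes M ℓ A (betaC kA M ℓ (expToRes A M b)) ≠ 0 := fun h => hb0 (by rw [h]; rfl)
  have hq := eq_div_iff hb1 |>.mpr hmul
  rw [hq]
  refine ⟨div_ne_zero (fun h => ha0 (by rw [h]; rfl)) hb1, fun n => ?_⟩
  rw [IntermediateField.coe_div, IntermediateField.coe_div, qDlog_div ha0 hb0,
    qDlog_div (fun h => ha (Subtype.ext h)) (fun h => hb (Subtype.ext h)), HahnSeries.coeff_sub,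
    hda, hdb, heckeCoeff_sub]

end ResidueNorm

section Generic

/-- `j (ℓ z)` is integral over `j`, given a monic equation `P` over `k[j]`. -/
private theorem ord_betaC_jq_nonneg_gen {k : Type*} [Field k] {M ℓ : ℕ} [NeZero M] [NeZero ℓ]
    (P : Polynomial (Polynomial k)) (hPm : P.Monic)
    (hP : P.eval₂ (Reduction.evJ k) (Reduction.jTopR ℓ k) = 0)
    (w : Place k (modularFunctionFieldFullC k (M * ℓ)))
    (hw : 0 ≤ w.ord (alphaC k M ℓ (Reduction.jF M k))) :
    0 ≤ w.ord (betaC k M ℓ (Reduction.jF M k)) := by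
  classical
  set O := w.toValuationSubring with hO
  set x := alphaC k M ℓ (Reduction.jF M k) with hx
  have hxO : x ∈ O := (FF.mem_iff w x).mpr (Or.inr hw)
  let ψ : Polynomial k →+* O := Polynomial.eval₂RingHom
    ((algebraMap k (modularFunctionFieldFullC k (M * ℓ))).codRestrict O.toSubring
      w.algebraMap_mem') ⟨x, hxO⟩
  have hψ : ∀ q, (((ψ q : modularFunctionFieldFullC k (M * ℓ))) : LaurentSeries k) =
      Reduction.evJ k q := fun q => by
    have h : (((modularFunctionFieldFullC k (M * ℓ)).val.toRingHom.comp O.subtype).comp ψ) =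
        Reduction.evJ k := by
      refine Polynomial.ringHom_ext (fun c => ?_) ?_
      · simp only [ψ, RingHom.comp_apply, Polynomial.coe_eval₂RingHom, Polynomial.eval₂_C,
          Reduction.evJ, HahnSeries.C_apply, ← algebraMap_laurentSeries_eq_single]
        rfl
      · simp only [ψ, RingHom.comp_apply, Polynomial.coe_eval₂RingHom, Polynomial.eval₂_X,
          Reduction.evJ]
        exact Kronecker.coe_alphaC k M ℓ _
    exact RingHom.congr_fun h q
  have hb : IsIntegral O (betaC k M ℓ (Reduction.jF M k)) := by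
    refine ⟨P.map ψ, hPm.map ψ, Subtype.ext ?_⟩
    rw [Polynomial.eval₂_map]
    show (modularFunctionFieldFullC k (M * ℓ)).val.toRingHom
      (P.eval₂ ((algebraMap O (modularFunctionFieldFullC k (M * ℓ))).comp ψ) _) = _
    rw [Polynomial.hom_eval₂, ZeroMemClass.coe_zero, ← hP, Reduction.jTopR_eq_jTopC]
    congr 1
    exact RingHom.ext fun q => hψ q
  obtain ⟨c, hc⟩ := IsIntegrallyClosed.isIntegral_iff.mp hb
  exact FF.ord_nonneg_of_mem_placeRing w (hc ▸ c.2)

/-- The norm along `α` of `β u` has orders divisible by `p` where `u` does, if `α`, `β` respect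
the finite part given by `j`. -/
private theorem dvd_ord_norm_gen {K F F' : Type*} [Field K] [Field F] [Field F'] [Algebra K F]
    [Algebra K F'] [IsAlgClosed K] [FF.IsFF K F] [FF.IsFF K F'] (p : ℕ) (α β : F →ₐ[K] F')
    (hsep : SeparableAlong K α) (j : F)
    (hj : ∀ w : Place K F', 0 ≤ w.ord (α j) → 0 ≤ w.ord (β j)) {u : F} (hu : u ≠ 0)
    (hdvd : ∀ v : Place K F, 0 ≤ v.ord j → (p : ℤ) ∣ v.ord u) (v : Place K F)
    (hv : 0 ≤ v.ord j) :
    (p : ℤ) ∣ v.ord (letI := algebraAlong α; Algebra.norm F (β u)) := by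
  classical
  have hα := FF.isIntegral_alongFF α
  have hβ := FF.isIntegral_alongFF β
  obtain ⟨E, hE, -⟩ := HasPrincipalDivisors.exists_divisor (K := K) u hu
  have h := Kronecker.correspondence_apply_eq_ord_norm β α hβ hα
    (FF.finiteAlong _) (FF.normFormulaAlong _ (FF.finiteAlong _) hsep) hu hE v
  rw [← h, Divisor.correspondence_apply]
  set Q := Divisor.pullbackAlong β hβ E with hQ
  letI := algebraAlong α
  have := isScalarTower_along α
  have := isIntegral_along α hα
  show _ ∣ Divisor.pushforward F Q v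
  rw [Divisor.pushforward_apply]
  refine Finset.dvd_sum fun w _ => ?_
  split_ifs with hw
  · refine dvd_mul_of_dvd_left ?_ _
    rw [hQ, Divisor.pullbackAlong_apply, hE]
    refine dvd_mul_of_dvd_right (hdvd _ ?_) _
    have hwj : 0 ≤ w.ord (α j) := by
      rw [Place.ord_restrictAlong _ hα]
      exact mul_nonneg (Int.natCast_nonneg _) (by
        rw [show w.restrictAlong α hα = v from hw]; exact hv)
    have := hj w hwj
    rw [Place.ord_restrictAlong _ hβ] at this
    exact nonneg_of_mul_nonneg_right this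
      (by exact_mod_cast FF.ramificationIndexAlong_pos β hβ w)
  · exact dvd_zero _

end Generic

section Finite

variable {M ℓ p : ℕ} [NeZero M] [NeZero ℓ] [Fact p.Prime]
variable {A : ValuationSubring Qb}

local notation "kA" => IsLocalRing.ResidueField A

/-- `j (ℓ z)` is regular where `j` is. -/
theorem ord_betaC_jq_nonneg (hA : A.LiesOverPrime p) (hpℓ : ¬ p ∣ ℓ)
    (w : Place kA (modularFunctionFieldFullC kA (M * ℓ)))
    (hw : 0 ≤ w.ord (alphaC kA M ℓ (Reduction.jF M kA))) : 0 ≤ w.ord (betaC kA M ℓ (Reduction.jF M kA)) := by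
  refine ord_betaC_jq_nonneg_gen ((Reduction.modEqZeta ℓ).map
    (Polynomial.mapRingHom (Reduction.zetaToResidue ℓ A hA hpℓ)))
    ((Reduction.modEqZeta_monic ℓ).map _) ?_ w hw
  rw [← Reduction.coeffMap_eval₂_evJ, Reduction.modEqZeta_eval, map_zero]

/-- The norm of a function with divisor divisible by `p` off the cusps is again one. -/
theorem dvd_ord_normRes (hA : A.LiesOverPrime p) (hpM : ¬ p ∣ M) (hℓ : ℓ.Prime) (hℓp : ℓ ≠ p)
    {u : modularFunctionFieldFullC kA M} (hu : u ≠ 0)
    (hdvd : ∀ v : Place kA (modularFunctionFieldFullC kA M),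
      0 ≤ v.ord (Reduction.jF M kA) → (p : ℤ) ∣ v.ord u)
    (v : Place kA (modularFunctionFieldFullC kA M)) (hv : 0 ≤ v.ord (Reduction.jF M kA)) :
    (p : ℤ) ∣ v.ord (normRes M ℓ A (betaC kA M ℓ u)) := by
  haveI : NeZero (M * ℓ) := ⟨mul_ne_zero (NeZero.ne M) (NeZero.ne ℓ)⟩
  have hpMℓ := not_dvd_mul_prime hpM hℓ hℓp
  haveI := GalCommon.isAlgClosed_residueField A (Fact.out : p.Prime) hA
  haveI := Reduction.isFF_fullC_residue M A hA hpM
  haveI := Reduction.isFF_fullC_residue (M * ℓ) A hA hpMℓ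
  refine dvd_ord_norm_gen p (alphaC kA M ℓ) (betaC kA M ℓ) ?_ (Reduction.jF M kA)
    (ord_betaC_jq_nonneg hA fun h => hpMℓ (Dvd.dvd.mul_left h M)) hu hdvd v hv
  refine Kronecker.separableAlong_of_adjoin _ (Reduction.jF M kA) ?_
  rw [show alphaC kA M ℓ (Reduction.jF M kA) = Reduction.jF (M * ℓ) kA from
    Subtype.ext (Kronecker.coe_alphaC _ M ℓ _)]
  exact Reduction.isSeparable_fullC_residue (M * ℓ) A hA hpMℓ

end Finite

end FLTAgent.MazurP
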