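import Fermat.Agent.MazurP.QEigenSeries
import Fermat.Agent.FF.Differentials
import Fermat.Agent.Reduction.GaussField
import Fermat.Agent.GalCommon.Basic

/-!
# Differentials of the reduced curve as series

`psi` sends `f dg` to `f q dg/dq`, induced by the derivation `thetaDeriv`. It is injective
(`psi_injective`, as `j` is a separating element), so a function killed by `q d/dq` has zero
differential and all its orders are divisible by `p` (`dvd_ord_of_qTheta_eq_zero`).
-/

set_option autoImplicit false
set_option linter.style.haveILetI false
set_option maxHeartbeats 1000000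
set_option synthInstance.maxHeartbeats 400000

noncomputable section

open AlgebraicCurve ModularCurve

namespace FLTAgent.MazurP

section Psi

variable (k : Type*) [Field k] (N : ℕ) [NeZero N]

omit [NeZero N] in
theorem isScalarTower_laurent :
    IsScalarTower k (modularFunctionFieldFullC k N) (LaurentSeries k) := ⟨fun c f x => by
  show ((c • f : modularFunctionFieldFullC k N) : LaurentSeries k) * x =
    c • ((f : LaurentSeries k) * x)
  rw [IntermediateField.coe_smul, Algebra.smul_def, algebraMap_laurentSeries_eq_single,
    ← HahnSeries.C_apply, mul_assoc, HahnSeries.C_mul_eq_smul]⟩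

attribute [local instance] isScalarTower_laurent

/-- `y ↦ q dy/dq` on the function field. -/
def thetaDeriv : Derivation k (modularFunctionFieldFullC k N) (LaurentSeries k) :=
  Derivation.mk'
    { toFun := fun y => qTheta (y : LaurentSeries k)
      map_add' := fun y y' => qTheta_add _ _
      map_smul' := fun c y => by
        show qTheta ((c • y : modularFunctionFieldFullC k N) : LaurentSeries k) = c • qTheta _
        rw [IntermediateField.coe_smul, Algebra.smul_def, ← HahnSeries.C_mul_eq_smul,
          algebraMap_laurentSeries_eq_single, qTheta_mul, qTheta_single, HahnSeries.C_apply]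
        simp }
    fun y y' => qTheta_mul _ _

omit [NeZero N] in
theorem thetaDeriv_apply (y : modularFunctionFieldFullC k N) :
    thetaDeriv k N y = qTheta (y : LaurentSeries k) := rfl

/-- The series of a differential. -/
def psi : Ω[modularFunctionFieldFullC k N⁄k] →ₗ[modularFunctionFieldFullC k N] LaurentSeries k :=
  (thetaDeriv k N).liftKaehlerDifferential

theorem psi_smul_D (f g : modularFunctionFieldFullC k N) :
    psi k N (f • KaehlerDifferential.D k _ g) =
      (f : LaurentSeries k) * qTheta (g : LaurentSeries k) := by
  rw [map_smul, psi, Derivation.liftKaehlerDifferential_comp_D]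
  rfl

theorem qTheta_jqModC_ne_zero : qTheta (jqModC k) ≠ 0 := fun h => by
  have := congrArg (fun x : LaurentSeries k => x.coeff (-1)) h
  simp only [qTheta_coeff, HahnSeries.coeff_zero] at this
  rw [coeff_jqModC_neg_one] at this
  simp at this

end Psi

section Residue

variable {N p : ℕ} [NeZero N] [Fact p.Prime] (A : ValuationSubring (AlgebraicClosure ℚ))

local notation "kA" => IsLocalRing.ResidueField A

theorem isSep_jF (hA : A.LiesOverPrime p) (hpN : ¬ p ∣ N) :
    FF.IsSep kA (Reduction.jF N kA) where
  transcendental := Reduction.transcendental_jF N kA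
  finite := Reduction.finiteDimensional_jF (Reduction.zetaToResidue N A hA hpN)
  separable := Reduction.isSeparable_fullC_residue N A hA hpN

theorem psi_injective (hA : A.LiesOverPrime p) (hpN : ¬ p ∣ N) :
    Function.Injective (psi kA N) := by
  haveI := GalCommon.isAlgClosed_residueField A (Fact.out : p.Prime) hA
  haveI := Reduction.isFF_fullC_residue N A hA hpN
  rw [injective_iff_map_eq_zero]
  intro ω hω
  obtain ⟨f, rfl⟩ := FF.exists_eq_smul_D (isSep_jF A hA hpN) ω
  rw [psi_smul_D, mul_eq_zero] at hω
  rcases hω with h | h
  · rw [show f = 0 from Subtype.ext h, zero_smul]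
  · exact absurd h (qTheta_jqModC_ne_zero _)

/-- A function killed by `q d/dq` has all its orders divisible by `p`. -/
theorem dvd_ord_of_qTheta_eq_zero (hA : A.LiesOverPrime p) (hpN : ¬ p ∣ N)
    {g : modularFunctionFieldFullC kA N} (hg : qTheta (g : LaurentSeries kA) = 0)
    (v : Place kA (modularFunctionFieldFullC kA N)) : (p : ℤ) ∣ v.ord g := by
  haveI := GalCommon.isAlgClosed_residueField A (Fact.out : p.Prime) hA
  haveI := GalCommon.charP_residueField (Fact.out : p.Prime) hA
  haveI := Reduction.isFF_fullC_residue N A hA hpN
  by_contra h
  refine (FF.ordDifferential_D_of_ord_cast_ne_zero v (f := g) ?_).1 (psi_injective A hA hpN ?_)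
  · exact fun e => h ((CharP.intCast_eq_zero_iff kA p _).mp e)
  · rw [map_zero, ← one_smul (modularFunctionFieldFullC kA N) (KaehlerDifferential.D kA _ g),
      psi_smul_D, hg, mul_zero]

end Residue

end FLTAgent.MazurP
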