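import Fermat.Agent.MazurP.QEigenForms
import Fermat.Agent.MazurP.QEigenPsi
import Fermat.Agent.Reduction.InputsMain

/-!
# Reductions of integral cusp forms are regular differentials

An integral series in the function field over `ℚ̄` reduces into the reduced function field
(`mem_integralExp_of_mem_bar`), and the bound on the orders of `h⁶ j⁴ (j - 1728)³` survives
reduction (`ord_reduced_sixth`), which is a criterion of regularity (`regular_of_sixth`, using
`5 ≤ p`). `exists_regular_reduction`: every integral cusp form reduces to a regular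
differential.
-/

set_option autoImplicit false
set_option linter.style.haveILetI false
set_option maxHeartbeats 1600000
set_option synthInstance.maxHeartbeats 400000

noncomputable section

open AlgebraicCurve ModularCurve CuspForm CongruenceSubgroup

namespace FLTAgent.MazurP

open FLTAgent.Reduction (integralExp expToBar expToRes modularGauss jExp jParam jF)

local notation "Qb" => AlgebraicClosure ℚ

variable {N p : ℕ} [NeZero N] [Fact p.Prime] (A : ValuationSubring Qb)

local notation "kA" => IsLocalRing.ResidueField A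

/-- An integral series in the function field over `ℚ̄` reduces into the reduced function field. -/
theorem mem_integralExp_of_mem_bar (hA : A.LiesOverPrime p) (hpN : ¬ p ∣ N) (S : LaurentSeries A)
    (hS : coeffMap A.subtype S ∈ modularFunctionFieldBar N) : S ∈ integralExp A N := by
  refine Reduction.mem_integralExp.mpr ⟨hS, ?_⟩
  by_cases h0 : (⟨coeffMap A.subtype S, hS⟩ : modularFunctionFieldBar N) = 0
  · have hS0 : S = 0 := HahnSeries.ext (funext fun n => Subtype.ext
      (congrArg (fun x : modularFunctionFieldBar N => (x : LaurentSeries Qb).coeff n) h0))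
    rw [hS0, map_zero]; exact zero_mem _
  obtain ⟨c, hc, hcV, hcr⟩ := Reduction.modularGauss_scale A N hA hpN _ h0
  obtain ⟨a, b, hb, hab⟩ := Reduction.modularGauss_mem.mp hcV
  have hab' : HahnSeries.C c * coeffMap A.subtype S * coeffMap A.subtype (b : LaurentSeries A) =
      coeffMap A.subtype (a : LaurentSeries A) := by
    have := congrArg (fun x : modularFunctionFieldBar N => (x : LaurentSeries Qb)) hab
    simp only [MulMemClass.coe_mul, Reduction.coe_expToBar, Algebra.smul_def] at this
    rwa [show ((algebraMap Qb (modularFunctionFieldBar N) c : modularFunctionFieldBar N) :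
      LaurentSeries Qb) = HahnSeries.C c from algebraMap_laurentSeries_eq_single Qb c] at this
  have hb' : coeffMap (IsLocalRing.residue A) (b : LaurentSeries A) ≠ 0 := fun h =>
    hb (Subtype.ext h)
  have ha' : (expToRes A N a : LaurentSeries kA) ≠ 0 := fun h => hcr (by
    rw [Reduction.modularGauss_red hb hab, show expToRes A N a = 0 from Subtype.ext h, zero_div])
  have hinj : Function.Injective (coeffMap A.subtype) := fun x y h =>
    HahnSeries.ext (funext fun n => Subtype.ext
      (congrArg (fun x : LaurentSeries Qb => x.coeff n) h))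
  rcases A.mem_or_inv_mem c with hcA | hcA
  · set c' : A := ⟨c, hcA⟩
    have e : HahnSeries.C c' * S * (b : LaurentSeries A) = (a : LaurentSeries A) := hinj (by
      rw [map_mul, map_mul, HahnSeries.C_apply, coeffMap_single, ← HahnSeries.C_apply]
      exact hab')
    have e' := congrArg (coeffMap (IsLocalRing.residue A)) e
    rw [map_mul, map_mul, HahnSeries.C_apply, coeffMap_single, ← HahnSeries.C_apply] at e'
    have hc0 : IsLocalRing.residue A c' ≠ 0 := fun h => ha' (by
      rw [Reduction.coe_expToRes, ← e', h, map_zero, zero_mul, zero_mul])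
    have : coeffMap (IsLocalRing.residue A) S =
        HahnSeries.C (IsLocalRing.residue A c')⁻¹ *
          ((expToRes A N a / expToRes A N b : modularFunctionFieldFullC kA N) : LaurentSeries kA) := by
      rw [IntermediateField.coe_div, Reduction.coe_expToRes, Reduction.coe_expToRes, ← e', map_inv₀,
        mul_div_cancel_right₀ _ hb', inv_mul_cancel_left₀ (by simpa using hc0)]
    rw [this, HahnSeries.C_apply, ← algebraMap_laurentSeries_eq_single]
    exact mul_mem (IntermediateField.algebraMap_mem _ _) (SetLike.coe_mem _)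
  · set c' : A := ⟨c⁻¹, hcA⟩
    have e : S * (b : LaurentSeries A) = HahnSeries.C c' * (a : LaurentSeries A) := hinj (by
      rw [map_mul, map_mul, HahnSeries.C_apply, coeffMap_single, ← HahnSeries.C_apply,
        show A.subtype c' = c⁻¹ from rfl, ← hab', ← mul_assoc, ← mul_assoc,
        show (HahnSeries.C c⁻¹ : LaurentSeries Qb) * HahnSeries.C c = 1 by
          rw [← map_mul, inv_mul_cancel₀ hc, map_one], one_mul])
    have e' := congrArg (coeffMap (IsLocalRing.residue A)) e
    rw [map_mul, map_mul, HahnSeries.C_apply, coeffMap_single, ← HahnSeries.C_apply] at e'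
    have : coeffMap (IsLocalRing.residue A) S =
        HahnSeries.C (IsLocalRing.residue A c') *
          ((expToRes A N a / expToRes A N b : modularFunctionFieldFullC kA N) : LaurentSeries kA) := by
      rw [IntermediateField.coe_div, Reduction.coe_expToRes, Reduction.coe_expToRes, ← mul_div_assoc,
        ← e', mul_div_cancel_right₀ _ hb']
    rw [this, HahnSeries.C_apply, ← algebraMap_laurentSeries_eq_single]
    exact mul_mem (IntermediateField.algebraMap_mem _ _) (SetLike.coe_mem _)

theorem degree_mapDomain_of_deg {K F K' F' : Type*} [Field K] [Field F] [Algebra K F] [Field K']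
    [Field F'] [Algebra K' F'] (r : Place K F → Place K' F') (hr : ∀ P, (r P).deg = P.deg)
    (D : Divisor K F) : Divisor.degree (Finsupp.mapDomain r D) = Divisor.degree D := by
  induction D using Finsupp.induction with
  | zero => simp
  | single_add P n D _ _ ih =>
    rw [Finsupp.mapDomain_add, map_add, map_add, ih, Finsupp.mapDomain_single,
      Divisor.degree_single, Divisor.degree_single, hr]

/-- Orders after reduction of a function whose only poles are bounded by those of `j`. -/
theorem ord_reduced_sixth (hA : A.LiesOverPrime p) (hpN : ¬ p ∣ N) (Y : integralExp A N)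
    (hY0 : expToRes A N Y ≠ 0)
    (hY : ∀ v : Place Qb (modularFunctionFieldBar N),
      (0 ≤ v.ord (jParam A N) → 0 ≤ v.ord (expToBar A N Y)) ∧
      (v.ord (jParam A N) < 0 → 6 + v.ord (jParam A N) ≤ v.ord (expToBar A N Y)))
    (Q : Place kA (modularFunctionFieldFullC kA N)) :
    (0 ≤ Q.ord (jF N kA) → 0 ≤ Q.ord (expToRes A N Y)) ∧
      (Q.ord (jF N kA) < 0 → 6 + Q.ord (jF N kA) ≤ Q.ord (expToRes A N Y)) := by
  classical
  obtain ⟨r, ⟨hdeg, hr⟩, -⟩ := Reduction.reductionInputsModL N hpN A hA
  have hC := Reduction.curveData_bar N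
  have hCb := Reduction.curveData_res A N hA hpN
  haveI := GalCommon.isAlgClosed_residueField A (Fact.out : p.Prime) hA
  haveI := Reduction.isFF_fullC_residue N A hA hpN
  have key : ∀ (y : integralExp A N), expToRes A N y ≠ 0 → ∀ R,
      Finsupp.mapDomain r (Reduction.divOf (expToBar A N y) : Divisor Qb (modularFunctionFieldBar N)) R
        = R.ord (expToRes A N y) := fun y hy R =>
    hr y (Reduction.mem_integralExp.mp y.2).1 (Reduction.mem_integralExp.mp y.2).2
      (fun h => hy (Subtype.ext h)) _ (fun P => hC.divOf_apply (expToBar A N y) P) R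
  have hjres : expToRes A N (jExp A N) = jF N kA :=
    Subtype.ext (coeffMap_jqModC (IsLocalRing.residue A))
  have hj0 : expToRes A N (jExp A N) ≠ 0 := by
    rw [hjres]; exact fun e => Reduction.transcendental_jF N kA (e ▸ isAlgebraic_zero)
  set π₀ : Divisor Qb (modularFunctionFieldBar N) := Reduction.poleDiv (jParam A N) with hπ₀
  -- the reduction of the pole divisor of `j` is the pole divisor of the reduction
  have hpole : ∀ R, Finsupp.mapDomain r π₀ R = max 0 (-R.ord (jF N kA)) := by
    set E : Divisor kA (modularFunctionFieldFullC kA N) :=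
      Finsupp.mapDomain r π₀ - Reduction.poleDiv (jF N kA) with hE
    have hnn : ∀ R, 0 ≤ E R := fun R => by
      have h1 : 0 ≤ Finsupp.mapDomain r
          (Reduction.divOf (expToBar A N (jExp A N)) + π₀ : Divisor Qb _) R := by
        rw [Reduction.mapDomain_apply_eq_sum]
        refine Finset.sum_nonneg fun P _ => ?_
        rw [Finsupp.add_apply, hπ₀, hC.divOf_apply, hC.poleDiv_apply]
        show 0 ≤ P.ord (jParam A N) + _
        omega
      have h2 : 0 ≤ Finsupp.mapDomain r π₀ R := by
        rw [Reduction.mapDomain_apply_eq_sum]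
        exact Finset.sum_nonneg fun P _ => by rw [hπ₀, hC.poleDiv_apply]; omega
      rw [Finsupp.mapDomain_add, Finsupp.add_apply, key _ hj0, hjres] at h1
      rw [hE, Finsupp.sub_apply, hCb.poleDiv_apply]
      omega
    have hdeg0 : Divisor.degree E = 0 := by
      rw [hE, map_sub, degree_mapDomain_of_deg r hdeg, hπ₀, Reduction.degree_poleDiv_jParam,
        Reduction.degree_poleDiv_jF A N hA hpN, sub_self]
    intro R
    have hE0 : E R = 0 := by
      rw [hCb.degree_eq_sum, Finsupp.sum] at hdeg0
      by_contra hne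
      exact hne ((Finset.sum_eq_zero_iff_of_nonneg fun P _ => hnn P).mp hdeg0 R
        (Finsupp.mem_support_iff.mpr hne))
    rw [hE, Finsupp.sub_apply, hCb.poleDiv_apply] at hE0
    omega
  set D : Divisor Qb (modularFunctionFieldBar N) :=
    Reduction.divOf (expToBar A N Y) + π₀ with hD
  have hDP : ∀ P, D P = P.ord (expToBar A N Y) + max 0 (-P.ord (jParam A N)) := fun P => by
    rw [hD, Finsupp.add_apply, hπ₀, hC.divOf_apply, hC.poleDiv_apply]
  have hDnn : ∀ P, 0 ≤ D P := fun P => by
    rw [hDP]
    rcases le_or_gt 0 (P.ord (jParam A N)) with h | h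
    · have := (hY P).1 h; omega
    · have := (hY P).2 h; omega
  have hDQ : Finsupp.mapDomain r D Q = Q.ord (expToRes A N Y) + max 0 (-Q.ord (jF N kA)) := by
    rw [hD, Finsupp.mapDomain_add, Finsupp.add_apply, key Y hY0, hpole]
  refine ⟨fun hQ => ?_, fun hQ => ?_⟩
  · have : 0 ≤ Finsupp.mapDomain r D Q := by
      rw [Reduction.mapDomain_apply_eq_sum]; exact Finset.sum_nonneg fun P _ => hDnn P
    omega
  · obtain ⟨P, hPQ, hP⟩ : ∃ P, r P = Q ∧ P.ord (jParam A N) < 0 := by
      have h := hpole Q
      rw [Reduction.mapDomain_apply_eq_sum] at h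
      obtain ⟨P, hP, hne⟩ := Finset.exists_ne_zero_of_sum_ne_zero
        (show ∑ P ∈ π₀.support.filter (fun a => r a = Q), π₀ P ≠ 0 by omega)
      rw [hπ₀, hC.poleDiv_apply] at hne
      exact ⟨P, (Finset.mem_filter.mp hP).2, by omega⟩
    have h := Reduction.le_mapDomain_of_nonneg r D Q (fun a _ => hDnn a) hPQ
    rw [hDP] at h
    have := (hY P).2 hP
    omega

/-- The regularity criterion over the residue field. -/
theorem regular_of_sixth (hA : A.LiesOverPrime p) (hpN : ¬ p ∣ N) (hp5 : 5 ≤ p)
    {h : modularFunctionFieldFullC kA N} (h0 : h ≠ 0)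
    (hy : ∀ Q : Place kA (modularFunctionFieldFullC kA N),
      (0 ≤ Q.ord (jF N kA) →
        0 ≤ 6 * Q.ord h + 4 * Q.ord (jF N kA) + 3 * Q.ord (jF N kA - algebraMap kA _ 1728)) ∧
      (Q.ord (jF N kA) < 0 → 6 + Q.ord (jF N kA) ≤
        6 * Q.ord h + 4 * Q.ord (jF N kA) + 3 * Q.ord (jF N kA - algebraMap kA _ 1728)))
    (Q : Place kA (modularFunctionFieldFullC kA N)) :
    0 ≤ Q.ordDifferential (h • KaehlerDifferential.D kA _ (jF N kA)) := by
  haveI := GalCommon.isAlgClosed_residueField A (Fact.out : p.Prime) hA
  haveI := GalCommon.charP_residueField (Fact.out : p.Prime) hA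
  haveI := Reduction.isFF_fullC_residue N A hA hpN
  have hsep := isSep_jF A hA hpN
  have h1728 : (1728 : kA) ≠ 0 := by
    intro e
    have hd : p ∣ 1728 := (CharP.cast_eq_zero_iff kA p 1728).mp (by exact_mod_cast e)
    have hd' : p ∣ 2 ^ 6 * 3 ^ 3 := by norm_num; exact hd
    rcases (Fact.out : p.Prime).dvd_mul.mp hd' with h | h <;>
    · have := Nat.le_of_dvd (by norm_num) ((Fact.out : p.Prime).dvd_of_dvd_pow h)
      omega
  have hD := FF.D_ne_zero_of_isSep hsep
  rw [FF.ordDifferential_smul_of_ne_zero Q h0 hD]
  rcases le_or_gt 0 (Q.ord (jF N kA)) with hv | hv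
  · have hy' := (hy Q).1 hv
    obtain ⟨c, hc⟩ := FF.exists_residue_of_isSep hsep Q hv
    have he := FF.ord_sub_eq_ramX hsep Q hc
    have hod := FF.ramX_sub_one_le_ordDifferential hsep Q hv
    have hpos := FF.ramX_pos hsep Q
    rcases eq_or_ne c 0 with rfl | hc0
    · rw [ord_sub_eq_zero Q (Ne.symm h1728) hc] at hy'
      rw [map_zero, sub_zero] at he
      omega
    have h4 : Q.ord (jF N kA) = 0 := by
      simpa using ord_sub_eq_zero Q (b := (0 : kA)) hc0 hc
    rcases eq_or_ne c 1728 with rfl | hc1
    · omega
    · have h1 := ord_sub_eq_zero Q hc1 hc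
      omega
  · have hy' := (hy Q).2 hv
    have hj0 : jF N kA ≠ 0 := fun e => hsep.transcendental (e ▸ isAlgebraic_zero)
    have h1 : Q.ord (jF N kA - algebraMap kA _ 1728) = Q.ord (jF N kA) := by
      rw [sub_eq_add_neg, ← map_neg]
      exact (FF.ord_add_of_lt Q hj0 (g := algebraMap kA _ (-1728))
        (Or.inr (by rw [FF.ord_algebraMap]; exact hv))).2
    have hod := FF.ord_sub_one_le_ordDifferential_D Q hD
    omega

/-- The reduction of an integral cusp form is a regular differential. -/
theorem exists_regular_reduction (hA : A.LiesOverPrime p) (hpN : ¬ p ∣ N) (hp5 : 5 ≤ p)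
    (g : ↥(intLattice N 2)) :
    haveI := GalCommon.isAlgClosed_residueField A (Fact.out : p.Prime) hA
    haveI := Reduction.isFF_fullC_residue N A hA hpN
    ∃ ω ∈ FF.differentialsGE (0 : Divisor kA (modularFunctionFieldFullC kA N)),
      psi kA N ω = coeffMap (Int.castRingHom kA) (formSeries N g) := by
  haveI := GalCommon.isAlgClosed_residueField A (Fact.out : p.Prime) hA
  haveI := Reduction.isFF_fullC_residue N A hA hpN
  have hred : coeffMap (Int.castRingHom kA) (quotSeries g) * qTheta (jqModC kA) =
      coeffMap (Int.castRingHom kA) (formSeries N g) := by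
    rw [← quotSeries_mul_qTheta, map_mul, coeffMap_qTheta, coeffMap_jqModC]
  rcases eq_or_ne g 0 with rfl | hg
  · exact ⟨0, zero_mem _, by simp⟩
  obtain ⟨h, hser, hy0, hy⟩ := exists_quotFun_bar g hg
  set S : LaurentSeries A := coeffMap (Int.castRingHom A) (quotSeries g) with hS
  have hSb : coeffMap A.subtype S = (h : LaurentSeries Qb) := by
    rw [hser, hS, coeffMap_coeffMap]
    exact coeffMap_congr (Subsingleton.elim _ _) _
  have hSk : coeffMap (IsLocalRing.residue A) S = coeffMap (Int.castRingHom kA) (quotSeries g) := by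
    rw [hS, coeffMap_coeffMap]
    exact coeffMap_congr (Subsingleton.elim _ _) _
  set Sx : integralExp A N := ⟨S, mem_integralExp_of_mem_bar A hA hpN S (hSb ▸ h.2)⟩ with hSx
  refine ⟨expToRes A N Sx • KaehlerDifferential.D kA _ (jF N kA), ?_, ?_⟩
  swap
  · rw [psi_smul_D, Reduction.coe_expToRes, ← hred, ← hSk]
    rfl
  rw [FF.mem_differentialsGE_iff]
  rcases eq_or_ne (expToRes A N Sx) 0 with he | he
  · exact Or.inl (by rw [he, zero_smul])
  right
  set Y : integralExp A N := Sx ^ 6 * jExp A N ^ 4 * (jExp A N - 1728) ^ 3 with hY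
  have hbar : expToBar A N Y = h ^ 6 * ModularPlaces.jB N ^ 4 *
      (ModularPlaces.jB N - algebraMap Qb (modularFunctionFieldBar N) 1728) ^ 3 := by
    have e1 : expToBar A N Sx = h := Subtype.ext hSb
    have e2 : expToBar A N (jExp A N) = ModularPlaces.jB N :=
      Subtype.ext (Reduction.coe_jParam A N)
    rw [hY]
    simp only [map_mul, map_pow, map_sub, map_ofNat, e1, e2]
  have hj : jParam A N = ModularPlaces.jB N := Subtype.ext (Reduction.coe_jParam A N)
  have hres : expToRes A N Y = expToRes A N Sx ^ 6 * jF N kA ^ 4 *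
      (jF N kA - algebraMap kA (modularFunctionFieldFullC kA N) 1728) ^ 3 := by
    have e2 : expToRes A N (jExp A N) = jF N kA :=
      Subtype.ext (coeffMap_jqModC (IsLocalRing.residue A))
    rw [hY]
    simp only [map_mul, map_pow, map_sub, map_ofNat, e2]
  have hj0 : jF N kA ≠ 0 := fun e => Reduction.transcendental_jF N kA (e ▸ isAlgebraic_zero)
  have hj1 : jF N kA - algebraMap kA (modularFunctionFieldFullC kA N) 1728 ≠ 0 := fun e =>
    Reduction.transcendental_jF N kA (by rw [sub_eq_zero.mp e]; exact isAlgebraic_algebraMap _)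
  have hY0 : expToRes A N Y ≠ 0 := by
    rw [hres]
    exact mul_ne_zero (mul_ne_zero (pow_ne_zero _ he) (pow_ne_zero _ hj0)) (pow_ne_zero _ hj1)
  intro Q
  rw [Finsupp.zero_apply]
  refine regular_of_sixth A hA hpN hp5 he (fun R => ?_) Q
  have hR := ord_reduced_sixth A hA hpN Y hY0 (fun v => by rw [hj, hbar]; exact hy v) R
  rw [hres, R.ord_mul (mul_ne_zero (pow_ne_zero _ he) (pow_ne_zero _ hj0)) (pow_ne_zero _ hj1),
    R.ord_mul (pow_ne_zero _ he) (pow_ne_zero _ hj0), FF.ord_pow, FF.ord_pow, FF.ord_pow] at hR
  push_cast at hR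
  exact hR

end FLTAgent.MazurP
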