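import Fermat.Agent.MazurP.QEigenDelta
import Fermat.Agent.MazurP.QEigenNormRes
import Fermat.Agent.MazurP.QEigenPsi

/-!
# Residues at supersingular points in the non Eisenstein case

`dvd_of_qDlog_eigen_aux`: with `x = Δ^(1-p)` and `u = f^12 x^(-a)` of orders divisible by `p`
away from the poles of `j`, the norm giving `T_ℓ dlog u`, corrected by powers of `x` and `f`, is
killed by `q d/dq`, so has orders divisible by `p`; comparing gives
`p ∣ a (1 + ℓ - a_ℓ) ord x`, hence `p ∣ a`.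
-/

set_option autoImplicit false
set_option linter.style.haveILetI false
set_option maxHeartbeats 1000000
set_option synthInstance.maxHeartbeats 400000

noncomputable section

open AlgebraicCurve ModularCurve

namespace FLTAgent.MazurP

local notation "Qb" => AlgebraicClosure ℚ

theorem coe_zpow_intermediate {K L : Type*} [Field K] [Field L] [Algebra K L]
    {S : IntermediateField K L} (x : S) (n : ℤ) : ((x ^ n : S) : L) = (x : L) ^ n :=
  map_zpow₀ S.val x n

theorem ssUnit_ne_zero (k : Type*) [Field k] (p : ℕ) : ssUnit k p ≠ 0 :=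
  inv_ne_zero (pow_ne_zero _ (deltaR_ne_zero k))

/-- The residues at supersingular points are not a nonzero constant in the non Eisenstein case. -/
theorem dvd_of_qDlog_eigen_aux {p : ℕ} [Fact p.Prime] {M : ℕ} [NeZero M] (hpM : ¬ p ∣ M)
    (A : ValuationSubring Qb) (hA : A.LiesOverPrime p)
    (f x : modularFunctionFieldFullC (IsLocalRing.ResidueField A) M) (hf : f ≠ 0)
    (hx : (x : LaurentSeries (IsLocalRing.ResidueField A)) =
      ssUnit (IsLocalRing.ResidueField A) p) (a : ℤ)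
    (hres : ∀ v : Place (IsLocalRing.ResidueField A)
        (modularFunctionFieldFullC (IsLocalRing.ResidueField A) M),
      0 ≤ v.ord (Reduction.jF M (IsLocalRing.ResidueField A)) →
        (p : ℤ) ∣ 12 * v.ord f - a * v.ord x)
    (v : Place (IsLocalRing.ResidueField A)
      (modularFunctionFieldFullC (IsLocalRing.ResidueField A) M))
    (hv : 0 ≤ v.ord (Reduction.jF M (IsLocalRing.ResidueField A)))
    (hvx : ¬ (p : ℤ) ∣ v.ord x)
    {ℓ : ℕ} (hℓ : ℓ.Prime) (hℓM : ¬ ℓ ∣ M) (hℓp : ℓ ≠ p) (aℓ : ℤ)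
    (heig : IsHeckeEigen (qDlog (f : LaurentSeries (IsLocalRing.ResidueField A))) ℓ aℓ)
    (hne : ¬ (p : ℤ) ∣ aℓ - 1 - ℓ) : (p : ℤ) ∣ a := by
  haveI : NeZero ℓ := ⟨hℓ.ne_zero⟩
  haveI := GalCommon.charP_residueField (Fact.out : p.Prime) hA
  set k := IsLocalRing.ResidueField A
  have hxs : (x : LaurentSeries k) ≠ 0 := hx ▸ ssUnit_ne_zero k p
  have hfs : (f : LaurentSeries k) ≠ 0 := fun e => hf (Subtype.ext e)
  have hx0 : x ≠ 0 := fun e => hxs (by rw [e]; rfl)
  have hdx : qDlog (x : LaurentSeries k) = eTwo k := by rw [hx, qDlog_ssUnit]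
  set u := f ^ (12 : ℤ) * x ^ (-a) with hu
  have hu0 : u ≠ 0 := mul_ne_zero (zpow_ne_zero _ hf) (zpow_ne_zero _ hx0)
  have hdu : qDlog (u : LaurentSeries k) =
      (12 : ℤ) • qDlog (f : LaurentSeries k) + (-a) • eTwo k := by
    rw [hu, MulMemClass.coe_mul, coe_zpow_intermediate, coe_zpow_intermediate,
      qDlog_mul (zpow_ne_zero _ hfs) (zpow_ne_zero _ hxs), qDlog_zpow hfs, qDlog_zpow hxs, hdx]
  obtain ⟨hW0, hW⟩ := qDlog_normRes hA hpM hℓ hℓM hℓp hu0
  set W := normRes M ℓ A (Kronecker.betaC k M ℓ u) with hWdef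
  have hWs : (W : LaurentSeries k) ≠ 0 := fun e => hW0 (Subtype.ext e)
  set G := W * x ^ (a * (1 + ℓ)) * f ^ (-(12 * aℓ)) with hG
  have hθ : qTheta (G : LaurentSeries k) = 0 := by
    have hG0 : (G : LaurentSeries k) ≠ 0 := by
      rw [hG, MulMemClass.coe_mul, MulMemClass.coe_mul, coe_zpow_intermediate,
        coe_zpow_intermediate]
      exact mul_ne_zero (mul_ne_zero hWs (zpow_ne_zero _ hxs)) (zpow_ne_zero _ hfs)
    rw [qTheta_eq_mul_qDlog hG0]
    refine mul_eq_zero_of_right _ ?_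
    rw [hG, MulMemClass.coe_mul, MulMemClass.coe_mul, coe_zpow_intermediate,
      coe_zpow_intermediate, qDlog_mul (mul_ne_zero hWs (zpow_ne_zero _ hxs))
        (zpow_ne_zero _ hfs), qDlog_mul hWs (zpow_ne_zero _ hxs), qDlog_zpow hfs, qDlog_zpow hxs,
      hdx]
    ext n
    simp only [HahnSeries.coeff_add, HahnSeries.coeff_smul, HahnSeries.coeff_zero, hW, hdu,
      heckeCoeff_add, heckeCoeff_zsmul]
    rw [show heckeCoeff ℓ (qDlog (f : LaurentSeries k)) n =
      (aℓ : k) * (qDlog (f : LaurentSeries k)).coeff n from heig n]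
    simp only [zsmul_eq_mul]
    push_cast
    linear_combination (-(a : k)) * heckeCoeff_eTwo (k := k) hℓ n
  have h1 := dvd_ord_of_qTheta_eq_zero A hA hpM hθ v
  rw [hG, v.ord_mul (mul_ne_zero hW0 (zpow_ne_zero _ hx0)) (zpow_ne_zero _ hf),
    v.ord_mul hW0 (zpow_ne_zero _ hx0), v.ord_zpow, v.ord_zpow] at h1
  have h2 : (p : ℤ) ∣ v.ord W := dvd_ord_normRes hA hpM hℓ hℓp hu0 (fun w hw => by
    rw [hu, w.ord_mul (zpow_ne_zero _ hf) (zpow_ne_zero _ hx0), w.ord_zpow, w.ord_zpow]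
    simpa [sub_eq_add_neg] using hres w hw) v hv
  have h3 : (p : ℤ) ∣ a * (1 + ℓ - aℓ) * v.ord x := by
    have := Int.dvd_add (Int.dvd_sub h1 h2) (dvd_mul_of_dvd_right (hres v hv) aℓ)
    convert this using 1
    ring
  have hp := Nat.prime_iff_prime_int.mp (Fact.out : p.Prime)
  rcases hp.dvd_mul.mp h3 with h | h
  · rcases hp.dvd_mul.mp h with h' | h'
    · exact h'
    · refine absurd ?_ hne
      have : (p : ℤ) ∣ -(1 + (ℓ : ℤ) - aℓ) := Int.dvd_neg.mpr h'
      rwa [show aℓ - 1 - (ℓ : ℤ) = -(1 + (ℓ : ℤ) - aℓ) by ring]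
  · exact absurd h hvx

end FLTAgent.MazurP
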