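import Fermat.Agent.BadQ.LiftData
import Fermat.Agent.Mazur.CuspUnit
import Fermat.Agent.ModularCosets.LevelOne
import Fermat.Prelude.Thm_ModularCurve_coeffMap_qExpand

/-!
# The unit `Δ(τ)/Δ(pτ)` at level `Mp`

`levelUnit` is `Δ(τ)/Δ(pτ)` as a function of level `Mp`. On functions whose Atkin-Lehner image
expands as the composite with `z ↦ -1/(pz)` (`FrickeOK`, which generate level `p`) the involution
can be computed on holomorphic functions: `atkinLehner_levelUnit` gives `p^12 Δ(pτ)/Δ(τ)`, and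
`ord_levelUnit` shows the unit has no zero or pole away from the poles of `j`.
-/

set_option autoImplicit false
set_option linter.style.haveILetI false
set_option linter.unusedSectionVars false
set_option synthInstance.maxHeartbeats 400000
set_option maxHeartbeats 800000

noncomputable section

open UpperHalfPlane ModularCurve AlgebraicCurve
open scoped MatrixGroups

namespace FLTAgent.MazurP

open FLTAgent.ModularCosets (holPairs mem_holPairs triSmul coe_triSmul jH)

local notation "Qb" => AlgebraicClosure ℚ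

section Fricke

variable (p : ℕ) [NeZero p]

/-- `z ↦ -1 / (p z)`. -/
def frickePt (z : ℍ) : ℍ := ModularGroup.S • triSmul p 0 1 z

theorem triSmul_frickePt (z : ℍ) : triSmul p 0 1 (frickePt p z) = ModularGroup.S • z := by
  have hp : (p : ℂ) ≠ 0 := by exact_mod_cast NeZero.ne p
  have hz : (z : ℂ) ≠ 0 := z.ne_zero
  refine UpperHalfPlane.ext ?_
  rw [coe_triSmul, frickePt, UpperHalfPlane.modular_S_smul, UpperHalfPlane.modular_S_smul]
  simp only [coe_triSmul, Int.cast_zero, add_zero, Nat.cast_one, div_one]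
  field_simp

theorem jH_frickePt (z : ℍ) : jH (frickePt p z) = jH (triSmul p 0 1 z) :=
  ModularCosets.jH_smul _ _

theorem jH_triSmul_frickePt (z : ℍ) : jH (triSmul p 0 1 (frickePt p z)) = jH z := by
  rw [triSmul_frickePt]
  exact ModularCosets.jH_smul _ _

theorem discriminant_S_smul (z : ℍ) :
    ModularForm.discriminant (ModularGroup.S • z) =
      (z : ℂ) ^ (12 : ℕ) * ModularForm.discriminant z := by
  rw [Reduction.discriminant_smul]
  simp [ModularGroup.S]

theorem unitFun_frickePt [Fact p.Prime] (z : ℍ) :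
    Mazur.unitFun p (frickePt p z) = (p : ℂ) ^ (12 : ℕ) * (Mazur.unitFun p z)⁻¹ := by
  have hz : (z : ℂ) ≠ 0 := z.ne_zero
  have h1 : ModularForm.discriminant z ≠ 0 := ModularForm.discriminant_ne_zero _
  have h2 : ModularForm.discriminant (triSmul p 0 1 z) ≠ 0 :=
    ModularForm.discriminant_ne_zero _
  have hc : (triSmul p 0 1 z : ℂ) = (p : ℂ) * z := by simp [coe_triSmul]
  rw [Mazur.unitFun, Mazur.unitFun, triSmul_frickePt, frickePt, discriminant_S_smul,
    discriminant_S_smul, hc]
  field_simp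

theorem hasQExp_scale {f : ℍ → ℂ} {x : LaurentSeries ℂ} (h : Modular.HasQExp 1 f x) :
    Modular.HasQExp 1 (fun z => f (triSmul p 0 1 z)) (qExpand ℂ p x) :=
  h.comp_mul p (φ := triSmul p 0 1) fun z => by simp [coe_triSmul]

theorem differentiableOn_unitFun [Fact p.Prime] :
    DifferentiableOn ℂ (Mazur.unitFun p ∘ ofComplex) {z : ℂ | 0 < z.im} := fun z hz =>
  ((Mazur.analyticAt_unitFun p ⟨z, hz⟩).differentiableAt).differentiableWithinAt

end Fricke

theorem bar_le_bar {N N' : ℕ} [NeZero N] [NeZero N'] (h : N ∣ N') :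
    modularFunctionFieldBar N ≤ modularFunctionFieldBar N' := by
  show laurentBaseChange Qb (modularFunctionFieldFull N) ≤
    laurentBaseChange Qb (modularFunctionFieldFull N')
  rw [Kronecker.laurentBaseChange_full_eq_adjoin, Kronecker.laurentBaseChange_full_eq_adjoin,
    IntermediateField.adjoin_le_iff]
  rintro _ ⟨d, rfl⟩
  exact IntermediateField.subset_adjoin _ _
    ⟨⟨(d : ℕ), Nat.mem_divisors.mpr ⟨d.dvd.trans h, NeZero.ne N'⟩⟩, rfl⟩

variable {M p : ℕ} [NeZero M] [hp : Fact p.Prime]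

local notation "FQ" => modularFunctionFieldBar (M * p)
local notation "ι" => ModularCosets.iotaBar

variable (M p) in
/-- `Δ(τ)/Δ(pτ)` at level `Mp`. -/
def levelUnit : FQ :=
  ⟨coeffEmb Qb (modularUnitSeries p), bar_le_bar (dvd_mul_left p M) (Mazur.coeffEmb_unit_mem p)⟩

theorem coe_levelUnit :
    (levelUnit M p : LaurentSeries Qb) = coeffEmb Qb (modularUnitSeries p) := rfl

theorem levelUnit_ne_zero : levelUnit M p ≠ 0 := fun h => by
  have h1 : (levelUnit M p : LaurentSeries Qb) = 0 := by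
    rw [h, IntermediateField.coe_zero]
  rw [coe_levelUnit, map_eq_zero] at h1
  exact modularUnitSeries_ne_zero p h1

theorem coeffMap_coeffEmb' (x : LaurentSeries ℚ) : coeffMap ι (coeffEmb Qb x) = coeffEmb ℂ x := by
  rw [coeffEmb, coeffEmb, coeffMap_coeffMap]
  exact coeffMap_congr (Subsingleton.elim _ _) _

theorem levelUnit_pair :
    (Mazur.unitFun p, coeffMap ι (levelUnit M p : LaurentSeries Qb)) ∈ holPairs 1 one_pos := by
  rw [coe_levelUnit, coeffMap_coeffEmb']
  exact ⟨differentiableOn_unitFun p, Mazur.hasQExp_unitFun p⟩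

variable (hpM : ¬ p ∣ M)

/-- Functions whose expansion and whose Atkin-Lehner image's expansion are expansions of a
holomorphic function and of its composition with `z ↦ -1/(pz)`. -/
def FrickeOK (y : FQ) : Prop :=
  ∃ f g : ℍ → ℂ, (f, coeffMap ι (y : LaurentSeries Qb)) ∈ holPairs 1 one_pos ∧
    (g, coeffMap ι (BadQ.atkinLehner hp.out hpM y : LaurentSeries Qb)) ∈ holPairs 1 one_pos ∧
    ∀ z, g z = f (frickePt p z)

variable {hpM}

theorem FrickeOK.add {y y' : FQ} (h : FrickeOK hpM y) (h' : FrickeOK hpM y') :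
    FrickeOK hpM (y + y') := by
  obtain ⟨f, g, hf, hg, he⟩ := h
  obtain ⟨f', g', hf', hg', he'⟩ := h'
  refine ⟨f + f', g + g', ?_, ?_, fun z => by simp [he, he']⟩
  · rw [IntermediateField.coe_add, map_add]
    exact (holPairs 1 one_pos).add_mem hf hf'
  · rw [map_add, IntermediateField.coe_add, map_add]
    exact (holPairs 1 one_pos).add_mem hg hg'

theorem FrickeOK.mul {y y' : FQ} (h : FrickeOK hpM y) (h' : FrickeOK hpM y') :
    FrickeOK hpM (y * y') := by
  obtain ⟨f, g, hf, hg, he⟩ := h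
  obtain ⟨f', g', hf', hg', he'⟩ := h'
  refine ⟨f * f', g * g', ?_, ?_, fun z => by simp [he, he']⟩
  · rw [IntermediateField.coe_mul, map_mul]
    exact (holPairs 1 one_pos).mul_mem hf hf'
  · rw [map_mul, IntermediateField.coe_mul, map_mul]
    exact (holPairs 1 one_pos).mul_mem hg hg'

theorem frickeOK_const (c : Qb) : FrickeOK hpM (algebraMap Qb FQ c) := by
  have h : (((fun _ => ι c : ℍ → ℂ)), coeffMap ι (algebraMap Qb (LaurentSeries Qb) c)) ∈
      holPairs 1 one_pos := by
    rw [algebraMap_laurentSeries_eq_single, coeffMap_single]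
    exact ⟨differentiableOn_const (c := ι c), ModularCosets.hasQExp_C 1 (ι c)⟩
  exact ⟨_, _, h, by rw [AlgHom.commutes]; exact h, fun _ => rfl⟩

theorem frickeOK_one : FrickeOK hpM (1 : FQ) := by
  rw [← map_one (algebraMap Qb FQ)]; exact frickeOK_const 1

theorem j_pair (A : ValuationSubring Qb) :
    (jH, coeffMap ι (heckeAlphaBar Qb M p (Reduction.jParam A M) : LaurentSeries Qb)) ∈
      holPairs 1 one_pos ∧
    ((fun z => jH (triSmul p 0 1 z)),
      coeffMap ι (heckeBetaBar Qb M p (Reduction.jParam A M) : LaurentSeries Qb)) ∈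
      holPairs 1 one_pos := by
  have h := ModularCosets.jPair_one_mem
  have hj : coeffMap ι (Reduction.jParam A M : LaurentSeries Qb) = jqModC ℂ := by
    rw [Reduction.coe_jParam, ModularCosets.coeffEmb_jq_eq]
    exact coeffMap_jqModC _
  refine ⟨?_, ?_⟩
  · rw [coe_heckeAlphaBar, hj]
    exact h
  · rw [coe_heckeBetaBar, coeffMap_qExpand, hj]
    exact ⟨ModularCosets.diff_comp_triSmul (mem_holPairs.mp h).1 p 0 1,
      hasQExp_scale p (mem_holPairs.mp h).2⟩

theorem frickeOK_alpha (A : ValuationSubring Qb) :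
    FrickeOK hpM (heckeAlphaBar Qb M p (Reduction.jParam A M)) :=
  ⟨_, _, (j_pair A).1, by rw [BadQ.atkinLehner_alpha]; exact (j_pair A).2,
    fun z => (jH_frickePt p z).symm⟩

theorem frickeOK_beta (A : ValuationSubring Qb) :
    FrickeOK hpM (heckeBetaBar Qb M p (Reduction.jParam A M)) :=
  ⟨_, _, (j_pair A).2, by rw [BadQ.atkinLehner_beta]; exact (j_pair A).1,
    fun z => (jH_triSmul_frickePt p z).symm⟩

include hpM in
/-- A function of level `p` is a quotient of such functions. -/
theorem exists_frickeOK_frac {y : LaurentSeries Qb} (hy : y ∈ modularFunctionFieldBar p) :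
    ∃ a b : FQ, FrickeOK hpM a ∧ FrickeOK hpM b ∧ b ≠ 0 ∧
      y * (b : LaurentSeries Qb) = (a : LaurentSeries Qb) := by
  let A : ValuationSubring Qb := ⊤
  have hy' : y ∈ IntermediateField.adjoin Qb
      (Set.range fun d : ModularCosets.DivIdx p => Kronecker.jSeries Qb (d : ℕ)) := by
    rw [← Kronecker.laurentBaseChange_full_eq_adjoin]; exact hy
  clear hy
  induction hy' using IntermediateField.adjoin_induction with
  | mem z hz =>
    obtain ⟨d, rfl⟩ := hz
    rcases (Nat.dvd_prime hp.out).mp d.dvd with hd | hd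
    · refine ⟨_, 1, frickeOK_alpha A, frickeOK_one, one_ne_zero, ?_⟩
      rw [IntermediateField.coe_one, mul_one, BadQ.coe_alpha_jParam]
      show Kronecker.jSeries Qb (d : ℕ) = _
      rw [hd]
    · refine ⟨_, 1, frickeOK_beta A, frickeOK_one, one_ne_zero, ?_⟩
      rw [IntermediateField.coe_one, mul_one, BadQ.beta_jParam_eq]
      show Kronecker.jSeries Qb (d : ℕ) = Kronecker.jSeries Qb p
      rw [hd]
  | algebraMap c => exact ⟨_, 1, frickeOK_const c, frickeOK_one, one_ne_zero, by simp⟩
  | add z z' _ _ h h' =>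
    obtain ⟨a, b, ha, hb, hb0, he⟩ := h
    obtain ⟨a', b', ha', hb', hb0', he'⟩ := h'
    refine ⟨a * b' + a' * b, b * b', (ha.mul hb').add (ha'.mul hb), hb.mul hb',
      mul_ne_zero hb0 hb0', ?_⟩
    simp only [IntermediateField.coe_add, IntermediateField.coe_mul, ← he, ← he']
    ring
  | mul z z' _ _ h h' =>
    obtain ⟨a, b, ha, hb, hb0, he⟩ := h
    obtain ⟨a', b', ha', hb', hb0', he'⟩ := h'
    refine ⟨a * a', b * b', ha.mul ha', hb.mul hb', mul_ne_zero hb0 hb0', ?_⟩
    simp only [IntermediateField.coe_mul, ← he, ← he']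
    ring
  | inv z _ h =>
    obtain ⟨a, b, ha, hb, hb0, he⟩ := h
    rcases eq_or_ne z 0 with hz | hz
    · refine ⟨algebraMap Qb FQ 0, 1, frickeOK_const 0, frickeOK_one, one_ne_zero, ?_⟩
      rw [hz, inv_zero, map_zero, zero_mul, ZeroMemClass.coe_zero]
    · have ha0 : a ≠ 0 := fun h0 => by
        rw [h0, IntermediateField.coe_zero] at he
        exact hb0 (Subtype.ext ((mul_eq_zero.mp he).resolve_left hz))
      exact ⟨b, a, hb, ha, ha0, by rw [← he, ← mul_assoc, inv_mul_cancel₀ hz, one_mul]⟩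

variable (hpM) in
/-- `w (Δ(τ)/Δ(pτ)) = p^12 Δ(pτ)/Δ(τ)`. -/
theorem atkinLehner_levelUnit :
    BadQ.atkinLehner hp.out hpM (levelUnit M p) =
      algebraMap Qb FQ ((p : Qb) ^ (12 : ℕ)) * (levelUnit M p)⁻¹ := by
  obtain ⟨a, b, ⟨fa, ga, hfa, hga, hea⟩, ⟨fb, gb, hfb, hgb, heb⟩, hb0, hab⟩ :=
    exists_frickeOK_frac (hpM := hpM) (Mazur.coeffEmb_unit_mem p)
  have hab' : levelUnit M p * b = a := Subtype.ext hab
  have hu := levelUnit_pair (M := M) (p := p)
  have hF : fa = Mazur.unitFun p * fb :=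
    ModularCosets.eq_of_hasQExp hfa ((holPairs 1 one_pos).mul_mem hu hfb)
      (by
        show coeffMap ι (a : LaurentSeries Qb) =
          coeffMap ι (levelUnit M p : LaurentSeries Qb) * coeffMap ι (b : LaurentSeries Qb)
        rw [← map_mul, ← IntermediateField.coe_mul, hab'])
  have hinv : Modular.HasQExp 1 (Mazur.unitFun p)⁻¹
      (coeffMap ι (levelUnit M p : LaurentSeries Qb))⁻¹ :=
    (mem_holPairs.mp hu).2.inv one_pos
  have hg : Modular.HasQExp 1 ga (HahnSeries.C ((p : ℂ) ^ (12 : ℕ)) *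
      (coeffMap ι (levelUnit M p : LaurentSeries Qb))⁻¹ *
      coeffMap ι (BadQ.atkinLehner hp.out hpM b : LaurentSeries Qb)) := by
    have h := ((ModularCosets.hasQExp_C 1 ((p : ℂ) ^ (12 : ℕ))).mul hinv).mul (mem_holPairs.mp hgb).2
    refine h.congr (Filter.Eventually.of_forall fun z => ?_)
    simp only [Pi.mul_apply, Pi.inv_apply]
    rw [hea, hF, Pi.mul_apply, unitFun_frickePt, heb]
  have hser := (mem_holPairs.mp hga).2.unique one_pos hg
  rw [← hab', map_mul, IntermediateField.coe_mul, map_mul] at hser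
  have hw0 : coeffMap ι (BadQ.atkinLehner hp.out hpM b : LaurentSeries Qb) ≠ 0 :=
    (map_ne_zero _).mpr fun h =>
      hb0 ((map_eq_zero _).mp (Subtype.ext h :
        BadQ.atkinLehner hp.out hpM b = 0))
  refine Subtype.ext ((coeffMap ι).injective ?_)
  rw [mul_right_cancel₀ hw0 hser, IntermediateField.coe_mul, IntermediateField.coe_inv, map_mul,
    map_inv₀]
  congr 1
  show _ = coeffMap ι (algebraMap Qb (LaurentSeries Qb) ((p : Qb) ^ (12 : ℕ)))
  rw [algebraMap_laurentSeries_eq_single, coeffMap_single,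
    show ι ((p : Qb) ^ (12 : ℕ)) = (p : ℂ) ^ (12 : ℕ) by rw [map_pow, map_natCast]]
  rfl

/-- No zero or pole away from the poles of `j`. -/
theorem ord_levelUnit {R : Place Qb FQ} (A : ValuationSubring Qb)
    (hR : 0 ≤ R.ord (heckeAlphaBar Qb M p (Reduction.jParam A M))) :
    R.ord (levelUnit M p) = 0 := by
  haveI := Reduction.isFF_bar_curve (M * p)
  let φ : modularFunctionFieldBar p →ₐ[Qb] FQ :=
    IntermediateField.inclusion (bar_le_bar (dvd_mul_left p M))
  have hφ := FF.isIntegral_alongFF φ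
  have he : φ (Mazur.uB p) = levelUnit M p := rfl
  have hj : φ (ModularPlaces.jB p) = heckeAlphaBar Qb M p (Reduction.jParam A M) := by
    refine Subtype.ext ?_
    rw [coe_heckeAlphaBar, Reduction.coe_jParam]
    exact (Mazur.coe_jB (p := p)).trans (ModularCosets.coeffEmb_jq_eq Qb).symm
  rw [← hj, Place.ord_restrictAlong φ hφ] at hR
  rw [← he, Place.ord_restrictAlong φ hφ, Mazur.ord_uB_of_nonneg, mul_zero]
  have hpos := FF.ramificationIndexAlong_pos φ hφ R
  exact nonneg_of_mul_nonneg_right hR (by exact_mod_cast hpos)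

end FLTAgent.MazurP
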