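import Fermat.Agent.MazurP.QEigenPsi
import Mathlib.FieldTheory.PurelyInseparable.Basic

/-!
# The kernel of `q d/dq` on the reduced function field

`exists_pow_eq_of_qTheta_eq_zero`: a function on the reduced curve killed by `q d/dq` is a
`p`-th power. The field is generated by `j` over its `p`-th powers, and `1, j, ..., j^(p-1)` are
independent over the kernel (`eq_zero_of_sum_pow_eq_zero`).
-/

set_option autoImplicit false
set_option linter.style.haveILetI false
set_option linter.unusedSectionVars false
set_option synthInstance.maxHeartbeats 400000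
set_option maxHeartbeats 1600000

noncomputable section

open ModularCurve AlgebraicCurve

namespace FLTAgent.MazurP

section Series

variable {k : Type*} [Field k] {p : ℕ} [CharP k p]

theorem qTheta_pow_char_eq_zero (hp : p ≠ 0) (x : LaurentSeries k) : qTheta (x ^ p) = 0 := by
  rcases eq_or_ne x 0 with rfl | hx
  · rw [zero_pow hp, qTheta_zero]
  · rw [qTheta_eq_mul_qDlog (pow_ne_zero p hx), qDlog_pow_char p x hp, mul_zero]

theorem qTheta_natCast (n : ℕ) : qTheta (n : LaurentSeries k) = 0 := by
  induction n with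
  | zero => rw [Nat.cast_zero, qTheta_zero]
  | succ n ih => rw [Nat.cast_succ, qTheta_add, ih, qTheta_one, add_zero]

theorem qTheta_sum {ι : Type*} (s : Finset ι) (x : ι → LaurentSeries k) :
    qTheta (∑ i ∈ s, x i) = ∑ i ∈ s, qTheta (x i) := by
  classical
  induction s using Finset.induction with
  | empty => simp [qTheta_zero]
  | insert a s ha ih => rw [Finset.sum_insert ha, Finset.sum_insert ha, qTheta_add, ih]

theorem qTheta_mul_pow {c j : LaurentSeries k} (hc : qTheta c = 0) (i : ℕ) :
    qTheta (c * j ^ (i + 1)) = (((i + 1 : ℕ) : LaurentSeries k) * c) * j ^ i * qTheta j := by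
  rw [qTheta_mul, hc, mul_zero, add_zero]
  induction i with
  | zero => simp
  | succ i ih =>
    rw [pow_succ j (i + 1), qTheta_mul, mul_add]
    rw [show c * (j * qTheta (j ^ (i + 1))) = j * (c * qTheta (j ^ (i + 1))) by ring, ih]
    push_cast
    ring

/-- Powers of `j` below the `p`-th are independent over the kernel of `q d/dq`. -/
theorem eq_zero_of_sum_pow_eq_zero [Fact p.Prime] {j : LaurentSeries k} (hj : qTheta j ≠ 0) :
    ∀ n ≤ p, ∀ c : ℕ → LaurentSeries k, (∀ i, qTheta (c i) = 0) →
      ∑ i ∈ Finset.range n, c i * j ^ i = 0 → ∀ i < n, c i = 0 := by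
  intro n
  induction n with
  | zero => intro _ c _ _ i hi; exact absurd hi (Nat.not_lt_zero i)
  | succ n ih =>
    intro hn c hc hsum
    have hd : ∑ i ∈ Finset.range n,
        (((i + 1 : ℕ) : LaurentSeries k) * c (i + 1)) * j ^ i = 0 := by
      have h := congrArg qTheta hsum
      rw [qTheta_sum, Finset.sum_range_succ', qTheta_zero, pow_zero, mul_one, hc, add_zero,
        Finset.sum_congr rfl fun i _ => qTheta_mul_pow (j := j) (hc (i + 1)) i,
        ← Finset.sum_mul] at h
      exact (mul_eq_zero.mp h).resolve_right hj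
    have h0 := ih (by omega) _ (fun i => by
      rw [qTheta_mul, qTheta_natCast, hc, mul_zero, mul_zero, add_zero]) hd
    have hsucc : ∀ i < n, c (i + 1) = 0 := fun i hi => by
      refine (mul_eq_zero.mp (h0 i hi)).resolve_left fun h => ?_
      have h' : ((i + 1 : ℕ) : k) = 0 := by
        apply (HahnSeries.C_injective (Γ := ℤ) (R := k))
        rw [map_natCast, h, map_zero]
      exact absurd (Nat.le_of_dvd (by omega) ((CharP.cast_eq_zero_iff k p _).mp h')) (by omega)
    intro i hi
    match i with
    | 0 =>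
      rw [Finset.sum_range_succ', Finset.sum_eq_zero fun i hi => by
        rw [hsucc i (Finset.mem_range.mp hi), zero_mul]] at hsum
      simpa using hsum
    | i + 1 => exact hsucc i (by omega)

end Series

variable {N p : ℕ} [NeZero N] [Fact p.Prime] (A : ValuationSubring (AlgebraicClosure ℚ))

local notation "kA" => IsLocalRing.ResidueField A
local notation "E0" => modularFunctionFieldFullC (IsLocalRing.ResidueField A) N

/-- A function killed by `q d/dq` is a `p`-th power. -/
theorem exists_pow_eq_of_qTheta_eq_zero (hA : A.LiesOverPrime p) (hpN : ¬ p ∣ N) {g : E0}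
    (hg : qTheta (g : LaurentSeries kA) = 0) : ∃ u : E0, g = u ^ p := by
  have hp : p.Prime := Fact.out
  haveI := GalCommon.isAlgClosed_residueField A hp hA
  haveI := GalCommon.charP_residueField hp hA
  haveI : CharP E0 p := charP_of_injective_algebraMap (algebraMap kA E0).injective p
  haveI : ExpChar E0 p := ExpChar.prime hp
  set j : E0 := Reduction.jF N kA with hj
  -- `p`-th powers
  set C : Subfield E0 := (frobenius E0 p).fieldRange with hC
  have hmemC : ∀ x : E0, x ∈ C ↔ ∃ u, u ^ p = x := fun x => Iff.rfl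
  set L : IntermediateField C E0 := IntermediateField.adjoin C {j} with hL
  have hjL : j ∈ L := IntermediateField.mem_adjoin_simple_self C j
  have hconst : ∀ a : kA, algebraMap kA E0 a ∈ L := fun a => by
    obtain ⟨s, hs⟩ := IsAlgClosed.exists_pow_nat_eq a hp.pos
    exact L.algebraMap_mem ⟨algebraMap kA E0 a, (hmemC _).mpr ⟨algebraMap kA E0 s, by
      rw [← map_pow, hs]⟩⟩
  -- separable and purely inseparable over `L`
  let K₁ := IntermediateField.adjoin kA {j}
  let L' : IntermediateField kA E0 :=
    L.toSubfield.toIntermediateField fun a => hconst a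
  have hle : K₁ ≤ L' := IntermediateField.adjoin_le_iff.mpr (by
    rintro x rfl
    exact hjL)
  haveI : Algebra.IsSeparable K₁ E0 := Reduction.isSeparable_fullC_residue N A hA hpN
  have hgL : g ∈ L := by
    letI : Algebra K₁ L' := (IntermediateField.inclusion hle).toRingHom.toAlgebra
    haveI : IsScalarTower K₁ L' E0 := IsScalarTower.of_algebraMap_eq fun x => rfl
    haveI : Algebra.IsSeparable L' E0 := Algebra.isSeparable_tower_top_of_isSeparable K₁ L' E0
    haveI : IsPurelyInseparable L' E0 := (isPurelyInseparable_iff_pow_mem L' p).mpr fun x =>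
      ⟨1, ⟨⟨x ^ p, L.algebraMap_mem ⟨x ^ p, (hmemC _).mpr ⟨x, rfl⟩⟩⟩, by
        rw [pow_one]; rfl⟩⟩
    obtain ⟨y, hy⟩ := IsPurelyInseparable.surjective_algebraMap_of_isSeparable L' E0 g
    rw [← hy]
    exact y.2
  -- write `g` as a combination of `1, …, j^(p-1)`
  have hjp : j ^ p ∈ C := (hmemC _).mpr ⟨j, rfl⟩
  set Φ : Polynomial C := Polynomial.X ^ p - Polynomial.C ⟨j ^ p, hjp⟩ with hΦ
  have hΦm : Φ.Monic := Polynomial.monic_X_pow_sub_C _ hp.ne_zero
  have hΦ0 : Polynomial.aeval j Φ = 0 := by
    simp only [hΦ, map_sub, map_pow, Polynomial.aeval_X, Polynomial.aeval_C]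
    exact sub_self _
  have halg : IsAlgebraic C j := ⟨Φ, hΦm.ne_zero, hΦ0⟩
  rw [hL, ← IntermediateField.mem_toSubalgebra,
    IntermediateField.adjoin_simple_toSubalgebra_of_isAlgebraic halg,
    Algebra.adjoin_singleton_eq_range_aeval] at hgL
  obtain ⟨P, hP⟩ := hgL
  set Q := P %ₘ Φ with hQ
  have hQg : Polynomial.aeval j Q = g := by
    rw [hQ, Polynomial.modByMonic_eq_sub_mul_div, map_sub, map_mul, hΦ0, zero_mul, sub_zero]
    exact hP
  have hdeg : Q.natDegree < p := by
    refine lt_of_lt_of_eq (Polynomial.natDegree_modByMonic_lt P hΦm ?_)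
      Polynomial.natDegree_X_pow_sub_C
    intro h
    have := congrArg Polynomial.natDegree h
    rw [hΦ, Polynomial.natDegree_X_pow_sub_C, Polynomial.natDegree_one] at this
    exact hp.ne_zero this
  have hCθ : ∀ c : C, qTheta (((c : E0)) : LaurentSeries kA) = 0 := fun c => by
    obtain ⟨u, hu⟩ := (hmemC _).mp c.2
    rw [← hu, SubmonoidClass.coe_pow]
    exact qTheta_pow_char_eq_zero hp.ne_zero _
  have hsum : (g : LaurentSeries kA) = ∑ i ∈ Finset.range p,
      (((Q.coeff i : C) : E0) : LaurentSeries kA) * (j : LaurentSeries kA) ^ i := by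
    rw [← hQg, Polynomial.aeval_eq_sum_range' hdeg]
    push_cast
    rfl
  have hθ := congrArg qTheta hsum
  rw [hg, qTheta_sum] at hθ
  obtain ⟨n, hn⟩ : ∃ n, p = n + 1 := ⟨p - 1, by have := hp.one_le; omega⟩
  have hd : ∑ i ∈ Finset.range n, (((i + 1 : ℕ) : LaurentSeries kA) *
      (((Q.coeff (i + 1) : C) : E0) : LaurentSeries kA)) * (j : LaurentSeries kA) ^ i = 0 := by
    rw [hn, Finset.sum_range_succ', pow_zero, mul_one, hCθ, add_zero,
      Finset.sum_congr rfl fun i _ => qTheta_mul_pow (hCθ (Q.coeff (i + 1))) i,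
      ← Finset.sum_mul] at hθ
    exact (mul_eq_zero.mp hθ.symm).resolve_right (by
      show qTheta (jqModC kA) ≠ 0
      exact qTheta_jqModC_ne_zero _)
  have h0 := eq_zero_of_sum_pow_eq_zero (p := p) (j := (j : LaurentSeries kA))
    (qTheta_jqModC_ne_zero _) n (by omega) _ (fun i => by
      rw [qTheta_mul, qTheta_natCast, hCθ, mul_zero, mul_zero, add_zero]) hd
  have hz : ∀ i, 1 ≤ i → i < p → Q.coeff i = 0 := fun i h1 h2 => by
    obtain ⟨m, rfl⟩ : ∃ m, i = m + 1 := ⟨i - 1, by omega⟩
    have h := (mul_eq_zero.mp (h0 m (by omega))).resolve_left fun h => by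
      have h' : ((m + 1 : ℕ) : kA) = 0 := by
        apply (HahnSeries.C_injective (Γ := ℤ) (R := kA))
        rw [map_natCast, h, map_zero]
      exact absurd (Nat.le_of_dvd (by omega) ((CharP.cast_eq_zero_iff kA p _).mp h')) (by omega)
    exact Subtype.ext (Subtype.ext h)
  have hg0 : g = ((Q.coeff 0 : C) : E0) := by
    rw [← hQg, Polynomial.aeval_eq_sum_range' hdeg,
      Finset.sum_eq_single 0 (fun i hi hi0 => by
        rw [hz i (Nat.one_le_iff_ne_zero.mpr hi0) (Finset.mem_range.mp hi), zero_smul])
        (fun h => absurd (Finset.mem_range.mpr hp.pos) h),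
      pow_zero, Algebra.smul_def, mul_one]
    rfl
  obtain ⟨u, hu⟩ := (hmemC _).mp (Q.coeff 0).2
  exact ⟨u, hg0.trans hu.symm⟩

end FLTAgent.MazurP
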