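import Fermat.Agent.Lift.Invariants
import Fermat.Agent.Lift.Transport

/-!
# Places, gluing and parameters of a lifting datum

For a `Lift.Data` (a curve with two reductions glued by Frobenius along a finite set of points)
this file rewrites reduction of places as `redSide` into pairs (component, point), with the order
formulas at smooth points and nodes (`ord_smooth_inf`, `ord_smooth_zero`, `ord_at_node`), gluing
(`glue_at_node`), invariance under automorphisms trivial on both components (`redSide_smul`) and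
invariant parameters from invariant lifts (`exists_param`).
-/

set_option autoImplicit false
set_option linter.style.haveILetI false
set_option linter.unusedSectionVars false

noncomputable section

open AlgebraicCurve SemilinearAut

namespace FLTAgent.MazurP

open FLTAgent.Reduction FLTAgent.Lift FLTAgent.Lift.Data

variable {K k F F₀ E : Type*} [Field K] [Field k] [Field F] [Field F₀] [Field E] [Algebra K F]
  [Algebra K F₀] [Algebra k E] {A : ValuationSubring K} {π : A →+* k} {q g g' : ℕ}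
variable (D : Lift.Data A π q F F₀ E g g') [Infinite k]

/-- The component of a class, with `false` for the first. -/
def toSide (c : Cls k E) : Bool × Place k E := (!c.1, c.2)

theorem toSide_injective : Function.Injective (toSide (k := k) (E := E)) := by
  rintro ⟨b, z⟩ ⟨b', z'⟩ h
  simp only [toSide, Prod.mk.injEq, Bool.not_inj_iff] at h
  exact Prod.ext h.1 h.2

/-- The reduction of places, with `false` for the first component. -/
def redSide (R : Place K F) : Bool × Place k E := toSide (D.sp R)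

variable {D}

theorem redSide_eq_iff {R : Place K F} {b : Bool} {P : Place k E} :
    redSide D R = (b, P) ↔ D.sp R = (!b, P) := by
  constructor
  · intro h
    refine toSide_injective (h.trans ?_)
    simp [toSide]
  · intro h
    simp [redSide, h, toSide]

theorem redSide_ne_partner (R : Place K F) {P : Place k E} (hP : P ∈ D.Xfin) :
    redSide D R ≠ (true, D.frob • P) := fun h =>
  isCanon_sp (D := D) R ⟨by rw [redSide_eq_iff.mp h]; rfl, by
    rw [redSide_eq_iff.mp h, inv_smul_smul]; exact mem_Xfin.mp hP⟩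

theorem mapDomain_redSide (f : F) (b : Bool) (P : Place k E) :
    Finsupp.mapDomain (redSide D) (divOf f : Divisor K F) (b, P) = D.spDiv f (!b, P) := by
  rw [show redSide D = toSide ∘ D.sp from rfl, Finsupp.mapDomain_comp,
    show (b, P) = toSide ((!b, P) : Cls k E) by simp [toSide],
    Finsupp.mapDomain_apply toSide_injective]
  rfl

theorem isCanon_false_of_partner {P : Place k E} (h : ∀ P' ∈ D.Xfin, D.frob • P' ≠ P) :
    D.IsCanon (false, P) := fun hc =>
  h _ (mem_Xfin.mpr hc.2) (smul_inv_smul D.frob P)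

/-- Orders at smooth points of the first component. -/
theorem ord_smooth_inf [IsAlgClosed K] {P : Place k E} (hP : P ∉ D.Xfin) {f : F}
    (hf : f ∈ D.Ginf.V) (h0 : D.Ginf.red f ≠ 0) :
    Finsupp.mapDomain (redSide D) (divOf f : Divisor K F) (false, P) =
      P.ord (D.Ginf.red f) := by
  have hf0 : f ≠ 0 := fun h => h0 (by rw [h, D.Ginf.red_zero])
  rw [mapDomain_redSide, spDiv_eq_sDiv hf0, Bool.not_false, sDiv_apply_true hf0,
    if_neg (fun h => hP (mem_Xfin.mpr h)), add_zero, dI_of_mem hf h0,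
    D.param.curveBar.divOf_apply]

/-- Orders at smooth points of the second component. -/
theorem ord_smooth_zero [IsAlgClosed K] {P : Place k E}
    (hP : ∀ P' ∈ D.Xfin, D.frob • P' ≠ P) {f : F} (hf : f ∈ D.Gzero.V)
    (h0 : D.Gzero.red f ≠ 0) :
    Finsupp.mapDomain (redSide D) (divOf f : Divisor K F) (true, P) =
      P.ord (D.Gzero.red f) := by
  have hf0 : f ≠ 0 := fun h => h0 (by rw [h, D.Gzero.red_zero])
  rw [mapDomain_redSide, spDiv_eq_sDiv hf0, Bool.not_true,
    sDiv_apply_false hf0 (isCanon_false_of_partner hP), dZ_of_mem hf h0,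
    D.param.curveBar.divOf_apply]

/-- Orders at a node. -/
theorem ord_at_node [IsAlgClosed K] {P : Place k E} (hP : P ∈ D.Xfin) {f : F} {c d : K}
    (hc : c • f ∈ D.Ginf.V) (hc0 : D.Ginf.red (c • f) ≠ 0)
    (hd : d • f ∈ D.Gzero.V) (hd0 : D.Gzero.red (d • f) ≠ 0) :
    Finsupp.mapDomain (redSide D) (divOf f : Divisor K F) (false, P) =
      P.ord (D.Ginf.red (c • f)) + (D.frob • P).ord (D.Gzero.red (d • f)) := by
  have hf0 : f ≠ 0 := fun h => hc0 (by rw [h, smul_zero, D.Ginf.red_zero])
  rw [mapDomain_redSide, spDiv_eq_sDiv hf0, Bool.not_false, sDiv_apply_true hf0,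
    if_pos (mem_Xfin.mp hP), dI_eq ⟨hc, hc0⟩, dZ_eq ⟨hd, hd0⟩, D.param.curveBar.divOf_apply,
    D.param.curveBar.divOf_apply]

/-- Gluing at a node. -/
theorem glue_at_node {P : Place k E} (hP : P ∈ D.Xfin) {f : F} (h1 : f ∈ D.Ginf.V)
    (h2 : f ∈ D.Gzero.V) (hv : ∀ R : Place K F, redSide D R = (false, P) → Vanish R f 0) :
    Vanish P (D.Ginf.red f) 0 ∧ Vanish (D.frob • P) (D.Gzero.red f) 0 ∧
      valAt P (D.Ginf.red f) = valAt (D.frob • P) (D.Gzero.red f) := by
  obtain ⟨r1, r2⟩ := reg_of_noPole (D := D) (c := (true, P)) (isCanon_true P) (f := f) ⟨h1, h2⟩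
    (fun R hR => hv R (redSide_eq_iff.mpr hR))
  obtain ⟨r3, r4⟩ := r2 rfl (mem_Xfin.mp hP)
  exact ⟨r1, r3, r4⟩

theorem sp_smul_fin {σ : SemilinearAut K F} (h : D.Compat σ 1) {P : Place K F}
    (hdisc : IsDisc A D.T P) : D.sp (σ • P) = D.sp P := by
  have hb : ∀ {a : K} (ha : a ∈ A), ∃ ha' : baseAut σ a ∈ A, π ⟨baseAut σ a, ha'⟩ = π ⟨a, ha⟩ :=
    fun ha => by
      obtain ⟨h1, h2⟩ := h.base_mem ha
      refine ⟨h1, h2.trans ((algebraMap k E).injective ?_)⟩
      rw [← SemilinearAut.smul_algebraMap, one_smul]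
  have hvT : valAt (σ • P) D.T = baseAut σ (valAt P D.T) := by
    conv_lhs => rw [← h.smul_T]
    exact valAt_smul_semilinear D.curve σ (Vanish.zero_iff.mpr hdisc.1)
  have hdisc' : IsDisc A D.T (σ • P) := by
    refine ⟨?_, ?_⟩
    · rw [← h.smul_T, SemilinearAut.ord_smul]; exact hdisc.1
    · rw [hvT]; exact (hb hdisc.2).1
  obtain ⟨hcan, hfin, hev⟩ := isSp_sp hdisc
  refine IsSp.unique (isSp_sp hdisc') ⟨hcan, hfin, fun y hy hyr => ?_⟩
  set y' := σ⁻¹ • y with hy'
  have hyy : σ • y' = y := smul_inv_smul σ y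
  have hy'V : y' ∈ D.V := ⟨(h.inverse.mem_inf y).mpr hy.1, (h.inverse.mem_zero y).mpr hy.2⟩
  have hy'r : RegAway (K := K) D.T y' := fun R hR => by
    have h1 : 0 ≤ (σ • R).ord D.T := by rw [← h.smul_T, SemilinearAut.ord_smul]; exact hR
    have := vanish_smul σ⁻¹ (hyr _ h1)
    rwa [inv_smul_smul] at this
  have hA := valAt_mem hdisc hy'V hy'r
  obtain ⟨hA', hπ⟩ := hb hA
  have hval : valAt (σ • P) y = baseAut σ (valAt P y') := by
    rw [← hyy]
    exact valAt_smul_semilinear D.curve σ (hy'r P hdisc.1)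
  rw [resVal_of_eq (σ • P) y ⟨_, hA'⟩ hval, hπ, ← resVal_of_eq P y' ⟨_, hA⟩ rfl,
    hev y' hy'V hy'r]
  refine congrArg (fun x => cval x (D.sp P)) (Prod.ext ?_ ?_)
  · show D.Ginf.red y' = D.Ginf.red y
    rw [← hyy, h.red_inf y' hy'V.1, one_smul]
  · show D.Gzero.red y' = D.Gzero.red y
    rw [← hyy, h.red_zero y' hy'V.2, one_smul]

/-- Automorphisms acting trivially on both components fix the reduction of places. -/
theorem sp_smul_eq {σ : SemilinearAut K F} (h : D.Compat σ 1) (P : Place K F) :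
    D.sp (σ • P) = D.sp P := by
  by_cases hP : IsDisc A D.T P
  · exact sp_smul_fin h hP
  · rw [← sp_inv (D := D), ← sp_inv (D := D) P]
    exact sp_smul_fin h.onInv (isDisc_inv_of_not hP).1

theorem redSide_smul {σ : SemilinearAut K F} (h : D.Compat σ 1) (R : Place K F) :
    redSide D (σ • R) = redSide D R := by
  rw [redSide, sp_smul_eq h, redSide]

/-- Parameters from lifts, at the points away from the poles of `τ`. -/
theorem exists_param_fin (S : Set (SemilinearAut K F))
    (hlift : ∀ w : E, RegAway (K := k) D.tau w → ∃ a ∈ D.G.V, RegAway (K := K) D.j a ∧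
      D.G.red a = w ∧ ∀ σ ∈ S, σ • D.α a = D.α a ∧ σ • D.β a = D.β a)
    (b : Bool) {z : Place k E} (hz : 0 ≤ z.ord D.tau) :
    ∃ t ∈ (if b then D.Ginf else D.Gzero).V,
      z.ord ((if b then D.Ginf else D.Gzero).red t) = 1 ∧
      (∀ R : Place K F, D.sp R = (b, z) → Vanish R t 0) ∧ ∀ σ ∈ S, σ • t = t := by
  classical
  obtain ⟨w, -, hwr, hword, -⟩ := exists_reg_ord D.param {z} (fun _ => 1)
    (fun Q hQ => by rw [Finset.mem_singleton.mp hQ]; exact hz) (Finset.mem_singleton_self z)
  obtain ⟨a, ha, har, haw, hfix⟩ := hlift w hwr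
  cases b
  · refine ⟨D.β a, D.beta_mem_zero a ha, ?_, fun R hR => ?_, fun σ hσ => (hfix σ hσ).2⟩
    · show z.ord (D.Gzero.red (D.β a)) = 1
      rw [D.red_beta_zero a ha, haw, hword]; rfl
    · exact D.regAway_beta har R (sp_finite_iff.mp (by rw [hR]; exact hz)).1
  · refine ⟨D.α a, D.alpha_mem_inf a ha, ?_, fun R hR => ?_, fun σ hσ => (hfix σ hσ).1⟩
    · show z.ord (D.Ginf.red (D.α a)) = 1
      rw [D.red_alpha_inf a ha, haw, hword]; rfl
    · exact D.regAway_alpha har R (sp_finite_iff.mp (by rw [hR]; exact hz)).1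

/-- Parameters from lifts, at every point. -/
theorem exists_param (S : Set (SemilinearAut K F))
    (hlift : ∀ w : E, RegAway (K := k) D.tau w → ∃ a ∈ D.G.V, RegAway (K := K) D.j a ∧
      D.G.red a = w ∧ ∀ σ ∈ S, σ • D.α a = D.α a ∧ σ • D.β a = D.β a)
    (hlift' : ∀ w : E, RegAway (K := k) D.inv.tau w → ∃ a ∈ D.G.V, RegAway (K := K) D.inv.j a ∧
      D.G.red a = w ∧ ∀ σ ∈ S, σ • D.α a = D.α a ∧ σ • D.β a = D.β a)
    (b : Bool) (z : Place k E) :
    ∃ t ∈ (if b then D.Ginf else D.Gzero).V,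
      z.ord ((if b then D.Ginf else D.Gzero).red t) = 1 ∧
      (∀ R : Place K F, D.sp R = (b, z) → Vanish R t 0) ∧ ∀ σ ∈ S, σ • t = t := by
  rcases le_or_gt 0 (z.ord D.tau) with hz | hz
  · exact exists_param_fin S hlift b hz
  · obtain ⟨t, h1, h2, h3, h4⟩ := exists_param_fin (D := D.inv) S hlift' b
      (z := z) (by rw [D.tau_inv, Place.ord_inv]; omega)
    exact ⟨t, h1, h2, fun R hR => h3 R (by rwa [sp_inv]), h4⟩

end FLTAgent.MazurP
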