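import Fermat.Agent.MazurP.FrameSeries
import Fermat.Agent.BadQ.LiftData
import Fermat.Agent.Lift.Frob
import Fermat.Prelude.Thm_ModularCurve_coeffMap_qExpand

/-!
# Unramified lifts at level `M`

At level `M` prime to the residue characteristic, a function on the reduced curve regular away
from the poles of the parameter lifts to one whose expansion has coefficients in the maximal
unramified field at `A` (`exists_unramified_lift`); hence the two degeneracy images of such lifts
are fixed by inertia, which supplies the lifts needed for the frame parameters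
(`liftData_lifts`).
-/

set_option autoImplicit false
set_option linter.style.haveILetI false
set_option linter.unusedSectionVars false
set_option synthInstance.maxHeartbeats 400000
set_option maxHeartbeats 800000

noncomputable section

open ModularCurve AlgebraicCurve SemilinearAut

namespace FLTAgent.MazurP

open FLTAgent.Reduction FLTAgent.BadQ

local notation "Qb" => AlgebraicClosure ℚ

variable (A : ValuationSubring Qb) (M q : ℕ) [NeZero M] [NeZero q]

local notation "k" => IsLocalRing.ResidueField A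
local notation "π" => IsLocalRing.residue A
local notation "F0" => modularFunctionFieldBar M

/-- The expansion of a function, as a linear map. -/
def expLin : F0 →ₗ[Qb] LaurentSeries Qb where
  toFun f := (f : LaurentSeries Qb)
  map_add' _ _ := rfl
  map_smul' c f := by
    rw [RingHom.id_apply, ← HahnSeries.C_mul_eq_smul, Algebra.smul_def]
    show algebraMap Qb (LaurentSeries Qb) c * (f : LaurentSeries Qb) = _
    rw [algebraMap_laurentSeries_eq_single]
    rfl

theorem expLin_apply (f : F0) : expLin M f = (f : LaurentSeries Qb) := rfl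

variable {A M}

theorem expLin_injective : Function.Injective (expLin M) := fun _ _ h => Subtype.ext h

theorem coe_gauss_mem {a : F0} (ha : a ∈ (modularGauss A M).V) :
    (a : LaurentSeries Qb) ∈ gV A π ∧
      gval A π (a : LaurentSeries Qb) = ((modularGauss A M).red a : LaurentSeries k) := by
  obtain ⟨u, v, hv, h⟩ := modularGauss_mem.mp ha
  have hv' : redSer A π (v : LaurentSeries A) ≠ 0 := fun h0 => hv (Subtype.ext h0)
  have h' : (a : LaurentSeries Qb) * incl A (v : LaurentSeries A) = incl A (u : LaurentSeries A) :=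
    congrArg Subtype.val h
  refine ⟨⟨_, _, hv', h'⟩, ?_⟩
  rw [gval_eq A π hv' h', modularGauss_red hv h, IntermediateField.coe_div]
  rfl

variable {q}
variable [hq : Fact q.Prime] (hqM : ¬ q ∣ M) (hA : A.LiesOverPrime q)

include hqM hA in
/-- A function with integral expansion is integral. -/
theorem mem_modularGauss_of_gV {a : F0} (h : (a : LaurentSeries Qb) ∈ gV A π) :
    a ∈ (modularGauss A M).V ∧
      ((modularGauss A M).red a : LaurentSeries k) = gval A π (a : LaurentSeries Qb) := by
  suffices hm : a ∈ (modularGauss A M).V from ⟨hm, (coe_gauss_mem hm).2.symm⟩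
  rcases eq_or_ne a 0 with rfl | ha
  · exact Subring.zero_mem _
  obtain ⟨c, hc, hcV, hc0⟩ := modularGauss_scale (ℓ := q) A M hA hqM a ha
  have hcoe : ((c • a : F0) : LaurentSeries Qb) = HahnSeries.C c * (a : LaurentSeries Qb) := by
    rw [← expLin_apply, map_smul, expLin_apply, HahnSeries.C_mul_eq_smul]
  have hinv : c⁻¹ ∈ A := by
    by_contra hci
    have hcA : c ∈ A := (A.mem_or_inv_mem c).resolve_right hci
    refine hc0 (Subtype.ext ?_)
    rw [← (coe_gauss_mem hcV).2, hcoe, gval_mul A π (gval_C A π ⟨c, hcA⟩).1 h,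
      (gval_C A π ⟨c, hcA⟩).2]
    have hker : π ⟨c, hcA⟩ = 0 := by
      rw [IsLocalRing.residue_eq_zero_iff, IsLocalRing.mem_maximalIdeal, mem_nonunits_iff]
      intro hu
      obtain ⟨w, hw⟩ := hu.exists_right_inv
      exact hci (inv_eq_of_mul_eq_one_right (congrArg Subtype.val hw : c * (w : Qb) = 1) ▸ w.2)
    rw [hker, map_zero, zero_mul]
    rfl
  have h1 := Subring.mul_mem _ ((modularGauss A M).const_mem ⟨c⁻¹, hinv⟩) hcV
  rwa [← Algebra.smul_def, smul_smul, inv_mul_cancel₀ hc, one_smul] at h1

theorem smul_mem_polesLe {g : ℕ} (hC : CurveData Qb F0 g) {x : F0}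
    {σ : SemilinearAut Qb F0} (hx : σ • x = x) {n : ℕ} {f : F0}
    (hf : f ∈ (polesLe x n : Submodule Qb F0)) :
    σ • f ∈ (polesLe x n : Submodule Qb F0) := by
  refine hC.mem_polesLe.mpr fun v => ?_
  have h1 := Lift.vanish_smul σ (hC.mem_polesLe.mp hf (σ⁻¹ • v))
  rw [smul_inv_smul] at h1
  have h2 : (σ⁻¹ • v).ord x = v.ord x := by
    conv_rhs => rw [← smul_inv_smul σ v, ← hx, SemilinearAut.ord_smul]
  rwa [h2] at h1

include hqM hA in
/-- Regular functions on the reduction lift to regular functions fixed by inertia. -/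
theorem exists_unramified_lift {g : ℕ} {x : F0} (hx : GoodParam (modularGauss A M) g x)
    (hfix : ∀ σ : Qb ≃ₐ[ℚ] Qb, arithmeticGalois (modularFunctionFieldFull M) σ • x = x)
    {w : modularFunctionFieldFullC k M}
    (hw : RegAway (K := k) ((modularGauss A M).red x) w) :
    ∃ a ∈ (modularGauss A M).V, RegAway (K := Qb) x a ∧ (modularGauss A M).red a = w ∧
      (a : LaurentSeries Qb) ∈ fixFrac A := by
  obtain ⟨n, hn⟩ := hx.curveBar.exists_mem_polesLe hw
  obtain ⟨y, hy, hyV, hyw⟩ := hx.exists_lift (le_max_right n hx.bound)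
    (hx.curveBar.polesLe_mono _ (le_max_left n hx.bound) hn)
  haveI := hx.curve.finite_L' (boundDiv x (max n hx.bound) (0 : Divisor Qb F0))
  set P : Submodule Qb F0 := polesLe x (max n hx.bound) with hP
  haveI : FiniteDimensional Qb P := by rw [hP]; infer_instance
  have hstable : CoeffStable (P.map (expLin M)) := by
    rintro σ _ ⟨f, hf, rfl⟩
    exact ⟨arithmeticGalois (modularFunctionFieldFull M) σ • f,
      smul_mem_polesLe hx.curve (hfix σ) hf, coe_arithmeticGalois_smul _ σ f⟩
  obtain ⟨z, ⟨a, ha, rfl⟩, hzfix, hzv⟩ := exists_fix_lift (N := M) hA hstable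
    (by rintro _ ⟨f, -, rfl⟩; exact f.2) ⟨y, hy, rfl⟩ (coe_gauss_mem hyV).1
  obtain ⟨haV, har⟩ := mem_modularGauss_of_gV hqM hA (a := a) (fixFrac_le_gV hzfix)
  refine ⟨a, haV, hx.curve.regAway_of_mem_polesLe ha, Subtype.ext ?_, hzfix⟩
  rw [har, ← hyw]
  exact hzv.trans (coe_gauss_mem hyV).2

theorem alpha_fixed {a : F0} (ha : (a : LaurentSeries Qb) ∈ fixFrac A) {σ : Qb ≃ₐ[ℚ] Qb}
    (hσ : σ ∈ A.inertiaSubgroupIn ℚ) :
    arithmeticGalois (modularFunctionFieldFull (M * q)) σ • heckeAlphaBar Qb M q a =
      heckeAlphaBar Qb M q a := by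
  refine Subtype.ext ?_
  rw [coe_arithmeticGalois_smul, coe_heckeAlphaBar]
  exact fixFrac_fixed ha hσ

theorem beta_fixed {a : F0} (ha : (a : LaurentSeries Qb) ∈ fixFrac A) {σ : Qb ≃ₐ[ℚ] Qb}
    (hσ : σ ∈ A.inertiaSubgroupIn ℚ) :
    arithmeticGalois (modularFunctionFieldFull (M * q)) σ • heckeBetaBar Qb M q a =
      heckeBetaBar Qb M q a := by
  refine Subtype.ext ?_
  rw [coe_arithmeticGalois_smul, coe_heckeBetaBar, coeffMap_qExpand, fixFrac_fixed ha hσ]

theorem jParam_fixed (σ : Qb ≃ₐ[ℚ] Qb) :
    arithmeticGalois (modularFunctionFieldFull M) σ • jParam A M = jParam A M := by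
  refine Subtype.ext ?_
  rw [coe_arithmeticGalois_smul, coe_jParam, ModularCosets.coeffEmb_jq_eq]
  exact coeffMap_jqModC _

theorem jParam_inv_fixed (σ : Qb ≃ₐ[ℚ] Qb) :
    arithmeticGalois (modularFunctionFieldFull M) σ • (jParam A M)⁻¹ = (jParam A M)⁻¹ := by
  rw [smul_inv'', jParam_fixed]

include hqM hA in
/-- The lifts needed by the parameters of the frame. -/
theorem liftData_lifts (hg : genusFF k (modularFunctionFieldFullC k M) = genusFF Qb F0) :
    (∀ w, RegAway (K := k) (liftData A M q hq.out hqM hA hg).tau w →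
      ∃ a ∈ (liftData A M q hq.out hqM hA hg).G.V,
        RegAway (K := Qb) (liftData A M q hq.out hqM hA hg).j a ∧
        (liftData A M q hq.out hqM hA hg).G.red a = w ∧
        ∀ σ ∈ (A.inertiaSubgroupIn ℚ : Set (Qb ≃ₐ[ℚ] Qb)),
          arithmeticGalois (modularFunctionFieldFull (M * q)) σ •
            (liftData A M q hq.out hqM hA hg).α a = (liftData A M q hq.out hqM hA hg).α a ∧
          arithmeticGalois (modularFunctionFieldFull (M * q)) σ •
            (liftData A M q hq.out hqM hA hg).β a = (liftData A M q hq.out hqM hA hg).β a) ∧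
    (∀ w, RegAway (K := k) (liftData A M q hq.out hqM hA hg).inv.tau w →
      ∃ a ∈ (liftData A M q hq.out hqM hA hg).G.V,
        RegAway (K := Qb) (liftData A M q hq.out hqM hA hg).inv.j a ∧
        (liftData A M q hq.out hqM hA hg).G.red a = w ∧
        ∀ σ ∈ (A.inertiaSubgroupIn ℚ : Set (Qb ≃ₐ[ℚ] Qb)),
          arithmeticGalois (modularFunctionFieldFull (M * q)) σ •
            (liftData A M q hq.out hqM hA hg).α a = (liftData A M q hq.out hqM hA hg).α a ∧
          arithmeticGalois (modularFunctionFieldFull (M * q)) σ •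
            (liftData A M q hq.out hqM hA hg).β a = (liftData A M q hq.out hqM hA hg).β a) := by
  have hx := goodParam_of_genus A M hA hqM hg
  refine ⟨fun w hw => ?_, fun w hw => ?_⟩
  · obtain ⟨a, h1, h2, h3, h4⟩ := exists_unramified_lift hqM hA hx jParam_fixed hw
    exact ⟨a, h1, h2, h3, fun σ hσ => ⟨alpha_fixed h4 hσ, beta_fixed h4 hσ⟩⟩
  · obtain ⟨a, h1, h2, h3, h4⟩ := exists_unramified_lift hqM hA hx.inv jParam_inv_fixed hw
    exact ⟨a, h1, h2, h3, fun σ hσ => ⟨alpha_fixed h4 hσ, beta_fixed h4 hσ⟩⟩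

end FLTAgent.MazurP
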