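import Fermat.Agent.MazurP.FrameNorm
import Fermat.Agent.BadQ.LiftData
import Fermat.Agent.Lift.Frame
import Fermat.Agent.Mazur.CuspPlaces
import Fermat.Agent.ModularCosets.HeckeDegree

/-!
# The split families of the two degeneracy maps

For the lifting data of `X₀(Mp)` the powers of `τ` below `p` are independent over the image of
Frobenius (`liftData_indep`), which gives the `SplitFamily` of the first (`splitAlpha`) and of
the second (`splitBeta`) degeneracy map used for the norms of the frame.
-/

set_option autoImplicit false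
set_option linter.style.haveILetI false
set_option linter.unusedSectionVars false
set_option synthInstance.maxHeartbeats 400000
set_option maxHeartbeats 800000

noncomputable section

open ModularCurve AlgebraicCurve

namespace FLTAgent.MazurP

open FLTAgent.Reduction FLTAgent.BadQ

local notation "Qb" => AlgebraicClosure ℚ

variable {A : ValuationSubring Qb} {M q : ℕ} [NeZero M] [NeZero q] {hq : q.Prime}
  {hqM : ¬ q ∣ M} {hA : A.LiesOverPrime q}

local notation "k" => IsLocalRing.ResidueField A
local notation "π" => IsLocalRing.residue A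
local notation "F0" => modularFunctionFieldBar M
local notation "E0" => modularFunctionFieldFullC k M

theorem coe_liftData_Fr (hg : genusFF k E0 = genusFF Qb F0) (a : E0) :
    ((liftData A M q hq hqM hA hg).Fr a : LaurentSeries k) =
      qExpand k q (a : LaurentSeries k) :=
  frob_inv_pow A M q hq hA a

theorem coe_liftData_tau (hg : genusFF k E0 = genusFF Qb F0) :
    ((liftData A M q hq hqM hA hg).tau : LaurentSeries k) = jqModC k := by
  show (((modularGauss A M).red (jParam A M) : E0) : LaurentSeries k) = jqModC k
  rw [red_jParam]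
  rfl

/-- The powers of `τ` below `q` are independent over the image of the Frobenius. -/
theorem liftData_indep (hg : genusFF k E0 = genusFF Qb F0) {n : ℕ} (hn : q = n + 1) (a : Fin (n + 1) → E0)
    (h : ∑ r, (liftData A M q hq hqM hA hg).Fr (a r) *
      (liftData A M q hq hqM hA hg).tau ^ (r : ℕ) = 0) : a = 0 := by
  classical
  by_contra hne
  obtain ⟨r₁, hr₁⟩ : ∃ r, a r ≠ 0 := Function.ne_iff.mp hne
  set S := Finset.univ.filter fun r => a r ≠ 0
  set e : Fin (n + 1) → ℤ := fun r => (q : ℤ) * (a r : LaurentSeries k).order - (r : ℕ)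
  obtain ⟨r₀, hr₀, hmin⟩ := S.exists_min_image e ⟨r₁, by simp [S, hr₁]⟩
  have hr₀' : a r₀ ≠ 0 := (Finset.mem_filter.mp hr₀).2
  set f : Fin (n + 1) → LaurentSeries k := fun r =>
    qExpand k q (a r : LaurentSeries k) * jqModC k ^ (r : ℕ) with hf
  have hj : jqModC k ≠ 0 := fun h0 => by
    have := Mazur.order_jqModC' k
    rw [h0, HahnSeries.order_zero] at this
    omega
  have hf0 : ∀ r, a r ≠ 0 → f r ≠ 0 ∧ (f r).order = e r := by
    intro r hr
    have h1 : qExpand k q (a r : LaurentSeries k) ≠ 0 := fun h0 =>
      hr (Subtype.ext (qExpand_injective q (h0.trans (map_zero _).symm)))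
    refine ⟨mul_ne_zero h1 (pow_ne_zero _ hj), ?_⟩
    show (qExpand k q (a r : LaurentSeries k) * jqModC k ^ (r : ℕ)).order = _
    rw [HahnSeries.order_mul h1 (pow_ne_zero _ hj), Mazur.order_qExpand, HahnSeries.order_pow,
      Mazur.order_jqModC']
    simp only [e, nsmul_eq_mul, mul_neg, mul_one]
    ring
  have hsum : ∑ r, f r = 0 := by
    have h' := congrArg (fun x : E0 => (x : LaurentSeries k)) h
    simp only [AddSubmonoidClass.coe_finsetSum, MulMemClass.coe_mul, SubmonoidClass.coe_pow,
      coe_liftData_Fr, coe_liftData_tau, ZeroMemClass.coe_zero] at h'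
    exact h'
  have hcoeff : (f r₀).coeff (e r₀) = 0 := by
    have h' := congrArg (fun x : LaurentSeries k => x.coeff (e r₀)) hsum
    simp only [HahnSeries.coeff_sum, HahnSeries.coeff_zero] at h'
    rwa [Finset.sum_eq_single r₀ (fun r _ hr => ?_) (fun hr => absurd (Finset.mem_univ _) hr)] at h'
    by_cases har : a r = 0
    · simp [hf, har]
    refine HahnSeries.coeff_eq_zero_of_lt_order ?_
    rw [(hf0 r har).2]
    refine lt_of_le_of_ne (hmin r (by simp [S, har])) fun he => hr (Fin.ext ?_)
    simp only [e] at he
    have h1 : ((q : ℤ) ∣ ((r : ℕ) : ℤ) - ((r₀ : ℕ) : ℤ)) :=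
      ⟨(a r : LaurentSeries k).order - (a r₀ : LaurentSeries k).order, by linarith⟩
    have h2 : ((r : ℕ) : ℤ) - ((r₀ : ℕ) : ℤ) = 0 :=
      Int.eq_zero_of_abs_lt_dvd h1 (by
        rw [abs_lt]
        have := r.2
        have := r₀.2
        constructor <;> push_cast [hn] <;> omega)
    omega
  rw [← (hf0 r₀ hr₀').2] at hcoeff
  exact HahnSeries.coeff_order_eq_zero.not.mpr (hf0 r₀ hr₀').1 hcoeff

theorem frobPoly_ne_zero (hg : genusFF k E0 = genusFF Qb F0) : (liftData A M q hq hqM hA hg).frobPoly ≠ 0 := by
  obtain ⟨Q, hQ⟩ := (liftData A M q hq hqM hA hg).param.exists_pole_bar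
  exact ((liftData A M q hq hqM hA hg).frobPoly_ord hQ).1

/-- The family for the first degeneracy. -/
def splitAlpha (hg : genusFF k E0 = genusFF Qb F0) {n : ℕ} (hn : q = n + 1) :
    SplitFamily (modularGauss A M) (gaussInf A M q hq hqM hA) (gaussZero A M q hq hqM hA)
      (heckeAlphaBar Qb M q) n :=
  let D := liftData A M q hq hqM hA hg
  { Fr := D.FrHom.toRingHom
    scale := by haveI := Fact.mk hq; exact modularGauss_scale (ℓ := q) A M hA hqM
    mem₁ := D.alpha_mem_inf
    mem₂ := D.alpha_mem_zero
    red₁ := D.red_alpha_inf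
    red₂ := D.red_alpha_zero
    τ := D.tau
    s := D.tau
    τ_pow := by rw [← hn]; exact D.Fr_tau.symm
    indep := liftData_indep hg hn
    b := Fin.cons D.killZero fun i : Fin (n + 1) => D.killInf * D.β D.j ^ (i : ℕ)
    b_mem₁ := fun i => by
      induction i using Fin.cases with
      | zero => exact D.killZero_mem.1
      | succ i => exact (D.V.mul_mem D.killInf_mem (pow_mem (D.beta_mem D.param.mem) _)).1
    b_mem₂ := fun i => by
      induction i using Fin.cases with
      | zero => exact D.killZero_mem.2
      | succ i => exact (D.V.mul_mem D.killInf_mem (pow_mem (D.beta_mem D.param.mem) _)).2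
    u₀ := D.frobPoly
    u₀_ne := frobPoly_ne_zero hg
    P₀ := D.frobPoly
    P₀_ne := frobPoly_ne_zero hg
    b₁_zero := congrArg Prod.fst D.red_killZero
    b₂_zero := congrArg Prod.snd D.red_killZero
    b₁_succ := fun i => by
      rw [Fin.cons_succ]
      refine (congrArg Prod.fst (D.red_mul D.killInf_mem
        (pow_mem (D.beta_mem D.param.mem) _))).trans ?_
      rw [D.red_killInf]
      exact zero_mul _
    b₂_succ := fun i => by
      rw [Fin.cons_succ]
      refine (congrArg Prod.snd (D.red_mul D.killInf_mem
        (pow_mem (D.beta_mem D.param.mem) _))).trans ?_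
      rw [D.red_killInf, D.red_pow (D.beta_mem D.param.mem), D.red_beta D.param.mem]
      rfl
    charP := hn ▸ D.charP_top
    degree := by
      rw [Kronecker.finrankAlong_heckeAlphaBar M hq hqM, hn] }

/-- The family for the second degeneracy. -/
def splitBeta (hg : genusFF k E0 = genusFF Qb F0) {n : ℕ} (hn : q = n + 1) :
    SplitFamily (modularGauss A M) (gaussZero A M q hq hqM hA) (gaussInf A M q hq hqM hA)
      (heckeBetaBar Qb M q) n :=
  let D := liftData A M q hq hqM hA hg
  { Fr := D.FrHom.toRingHom
    scale := by haveI := Fact.mk hq; exact modularGauss_scale (ℓ := q) A M hA hqM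
    mem₁ := D.beta_mem_zero
    mem₂ := D.beta_mem_inf
    red₁ := D.red_beta_zero
    red₂ := D.red_beta_inf
    τ := D.tau
    s := D.tau
    τ_pow := by rw [← hn]; exact D.Fr_tau.symm
    indep := liftData_indep hg hn
    b := Fin.cons D.killInf fun i : Fin (n + 1) => D.killZero * D.α D.j ^ (i : ℕ)
    b_mem₁ := fun i => by
      induction i using Fin.cases with
      | zero => exact D.killInf_mem.2
      | succ i => exact (D.V.mul_mem D.killZero_mem (pow_mem (D.alpha_mem D.param.mem) _)).2
    b_mem₂ := fun i => by
      induction i using Fin.cases with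
      | zero => exact D.killInf_mem.1
      | succ i => exact (D.V.mul_mem D.killZero_mem (pow_mem (D.alpha_mem D.param.mem) _)).1
    u₀ := D.frobPoly
    u₀_ne := frobPoly_ne_zero hg
    P₀ := D.frobPoly
    P₀_ne := frobPoly_ne_zero hg
    b₁_zero := congrArg Prod.snd D.red_killInf
    b₂_zero := congrArg Prod.fst D.red_killInf
    b₁_succ := fun i => by
      rw [Fin.cons_succ]
      refine (congrArg Prod.snd (D.red_mul D.killZero_mem
        (pow_mem (D.alpha_mem D.param.mem) _))).trans ?_
      rw [D.red_killZero]
      exact zero_mul _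
    b₂_succ := fun i => by
      rw [Fin.cons_succ]
      refine (congrArg Prod.fst (D.red_mul D.killZero_mem
        (pow_mem (D.alpha_mem D.param.mem) _))).trans ?_
      rw [D.red_killZero, D.red_pow (D.alpha_mem D.param.mem), D.red_alpha D.param.mem]
      rfl
    charP := hn ▸ D.charP_top
    degree := by
      rw [ModularCosets.finrankAlong_heckeBetaBar M Qb q ModularCosets.iotaBar hq, if_neg hqM, hn] }

end FLTAgent.MazurP
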