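import Fermat.Agent.MazurP.FrameNode
import Fermat.Agent.MazurP.FrameUnit
import Fermat.Agent.MazurP.FrameModular
import Fermat.Agent.MazurP.FrameNormModular
import Fermat.Agent.MazurP.FrameCount
import Fermat.Agent.MazurP.Defs

/-!
# The unit and the node elements at level `Mp`

`gval_levelUnit` computes the reduction of `Δ(τ)/Δ(pτ)` on the first component as `Δ^(1-p)`,
`unitFnLevel` packages it as a `UnitFn` for the lifting data of `X₀(Mp)`, `node_count` is the
count of nodes for `4 ∣ M`, and `exists_nodeElt` gives at each node an inertia fixed element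
`β a' - (α a)^p` made from unramified lifts.
-/

set_option autoImplicit false
set_option linter.style.haveILetI false
set_option linter.unusedSectionVars false
set_option synthInstance.maxHeartbeats 400000
set_option maxHeartbeats 800000

noncomputable section

open ModularCurve AlgebraicCurve SemilinearAut

namespace FLTAgent.MazurP

open FLTAgent.Reduction FLTAgent.BadQ

section Generic

open FLTAgent.Lift

variable {K k F F₀ E : Type*} [Field K] [Field k] [Field F] [Field F₀] [Field E] [Algebra K F]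
  [Algebra K F₀] [Algebra k E] {A : ValuationSubring K} {π : A →+* k} {q g g' : ℕ}
  {D : Lift.Data A π q F F₀ E g g'} [Infinite k]

/-- The Frobenius twist of a regular function is regular. -/
theorem regAway_frob_smul {ab : E} (h : RegAway (K := k) D.tau ab) :
    RegAway (K := k) D.tau (D.frob • ab) := fun Q hQ => by
  have h' := Lift.vanish_smul D.frob (h (D.frob⁻¹ • Q)
    (by rwa [Lift.Data.ord_tau_inv_smul]))
  rwa [smul_inv_smul] at h'

/-- `β a' - (α a) ^ q` at a node, for `ā` a parameter and `ā' = frob ā`. -/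
theorem nodeElt_props {P : Place k E} (hP : P ∈ D.X) (hfin : 0 ≤ P.ord D.tau) {ab : E}
    (hab : ab ≠ 0) (habord : P.ord ab = 1) {a a' : F₀} (ha : a ∈ D.G.V) (ha' : a' ∈ D.G.V)
    (har : RegAway (K := K) D.j a) (har' : RegAway (K := K) D.j a')
    (haw : D.G.red a = ab) (haw' : D.G.red a' = D.frob • ab) :
    D.Ginf.red (D.β a' - D.α a ^ q) = 0 ∧ D.β a' - D.α a ^ q ∈ D.Gzero.V ∧
      (D.frob • P).ord (D.Gzero.red (D.β a' - D.α a ^ q)) = 1 ∧
      ∀ R : Place K F, redSide D R = (false, P) → Vanish R (D.β a' - D.α a ^ q) 0 := by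
  refine ⟨?_, D.Gzero.V.sub_mem (D.beta_mem_zero a' ha') (pow_mem (D.alpha_mem_zero a ha) q), ?_,
    fun R hR => ?_⟩
  · rw [D.Ginf.red_sub (D.beta_mem_inf a' ha') (pow_mem (D.alpha_mem_inf a ha) q),
      D.Ginf.red_pow (D.alpha_mem_inf a ha), D.red_beta_inf a' ha', D.red_alpha_inf a ha, haw,
      haw', inv_smul_smul, sub_self]
  · rw [D.Gzero.red_sub (D.beta_mem_zero a' ha') (pow_mem (D.alpha_mem_zero a ha) q),
      D.Gzero.red_pow (D.alpha_mem_zero a ha), D.red_beta_zero a' ha', D.red_alpha_zero a ha,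
      haw, haw']
    show (D.frob • P).ord (D.frob • ab - D.Fr ab ^ q) = 1
    have h1 : (D.frob • P).ord (D.frob • ab) = 1 := by rw [SemilinearAut.ord_smul, habord]
    have h2 : (D.frob • P).ord (D.Fr ab ^ q) = (q : ℤ) * q := by
      rw [FF.ord_pow, D.ord_Fr, D.frob_frob_of_mem_X hP, habord, mul_one]
    have hne : D.frob • ab ≠ 0 := (smul_ne_zero_iff_ne D.frob).mpr hab
    rw [sub_eq_add_neg, (FF.ord_add_of_lt _ hne (Or.inr ?_)).2, h1]
    rw [FF.ord_neg, h1, h2]
    have := D.q_prime.two_le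
    nlinarith
  · have hdisc : 0 ≤ R.ord D.T :=
      (Lift.Data.sp_finite_iff.mp (by rw [redSide_eq_iff.mp hR]; exact hfin)).1
    exact Vanish.sub (D.regAway_beta har' R hdisc)
      (by simpa using (D.regAway_alpha har R hdisc).pow q)

end Generic

local notation "Qb" => AlgebraicClosure ℚ

variable {A : ValuationSubring Qb} {M p : ℕ} [NeZero M] [hp : Fact p.Prime] {hpM : ¬ p ∣ M}
  {hA : A.LiesOverPrime p}

local notation "k" => IsLocalRing.ResidueField A
local notation "π" => IsLocalRing.residue A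
local notation "F0" => modularFunctionFieldBar M
local notation "FQ" => modularFunctionFieldBar (M * p)
local notation "E0" => modularFunctionFieldFullC k M

/-! ### The series -/

theorem intSer_deltaR (R : Type*) [CommRing R] : intSer R (deltaR ℤ) = deltaR R := by
  rw [deltaR, deltaR, map_mul, coeffMap_single, map_one, coeffMap_ofPowerSeries,
    ← RingHom.comp_apply (PowerSeries.map _), ← PowerSeries.map_comp,
    RingHom.ext_int ((Int.castRingHom R).comp (Int.castRingHom ℤ)) (Int.castRingHom R)]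

theorem deltaR_coeff_one (R : Type*) [CommRing R] : (deltaR R).coeff 1 = 1 := by
  rw [deltaR, HahnSeries.coeff_single_mul, sub_self, one_mul,
    show (0 : ℤ) = ((0 : ℕ) : ℤ) from rfl, LaurentSeries.coeff_coe_powerSeries,
    PowerSeries.coeff_map, PowerSeries.coeff_zero_eq_constantCoeff, constantCoeff_dedekindEtaUnit,
    map_one]

theorem frameDeltaR_ne_zero (R : Type*) [CommRing R] [Nontrivial R] : deltaR R ≠ 0 := fun h => by
  have := deltaR_coeff_one R
  rw [h, HahnSeries.coeff_zero] at this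
  exact zero_ne_one this

include hA in
theorem qExpand_deltaR : qExpand k p (deltaR k) = deltaR k ^ p := by
  haveI := GalCommon.charP_residueField hp.out hA
  haveI : ExpChar k p := .prime hp.out
  haveI := GalCommon.isAlgClosed_residueField A hp.out hA
  rw [Kronecker.pow_char_eq_qExpand p, ← intSer_deltaR k]
  refine congrArg (qExpand k p) ?_
  exact (coeffMap_intSer _ _).symm

include hA in
/-- The reduction of `Δ(τ)/Δ(pτ)` on the first component. -/
theorem gval_levelUnit :
    (levelUnit M p : LaurentSeries Qb) ∈ gV A π ∧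
      gval A π (levelUnit M p : LaurentSeries Qb) = ssUnit k p := by
  obtain ⟨n1, n2⟩ := gval_intSer A π (deltaR ℤ)
  obtain ⟨d1, d2⟩ := gval_intSer A π (qExpand ℤ p (deltaR ℤ))
  have hd : gval A π (intSer Qb (qExpand ℤ p (deltaR ℤ))) = deltaR k ^ p := by
    rw [d2, coeffMap_qExpand, intSer_deltaR, qExpand_deltaR (hA := hA)]
  obtain ⟨i1, i2⟩ := inv_mem_gV A π d1 (by rw [hd]; exact pow_ne_zero _ (frameDeltaR_ne_zero k))
  have hN : intSer Qb (deltaR ℤ) = coeffEmb Qb deltaSeries := by
    rw [intSer_deltaR, Mazur.coeffEmb_deltaSeries]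
    rfl
  have hD : intSer Qb (qExpand ℤ p (deltaR ℤ)) = coeffEmb Qb (deltaSeriesN p) := by
    rw [coeffMap_qExpand, hN, deltaSeriesN, coeffEmb, coeffMap_qExpand]
  have he : (levelUnit M p : LaurentSeries Qb) =
      intSer Qb (deltaR ℤ) * (intSer Qb (qExpand ℤ p (deltaR ℤ)))⁻¹ := by
    rw [coe_levelUnit, hN, hD, modularUnitSeries, map_mul, map_inv₀]
  rw [he]
  refine ⟨mul_mem n1 i1, ?_⟩
  rw [gval_mul A π n1 i1, i2, n2, hd, intSer_deltaR, ssUnit]
  obtain ⟨n, hn⟩ : ∃ n, p = n + 1 := ⟨p - 1, by have := hp.out.two_le; omega⟩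
  rw [hn, Nat.add_sub_cancel, pow_succ', mul_inv, ← mul_assoc,
    mul_inv_cancel₀ (frameDeltaR_ne_zero k), one_mul]

theorem qExpand_mem_fixFrac {x : LaurentSeries Qb} (hx : x ∈ fixFrac A) :
    qExpand Qb p x ∈ fixFrac A := by
  obtain ⟨u, v, hv, h⟩ := hx
  refine ⟨qExpand _ p u, qExpand _ p v, ?_, ?_⟩
  · rw [wRed, coeffMap_qExpand]
    exact (map_ne_zero_iff _ (qExpand_injective p)).mpr hv
  · rw [wIn, coeffMap_qExpand, coeffMap_qExpand, ← map_mul]
    exact congrArg _ h

/-! ### Cusps -/

theorem cusp_orders {R : Place Qb FQ}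
    (ha : R.ord (heckeAlphaBar Qb M p (jParam A M)) < 0) :
    (p : ℤ) * R.ord (heckeAlphaBar Qb M p (jParam A M)) ≤
        R.ord (heckeBetaBar Qb M p (jParam A M)) ∧
      R.ord (levelUnit M p) = R.ord (heckeBetaBar Qb M p (jParam A M)) -
        R.ord (heckeAlphaBar Qb M p (jParam A M)) := by
  haveI := isFF_bar_curve (M * p)
  let φ : modularFunctionFieldBar p →ₐ[Qb] FQ :=
    IntermediateField.inclusion (bar_le_bar (dvd_mul_left p M))
  have hφ := FF.isIntegral_alongFF φ
  have hj : φ (ModularPlaces.jB p) = heckeAlphaBar Qb M p (jParam A M) := by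
    refine Subtype.ext ?_
    rw [coe_heckeAlphaBar, coe_jParam]
    exact (Mazur.coe_jB (p := p)).trans (ModularCosets.coeffEmb_jq_eq Qb).symm
  have hjp : φ (Mazur.jpB p) = heckeBetaBar Qb M p (jParam A M) := by
    refine Subtype.ext ?_
    rw [coe_heckeBetaBar, coe_jParam, ModularCosets.coeffEmb_jq_eq]
    exact Mazur.coe_jpB (p := p)
  have hw : φ (Mazur.uB p) = levelUnit M p := rfl
  have he := FF.ramificationIndexAlong_pos φ hφ R
  rw [← hj, ← hjp, ← hw, Place.ord_restrictAlong φ hφ, Place.ord_restrictAlong φ hφ,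
    Place.ord_restrictAlong φ hφ]
  rw [← hj, Place.ord_restrictAlong φ hφ] at ha
  generalize Place.ramificationIndexAlong φ R = e at he ha ⊢
  have he' : (1 : ℤ) ≤ e := by exact_mod_cast he
  set v := R.restrictAlong φ hφ
  obtain ⟨cI, hI⟩ := Mazur.exists_isCuspInf p
  obtain ⟨wf, hwf⟩ := Mazur.exists_fricke p
  have h0 := Mazur.isCuspZero_smul hwf hI
  have hp2 : (2 : ℤ) ≤ p := by exact_mod_cast hp.out.two_le
  rcases Mazur.eq_cusp_of_ord_neg h0 hI
    (v := v) (neg_of_mul_neg_right ha (by omega)) with hv | hv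
  · have hu : v.ord (Mazur.uB p) = (p : ℤ) - 1 := by
      have := congrArg (fun D : Divisor Qb (modularFunctionFieldBar p) => D v)
        (Mazur.divisorOf_uB h0 hI)
      simp only [FF.divisorOf_apply, Finsupp.smul_apply, Finsupp.sub_apply, hv,
        Finsupp.single_eq_same, Finsupp.single_eq_of_ne (Mazur.cusp_ne h0 hI),
        sub_zero, smul_eq_mul, mul_one] at this
      rw [hv]
      exact this
    rw [hu, hv, h0.1, h0.2]
    constructor
    · nlinarith [mul_nonneg (show (0 : ℤ) ≤ e by omega)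
        (show (0 : ℤ) ≤ (p : ℤ) * p - 1 by nlinarith)]
    · ring
  · rw [hv, hI.1, hI.2, Mazur.ord_uB_cuspInf h0 hI]
    constructor
    · nlinarith
    · ring

theorem cusp_le (hpM : ¬ p ∣ M) {R : Place Qb FQ}
    (ha : R.ord (heckeAlphaBar Qb M p (jParam A M)) ≤ 0)
    (hb : R.ord (heckeBetaBar Qb M p (jParam A M)) ≤ 0) :
    (p : ℤ) * R.ord (heckeAlphaBar Qb M p (jParam A M)) ≤
        R.ord (heckeBetaBar Qb M p (jParam A M)) ∧
      R.ord (levelUnit M p) = R.ord (heckeBetaBar Qb M p (jParam A M)) -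
        R.ord (heckeAlphaBar Qb M p (jParam A M)) := by
  rcases lt_or_eq_of_le ha with hlt | heq
  · exact cusp_orders hlt
  · have h1 : HasRelation Qb (heckeAlphaBar Qb M p (jParam A M))
        (heckeBetaBar Qb M p (jParam A M)) := by
      rw [alpha_jParam_eq A M p, beta_jParam_eq A M p]; exact hasRelation_jAt _
    have hb' := le_antisymm hb (h1.ord_nonneg R heq.ge)
    rw [ord_levelUnit A heq.ge, heq, hb', mul_zero, sub_zero]
    exact ⟨le_refl _, rfl⟩

/-! ### The data -/

theorem liftData_ginf_red (hg : genusFF k E0 = genusFF Qb F0) (y : FQ) :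
    ((liftData A M p hp.out hpM hA hg).Ginf.red y : LaurentSeries k) =
      gval A π (y : LaurentSeries Qb) := rfl

theorem atkinLehner_smul_levelUnit (hpM : ¬ p ∣ M) :
    atkinLehner hp.out hpM (((p : Qb)⁻¹) ^ 12 • levelUnit M p) = (levelUnit M p)⁻¹ := by
  have hp0 : (p : Qb) ≠ 0 := by exact_mod_cast hp.out.ne_zero
  rw [Algebra.smul_def, map_mul, AlgHom.commutes, atkinLehner_levelUnit, ← mul_assoc, ← map_mul,
    ← mul_pow, inv_mul_cancel₀ hp0, one_pow, map_one, one_mul]

include hA in
theorem red_levelUnit_ne_zero (hpM : ¬ p ∣ M) :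
    (gaussInf A M p hp.out hpM hA).red (levelUnit M p) ≠ 0 := fun h => by
  have h1 : gval A π (levelUnit M p : LaurentSeries Qb) = 0 := congrArg Subtype.val h
  rw [(gval_levelUnit (M := M) (hA := hA)).2, ssUnit, inv_eq_zero] at h1
  exact pow_ne_zero _ (frameDeltaR_ne_zero k) h1

include hA in
theorem levelUnit_zero_side (hpM : ¬ p ∣ M) :
    ((p : Qb)⁻¹) ^ 12 • levelUnit M p ∈ (gaussZero A M p hp.out hpM hA).V ∧
      (gaussZero A M p hp.out hpM hA).red (((p : Qb)⁻¹) ^ 12 • levelUnit M p) ≠ 0 := by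
  have h1 : levelUnit M p ∈ (gaussInf A M p hp.out hpM hA).V := (gval_levelUnit (M := M) (hA := hA)).1
  have h2 := red_levelUnit_ne_zero (M := M) (hA := hA) hpM
  have hal := atkinLehner_smul_levelUnit (M := M) (p := p) hpM
  refine ⟨?_, fun h => ?_⟩
  · show atkinLehner hp.out hpM (((p : Qb)⁻¹) ^ 12 • levelUnit M p) ∈
      (gaussInf A M p hp.out hpM hA).V
    rw [hal]
    exact (gaussInf A M p hp.out hpM hA).inv_mem h1 h2
  · have h' : (gaussInf A M p hp.out hpM hA).red
        (atkinLehner hp.out hpM (((p : Qb)⁻¹) ^ 12 • levelUnit M p)) = 0 := h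
    rw [hal, (gaussInf A M p hp.out hpM hA).red_inv h1 h2, inv_eq_zero] at h'
    exact h2 h'

/-- The unit for the lifting data of `X₀(Mp)`. -/
def unitFnLevel (hg : genusFF k E0 = genusFF Qb F0) :
    UnitFn (liftData A M p hp.out hpM hA hg) (p : Qb) where
  w := levelUnit M p
  mem_inf := (gval_levelUnit (M := M) (hA := hA)).1
  red_inf := red_levelUnit_ne_zero (M := M) (hA := hA) hpM
  mem_zero := (levelUnit_zero_side (M := M) (hA := hA) hpM).1
  red_zero := (levelUnit_zero_side (M := M) (hA := hA) hpM).2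
  cusp := fun _ ha hb => cusp_le hpM ha hb
  affine := fun _ h => ord_levelUnit A h

/-- The count of the nodes when `4 ∣ M`. -/
theorem node_count [Infinite k] (hg : genusFF k E0 = genusFF Qb F0) (h4 : 4 ∣ M) :
    ((p : ℤ) - 1) *
        Divisor.degree (poleDiv (liftData A M p hp.out hpM hA hg).tau : Divisor k E0) =
      12 * (liftData A M p hp.out hpM hA hg).Xfin.card := by
  have h := crossings_eq hp.out hpM h4 rfl rfl (liftData A M p hp.out hpM hA hg).genus_eq
  have htau : (liftData A M p hp.out hpM hA hg).tau = jF M k := red_jParam A M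
  rw [htau, degree_poleDiv_jF A M hA hpM,
    show ((p : ℤ) - 1) = ((p - 1 : ℕ) : ℤ) by rw [Nat.cast_sub hp.out.one_le, Nat.cast_one]]
  exact_mod_cast h

/-- An element at a node, fixed by inertia. -/
theorem exists_nodeElt [Infinite k] (hg : genusFF k E0 = genusFF Qb F0)
    {P : Place k E0} (hP : P ∈ (liftData A M p hp.out hpM hA hg).Xfin) :
    ∃ U : NodeElt (liftData A M p hp.out hpM hA hg) (p : Qb) P,
      ∀ σ ∈ A.inertiaSubgroupIn ℚ,
        arithmeticGalois (modularFunctionFieldFull (M * p)) σ • U.u = U.u := by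
  classical
  have hX : P ∈ (liftData A M p hp.out hpM hA hg).X := Lift.Data.mem_Xfin.mp hP
  have hfin := node_finite (unitFnLevel hg) hX
  obtain ⟨ab, hab0, habr, habord, -⟩ := Lift.exists_reg_ord
    (liftData A M p hp.out hpM hA hg).param {P} (fun _ => 1)
    (fun Q hQ => by rw [Finset.mem_singleton.mp hQ]; exact hfin) (Finset.mem_singleton_self P)
  have hx := goodParam_of_genus A M hA hpM hg
  obtain ⟨a, ha, har, haw, hafix⟩ := exists_unramified_lift hpM hA hx jParam_fixed
    (w := ab) habr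
  obtain ⟨a', ha', har', haw', hafix'⟩ := exists_unramified_lift hpM hA hx jParam_fixed
    (w := (liftData A M p hp.out hpM hA hg).frob • ab)
    (regAway_frob_smul (D := liftData A M p hp.out hpM hA hg) habr)
  obtain ⟨r1, hz, hord, hreg⟩ := nodeElt_props (D := liftData A M p hp.out hpM hA hg) hX hfin
    hab0 habord ha ha' har har' haw haw'
  set u : FQ := (liftData A M p hp.out hpM hA hg).β a' -
    (liftData A M p hp.out hpM hA hg).α a ^ p
  have hufix : (u : LaurentSeries Qb) ∈ fixFrac A := by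
    show ((heckeBetaBar Qb M p a' - heckeAlphaBar Qb M p a ^ p : FQ) : LaurentSeries Qb) ∈ _
    rw [AddSubgroupClass.coe_sub, SubmonoidClass.coe_pow, coe_heckeBetaBar, coe_heckeAlphaBar]
    exact sub_mem (qExpand_mem_fixFrac hafix') (pow_mem hafix p)
  have hg0 : gval A π (u : LaurentSeries Qb) = 0 := congrArg Subtype.val r1
  refine ⟨⟨u, ?_, hz, hord, hreg⟩, fun σ hσ => ?_⟩
  · show (((p : Qb)⁻¹ • u : FQ) : LaurentSeries Qb) ∈ gV A π
    rw [← expLin_apply, map_smul, expLin_apply, ← HahnSeries.C_mul_eq_smul]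
    exact fixFrac_le_gV (fixFrac_div_q hA hufix hg0)
  · refine Subtype.ext ?_
    rw [coe_arithmeticGalois_smul]
    exact fixFrac_fixed hufix hσ

end FLTAgent.MazurP
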