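import Fermat.Agent.MazurP.Frame
import Fermat.Agent.MazurP.FrameLift
import Fermat.Agent.MazurP.FrameModular
import Fermat.Agent.MazurP.FrameCount
import Fermat.Agent.MazurP.FrameNormModular
import Fermat.Agent.Reduction.GaussGenusAll
import Fermat.Agent.BadQ.LiftData
import Fermat.Agent.TwoChart.Descent
import Fermat.Agent.MazurP.FrameNodeModular

/-!
# The frame of `X₀(Mp)`, `p ∤ M`

`ModFrame A p M` is a `Frame` on the function fields of level `Mp` over `ℚ̄` and of level `M`
over the residue field, tied to the Gauss reductions at `∞` and `0`, the arithmetic Galois action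
and the norms along the two degeneracy maps. `nonempty_modFrame` builds it from the lifting data
`BadQ.liftData`. `ModFrame.node_data`: for `4 ∣ M` the nodes have thickness one and `Δ^(1-p)`
has order `12` at each node and `0` at the other affine points.
-/

set_option autoImplicit false
set_option linter.style.haveILetI false
set_option synthInstance.maxHeartbeats 400000

noncomputable section

open ModularCurve AlgebraicCurve SemilinearAut

namespace FLTAgent.MazurP

open FLTAgent.Reduction

local notation "Qb" => AlgebraicClosure ℚ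

/-- The norm to level `M` along `φ`, pulled back along `φ`. -/
def normBack {M p : ℕ} [NeZero M] [NeZero p]
    (φ : modularFunctionFieldBar M →ₐ[Qb] modularFunctionFieldBar (M * p)) :
    modularFunctionFieldBar (M * p) →* modularFunctionFieldBar (M * p) :=
  letI := algebraAlong φ
  φ.toRingHom.toMonoidHom.comp (Algebra.norm (modularFunctionFieldBar M))

/-- The lifting data of `X₀(Mp)` at `A`. -/
abbrev levelData (A : ValuationSubring Qb) (p M : ℕ) [NeZero p] [NeZero M] (hp : p.Prime)
    (hpM : ¬ p ∣ M) (hA : A.LiesOverPrime p) :=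
  BadQ.liftData A M p hp hpM hA (haveI := Fact.mk hp; Reduction.genusFF_fullC_eq M A hA hpM)

theorem levelData_infinite (A : ValuationSubring Qb) {p : ℕ} (hp : p.Prime)
    (hA : A.LiesOverPrime p) : Infinite (IsLocalRing.ResidueField A) :=
  haveI := GalCommon.isAlgClosed_residueField A hp hA
  IsAlgClosed.instInfinite

/-- The reduction of places of `X₀(Mp)` at `A`. -/
def levelRed (A : ValuationSubring Qb) (p M : ℕ) [NeZero p] [NeZero M] (hp : p.Prime)
    (hpM : ¬ p ∣ M) (hA : A.LiesOverPrime p) (Q : Place Qb (modularFunctionFieldBar (M * p))) :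
    Bool × Place (IsLocalRing.ResidueField A)
      (modularFunctionFieldFullC (IsLocalRing.ResidueField A) M) :=
  haveI := levelData_infinite A hp hA
  redSide (levelData A p M hp hpM hA) Q

/-- The frame of `X₀(Mp)` at `A`, with what ties it to `q`-expansions and to Galois. -/
structure ModFrame (A : ValuationSubring Qb) (p M : ℕ) [NeZero p] [NeZero M] (hp : p.Prime)
    (hpM : ¬ p ∣ M) (hA : A.LiesOverPrime p) where
  /-- The frame. -/
  Fr : Frame A (IsLocalRing.residue A) p (modularFunctionFieldBar (M * p))
    (modularFunctionFieldFullC (IsLocalRing.ResidueField A) M)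
  G_false : Fr.G false = BadQ.gaussInf A M p hp hpM hA
  G_true : Fr.G true = BadQ.gaussZero A M p hp hpM hA
  act_eq : Fr.act = arithmeticGalois (modularFunctionFieldFull (M * p))
  N_false : Fr.N false = normBack (heckeAlphaBar Qb M p)
  N_true : Fr.N true = normBack (heckeBetaBar Qb M p)
  nodes_eq : Fr.nodes = (levelData A p M hp hpM hA).Xfin
  partner_eq : Fr.partner = fun P => (levelData A p M hp hpM hA).frob • P
  red_eq : Fr.red = levelRed A p M hp hpM hA

/-- The frame exists (any level prime to `p`, any `p`).

Proof: places, gluing and `g + 1 = 2 g' + #nodes` come from `FLTAgent.Lift` applied to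
`BadQ.liftData`. Smooth parameters: lifts with coefficients fixed by inertia. Norms: `Ginf`,
`Gzero` split the degree as `1 + p`, and the trace of `E / E^p` is zero. -/
theorem nonempty_modFrame (A : ValuationSubring Qb) {p M : ℕ} [NeZero p] [NeZero M]
    (hp : p.Prime) (hpM : ¬ p ∣ M) (hA : A.LiesOverPrime p) :
    Nonempty (ModFrame A p M hp hpM hA) := by
  haveI := Fact.mk hp
  haveI := levelData_infinite A hp hA
  have hg := Reduction.genusFF_fullC_eq M A hA hpM
  set D := levelData A p M hp hpM hA with hD
  obtain ⟨n, hn⟩ : ∃ n, p = n + 1 := ⟨p - 1, by have := hp.two_le; omega⟩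
  have hcompat : ∀ {σ : Qb ≃ₐ[ℚ] Qb}, σ ∈ A.inertiaSubgroupIn ℚ →
      D.Compat (arithmeticGalois (modularFunctionFieldFull (M * p)) σ) 1 := fun hσ =>
    BadQ.compat_inertia A M p hp hpM hA hg hσ
  have hεA : ∀ ε : Qb, A.valuation ε < 1 → ∃ hε : ε ∈ A, IsLocalRing.residue A ⟨ε, hε⟩ = 0 :=
    fun ε hε => by
      refine ⟨(A.valuation_le_one_iff ε).mp hε.le, ?_⟩
      rw [← GalCommon.coe_mem_nonunits_iff_residue, ValuationSubring.mem_nonunits_iff]
      exact hε
  obtain ⟨hl, hl'⟩ := liftData_lifts (q := p) hpM hA hg
  let S : Set (SemilinearAut Qb (modularFunctionFieldBar (M * p))) :=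
    arithmeticGalois (modularFunctionFieldFull (M * p)) '' (A.inertiaSubgroupIn ℚ : Set _)
  refine ⟨{
    Fr :=
    { p_prime := hp
      p_nonunit := by
        rw [← ValuationSubring.mem_nonunits_iff]
        exact hA
      charP := GalCommon.charP_residueField hp hA
      g := genusFF Qb (modularFunctionFieldBar (M * p))
      g' := genusFF Qb (modularFunctionFieldBar M)
      curve := D.curve
      curveBar := D.param.curveBar
      G := fun b => match b with
        | false => BadQ.gaussInf A M p hp hpM hA
        | true => BadQ.gaussZero A M p hp hpM hA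
      scale := fun b => by
        cases b
        · exact BadQ.gaussInf_scale A M p hp hpM hA
        · exact BadQ.gaussZero_scale A M p hp hpM hA
      nodes := D.Xfin
      nodes_nonempty := Finset.card_pos.mp (crossings_pos hp hpM rfl rfl D.genus_eq)
      partner := fun P => D.frob • P
      partner_injOn := (MulAction.injective D.frob).injOn
      red := redSide D
      red_ne_partner := fun Q P hP => redSide_ne_partner Q hP
      ord_smooth := fun b P h1 h2 f hf h0 => by
        cases b
        · exact ord_smooth_inf (h1 rfl) hf h0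
        · exact ord_smooth_zero (h2 rfl) hf h0
      ord_node := fun P hP f c d hc hc0 hd hd0 => ord_at_node hP hc hc0 hd hd0
      glue := fun P hP f h1 h2 hv => glue_at_node hP h1 h2 hv
      genus_eq := by exact_mod_cast D.genus_eq
      act := arithmeticGalois (modularFunctionFieldFull (M * p))
      act_const := fun σ x => by rw [SemilinearAut.smul_algebraMap]; rfl
      act_finite := fun f => by
        refine Set.Finite.subset (TwoChart.orbit_finite (I := (⊤ : Subgroup (Qb ≃ₐ[ℚ] Qb)))
          (F₀ := modularFunctionFieldFull (M * p)) (w := f)) ?_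
        rintro _ ⟨σ, rfl⟩
        exact ⟨⟨σ, trivial⟩, rfl⟩
      act_mem := fun σ hσ b f hf => by
        cases b
        · exact ⟨((hcompat hσ).mem_inf f).mpr hf,
            ((hcompat hσ).red_inf f hf).trans (one_smul _ _)⟩
        · exact ⟨((hcompat hσ).mem_zero f).mpr hf,
            ((hcompat hσ).red_zero f hf).trans (one_smul _ _)⟩
      act_red := fun σ hσ Q => redSide_smul (hcompat hσ) Q
      param := fun b P _ _ => by
        obtain ⟨t, h1, h2, h3, h4⟩ := exists_param (D := D) S
          (fun w hw => by
            obtain ⟨a, a1, a2, a3, a4⟩ := hl w hw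
            exact ⟨a, a1, a2, a3, by rintro _ ⟨σ, hσ, rfl⟩; exact a4 σ hσ⟩)
          (fun w hw => by
            obtain ⟨a, a1, a2, a3, a4⟩ := hl' w hw
            exact ⟨a, a1, a2, a3, by rintro _ ⟨σ, hσ, rfl⟩; exact a4 σ hσ⟩) (!b) P
        refine ⟨t, ?_, ?_, fun Q hQ => h3 Q (redSide_eq_iff.mp hQ),
          fun σ hσ => h4 _ ⟨σ, hσ, rfl⟩⟩
        · cases b <;> exact h1
        · cases b <;> exact h2
      N := fun b => match b with
        | false => normBack (heckeAlphaBar Qb M p)
        | true => normBack (heckeBetaBar Qb M p)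
      N_const := fun b c => by
        cases b
        · rw [show p + 1 = n + 2 by omega]; exact (splitAlpha (hq := hp) (hqM := hpM) (hA := hA) hg hn).norm_const c
        · rw [show p + 1 = n + 2 by omega]; exact (splitBeta (hq := hp) (hqM := hpM) (hA := hA) hg hn).norm_const c
      N_spec := fun b y h1 h2 ε hε => by
        obtain ⟨hεm, hε0⟩ := hεA ε hε
        cases b
        · exact (splitAlpha hg hn).exists_norm_eq h1 h2 hεm hε0
        · exact (splitBeta hg hn).exists_norm_eq h2 h1 hεm hε0 }
    G_false := rfl
    G_true := rfl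
    act_eq := rfl
    N_false := rfl
    N_true := rfl
    nodes_eq := rfl
    partner_eq := rfl
    red_eq := rfl }⟩

variable {A : ValuationSubring Qb} {p M : ℕ} [NeZero p] [NeZero M] {hp : p.Prime}
  {hpM : ¬ p ∣ M} {hA : A.LiesOverPrime p}

/-- The nodes have thickness one and `Δ^(1-p)` has order `12` at each of them.

Proof (no supersingular theory): `w = Δ(z)/Δ(pz)` has no zero or pole over an affine point and
reduces to `x = Δ^(1-p)` on the first component, so `ε := ord x` is zero at smooth affine points;
at a node an unramified lift gives `u = β a' - (α a)^p` and gluing gives `ε ≤ 12`, while the sum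
of all `ε` is `(p-1) ψ(M) = 12 #nodes` by the genus formulas (no elliptic points as `4 ∣ M`);
so `ε = 12` and `p/u` is the parameter. -/
theorem ModFrame.node_data (T : ModFrame A p M hp hpM hA) (h4 : 4 ∣ M) :
    T.Fr.HasNodeParams ∧
    ∃ x : modularFunctionFieldFullC (IsLocalRing.ResidueField A) M,
      (x : LaurentSeries (IsLocalRing.ResidueField A)) =
        ssUnit (IsLocalRing.ResidueField A) p ∧
      (∀ v ∈ T.Fr.nodes, 0 ≤ v.ord ⟨_, jqModC_mem_full (IsLocalRing.ResidueField A) M⟩ ∧
        v.ord x = 12) ∧
      ∀ v, v ∉ T.Fr.nodes →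
        0 ≤ v.ord ⟨_, jqModC_mem_full (IsLocalRing.ResidueField A) M⟩ → v.ord x = 0 := by
  haveI := Fact.mk hp
  haveI := levelData_infinite A hp hA
  have hg := Reduction.genusFF_fullC_eq M A hA hpM
  set D := levelData A p M hp hpM hA with hD
  let W : UnitFn D (p : Qb) := unitFnLevel hg
  have hp0 : (p : Qb) ≠ 0 := by exact_mod_cast hp.ne_zero
  have hU : ∀ P ∈ D.Xfin, ∃ U : NodeElt D (p : Qb) P, ∀ σ ∈ A.inertiaSubgroupIn ℚ,
      arithmeticGalois (modularFunctionFieldFull (M * p)) σ • U.u = U.u :=
    fun P hP => exists_nodeElt hg hP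
  choose U hUfix using hU
  have h12 : ∀ P ∈ D.Xfin, P.ord (D.Ginf.red W.w) = 12 := fun P hP =>
    ord_red_node W U (node_count hg h4) hP
  have hred : ∀ R, T.Fr.red R = redSide D R := fun R => by rw [T.red_eq]; rfl
  have hG0 : T.Fr.G false = D.Ginf := T.G_false
  have hG1 : T.Fr.G true = D.Gzero := T.G_true
  refine ⟨fun P hP => ?_, D.Ginf.red W.w, ?_, fun v hv => ?_, fun v hv hfin => ?_⟩
  · rw [T.nodes_eq] at hP
    obtain ⟨h1, h2, h3, h4', h5, h6⟩ := node_param W hp0 hP (U P hP) (h12 P hP)
    refine ⟨(p : Qb) • (U P hP).u⁻¹, ?_, h2, ?_, ?_, ?_, fun R hR => h6 R (by rw [← hred, hR]),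
      fun σ hσ => ?_⟩
    · rw [hG0]; exact h1
    · rw [hG0]; exact h3
    · rw [hG1]; exact h4'
    · rw [hG1, T.partner_eq]; exact h5
    · rw [T.act_eq, Algebra.smul_def, smul_mul', smul_inv'', hUfix P hP σ hσ,
        SemilinearAut.smul_algebraMap]
      congr 2
      exact map_natCast σ p
  · exact (gval_levelUnit (M := M) (hA := hA)).2
  · rw [T.nodes_eq] at hv
    have hj : (⟨_, jqModC_mem_full (IsLocalRing.ResidueField A) M⟩ :
        modularFunctionFieldFullC (IsLocalRing.ResidueField A) M) = D.tau :=
      Subtype.ext (coe_liftData_tau hg).symm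
    rw [hj]
    exact ⟨node_finite W (Lift.Data.mem_Xfin.mp hv), h12 v hv⟩
  · rw [T.nodes_eq] at hv
    have hj : (⟨_, jqModC_mem_full (IsLocalRing.ResidueField A) M⟩ :
        modularFunctionFieldFullC (IsLocalRing.ResidueField A) M) = D.tau :=
      Subtype.ext (coe_liftData_tau hg).symm
    rw [hj] at hfin
    exact ord_red_of_finite W (fun h => hv (Lift.Data.mem_Xfin.mpr h)) hfin

end FLTAgent.MazurP
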