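import Fermat.Agent.Kronecker.HeckeReduction
import Fermat.Agent.Kronecker.Inputs
import Fermat.Agent.ModularCosets.Corollaries

/-!
# Descending divisibility from level `4 M` to level `M`

Over the residue field a step from level `M` to level `2 M` is separable of degree at most `3`,
so its ramification indices are less than `p` and divisibility by `p` of all orders descends
(`dvd_ord_of_level_two`, `dvd_ord_of_level_four`).
-/

set_option autoImplicit false
set_option linter.style.haveILetI false
set_option maxHeartbeats 800000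
set_option synthInstance.maxHeartbeats 400000

noncomputable section

open AlgebraicCurve ModularCurve

namespace FLTAgent.MazurP

open FLTAgent.Kronecker (alphaC coe_alphaC)

local notation "Qb" => AlgebraicClosure ℚ

variable {M p : ℕ} [NeZero M] [Fact p.Prime] (A : ValuationSubring Qb)

local notation "kA" => IsLocalRing.ResidueField A

theorem not_dvd_mul_two (hp5 : 5 ≤ p) (hpM : ¬ p ∣ M) : ¬ p ∣ M * 2 := fun h =>
  ((Fact.out : p.Prime).dvd_mul.mp h).elim hpM fun h2 => by
    have := Nat.le_of_dvd two_pos h2
    omega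

/-- The ramification of a step by two is smaller than `p`. -/
theorem dvd_ord_of_level_two (hp5 : 5 ≤ p) (hpM : ¬ p ∣ M) (hA : A.LiesOverPrime p)
    (g : modularFunctionFieldFullC kA M) (g' : modularFunctionFieldFullC kA (M * 2))
    (he : (g : LaurentSeries kA) = g')
    (h : ∀ w : Place kA (modularFunctionFieldFullC kA (M * 2)), (p : ℤ) ∣ w.ord g')
    (v : Place kA (modularFunctionFieldFullC kA M)) : (p : ℤ) ∣ v.ord g := by
  classical
  have hp : p.Prime := Fact.out
  have hpM2 := not_dvd_mul_two hp5 hpM
  haveI := GalCommon.isAlgClosed_residueField A hp hA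
  haveI := Reduction.isFF_fullC_residue M A hA hpM
  haveI := Reduction.isFF_fullC_residue (M * 2) A hA hpM2
  set φ := alphaC kA M 2 with hφdef
  have hφ : φ.toRingHom.IsIntegral := FF.isIntegral_alongFF φ
  have hsep : SeparableAlong kA φ := by
    refine Kronecker.separableAlong_of_adjoin _ (Reduction.jF M kA) ?_
    rw [show φ (Reduction.jF M kA) = Reduction.jF (M * 2) kA from
      Subtype.ext (coe_alphaC _ M 2 _)]
    exact Reduction.isSeparable_fullC_residue (M * 2) A hA hpM2
  obtain ⟨w, hw⟩ := FF.exists_restrictAlong_eq φ hφ hsep v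
  have hsum := FF.sum_ramificationIndexAlong φ hφ hsep v
  have hle : (w.ramificationIndexAlong φ : ℤ) ≤ finrankAlong kA φ := by
    rw [← hsum]
    exact Finset.single_le_sum (f := fun w => (w.ramificationIndexAlong φ : ℤ))
      (fun i _ => Int.natCast_nonneg _) (Place.mem_fiberAlong.mpr hw)
  have h3 : finrankAlong kA φ ≤ 3 := by
    rw [← Kronecker.finrankAlong_alpha_eq (q := 2) hA hpM hpM2,
      ModularCosets.finrankAlong_alphaBar Nat.prime_two]
    split_ifs <;> omega
  have hpos := FF.ramificationIndexAlong_pos φ hφ w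
  have hord : w.ord g' = (w.ramificationIndexAlong φ : ℤ) * v.ord g := by
    rw [show g' = φ g from Subtype.ext (he.symm.trans (coe_alphaC _ M 2 g).symm),
      Place.ord_restrictAlong φ hφ, hw]
  have h1 := h w
  rw [hord] at h1
  refine ((Nat.prime_iff_prime_int.mp hp).dvd_or_dvd h1).resolve_left fun h2 => ?_
  have h4 := Nat.le_of_dvd hpos (Int.natCast_dvd_natCast.mp h2)
  omega

/-- Two steps. -/
theorem dvd_ord_of_level_four (hp5 : 5 ≤ p) (hpM : ¬ p ∣ M) (hA : A.LiesOverPrime p)
    (g : modularFunctionFieldFullC kA M) (g' : modularFunctionFieldFullC kA (M * 2 * 2))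
    (he : (g : LaurentSeries kA) = g')
    (h : ∀ w : Place kA (modularFunctionFieldFullC kA (M * 2 * 2)), (p : ℤ) ∣ w.ord g')
    (v : Place kA (modularFunctionFieldFullC kA M)) : (p : ℤ) ∣ v.ord g := by
  haveI : NeZero (M * 2) := ⟨mul_ne_zero (NeZero.ne M) two_ne_zero⟩
  refine dvd_ord_of_level_two A hp5 hpM hA g (alphaC kA M 2 g) (coe_alphaC _ M 2 g).symm
    (fun w => dvd_ord_of_level_two A hp5 (not_dvd_mul_two hp5 hpM) hA _ g' ?_ h w) v
  rw [coe_alphaC, he]

end FLTAgent.MazurP
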