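import Fermat.Agent.MazurP.Calc

/-!
# Coordinates of classes with `p`-th power reductions

`IsPP b f`: some scaling of `f` reduces to a nonzero `p`-th power on the component `b`. A `Chart`
is a set `B` of `g` smooth points as in `exists_base`, with inertia invariant parameters and an
inertia fixed base place (`exists_chart`); `Chart.div c` is the divisor with coordinates `c`.
`Chart.normal_form`: if `p D = div f` and both reductions of `f` are `p`-th powers, then `D` is
linearly equivalent to `div c` for some coordinates `|c x| < 1` (Riemann-Roch).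
-/

set_option autoImplicit false
set_option linter.style.haveILetI false
set_option linter.unusedSectionVars false

noncomputable section

open AlgebraicCurve SemilinearAut
open scoped Classical

namespace FLTAgent.MazurP

open FLTAgent.Reduction

local notation "Qb" => AlgebraicClosure ℚ
local notation "Γℚ" => (AlgebraicClosure ℚ ≃ₐ[ℚ] AlgebraicClosure ℚ)

namespace Frame

variable {A : ValuationSubring Qb} {k : Type*} [Field k] {π : A →+* k} {p : ℕ}
  {F E : Type*} [Field F] [Field E] [Algebra Qb F] [Algebra k E] (Fr : Frame A π p F E)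

/-- Some scaling of `f` reduces to a nonzero `p`-th power on the component `b`. -/
def IsPP (b : Bool) (f : F) : Prop :=
  ∃ (d : Qb) (u : E), d ≠ 0 ∧ u ≠ 0 ∧ d • f ∈ (Fr.G b).V ∧ (Fr.G b).red (d • f) = u ^ p

variable {Fr}

namespace IsPP

variable {b : Bool} {f f' : F}

theorem ne_zero (h : Fr.IsPP b f) : f ≠ 0 := by
  obtain ⟨d, u, -, hu, -, hr⟩ := h
  rintro rfl
  rw [smul_zero, (Fr.G b).red_zero] at hr
  exact hu (eq_zero_of_pow_eq_zero hr.symm)

theorem of_nred (hf : f ≠ 0) {u : E} (h : Fr.nred b f = u ^ p) : Fr.IsPP b f := by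
  obtain ⟨hd0, hd, hdr⟩ := scaleConst_spec (Fr := Fr) (b := b) hf
  refine ⟨_, u, hd0, ?_, hd, h⟩
  rintro rfl
  exact nred_ne_zero hf (h.trans (zero_pow Fr.p_prime.ne_zero))

theorem mul (h : Fr.IsPP b f) (h' : Fr.IsPP b f') : Fr.IsPP b (f * f') := by
  obtain ⟨d, u, hd0, hu, hd, hr⟩ := h
  obtain ⟨d', u', hd0', hu', hd', hr'⟩ := h'
  refine ⟨d * d', u * u', mul_ne_zero hd0 hd0', mul_ne_zero hu hu', ?_, ?_⟩ <;>
    rw [← smul_mul_smul_comm]
  · exact (Fr.G b).V.mul_mem hd hd'
  · rw [(Fr.G b).red_mul hd hd', hr, hr', mul_pow]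

theorem inv (h : Fr.IsPP b f) : Fr.IsPP b f⁻¹ := by
  have hf := h.ne_zero
  obtain ⟨d, u, hd0, hu, hd, hr⟩ := h
  have hi := (Fr.G b).inv_mem hd (by rw [hr]; exact pow_ne_zero _ hu)
  have he : d⁻¹ • f⁻¹ = (d • f)⁻¹ := by
    rw [Algebra.smul_def, Algebra.smul_def, mul_inv, map_inv₀]
  refine ⟨d⁻¹, u⁻¹, inv_ne_zero hd0, inv_ne_zero hu, he ▸ hi, ?_⟩
  have h1 := (Fr.G b).red_mul hd hi
  rw [mul_inv_cancel₀ (smul_ne_zero hd0 hf), (Fr.G b).red_one, hr] at h1
  rw [he, inv_pow]
  exact (eq_inv_of_mul_eq_one_right h1.symm)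

theorem pow (h : Fr.IsPP b f) (n : ℕ) : Fr.IsPP b (f ^ n) := by
  induction n with
  | zero => exact ⟨1, 1, one_ne_zero, one_ne_zero, by simp, by
      simpa using (Fr.G b).red_one⟩
  | succ n ih => rw [pow_succ]; exact ih.mul h

theorem pow_p (hf : f ≠ 0) : Fr.IsPP b (f ^ p) := by
  obtain ⟨hd0, hd, hdr⟩ := scaleConst_spec (Fr := Fr) (b := b) hf
  exact ⟨_ ^ p, _, pow_ne_zero _ hd0, hdr, by rw [← smul_pow]; exact pow_mem hd p, by
    rw [← smul_pow, (Fr.G b).red_pow hd]⟩

theorem act (h : Fr.IsPP b f) {σ : Γℚ} (hσ : σ ∈ A.inertiaSubgroupIn ℚ) :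
    Fr.IsPP b (Fr.act σ • f) := by
  obtain ⟨d, u, hd0, hu, hd, hr⟩ := h
  obtain ⟨h1, h2⟩ := Fr.act_mem σ hσ b _ hd
  have he : Fr.act σ • (d • f) = σ d • (Fr.act σ • f) := by
    rw [Algebra.smul_def, smul_mul', Fr.act_const, ← Algebra.smul_def]
  rw [he] at h1 h2
  exact ⟨σ d, u, by simpa using hd0, hu, h1, by rw [h2, hr]⟩

/-- Every integral scaling reduces to a `p`-th power. -/
theorem red [IsAlgClosed k] (h : Fr.IsPP b f) {c : Qb} (hc : c • f ∈ (Fr.G b).V) :
    ∃ v, (Fr.G b).red (c • f) = v ^ p := by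
  obtain ⟨d, u, hd0, hu, hd, hr⟩ := h
  obtain ⟨a, -, hred⟩ := scale_unique hd0 hc hd (by rw [hr]; exact pow_ne_zero _ hu)
  obtain ⟨s, hs⟩ := IsAlgClosed.exists_pow_nat_eq (π a) Fr.p_prime.pos
  exact ⟨algebraMap k E s * u, by
    rw [hred, hr, ← hs, Algebra.smul_def, map_pow, mul_pow]⟩

end IsPP

theorem regAt_of_pow {v : Bool → E} {x : Bool × Place k E}
    (h : Fr.RegAt (fun b => v b ^ p) x) : Fr.RegAt v x := by
  haveI := Fr.charP
  haveI := Fact.mk Fr.p_prime
  have hv : ∀ b, Fr.OnComp x b → Vanish (Fr.branch x b) (v b) 0 := fun b hb => by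
    rcases h.1 b hb with h0 | h0
    · exact Or.inl (eq_zero_of_pow_eq_zero h0)
    · rw [FF.ord_pow] at h0
      exact Or.inr (nonneg_of_mul_nonneg_right h0 (by exact_mod_cast Fr.p_prime.pos))
  have hvp : ∀ (P : Place k E) (y : E), Vanish P y 0 → valAt P (y ^ p) = valAt P y ^ p := by
    intro P y hy
    generalize p = n
    induction n with
    | zero => simpa using valAt_one P
    | succ n ih =>
      rw [pow_succ, pow_succ, Fr.curveBar.valAt_mul (by simpa using hy.pow n) hy, ih]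
  refine ⟨hv, fun hn => ?_⟩
  have h1 := hv false (Or.inr hn)
  have h2 := hv true (Or.inr hn)
  obtain ⟨b', P⟩ := x
  obtain ⟨rfl, hP⟩ := hn
  rw [branch_node_false] at h1
  rw [branch_node_true] at h2
  have := h.2 ⟨rfl, hP⟩
  simp only [hvp _ _ h1, hvp _ _ h2] at this
  exact frobenius_inj k p this

variable (Fr)

/-- Points `B` seeing only constants, parameters there, and a fixed base place. -/
structure Chart where
  /-- The points. -/
  B : Finset (Bool × Place k E)
  smooth : ∀ x ∈ B, Fr.IsSmooth x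
  only : ∀ w, Fr.RegB B w → ∃ a : k, ∀ b, w b = algebraMap k E a
  card : B.card = Fr.g
  /-- The parameters. -/
  t : Bool × Place k E → F
  param : ∀ x ∈ B, Fr.IsParam x (t x)
  /-- The base place. -/
  Q₀ : Place Qb F
  smooth₀ : Fr.IsSmooth (Fr.red Q₀)
  notMem₀ : Fr.red Q₀ ∉ B
  fixed₀ : ∀ σ ∈ A.inertiaSubgroupIn ℚ, Fr.act σ • Q₀ = Q₀

variable {Fr}

/-- There is a chart with base place over a given smooth point. -/
theorem exists_chart [IsAlgClosed k] {x₀ : Bool × Place k E} (hx₀ : Fr.IsSmooth x₀) :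
    ∃ C : Fr.Chart, Fr.red C.Q₀ = x₀ := by
  obtain ⟨B, hnot, hsmooth, hcard, honly⟩ := exists_base (Fr := Fr) x₀
  have hex : ∀ x, ∃ t : F, x ∈ B → Fr.IsParam x t := fun x => by
    by_cases hx : x ∈ B
    · exact (exists_isParam Fr (hsmooth x hx)).imp fun t ht _ => ht
    · exact ⟨0, fun h => absurd h hx⟩
  choose t ht using hex
  obtain ⟨t₀, ht₀⟩ := exists_isParam Fr hx₀
  obtain ⟨Q₀, hQ₀, hv, -, -⟩ := ht₀.exists_pt (c := 0) (by simp)
  refine ⟨⟨B, hsmooth, honly, hcard, t, fun x hx => ht x hx, Q₀, hQ₀.symm ▸ hx₀,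
    hQ₀.symm ▸ hnot, fun σ hσ => ?_⟩, hQ₀⟩
  have hred : Fr.red (Fr.act σ • Q₀) = x₀ := by rw [Fr.act_red σ hσ, hQ₀]
  refine ht₀.eq_of_valAt hred hQ₀ ?_
  conv_lhs => rw [← ht₀.fixed σ hσ]
  rw [valAt_act σ Q₀ (ht₀.no_pole Q₀ hQ₀), hv, map_zero]

namespace Chart

variable (C : Fr.Chart)

/-- The place over `x` with parameter `c`. -/
def point (x : Bool × Place k E) (c : Qb) : Place Qb F := Frame.pt Fr x (C.t x) c C.Q₀

variable {x : Bool × Place k E} {c : Qb}

theorem point_spec (hx : x ∈ C.B) (hc : A.valuation c < 1) :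
    Fr.red (C.point x c) = x ∧ valAt (C.point x c) (C.t x) = c := by
  obtain ⟨Q, hQ, hv, -, -⟩ := (C.param x hx).exists_pt hc
  have h : ∃ Q, Fr.red Q = x ∧ valAt Q (C.t x) = c := ⟨Q, hQ, hv⟩
  rw [point, Frame.pt, dif_pos h]
  exact h.choose_spec

theorem point_valAt (hx : x ∈ C.B) {Q : Place Qb F} (hQ : Fr.red Q = x) :
    C.point x (valAt Q (C.t x)) = Q :=
  have h := C.point_spec hx ((C.param x hx).valAt_lt hQ)
  (C.param x hx).eq_of_valAt h.1 hQ h.2

theorem eq_point_iff (hx : x ∈ C.B) (hc : A.valuation c < 1) {Q : Place Qb F}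
    (hQ : Fr.red Q = x) : Q = C.point x c ↔ valAt Q (C.t x) = c := by
  constructor
  · rintro rfl
    exact (C.point_spec hx hc).2
  · intro h
    rw [← h, C.point_valAt hx hQ]

theorem act_point {σ : Γℚ} (hσ : σ ∈ A.inertiaSubgroupIn ℚ) (hx : x ∈ C.B)
    (hc : A.valuation c < 1) : Fr.act σ • C.point x c = C.point x (σ c) := by
  obtain ⟨h1, h2⟩ := C.point_spec hx hc
  have hred : Fr.red (Fr.act σ • C.point x c) = x := by rw [Fr.act_red σ hσ, h1]
  have hv : valAt (Fr.act σ • C.point x c) (C.t x) = σ c := by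
    conv_lhs => rw [← (C.param x hx).fixed σ hσ]
    rw [valAt_act σ _ ((C.param x hx).no_pole _ h1), h2]
  rw [← hv, C.point_valAt hx hred]

theorem valuation_act {σ : Γℚ} (hσ : σ ∈ A.inertiaSubgroupIn ℚ) (hx : x ∈ C.B)
    (hc : A.valuation c < 1) : A.valuation (σ c) < 1 := by
  obtain ⟨h1, h2⟩ := C.point_spec hx hc
  have hred : Fr.red (Fr.act σ • C.point x c) = x := by rw [Fr.act_red σ hσ, h1]
  have := (C.param x hx).valAt_lt hred
  rwa [← (C.param x hx).fixed σ hσ, valAt_act σ _ ((C.param x hx).no_pole _ h1), h2] at this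

/-- The divisor with coordinates `c`. -/
def div (c : Bool × Place k E → Qb) : Divisor Qb F :=
  ∑ x ∈ C.B, (Finsupp.single (C.point x (c x)) 1 - Finsupp.single (C.point x 0) 1)

theorem degree_div (c : Bool × Place k E → Qb) : Divisor.degree (C.div c) = 0 := by
  simp [div, Fr.curve.degree_single]

theorem div_zero : C.div (fun _ => 0) = 0 := by simp [div]

theorem sum_single_apply {d : Bool × Place k E → Qb} (hd : ∀ x, A.valuation (d x) < 1)
    {Q : Place Qb F} (hx : Fr.red Q ∈ C.B) :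
    (∑ y ∈ C.B, Finsupp.single (C.point y (d y)) (1 : ℤ)) Q =
      if valAt Q (C.t (Fr.red Q)) = d (Fr.red Q) then 1 else 0 := by
  rw [Finset.sum_apply', Finset.sum_eq_single (Fr.red Q) ?_ (fun h => absurd hx h),
    Finsupp.single_apply]
  · refine if_congr ?_ rfl rfl
    rw [eq_comm]
    exact C.eq_point_iff hx (hd _) rfl
  · intro y hy hne
    exact Finsupp.single_eq_of_ne fun h => hne (by rw [h, (C.point_spec hy (hd y)).1])

theorem sum_single_apply_out {d : Bool × Place k E → Qb} (hd : ∀ x, A.valuation (d x) < 1)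
    {Q : Place Qb F} (hx : Fr.red Q ∉ C.B) :
    (∑ y ∈ C.B, Finsupp.single (C.point y (d y)) (1 : ℤ)) Q = 0 := by
  rw [Finset.sum_apply']
  exact Finset.sum_eq_zero fun y hy => Finsupp.single_eq_of_ne fun h =>
    hx (by rw [h, (C.point_spec hy (hd y)).1]; exact hy)

theorem div_apply {d : Bool × Place k E → Qb} (hd : ∀ x, A.valuation (d x) < 1)
    (Q : Place Qb F) :
    C.div d Q = if Fr.red Q ∈ C.B then
      (if valAt Q (C.t (Fr.red Q)) = d (Fr.red Q) then 1 else 0) -
        (if valAt Q (C.t (Fr.red Q)) = 0 then 1 else 0) else 0 := by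
  rw [div, Finset.sum_sub_distrib, Finsupp.sub_apply]
  split_ifs with h
  all_goals first
    | rw [C.sum_single_apply hd h, C.sum_single_apply (d := fun _ => 0) (fun _ => by simp) h]
      simp_all
    | rw [C.sum_single_apply_out hd h,
        C.sum_single_apply_out (d := fun _ => 0) (fun _ => by simp) h, sub_zero]

theorem act_div {σ : Γℚ} (hσ : σ ∈ A.inertiaSubgroupIn ℚ) {d : Bool × Place k E → Qb}
    (hd : ∀ x, A.valuation (d x) < 1) :
    Fr.act σ • C.div d = C.div fun x => σ (d x) := by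
  simp only [div, Finset.smul_sum, smul_sub, SemilinearAut.smul_single]
  exact Finset.sum_congr rfl fun x hx => by
    rw [C.act_point hσ hx (hd x), C.act_point hσ hx (c := 0) (by simp), map_zero]

/-- A local equation of the divisor with coordinate `c` at `x`. -/
def factor (x : Bool × Place k E) (c : Qb) : F :=
  (C.t x - algebraMap Qb F c) / C.t x

theorem ord_factor (hx : x ∈ C.B) {d : Bool × Place k E → Qb}
    (hd : ∀ x, A.valuation (d x) < 1) {Q : Place Qb F} (hQ : Fr.red Q = x) :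
    Q.ord (C.factor x (d x)) = C.div d Q := by
  have ht := C.param x hx
  have h0 : Q.ord (C.t x) = if valAt Q (C.t x) = 0 then 1 else 0 := by
    simpa using ht.ord_sub (c := 0) (by simp) hQ
  have ht0 : C.t x ≠ 0 := by simpa using ht.sub_ne_zero (c := 0) (by simp)
  rw [C.div_apply hd, if_pos (hQ.symm ▸ hx), hQ, factor,
    FF.ord_div Q (ht.sub_ne_zero (hd x)) ht0, ht.ord_sub (hd x) hQ, h0]

theorem div_apply_out {d : Bool × Place k E → Qb} (hd : ∀ x, A.valuation (d x) < 1)
    {Q : Place Qb F} (h : Fr.red Q ∉ C.B) : C.div d Q = 0 := by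
  rw [C.div_apply hd, if_neg h]

/-- A class with `p`-th power reductions has coordinates. -/
theorem normal_form [IsAlgClosed k] (D : Divisor Qb F) (hD : Divisor.degree D = 0) {f : F}
    (hdiv : ∀ Q : Place Qb F, Q.ord f = (p : ℤ) * D Q) (hpp : ∀ b, Fr.IsPP b f) :
    ∃ (c : Bool × Place k E → Qb) (h : F), (∀ x, A.valuation (c x) < 1) ∧ h ≠ 0 ∧
      D + divOf h = C.div c := by
  set Z : Divisor Qb F := ∑ x ∈ C.B, Finsupp.single (C.point x 0) 1 with hZ
  have hdeg : Divisor.degree (D + Z) = Fr.g := by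
    simp [hZ, hD, Fr.curve.degree_single, C.card]
  obtain ⟨h, hh, hh0⟩ : ∃ h ∈ riemannRochSpace (D + Z), h ≠ 0 := by
    have h1 := Fr.curve.riemann (D + Z)
    rw [hdeg] at h1
    have h2 : riemannRochSpace (D + Z) ≠ ⊥ := by
      intro he
      have : Module.finrank Qb (riemannRochSpace (D + Z)) = 0 := by rw [he]; exact finrank_bot _ _
      omega
    exact Submodule.exists_mem_ne_zero_of_ne_bot h2
  set E' : Divisor Qb F := D + Z + divOf h with hE'
  have hE'0 : ∀ Q, 0 ≤ E' Q := fun Q => by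
    have := (mem_L_iff.mp hh Q).resolve_left hh0
    simp only [hE', Finsupp.add_apply, Fr.curve.divOf_apply] at this ⊢
    omega
  set g₀ := f * h ^ p with hg₀
  have hf : f ≠ 0 := (hpp false).ne_zero
  have hg0 : g₀ ≠ 0 := mul_ne_zero hf (pow_ne_zero _ hh0)
  have hord : ∀ Q : Place Qb F, Q.ord g₀ = (p : ℤ) * E' Q - (p : ℤ) * Z Q := fun Q => by
    rw [hg₀, Q.ord_mul hf (pow_ne_zero _ hh0), hdiv, FF.ord_pow, hE', Finsupp.add_apply,
      Finsupp.add_apply, Fr.curve.divOf_apply]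
    ring
  have hpp₀ : ∀ b, Fr.IsPP b g₀ := fun b => (hpp b).mul (IsPP.pow_p hh0)
  have hZout : ∀ Q, Fr.red Q ∉ C.B → Z Q = 0 := fun Q hQ =>
    C.sum_single_apply_out (d := fun _ => 0) (fun _ => by simp) hQ
  -- scale
  obtain ⟨b₀, hb₀⟩ : ∃ b₀, ∀ b, Fr.absv b g₀ ≤ Fr.absv b₀ g₀ := by
    by_cases hle : Fr.absv false g₀ ≤ Fr.absv true g₀
    · exact ⟨true, fun b => by cases b <;> simp [hle]⟩
    · exact ⟨false, fun b => by cases b <;> simp [le_of_not_ge hle]⟩
  obtain ⟨hd0, hd, hdr⟩ := scaleConst_spec (Fr := Fr) (b := b₀) hg0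
  set d := Fr.scaleConst b₀ g₀
  have habs : A.valuation d * Fr.absv b₀ g₀ = 1 := by rw [← absv_smul, absv_eq_one hd hdr]
  have hmem : ∀ b, d • g₀ ∈ (Fr.G b).V := fun b => by
    rw [mem_iff, absv_smul, ← habs]
    exact mul_le_mul_right (hb₀ b) _
  choose v hv using fun b => (hpp₀ b).red (hmem b)
  have hordd : ∀ Q : Place Qb F, Q.ord (d • g₀) = Q.ord g₀ := fun Q => by
    rw [Algebra.smul_def, Q.ord_mul (by simpa using hd0) hg0, FF.ord_algebraMap, zero_add]
  have hvB : Fr.RegB C.B v := by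
    refine ⟨fun x hx hxB => regAt_of_pow ?_, fun x hx => ?_⟩
    · refine regAt_congr (fun b _ => hv b) (regAt_red hx (fun b _ => hmem b) fun Q hQ => ?_)
      refine Vanish.zero_iff.mpr ?_
      rw [hordd, hord, hZout Q (hQ.symm ▸ hxB)]
      have := mul_nonneg (Int.natCast_nonneg p) (hE'0 Q)
      omega
    · have ht := C.param x hx
      rcases eq_or_ne (v x.1) 0 with h0 | h0
      · exact Or.inl h0
      refine Or.inr ?_
      have hne : (Fr.G x.1).red (d • g₀) ≠ 0 := by rw [hv]; exact pow_ne_zero _ h0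
      have ht0 : C.t x ≠ 0 := by simpa using ht.sub_ne_zero (c := 0) (by simp)
      have hfib : 0 ≤ Fr.fib (g₀ * C.t x ^ p) x := fib_nonneg fun Q hQ => by
        rw [Q.ord_mul hg0 (pow_ne_zero _ ht0), FF.ord_pow, hord]
        have hZQ : Z Q = Q.ord (C.t x) := by
          rw [hZ, C.sum_single_apply (d := fun _ => 0) (fun _ => by simp) (hQ.symm ▸ hx), hQ]
          simpa using (ht.ord_sub (c := 0) (by simp) hQ).symm
        rw [hZQ]
        have := mul_nonneg (Int.natCast_nonneg p) (hE'0 Q)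
        omega
      rw [fib_smooth (mul_ne_zero hg0 (pow_ne_zero _ ht0)) (C.smooth x hx),
        ordAt_mul hg0 (pow_ne_zero _ ht0), ordAt_pow,
        ordAt_eq ht.mem ht.red_ne_zero, ht.ord_red, ← ord_red_smul (hmem x.1) hne, hv,
        FF.ord_pow] at hfib
      nlinarith [Fr.p_prime.pos]
  obtain ⟨a, ha⟩ := C.only v hvB
  have ha0 : a ≠ 0 := by
    rintro rfl
    rw [hv b₀, ha b₀, map_zero, zero_pow Fr.p_prime.ne_zero] at hdr
    exact hdr rfl
  have hordAt : ∀ b P, Fr.ordAt b P g₀ = 0 := fun b P => by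
    rw [← ord_red_smul (hmem b) (by rw [hv, ha]; exact pow_ne_zero _ (by simpa using ha0)), hv,
      ha, FF.ord_pow, FF.ord_algebraMap, mul_zero]
  -- `E'` has one place over each point of `B`
  have hmap : ∀ x, Finsupp.mapDomain Fr.red E' x = if x ∈ C.B then 1 else 0 := by
    intro x
    have hfib : Fr.fib g₀ x = (p : ℤ) * Finsupp.mapDomain Fr.red E' x -
        (p : ℤ) * Finsupp.mapDomain Fr.red Z x := by
      have hdivg : (divOf g₀ : Divisor Qb F) = (p : ℤ) • E' - (p : ℤ) • Z :=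
        Finsupp.ext fun Q => by
          rw [Fr.curve.divOf_apply, hord]; simp
      rw [fib, hdivg, Finsupp.mapDomain_sub, Finsupp.mapDomain_smul, Finsupp.mapDomain_smul]
      simp
    have hZmap : Finsupp.mapDomain Fr.red Z x = if x ∈ C.B then 1 else 0 := by
      rw [hZ, Finsupp.mapDomain_finsetSum, Finset.sum_apply',
        Finset.sum_congr rfl fun y hy => by
          rw [Finsupp.mapDomain_single, (C.point_spec hy (c := 0) (by simp)).1,
            Finsupp.single_apply]]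
      exact Finset.sum_ite_eq' C.B x fun _ => (1 : ℤ)
    by_cases hx : Fr.IsPoint x
    · have h0 : Fr.fib g₀ x = 0 := by
        rcases hx with hs | ⟨h1, hP⟩
        · rw [fib_smooth hg0 hs, hordAt]
        · obtain ⟨b', P⟩ := x
          obtain rfl : b' = false := h1
          rw [fib_node hg0 hP, hordAt, hordAt, add_zero]
      rw [h0, ← mul_sub, zero_eq_mul] at hfib
      have := hfib.resolve_left (by exact_mod_cast Fr.p_prime.ne_zero)
      rw [hZmap] at this
      omega
    · rw [Finsupp.mapDomain_of_notMem_range _ _ (by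
        rintro ⟨Q, rfl⟩; exact hx (isPoint_red Q))]
      rw [if_neg fun hB => hx (Or.inl (C.smooth x hB))]
  have hone : ∀ x ∈ C.B, ∃ Q, Fr.red Q = x ∧ E' Q = 1 ∧
      ∀ Q', Fr.red Q' = x → Q' ≠ Q → E' Q' = 0 := by
    intro x hx
    have h1 := hmap x
    rw [if_pos hx] at h1
    obtain ⟨Q, hQ, hpos⟩ : ∃ Q, Fr.red Q = x ∧ 0 < E' Q := by
      by_contra hall
      push Not at hall
      rw [mapDomain_apply_eq_sum, Finset.sum_eq_zero fun Q hQ =>
        le_antisymm (hall Q (Finset.mem_filter.mp hQ).2) (hE'0 Q)] at h1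
      exact zero_ne_one h1
    have hle := le_mapDomain_of_nonneg Fr.red E' x (fun a _ => hE'0 a) hQ
    refine ⟨Q, hQ, by omega, fun Q' hQ' hne => ?_⟩
    have := add_le_mapDomain_of_nonneg Fr.red E' x (fun a _ => hE'0 a) hQ' hQ hne
    have := hE'0 Q'
    omega
  have hex : ∀ x, ∃ c : Qb, A.valuation c < 1 ∧ (x ∈ C.B →
      ∀ Q, Fr.red Q = x → E' Q = if valAt Q (C.t x) = c then 1 else 0) := by
    intro x
    by_cases hx : x ∈ C.B
    · obtain ⟨Q, hQ, h1, h2⟩ := hone x hx
      refine ⟨valAt Q (C.t x), (C.param x hx).valAt_lt hQ, fun _ Q' hQ' => ?_⟩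
      split_ifs with hv'
      · rw [(C.param x hx).eq_of_valAt hQ' hQ hv', h1]
      · exact h2 Q' hQ' fun he => hv' (by rw [he])
    · exact ⟨0, by simp, fun h => absurd h hx⟩
  choose c hc hcE using hex
  refine ⟨c, h, hc, hh0, ?_⟩
  have hE'eq : E' = ∑ y ∈ C.B, Finsupp.single (C.point y (c y)) (1 : ℤ) := by
    ext Q
    by_cases hQ : Fr.red Q ∈ C.B
    · rw [C.sum_single_apply hc hQ, hcE _ hQ Q rfl]
    · rw [C.sum_single_apply_out hc hQ]
      have hle := le_mapDomain_of_nonneg Fr.red E' (Fr.red Q) (fun a _ => hE'0 a) rfl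
      rw [hmap, if_neg hQ] at hle
      exact le_antisymm hle (hE'0 Q)
  rw [div, Finset.sum_sub_distrib, ← hE'eq, hE', ← hZ]
  abel

end Chart

end Frame

end FLTAgent.MazurP
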