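import Fermat.Agent.MazurP.QEigen
import Fermat.Agent.MazurP.FrameInst
import Fermat.Agent.MazurP.Chart
import Fermat.Agent.MazurP.ThetaKer
import Fermat.Agent.Kronecker.Inputs

/-!
# The reduced series at `∞` does not depend on the level

`IsRedSeries A p f r`: at every level `L` prime to `p`, the first reduction of a function of
level `Lp` with series `f` has series `r` up to a constant. `exists_redSeries`: every nonzero
function of level `Mp` has such an `r`, and if its divisor is `p D` then `qDlog r` inherits the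
Hecke eigenvalues of the class of `D`.
-/

set_option autoImplicit false
set_option linter.style.haveILetI false
set_option maxHeartbeats 1000000
set_option synthInstance.maxHeartbeats 400000

noncomputable section

open AlgebraicCurve ModularCurve

namespace FLTAgent.MazurP

local notation "Qb" => AlgebraicClosure ℚ

variable {p : ℕ} [NeZero p] [Fact p.Prime] (A : ValuationSubring Qb)

local notation "kA" => IsLocalRing.ResidueField A

/-- `r` is the reduction of the series `f` up to scalars, at every level. -/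
def IsRedSeries (p : ℕ) [NeZero p] (f : LaurentSeries Qb)
    (r : LaurentSeries (IsLocalRing.ResidueField A)) : Prop :=
  ∀ (L : ℕ) [NeZero L] (hp : p.Prime) (hpL : ¬ p ∣ L) (hA : A.LiesOverPrime p)
    (T : ModFrame A p L hp hpL hA) (f' : modularFunctionFieldBar (L * p)),
    (f' : LaurentSeries Qb) = f → ∃ a : IsLocalRing.ResidueField A, a ≠ 0 ∧
      (T.Fr.nred false f' : LaurentSeries (IsLocalRing.ResidueField A)) = HahnSeries.C a * r

variable {A}

theorem qDlog_C_mul {a : kA} (ha : a ≠ 0) {r : LaurentSeries kA} (hr : r ≠ 0) :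
    qDlog (HahnSeries.C a * r) = qDlog r := by
  rw [qDlog_mul (by simpa using ha) hr, qDlog_C, zero_add]

theorem qTheta_ne_zero_iff {r : LaurentSeries kA} (hr : r ≠ 0) :
    qTheta r ≠ 0 ↔ qDlog r ≠ 0 := by
  rw [qTheta_eq_mul_qDlog hr, mul_ne_zero_iff]
  exact and_iff_right hr

theorem gaussInf_of_series {L : ℕ} [NeZero L] (hp : p.Prime) (hpL : ¬ p ∣ L)
    (hA : A.LiesOverPrime p) {y : modularFunctionFieldBar (L * p)} {u v : LaurentSeries A}
    (hv : BadQ.redSer A (IsLocalRing.residue A) v ≠ 0)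
    (h : (y : LaurentSeries Qb) * BadQ.incl A v = BadQ.incl A u) :
    y ∈ (BadQ.gaussInf A L p hp hpL hA).V ∧
      ((BadQ.gaussInf A L p hp hpL hA).red y : LaurentSeries kA) =
        BadQ.redSer A (IsLocalRing.residue A) u / BadQ.redSer A (IsLocalRing.residue A) v := by
  refine ⟨(BadQ.mem_VI A L p).mpr ⟨u, v, hv, h⟩, ?_⟩
  show BadQ.redI A L p y = _
  rw [BadQ.redI]
  exact BadQ.gval_eq A _ hv h

theorem coe_smul_bar {N : ℕ} [NeZero N] (c : Qb) (y : modularFunctionFieldBar N) :
    ((c • y : modularFunctionFieldBar N) : LaurentSeries Qb) =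
      HahnSeries.C c * (y : LaurentSeries Qb) := by
  rw [Algebra.smul_def]
  show algebraMap Qb (LaurentSeries Qb) c * (y : LaurentSeries Qb) = _
  rw [algebraMap_laurentSeries_eq_single]
  rfl

theorem coe_algebraMap_bar_C {N : ℕ} [NeZero N] (c : Qb) :
    ((algebraMap Qb (modularFunctionFieldBar N) c : modularFunctionFieldBar N) : LaurentSeries Qb) =
      HahnSeries.C c := by
  show algebraMap Qb (LaurentSeries Qb) c = _
  rw [algebraMap_laurentSeries_eq_single]
  rfl

theorem coe_smul_res {N : ℕ} [NeZero N] (a : kA) (g : modularFunctionFieldFullC kA N) :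
    ((a • g : modularFunctionFieldFullC kA N) : LaurentSeries kA) =
      HahnSeries.C a * (g : LaurentSeries kA) := by
  rw [Algebra.smul_def]
  show algebraMap kA (LaurentSeries kA) a * (g : LaurentSeries kA) = _
  rw [algebraMap_laurentSeries_eq_single]
  rfl

/-- The reduced series of a function of level `M p`, with its Hecke relations. -/
theorem exists_redSeries {M : ℕ} [NeZero M] (hA : A.LiesOverPrime p)
    {f : modularFunctionFieldBar (M * p)} (hf : f ≠ 0) :
    ∃ r : LaurentSeries kA, r ≠ 0 ∧ IsRedSeries A p (f : LaurentSeries Qb) r ∧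
      ∀ D : Divisor.degZero (K := Qb) (F := modularFunctionFieldBar (M * p)),
        (∀ v, v.ord f = (p : ℤ) * (D : Divisor Qb (modularFunctionFieldBar (M * p))) v) →
        ∀ (ℓ : ℕ) (hℓ : ℓ.Prime), ¬ ℓ ∣ M → ℓ ≠ p → ∀ a : ℤ,
          heckeOperatorBar (M * p) ⟨ℓ, hℓ⟩ (Pic0.mk D) = a • Pic0.mk D →
          IsHeckeEigen (qDlog r) ℓ a := by
  haveI : NeZero (M * p) := ⟨mul_ne_zero (NeZero.ne M) (NeZero.ne p)⟩
  haveI := GalCommon.charP_residueField (Fact.out : p.Prime) hA
  set π := IsLocalRing.residue A with hπ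
  obtain ⟨c, h₁, h₂, m₁, m₂, hc, hr₁, hr₂, hfc⟩ := exists_normalised A π f hf
  refine ⟨coeffMap π h₁ / coeffMap π h₂, div_ne_zero hr₁ hr₂, ?_, ?_⟩
  · intro L _ hp hpL hA T f' hf'
    haveI : NeZero (L * p) := ⟨mul_ne_zero (NeZero.ne L) (NeZero.ne p)⟩
    have h2 : BadQ.incl A h₂ ≠ 0 := fun h0 => hr₂ (by
      rw [(map_eq_zero_iff _ (BadQ.incl_injective A)).mp h0, map_zero])
    have hser : (((c⁻¹ • f' : modularFunctionFieldBar (L * p))) : LaurentSeries Qb) *
        BadQ.incl A h₂ = BadQ.incl A h₁ := by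
      rw [coe_smul_bar, hf', hfc, IntermediateField.coe_mul, IntermediateField.coe_div,
        coe_algebraMap_bar_C, ← mul_assoc, ← map_mul, inv_mul_cancel₀ hc, map_one, one_mul]
      exact div_mul_cancel₀ _ h2
    obtain ⟨hV, hred⟩ := gaussInf_of_series hp hpL hA hr₂ hser
    rw [← T.G_false] at hV hred
    have hf'0 : f' ≠ 0 := fun h => hf (Subtype.ext (by
      rw [← hf', h, ZeroMemClass.coe_zero, ZeroMemClass.coe_zero]))
    obtain ⟨hd0, hd, hdr⟩ := Frame.scaleConst_spec (Fr := T.Fr) (b := false) hf'0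
    have hne : (T.Fr.G false).red (c⁻¹ • f') ≠ 0 := fun h => div_ne_zero hr₁ hr₂
      (hred.symm.trans (by rw [h, ZeroMemClass.coe_zero]))
    obtain ⟨a, -, ha⟩ := Frame.scale_unique (inv_ne_zero hc) hd hV hne
    refine ⟨π a, fun h => hdr (by rw [ha, h, zero_smul]), ?_⟩
    rw [Frame.nred, ha, coe_smul_res, hred]
    rfl
  · intro D hD ℓ hℓ hℓM hℓp a heig
    have hℓN : ¬ ℓ ∣ M * p := fun h => (hℓ.dvd_mul.mp h).elim hℓM fun h' =>
      hℓp ((Nat.prime_dvd_prime_iff_eq hℓ Fact.out).mp h')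
    rw [qDlog_div hr₁ hr₂]
    refine isHeckeEigen_qDlog A hA π h₁ h₂ m₁ m₂ hr₁ hr₂ D (fun v => ?_) hℓ hℓN hℓp a heig
    have hne : ∀ h : LaurentSeries A, coeffMap π h ≠ 0 → ∀ m,
        (⟨coeffMap A.subtype h, m⟩ : modularFunctionFieldBar (M * p)) ≠ 0 := fun h hh m h0 =>
      hh (by rw [(map_eq_zero_iff _ (BadQ.incl_injective A)).mp (congrArg Subtype.val h0),
        map_zero])
    haveI := Kronecker.isFF_bar (M * p)
    rw [← hD, hfc, div_eq_mul_inv, v.ord_mul ((map_ne_zero _).mpr hc)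
      (mul_ne_zero (hne h₁ hr₁ m₁) (inv_ne_zero (hne h₂ hr₂ m₂))),
      v.ord_mul (hne h₁ hr₁ m₁) (inv_ne_zero (hne h₂ hr₂ m₂)), v.ord_inv, FF.ord_algebraMap]
    ring

end FLTAgent.MazurP
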