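import Fermat.Agent.MazurP.Scalar

/-!
# The local shape of wild inertia

`CO π δ x r` means `x = 1 + δ a` with `a` reducing to `r`. From inertia invariant roots of unity
of order prime to `p`, and a ramification break `j < p` at a uniformiser of the field fixed by
`H`, `nonempty_wildShape` builds a `WildShape`: an inertia element `σ` and `δ` with
`|p| < |δ|^(p-1)` such that `σ c / c = 1 + δ (R θ) + ...` for every `H`-fixed `c` of valuation
`|p|^(R/e)`, with `θ ≠ 0`.
-/

set_option autoImplicit false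
set_option linter.style.haveILetI false
set_option linter.unusedSectionVars false

noncomputable section

open scoped Classical

namespace FLTAgent.MazurP

local notation "Qb" => AlgebraicClosure ℚ
local notation "Γℚ" => (AlgebraicClosure ℚ ≃ₐ[ℚ] AlgebraicClosure ℚ)

variable {A : ValuationSubring Qb} {k : Type*} [Field k]

/-- `x = 1 + δ a` with `a` reducing to `r`. -/
def CO (π : A →+* k) (δ x : Qb) (r : k) : Prop := ∃ a : A, x = 1 + δ * a ∧ π a = r

namespace CO

variable {π : A →+* k} {δ x y : Qb} {r s : k}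

theorem one : CO π δ 1 0 := ⟨0, by simp, map_zero π⟩

theorem mul (hδ : δ ∈ A) (hδπ : π ⟨δ, hδ⟩ = 0) (hx : CO π δ x r) (hy : CO π δ y s) :
    CO π δ (x * y) (r + s) := by
  obtain ⟨a, rfl, rfl⟩ := hx
  obtain ⟨b, rfl, rfl⟩ := hy
  refine ⟨a + b + ⟨δ, hδ⟩ * (a * b), by push_cast; ring, ?_⟩
  simp only [map_add, map_mul, hδπ, zero_mul, add_zero]

theorem inv (hδ : δ ∈ A) (hδπ : π ⟨δ, hδ⟩ = 0) (hx : CO π δ x r) : CO π δ x⁻¹ (-r) := by
  obtain ⟨a, rfl, rfl⟩ := hx
  have hu : IsUnit (1 + ⟨δ, hδ⟩ * a : A) := by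
    by_contra hu
    have h1 : IsUnit (1 : k) := isUnit_one
    have h2 : (1 + ⟨δ, hδ⟩ * a : A) ∈ IsLocalRing.maximalIdeal A := hu
    have h3 : (⟨δ, hδ⟩ * a : A) ∈ IsLocalRing.maximalIdeal A :=
      Ideal.mul_mem_right _ _ (by
        by_contra hd
        exact absurd hδπ ((IsUnit.map π (by simpa using hd)).ne_zero))
    have h4 := Ideal.sub_mem _ h2 h3
    rw [add_sub_cancel_right] at h4
    exact (IsLocalRing.maximalIdeal.isMaximal A).ne_top ((Ideal.eq_top_iff_one _).mpr h4)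
  obtain ⟨w, hw⟩ := hu
  refine ⟨-(a * ((w⁻¹ : Aˣ) : A)), ?_, ?_⟩
  · have h1 := congrArg Subtype.val (w.mul_inv)
    rw [hw] at h1
    push_cast at h1 ⊢
    refine inv_eq_of_mul_eq_one_right ?_
    linear_combination (-(δ * (a : Qb))) * h1
  · have h1 := congrArg π w.mul_inv
    rw [map_mul, map_one, hw, map_add, map_one, map_mul, hδπ, zero_mul, add_zero, one_mul] at h1
    rw [map_neg, map_mul, h1, mul_one]

theorem zpow (hδ : δ ∈ A) (hδπ : π ⟨δ, hδ⟩ = 0) (hx : CO π δ x r) (hx0 : x ≠ 0) (n : ℤ) :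
    CO π δ (x ^ n) ((n : k) * r) := by
  induction n with
  | zero => simpa using CO.one (π := π) (δ := δ)
  | succ n ih =>
    rw [zpow_add_one₀ hx0, Int.cast_add, Int.cast_one, add_mul, one_mul]
    exact ih.mul hδ hδπ hx
  | pred n ih =>
    rw [zpow_sub_one₀ hx0, Int.cast_sub, Int.cast_one, sub_mul, one_mul, sub_eq_add_neg]
    exact ih.mul hδ hδπ (hx.inv hδ hδπ)

end CO

/-- A unit is congruent to a root of unity of order prime to `p`. -/
theorem exists_root_of_unity {p : ℕ} (hp : p.Prime) (hA : A.LiesOverPrime p) {u : Qb}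
    (hu : A.valuation u = 1) :
    ∃ (n : ℕ) (ω : Qb), ¬ p ∣ n ∧ ω ^ n = 1 ∧ A.valuation (u - ω) < 1 := by
  haveI : Fact p.Prime := ⟨hp⟩
  haveI := GalCommon.charP_residueField hp hA
  letI : Algebra (ZMod p) (IsLocalRing.ResidueField A) := ZMod.algebra _ p
  haveI := GalCommon.isAlgebraic_residueField A hp hA
  have huA : u ∈ A := (A.valuation_le_one_iff u).mp hu.le
  set y := IsLocalRing.residue A ⟨u, huA⟩ with hy
  have hy0 : y ≠ 0 := by
    rw [hy, ne_eq, IsLocalRing.residue_eq_zero_iff, A.valuation_lt_one_iff]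
    exact hu.not_lt
  set L := IntermediateField.adjoin (ZMod p) {y}
  haveI : FiniteDimensional (ZMod p) L :=
    IntermediateField.adjoin.finiteDimensional (Algebra.IsIntegral.isIntegral y)
  haveI : Finite L := Module.finite_of_finite (ZMod p)
  haveI := Fintype.ofFinite L
  set y' : L := ⟨y, IntermediateField.mem_adjoin_simple_self _ y⟩
  have hpow := FiniteField.pow_card_sub_one_eq_one y' (fun h => hy0 (congrArg Subtype.val h))
  set n := Fintype.card L - 1
  have hcard : Fintype.card L = p ^ Module.finrank (ZMod p) L := by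
    rw [Module.card_eq_pow_finrank (K := ZMod p), ZMod.card]
  have hn : ¬ p ∣ n := fun h => by
    have h2 : p ∣ Fintype.card L := by
      rw [hcard]; exact dvd_pow_self p Module.finrank_pos.ne'
    have h1 : Fintype.card L - n = 1 := by have := Fintype.card_pos (α := L); omega
    exact hp.not_dvd_one (h1 ▸ Nat.dvd_sub h2 h)
  have hn0 : n ≠ 0 := fun h => hn (h ▸ dvd_zero p)
  haveI : NeZero n := ⟨hn0⟩
  haveI : NeZero (n : Qb) := ⟨by exact_mod_cast hn0⟩
  obtain ⟨ζ, hζ⟩ := HasEnoughRootsOfUnity.exists_primitiveRoot Qb n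
  have hsmall : A.valuation (u ^ n - 1) < 1 := by
    have h1 : IsLocalRing.residue A ((⟨u, huA⟩ : A) ^ n - 1) = 0 := by
      rw [map_sub, map_pow, map_one, ← hy]
      have := congrArg Subtype.val hpow
      push_cast at this
      rw [this, sub_self]
    rw [IsLocalRing.residue_eq_zero_iff, A.valuation_lt_one_iff] at h1
    push_cast at h1
    exact h1
  have hprod := congrArg (Polynomial.eval u)
    (Polynomial.X_pow_sub_one_eq_prod (Nat.pos_of_ne_zero hn0) hζ)
  simp only [Polynomial.eval_sub, Polynomial.eval_pow, Polynomial.eval_X, Polynomial.eval_one,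
    Polynomial.eval_prod, Polynomial.eval_C] at hprod
  rw [hprod, map_prod] at hsmall
  by_contra hall
  push Not at hall
  exact absurd hsmall (not_lt.mpr (Finset.one_le_prod' fun ω hω =>
    hall n ω hn ((Polynomial.mem_nthRootsFinset (Nat.pos_of_ne_zero hn0) 1).mp hω)))

/-- Inertia fixes roots of unity of order prime to `p`. -/
theorem inertia_fix_root {p : ℕ} (hp : p.Prime) (hA : A.LiesOverPrime p) {n : ℕ} (hn : ¬ p ∣ n)
    {ω : Qb} (hω : ω ^ n = 1) {σ : Γℚ} (hσ : σ ∈ A.inertiaSubgroupIn ℚ) : σ ω = ω := by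
  have hn0 : n ≠ 0 := fun h => hn (h ▸ dvd_zero p)
  have hω0 : ω ≠ 0 := fun h => by simp [h, hn0] at hω
  have hvω : A.valuation ω = 1 :=
    (pow_eq_one_iff.mp (by rw [← map_pow, hω, map_one] : A.valuation ω ^ n = 1)).resolve_right hn0
  set η := σ ω / ω with hη
  by_contra hne
  have hη1 : η ≠ 1 := fun h => hne (by rw [hη, div_eq_one_iff_eq hω0] at h; exact h)
  have hηn : η ^ n = 1 := by rw [hη, div_pow, ← map_pow, hω, map_one, one_div_one]
  have hηlt : A.valuation (η - 1) < 1 := by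
    rw [hη, div_sub_one hω0, map_div₀, hvω, div_one]
    exact inertia_sub_lt hσ hvω.le
  have hηA : η ∈ A := by
    rw [← A.valuation_le_one_iff, hη, map_div₀, inertia_valuation hσ, hvω, div_one]
  have hsum : ∑ i ∈ Finset.range n, η ^ i = 0 := by
    have h := geom_sum_mul η n
    rw [hηn, sub_self, mul_eq_zero] at h
    exact h.resolve_right (sub_ne_zero.mpr hη1)
  have hres : IsLocalRing.residue A ⟨η, hηA⟩ = 1 := by
    rw [← sub_eq_zero, ← map_one (IsLocalRing.residue A), ← map_sub,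
      IsLocalRing.residue_eq_zero_iff, A.valuation_lt_one_iff]
    push_cast
    exact hηlt
  have h0 : (∑ i ∈ Finset.range n, (⟨η, hηA⟩ : A) ^ i) = 0 := Subtype.ext (by
    push_cast
    exact hsum)
  have h1 := congrArg (IsLocalRing.residue A) h0
  rw [map_sum, Finset.sum_congr rfl fun i _ => by rw [map_pow, hres, one_pow], map_zero] at h1
  simp only [Finset.sum_const, Finset.card_range, nsmul_eq_mul, mul_one] at h1
  haveI := GalCommon.charP_residueField hp hA
  exact hn ((CharP.cast_eq_zero_iff (IsLocalRing.ResidueField A) p n).mp h1)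

/-- The local shape used in the slope argument. -/
structure WildShape (π : A →+* k) (p : ℕ) (H : Subgroup Γℚ) (e : ℕ) where
  /-- The inertia element. -/
  σ : Γℚ
  σ_mem : σ ∈ A.inertiaSubgroupIn ℚ
  /-- The size of its first order motion. -/
  δ : Qb
  δ_ne : δ ≠ 0
  δ_lt : A.valuation δ < 1
  δ_pow : A.valuation (p : Qb) < A.valuation δ ^ (p - 1)
  small : ∀ a : Qb, A.valuation a ≤ 1 → (∀ τ ∈ H, τ a = a) →
    A.valuation (σ a - a) < A.valuation δ
  /-- The residue of the motion of a uniformiser. -/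
  θ : k
  θ_ne : θ ≠ 0
  co : ∀ (c : Qb) (R : ℤ), c ≠ 0 → (∀ τ ∈ H, τ c = c) →
    A.valuation c ^ e = A.valuation (p : Qb) ^ R → CO π δ (σ c / c) ((R : k) * θ)

/-- A ramification break `j < p` at a uniformiser of the field fixed by `H` gives the wild shape. -/
theorem nonempty_wildShape {p : ℕ} (hp : p.Prime) (hA : A.LiesOverPrime p) (π : A →+* k)
    (hπ : ∀ a : A, π a = 0 ↔ A.valuation (a : Qb) < 1) {H : Subgroup Γℚ}
    (hH : H ≤ A.inertiaSubgroupIn ℚ) {e : ℕ} (hpe : p ∣ e) (he : 0 < e)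
    (val : ∀ x : Qb, x ≠ 0 → (∀ τ ∈ H, τ x = x) →
      ∃ n : ℤ, A.valuation x ^ e = A.valuation (p : Qb) ^ n)
    (hζ : ∃ ζ : Qb, IsPrimitiveRoot ζ p ∧ ∀ τ ∈ H, τ ζ = ζ)
    {σ : Γℚ} (hσ : σ ∈ A.inertiaSubgroupIn ℚ) {ϖ : Qb} {j : ℕ}
    (hnorm : ∀ τ ∈ H, σ⁻¹ * τ * σ ∈ H) (hϖ : ∀ τ ∈ H, τ ϖ = ϖ)
    (hvϖ : A.valuation ϖ ^ e = A.valuation (p : Qb)) (hj : 0 < j) (hjp : j < p)
    (hbreak : A.valuation (σ ϖ - ϖ) ^ e = A.valuation (p : Qb) ^ (j + 1)) :
    Nonempty (WildShape π p H e) := by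
  have hp0 : (p : Qb) ≠ 0 := by exact_mod_cast hp.ne_zero
  have hvp : 0 < A.valuation (p : Qb) := zero_lt_iff.mpr ((map_ne_zero _).mpr hp0)
  have hvp1 : A.valuation (p : Qb) < 1 := hA
  have hvϖ1 : A.valuation ϖ < 1 := by
    by_contra h
    push Not at h
    exact absurd (hvϖ ▸ one_le_pow₀ h) (not_le.mpr hvp1)
  have hϖ0 : ϖ ≠ 0 := by
    rintro rfl
    rw [map_zero, zero_pow he.ne'] at hvϖ
    exact hvp.ne hvϖ
  have hvϖ0 : 0 < A.valuation ϖ := zero_lt_iff.mpr ((map_ne_zero _).mpr hϖ0)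
  -- `H`-fixed elements of positive valuation are divisible by `ϖ`
  have hdisc : ∀ x : Qb, (∀ τ ∈ H, τ x = x) → A.valuation x < 1 →
      A.valuation x ≤ A.valuation ϖ := by
    intro x hx hx1
    rcases eq_or_ne x 0 with rfl | hx0
    · simp
    obtain ⟨n, hn⟩ := val x hx0 hx
    have hn1 : 1 ≤ n := by
      by_contra h
      push Not at h
      have : 1 ≤ A.valuation (p : Qb) ^ n := by
        rw [show n = -((-n).toNat : ℤ) by omega, zpow_neg, zpow_natCast]
        exact (one_le_inv₀ (pow_pos hvp _)).mpr (pow_le_one₀ zero_le hvp1.le)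
      rw [← hn] at this
      exact absurd this (not_le.mpr (pow_lt_one₀ zero_le hx1 he.ne'))
    refine le_of_pow_le_pow_left₀ he.ne' zero_le ?_
    rw [hn, hvϖ]
    conv_rhs => rw [← zpow_one (A.valuation (p : Qb))]
    exact zpow_le_zpow_right_of_le_one₀ hvp hvp1.le hn1
  have hσfix : ∀ x : Qb, (∀ τ ∈ H, τ x = x) → ∀ τ ∈ H, τ (σ x) = σ x := fun x hx τ hτ => by
    have h := congrArg σ (hx _ (hnorm τ hτ))
    rwa [← AlgEquiv.mul_apply, ← mul_assoc, ← mul_assoc, mul_inv_cancel, one_mul,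
      AlgEquiv.mul_apply] at h
  have hstep : A.valuation (σ ϖ - ϖ) = A.valuation ϖ ^ (j + 1) := by
    refine (pow_left_inj₀ zero_le zero_le he.ne').mp ?_
    rw [hbreak, ← hvϖ, ← pow_mul, ← pow_mul, mul_comm]
  -- `σ` moves integral fixed elements by at most `ϖ^(j+1)`
  have hmove : ∀ m : ℕ, m ≤ j → ∀ a : Qb, A.valuation a ≤ 1 → (∀ τ ∈ H, τ a = a) →
      A.valuation (σ a - a) ≤ A.valuation ϖ ^ (m + 1) := by
    intro m
    induction m with
    | zero =>
      intro _ a ha hfix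
      rw [pow_one]
      exact hdisc _ (fun τ hτ => by rw [map_sub, hσfix a hfix τ hτ, hfix τ hτ])
        (inertia_sub_lt hσ ha)
    | succ m ih =>
      intro hm a ha hfix
      obtain ⟨ω, hω1, hωσ, hωH⟩ : ∃ ω : Qb, A.valuation (a - ω) < 1 ∧ σ ω = ω ∧
          ∀ τ ∈ H, τ ω = ω := by
        rcases lt_or_eq_of_le ha with hlt | heq
        · exact ⟨0, by simpa using hlt, map_zero σ, fun τ _ => map_zero τ⟩
        · obtain ⟨n, ω, hn, hω, hlt⟩ := exists_root_of_unity hp hA heq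
          exact ⟨ω, hlt, inertia_fix_root hp hA hn hω hσ,
            fun τ hτ => inertia_fix_root hp hA hn hω (hH hτ)⟩
      set b := (a - ω) / ϖ with hb
      have hbfix : ∀ τ ∈ H, τ b = b := fun τ hτ => by
        rw [hb, map_div₀, map_sub, hfix τ hτ, hωH τ hτ, hϖ τ hτ]
      have hb1 : A.valuation b ≤ 1 := by
        rw [hb, map_div₀, div_le_one₀ hvϖ0]
        exact hdisc _ (fun τ hτ => by rw [map_sub, hfix τ hτ, hωH τ hτ]) hω1
      have he' : σ a - a = (σ ϖ - ϖ) * σ b + ϖ * (σ b - b) := by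
        have h1 : a = ω + ϖ * b := by rw [hb, mul_div_cancel₀ _ hϖ0]; ring
        conv_lhs => rw [h1]
        rw [map_add, map_mul, hωσ]
        ring
      rw [he']
      refine A.valuation.map_add_le ?_ ?_
      · rw [map_mul, hstep]
        exact (mul_le_of_le_one_right' (by rw [inertia_valuation hσ]; exact hb1)).trans
          (pow_le_pow_right_of_le_one' hvϖ1.le (by omega))
      · rw [map_mul, pow_succ']
        exact mul_le_mul_right (ih (by omega) b hb1 hbfix) _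
  -- the break is small
  have hej : (p - 1) * j < e := by
    obtain ⟨ζ, hζp, hζfix⟩ := hζ
    have hζ0 : ζ - 1 ≠ 0 := sub_ne_zero.mpr (hζp.ne_one hp.one_lt)
    obtain ⟨n, hn⟩ := val (ζ - 1) hζ0 fun τ hτ => by rw [map_sub, hζfix τ hτ, map_one]
    have h1 : A.valuation (p : Qb) ^ (e : ℤ) = A.valuation (p : Qb) ^ (n * (p - 1 : ℕ)) := by
      rw [zpow_natCast, zpow_mul, ← hn, zpow_natCast, ← pow_mul, mul_comm e, pow_mul,
        valuation_zeta_sub_one_pow hp A hζp]
    have h2 := zpow_right_injective₀ hvp hvp1.ne h1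
    have hpn : (p : ℤ) ∣ n := by
      have h3 : (p : ℤ) ∣ n * ((p - 1 : ℕ) : ℤ) := h2 ▸ Int.natCast_dvd_natCast.mpr hpe
      refine ((Nat.prime_iff_prime_int.mp hp).dvd_or_dvd h3).resolve_right fun h => ?_
      have := Nat.le_of_dvd (by have := hp.two_le; omega) (Int.natCast_dvd_natCast.mp h)
      have := hp.two_le
      omega
    have hn0 : 0 < n := by
      by_contra h
      push Not at h
      have : n * ((p - 1 : ℕ) : ℤ) ≤ 0 := mul_nonpos_of_nonpos_of_nonneg h (by positivity)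
      omega
    have h4 : (p : ℤ) ≤ n := Int.le_of_dvd hn0 hpn
    have h5 : ((p - 1 : ℕ) : ℤ) * j < n * ((p - 1 : ℕ) : ℤ) := by
      rw [mul_comm n]
      exact mul_lt_mul_of_pos_left (by omega) (by have := hp.two_le; omega)
    rw [← h2] at h5
    exact_mod_cast h5
  have hδ1 : A.valuation (ϖ ^ j) < 1 := by
    rw [map_pow]
    exact pow_lt_one₀ zero_le hvϖ1 hj.ne'
  have hδA : ϖ ^ j ∈ A := (A.valuation_le_one_iff _).mp hδ1.le
  have hδπ : π ⟨ϖ ^ j, hδA⟩ = 0 := (hπ _).mpr hδ1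
  have hsmall : ∀ a : Qb, A.valuation a ≤ 1 → (∀ τ ∈ H, τ a = a) →
      A.valuation (σ a - a) < A.valuation (ϖ ^ j) := fun a ha hfix => by
    refine (hmove j le_rfl a ha hfix).trans_lt ?_
    rw [map_pow, pow_succ]
    exact mul_lt_of_lt_one_right (pow_pos hvϖ0 _) hvϖ1
  have hθA : (σ ϖ - ϖ) / ϖ ^ (j + 1) ∈ A := by
    rw [← A.valuation_le_one_iff, map_div₀, map_pow, hstep,
      div_self (pow_ne_zero _ hvϖ0.ne')]
  refine ⟨⟨σ, hσ, ϖ ^ j, pow_ne_zero _ hϖ0, hδ1, ?_, hsmall, π ⟨_, hθA⟩, ?_, ?_⟩⟩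
  · rw [← hvϖ, map_pow, ← pow_mul]
    exact pow_lt_pow_right_of_lt_one₀ hvϖ0 hvϖ1 (by rw [mul_comm]; exact hej)
  · rw [ne_eq, hπ]
    simp [map_div₀, hstep, div_self (pow_ne_zero _ hvϖ0.ne')]
  · intro c R hc hfix hvc
    set w := c / ϖ ^ R with hw
    have hw0 : w ≠ 0 := div_ne_zero hc (zpow_ne_zero _ hϖ0)
    have hwfix : ∀ τ ∈ H, τ w = w := fun τ hτ => by
      rw [hw, map_div₀, map_zpow₀, hfix τ hτ, hϖ τ hτ]
    have hvw : A.valuation w = 1 := by
      refine (pow_eq_one_iff.mp (?_ : A.valuation w ^ e = 1)).resolve_right he.ne'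
      rw [hw, map_div₀, map_zpow₀, div_pow, hvc, ← hvϖ, ← zpow_natCast, ← zpow_natCast,
        ← zpow_mul, ← zpow_mul, mul_comm, div_self (zpow_ne_zero _ hvϖ0.ne')]
    have h1 : CO π (ϖ ^ j) (σ ϖ / ϖ) (π ⟨_, hθA⟩) := ⟨⟨_, hθA⟩, by
      show σ ϖ / ϖ = 1 + ϖ ^ j * ((σ ϖ - ϖ) / ϖ ^ (j + 1))
      rw [pow_succ]
      field_simp
      ring, rfl⟩
    have h2 : CO π (ϖ ^ j) (σ w / w) 0 := by
      have hlt : A.valuation ((σ w - w) / (w * ϖ ^ j)) < 1 := by
        rw [map_div₀, map_mul, hvw, one_mul,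
          div_lt_one₀ (zero_lt_iff.mpr ((map_ne_zero _).mpr (pow_ne_zero _ hϖ0)))]
        exact hsmall w hvw.le hwfix
      refine ⟨⟨_, (A.valuation_le_one_iff _).mp hlt.le⟩, ?_, (hπ _).mpr hlt⟩
      show σ w / w = 1 + ϖ ^ j * ((σ w - w) / (w * ϖ ^ j))
      field_simp
      ring
    have h3 := (h1.zpow hδA hδπ (div_ne_zero (by simpa using hϖ0) hϖ0) R).mul hδA hδπ h2
    rw [add_zero] at h3
    have hc' : σ c / c = (σ ϖ / ϖ) ^ R * (σ w / w) := by
      rw [show c = ϖ ^ R * w by rw [hw, mul_div_cancel₀ _ (zpow_ne_zero _ hϖ0)], map_mul,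
        map_zpow₀, div_zpow]
      ring
    rwa [hc']

end FLTAgent.MazurP
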