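import Fermat.Agent.MazurP.Node
import Fermat.Agent.MazurP.Ram

/-!
# Orders at the nodes are congruent modulo `p`

`ordAt_congr_nodes`: let `p D = div f` with the class of `D` fixed by a subgroup `H` of inertia
whose fixed field has ramification `e`, where `p ∤ e` or (`p² ∤ e` and some inertia element has
break `j < p`). Then the orders of the reduction of `f` at any two nodes are congruent modulo
`p`. Local equations of an `H`-fixed divisor (`exists_smooth_factor`, `exists_node_factor`) give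
`p n + e s` independent of the node; in the wild case the first order expansion of `σ f' / f'`
is constant on each component, so `n` mod `p` does not depend on the node.
-/

set_option autoImplicit false
set_option linter.style.haveILetI false
set_option linter.unusedSectionVars false

noncomputable section

open AlgebraicCurve SemilinearAut
open scoped Classical

namespace FLTAgent.MazurP

open FLTAgent.Reduction

local notation "Qb" => AlgebraicClosure ℚ
local notation "Γℚ" => (AlgebraicClosure ℚ ≃ₐ[ℚ] AlgebraicClosure ℚ)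

namespace Frame

variable {A : ValuationSubring Qb} {k : Type*} [Field k] {π : A →+* k} {p : ℕ}
  {F E : Type*} [Field F] [Field E] [Algebra Qb F] [Algebra k E] {Fr : Frame A π p F E}
  {H : Subgroup Γℚ} {e : ℕ}

theorem absv_sum_lt {b : Bool} {ι : Type*} (s : Finset ι) (y : ι → F) {γ : A.ValueGroup}
    (hγ : 0 < γ) (h : ∀ i ∈ s, Fr.absv b (y i) < γ) : Fr.absv b (∑ i ∈ s, y i) < γ := by
  induction s using Finset.induction with
  | empty => simpa using hγ
  | insert a s ha ih =>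
    rw [Finset.sum_insert ha]
    exact (absv_add_le _ _).trans_lt (max_lt (h a (Finset.mem_insert_self a s))
      (ih fun i hi => h i (Finset.mem_insert_of_mem hi)))

theorem fo_of_absv_lt {b : Bool} {δ : Qb} {G G' : F} (hδ0 : δ ≠ 0) (hG : G ∈ (Fr.G b).V)
    (hGr : (Fr.G b).red G ≠ 0) (h : Fr.absv b (G' - G) < A.valuation δ) :
    Fr.FO b δ (G' / G) 0 := by
  have hG0 : G ≠ 0 := fun h0 => hGr (by rw [h0, (Fr.G b).red_zero])
  set y := δ⁻¹ • ((G' - G) / G) with hy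
  have hlt : Fr.absv b y < 1 := by
    rw [hy, absv_smul, div_eq_mul_inv (G' - G), absv_mul, absv_inv, absv_eq_one hG hGr, inv_one,
      mul_one, map_inv₀, inv_mul_lt_iff₀ (zero_lt_iff.mpr ((map_ne_zero _).mpr hδ0)), mul_one]
    exact h
  have hm : y ∈ (Fr.G b).V := mem_iff.mpr hlt.le
  refine ⟨y, hm, ?_, ?_⟩
  · rw [hy, smul_smul, mul_inv_cancel₀ hδ0, one_smul, sub_div, div_self hG0]
    ring
  · by_contra hne
    exact hlt.ne ((red_ne_zero_iff hm).mp hne)

theorem fo_pow_p {b : Bool} {δ : Qb} (hδ0 : δ ≠ 0) (hδ : A.valuation δ < 1)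
    (hpow : A.valuation (p : Qb) < A.valuation δ ^ (p - 1)) {q : F} {r : E}
    (h : Fr.FO b δ q r) : Fr.FO b (δ ^ p) (q ^ p) (r ^ p) := by
  obtain ⟨y, hy, rfl, rfl⟩ := h
  obtain ⟨h1, h2⟩ := smul_mem_red_zero (Fr := Fr) hδ hy
  obtain ⟨R, hR⟩ := one_add_pow_prime Fr.p_prime (⟨δ • y, h1⟩ : (Fr.G b).V)
  have hyR := (Fr.G b).V.mul_mem h1 R.2
  have hz := (Fr.G b).V.mul_mem hy ((Fr.G b).V.add_mem (Fr.G b).V.one_mem hyR)
  have hlt : A.valuation ((p : Qb) * δ) < A.valuation (δ ^ p) := by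
    rw [map_mul, map_pow]
    conv_rhs => rw [← Nat.sub_add_cancel Fr.p_prime.one_le, pow_succ]
    exact mul_lt_mul_of_pos_right hpow (zero_lt_iff.mpr ((map_ne_zero _).mpr hδ0))
  have h := fo_add (Fr := Fr) (b := b) (α := δ ^ p) (β := (p : Qb) * δ) (pow_ne_zero p hδ0)
    le_rfl hlt.le (pow_mem hy p) hz
  have e1 : toA A (δ ^ p / δ ^ p) = 1 := Subtype.ext (by
    rw [coe_toA (by rw [div_self (pow_ne_zero p hδ0), map_one]), div_self (pow_ne_zero p hδ0)]
    rfl)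
  have e2 : π (toA A ((p : Qb) * δ / δ ^ p)) = 0 := res_toA_eq_zero Fr (by
    rw [map_div₀, div_lt_one₀ (zero_lt_iff.mpr ((map_ne_zero _).mpr (pow_ne_zero p hδ0)))]
    exact hlt)
  rw [e1, e2, map_one, one_smul, zero_smul, add_zero, (Fr.G b).red_pow hy] at h
  have he := congrArg (fun t : (Fr.G b).V => (t : F)) hR
  push_cast at he
  rwa [show (1 + δ • y) ^ p =
      1 + δ ^ p • y ^ p + ((p : Qb) * δ) • (y * (1 + δ • y * R)) by
    rw [he, smul_pow, ← smul_smul, Algebra.smul_def (p : Qb), map_natCast, mul_assoc,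
      smul_mul_assoc]]

theorem fo_const {b : Bool} {δ x : Qb} {r : k} (h : CO π δ x r) :
    Fr.FO b δ (algebraMap Qb F x) (algebraMap k E r) := by
  obtain ⟨a, rfl, rfl⟩ := h
  exact ⟨algebraMap Qb F a, (Fr.G b).const_mem a, by
    rw [map_add, map_one, map_mul, Algebra.smul_def], (Fr.G b).red_const a⟩

theorem absv_prod {b : Bool} {ι : Type*} (s : Finset ι) (y : ι → F) :
    Fr.absv b (∏ i ∈ s, y i) = ∏ i ∈ s, Fr.absv b (y i) := by
  induction s using Finset.induction with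
  | empty => simp
  | insert a s ha ih => rw [Finset.prod_insert ha, Finset.prod_insert ha, absv_mul, ih]

theorem fixed_apply {D : Divisor Qb F} {τ : Γℚ} (h : Fr.act τ • D = D) (Q : Place Qb F) :
    D (Fr.act τ • Q) = D Q := by
  conv_lhs => rw [← h]
  exact SemilinearAut.divisor_smul_apply_smul _ _ _

theorem prod_fixed (s : Finset (Place Qb F)) (n : Place Qb F → ℕ) (a : Place Qb F → Qb)
    {τ : Γℚ} (hs : ∀ Q, Q ∈ s → Fr.act τ • Q ∈ s)
    (hn : ∀ Q ∈ s, n (Fr.act τ • Q) = n Q) (ha : ∀ Q ∈ s, a (Fr.act τ • Q) = τ (a Q)) :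
    τ (∏ Q ∈ s, a Q ^ n Q) = ∏ Q ∈ s, a Q ^ n Q := by
  rw [map_prod]
  refine Finset.prod_nbij (fun Q => Fr.act τ • Q) hs (fun Q _ Q' _ h => smul_left_cancel _ h)
    ?_ fun Q hQ => ?_
  · exact Finset.surjOn_of_injOn_of_card_le _ hs (fun Q _ Q' _ h => smul_left_cancel _ h) le_rfl
  · rw [map_pow, hn Q hQ, ha Q hQ]

/-- A product of linear factors with coefficients permuted by `H` is congruent to its conjugate. -/
theorem fo_act_prod (W : WildShape π p H e) (b : Bool) {t : F} (ht : t ∈ (Fr.G b).V)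
    (hfix : Fr.act W.σ • t = t) (s : Finset (Place Qb F)) (n : Place Qb F → ℕ)
    (a c : Place Qb F → Qb) (ha : ∀ Q ∈ s, A.valuation (a Q) ≤ 1)
    (hc : ∀ Q ∈ s, A.valuation (c Q) ≤ 1)
    (hperm : ∀ τ ∈ H, ∀ Q ∈ s, Fr.act τ • Q ∈ s ∧ n (Fr.act τ • Q) = n Q ∧
      a (Fr.act τ • Q) = τ (a Q) ∧ c (Fr.act τ • Q) = τ (c Q))
    (hne : ∀ Q ∈ s, (Fr.G b).red (algebraMap Qb F (a Q) + c Q • t) ≠ 0) :
    Fr.FO b W.δ ((Fr.act W.σ • ∏ Q ∈ s, (algebraMap Qb F (a Q) + c Q • t) ^ n Q) /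
      ∏ Q ∈ s, (algebraMap Qb F (a Q) + c Q • t) ^ n Q) 0 := by
  set G := ∏ Q ∈ s, (algebraMap Qb F (a Q) + c Q • t) ^ n Q with hG
  set lin : Place Qb F → Polynomial Qb := fun Q =>
    Polynomial.C (a Q) + Polynomial.C (c Q) * Polynomial.X with hlin
  set Φ : Polynomial Qb := ∏ Q ∈ s, lin Q ^ n Q with hΦ
  have hGΦ : G = Polynomial.aeval t Φ := by
    rw [hG, hΦ, map_prod]
    exact Finset.prod_congr rfl fun Q _ => by simp [hlin, Algebra.smul_def]
  have hint : ∀ i, A.valuation (Φ.coeff i) ≤ 1 := by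
    set ΦA : Polynomial A := ∏ Q ∈ s,
      (Polynomial.C (toA A (a Q)) + Polynomial.C (toA A (c Q)) * Polynomial.X) ^ n Q
    have he : Φ = ΦA.map A.subtype := by
      rw [hΦ, Polynomial.map_prod]
      exact Finset.prod_congr rfl fun Q hQ => by
        simp [hlin, coe_toA (ha Q hQ), coe_toA (hc Q hQ)]
    intro i
    rw [he, Polynomial.coeff_map]
    exact (A.valuation_le_one_iff _).mpr (ΦA.coeff i).2
  have hcoef : ∀ i, ∀ τ ∈ H, τ (Φ.coeff i) = Φ.coeff i := by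
    intro i τ hτ
    have he : Φ.map (τ : Qb →+* Qb) = Φ := by
      rw [hΦ, Polynomial.map_prod]
      refine Finset.prod_nbij (fun Q => Fr.act τ • Q) (fun Q hQ => (hperm τ hτ Q hQ).1)
        (fun Q _ Q' _ h => smul_left_cancel _ h) ?_ fun Q hQ => ?_
      · exact Finset.surjOn_of_injOn_of_card_le _ (fun Q hQ => (hperm τ hτ Q hQ).1)
          (fun Q _ Q' _ h => smul_left_cancel _ h) le_rfl
      · obtain ⟨-, h2, h3, h4⟩ := hperm τ hτ Q hQ
        simp [hlin, h2, h3, h4]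
    conv_rhs => rw [← he, Polynomial.coeff_map]
    rfl
  have hmem : ∀ Q ∈ s, algebraMap Qb F (a Q) + c Q • t ∈ (Fr.G b).V := fun Q hQ =>
    (Fr.G b).V.add_mem ((Fr.G b).const_mem ⟨a Q, (A.valuation_le_one_iff _).mp (ha Q hQ)⟩)
      ((Fr.G b).smul_mem' ((A.valuation_le_one_iff _).mp (hc Q hQ)) ht)
  refine fo_of_absv_lt W.δ_ne ((Fr.G b).V.prod_mem fun Q hQ => pow_mem (hmem Q hQ) _) ?_ ?_
  · rw [(Fr.G b).red_prod _ _ fun Q hQ => pow_mem (hmem Q hQ) _]
    exact Finset.prod_ne_zero_iff.mpr fun Q hQ => by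
      rw [(Fr.G b).red_pow (hmem Q hQ)]
      exact pow_ne_zero _ (hne Q hQ)
  · rw [hGΦ, Polynomial.aeval_eq_sum_range, Finset.smul_sum, ← Finset.sum_sub_distrib]
    refine absv_sum_lt _ _ (zero_lt_iff.mpr ((map_ne_zero _).mpr W.δ_ne)) fun i _ => ?_
    rw [Algebra.smul_def, smul_mul', Fr.act_const, smul_pow', hfix, ← sub_mul, ← map_sub,
      ← Algebra.smul_def, absv_smul]
    refine lt_of_le_of_lt (mul_le_of_le_one_right' (mem_iff.mp (pow_mem ht i))) ?_
    exact W.small _ (hint i) (hcoef i)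

/-- The places in the support of `D` over `x`. -/
def suppOver (Fr : Frame A π p F E) (D : Divisor Qb F) (x : Bool × Place k E) :
    Finset (Place Qb F) :=
  D.support.filter fun Q => Fr.red Q = x

theorem mem_suppOver {D : Divisor Qb F} {x : Bool × Place k E} {Q : Place Qb F} :
    Q ∈ Fr.suppOver D x ↔ D Q ≠ 0 ∧ Fr.red Q = x := by
  simp [suppOver]

theorem act_mem_suppOver (hH : H ≤ A.inertiaSubgroupIn ℚ) {D : Divisor Qb F}
    (hD : ∀ τ ∈ H, Fr.act τ • D = D) {x : Bool × Place k E} {τ : Γℚ} (hτ : τ ∈ H)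
    {Q : Place Qb F} (hQ : Q ∈ Fr.suppOver D x) : Fr.act τ • Q ∈ Fr.suppOver D x := by
  rw [mem_suppOver] at hQ ⊢
  exact ⟨by rw [fixed_apply (hD τ hτ)]; exact hQ.1, by rw [Fr.act_red τ (hH hτ)]; exact hQ.2⟩

/-- Positive and negative parts as two products. -/
theorem ord_prod_div {D : Divisor Qb F} {x : Bool × Place k E} (g : Place Qb F → F)
    (hg : ∀ R ∈ Fr.suppOver D x, g R ≠ 0) {Q : Place Qb F} (hQ : Fr.red Q = x)
    (hord : ∀ R ∈ Fr.suppOver D x, Q.ord (g R) = if R = Q then 1 else 0) :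
    Q.ord ((∏ R ∈ Fr.suppOver D x, g R ^ (D R).toNat) /
      ∏ R ∈ Fr.suppOver D x, g R ^ (-D R).toNat) = D Q := by
  rw [FF.ord_div Q (Finset.prod_ne_zero_iff.mpr fun R hR => pow_ne_zero _ (hg R hR))
    (Finset.prod_ne_zero_iff.mpr fun R hR => pow_ne_zero _ (hg R hR)),
    FF.ord_prod Q _ _ fun R hR => pow_ne_zero _ (hg R hR),
    FF.ord_prod Q _ _ fun R hR => pow_ne_zero _ (hg R hR), ← Finset.sum_sub_distrib,
    Finset.sum_congr rfl fun R hR => by rw [FF.ord_pow, FF.ord_pow, hord R hR, ← sub_mul,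
      Int.toNat_sub_toNat_neg, mul_ite, mul_one, mul_zero],
    Finset.sum_ite_eq' (Fr.suppOver D x) Q fun R => D R]
  split_ifs with h
  · rfl
  · rw [mem_suppOver] at h
    by_contra h0
    exact h ⟨Ne.symm h0, hQ⟩

theorem ord_act_div (σ : Γℚ) {g : F} (hg : g ≠ 0) (Q : Place Qb F) :
    Q.ord ((Fr.act σ • g) / g) = ((Fr.act σ)⁻¹ • Q).ord g - Q.ord g := by
  rw [FF.ord_div Q (act_ne_zero σ hg) hg, ord_act]

theorem red_inv_act {σ : Γℚ} (hσ : σ ∈ A.inertiaSubgroupIn ℚ) (Q : Place Qb F) :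
    Fr.red ((Fr.act σ)⁻¹ • Q) = Fr.red Q := by
  conv_rhs => rw [← smul_inv_smul (Fr.act σ) Q, Fr.act_red σ hσ]

/-- The local equation of a fixed divisor at a smooth point. -/
theorem exists_smooth_factor (hH : H ≤ A.inertiaSubgroupIn ℚ) {D : Divisor Qb F}
    (hD : ∀ τ ∈ H, Fr.act τ • D = D) {x : Bool × Place k E} (hx : Fr.IsSmooth x)
    (W : WildShape π p H e) :
    ∃ h : F, h ≠ 0 ∧ (∀ Q : Place Qb F, Fr.red Q = x → Q.ord h = D Q) ∧
      Fr.FO x.1 W.δ ((Fr.act W.σ • h) / h) 0 := by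
  obtain ⟨t, ht⟩ := exists_isParam Fr hx
  set s := Fr.suppOver D x
  set a : Place Qb F → Qb := fun R => -valAt R t
  set g : Place Qb F → F := fun R => algebraMap Qb F (a R) + (1 : Qb) • t with hgdef
  have hred : ∀ R ∈ s, Fr.red R = x := fun R hR => (mem_suppOver.mp hR).2
  have hg : ∀ R ∈ s, g R = t - algebraMap Qb F (valAt R t) := fun R _ => by
    simp only [hgdef, a, one_smul, map_neg]; ring
  have hg0 : ∀ R ∈ s, g R ≠ 0 := fun R hR =>
    (hg R hR).symm ▸ ht.sub_ne_zero (ht.valAt_lt (hred R hR))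
  refine ⟨(∏ R ∈ s, g R ^ (D R).toNat) / ∏ R ∈ s, g R ^ (-D R).toNat, div_ne_zero
    (Finset.prod_ne_zero_iff.mpr fun R hR => pow_ne_zero _ (hg0 R hR))
    (Finset.prod_ne_zero_iff.mpr fun R hR => pow_ne_zero _ (hg0 R hR)),
    fun Q hQ => ord_prod_div g hg0 hQ fun R hR => ?_, ?_⟩
  · rw [hg R hR, ht.ord_sub (ht.valAt_lt (hred R hR)) hQ]
    exact if_congr ⟨fun h => (ht.eq_of_valAt hQ (hred R hR) h).symm, fun h => by rw [h]⟩ rfl rfl
  · have hperm : ∀ N : ℤ → ℕ, ∀ τ ∈ H, ∀ R ∈ s, Fr.act τ • R ∈ s ∧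
        N (D (Fr.act τ • R)) = N (D R) ∧ a (Fr.act τ • R) = τ (a R) ∧ (1 : Qb) = τ 1 :=
      fun N τ hτ R hR => ⟨act_mem_suppOver hH hD hτ hR, by rw [fixed_apply (hD τ hτ)], by
        simp only [a, map_neg]
        conv_lhs => rw [← ht.fixed τ (hH hτ)]
        rw [valAt_act τ R (ht.no_pole R (hred R hR))], (map_one τ).symm⟩
    have ha : ∀ R ∈ s, A.valuation (a R) ≤ 1 := fun R hR => by
      simpa [a] using (ht.valAt_lt (hred R hR)).le
    have hne : ∀ R ∈ s, (Fr.G x.1).red (g R) ≠ 0 := fun R hR => by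
      rw [hg R hR, (ht.red_sub (ht.valAt_lt (hred R hR))).2]
      exact ht.red_ne_zero
    have h1 := fo_act_prod W x.1 ht.mem (ht.fixed _ W.σ_mem) s (fun R => (D R).toNat) a
      (fun _ => 1) ha (fun _ _ => by simp) (hperm Int.toNat) hne
    have h2 := fo_act_prod W x.1 ht.mem (ht.fixed _ W.σ_mem) s (fun R => (-D R).toNat) a
      (fun _ => 1) ha (fun _ _ => by simp) (hperm fun i => (-i).toNat) hne
    have h3 := h1.mul W.δ_lt (h2.inv W.δ_lt)
    rw [neg_zero, add_zero] at h3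
    rw [smul_div₀']
    convert h3 using 1
    field_simp
    simp only [hgdef]
    ring

/-- The local equation of a fixed divisor at a node. -/
theorem exists_node_factor (hH : H ≤ A.inertiaSubgroupIn ℚ) {D : Divisor Qb F}
    (hD : ∀ τ ∈ H, Fr.act τ • D = D) {P : Place k E} {u : F} (hu : Fr.IsNodeParam P u) :
    ∃ (h : F) (C : Qb), h ≠ 0 ∧ C ≠ 0 ∧ (∀ τ ∈ H, τ C = C) ∧
      (∀ Q : Place Qb F, Fr.red Q = (false, P) → Q.ord h = D Q) ∧
      Fr.absv false h = 1 ∧ Fr.absv true h = A.valuation C ∧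
      ∀ W : WildShape π p H e, Fr.FO false W.δ ((Fr.act W.σ • h) / h) 0 ∧
        ∀ r, CO π W.δ (W.σ C / C) r →
          Fr.FO true W.δ ((Fr.act W.σ • h) / h) (algebraMap k E r) := by
  set s := Fr.suppOver D (false, P)
  set c : Place Qb F → Qb := fun R => valAt R u with hcdef
  have hred : ∀ R ∈ s, Fr.red R = (false, P) := fun R hR => (mem_suppOver.mp hR).2
  have hb : ∀ R ∈ s, A.valuation (p : Qb) < A.valuation (c R) ∧ A.valuation (c R) < 1 :=
    fun R hR => hu.valAt_bounds (hred R hR)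
  have hc0 : ∀ R ∈ s, c R ≠ 0 := fun R hR h => by
    have := (hb R hR).1
    simp [h] at this
  set g : Place Qb F → F := fun R => algebraMap Qb F (-c R) + (1 : Qb) • u with hgdef
  set g' : Place Qb F → F := fun R =>
    algebraMap Qb F 1 + (-((p : Qb) / c R)) • ((p : Qb)⁻¹ • u) with hgdef'
  have hg : ∀ R, g R = u - algebraMap Qb F (c R) := fun R => by
    simp only [hgdef, one_smul, map_neg]; ring
  have hgg' : ∀ R ∈ s, g R = (-c R) • g' R := fun R hR => by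
    rw [hg, hu.sub_eq (hc0 R hR), hgdef', map_one]
  have hfacts := fun R (hR : R ∈ s) => hu.sub_facts (hb R hR).2 (hb R hR).1
  have hg0 : ∀ R ∈ s, g R ≠ 0 := fun R hR => (hg R).symm ▸ (hfacts R hR).1
  set Cp : (ℤ → ℕ) → Qb := fun N => ∏ R ∈ s, (-c R) ^ N (D R) with hCp
  set Gp : (ℤ → ℕ) → F := fun N => ∏ R ∈ s, g R ^ N (D R) with hGp
  set Gp' : (ℤ → ℕ) → F := fun N => ∏ R ∈ s, g' R ^ N (D R) with hGp'
  have hGC : ∀ N, Gp N = algebraMap Qb F (Cp N) * Gp' N := fun N => by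
    simp only [hGp, hCp, hGp', map_prod, map_pow, ← Finset.prod_mul_distrib]
    exact Finset.prod_congr rfl fun R hR => by
      rw [hgg' R hR, Algebra.smul_def, mul_pow]
  have hCp0 : ∀ N, Cp N ≠ 0 := fun N => Finset.prod_ne_zero_iff.mpr fun R hR =>
    pow_ne_zero _ (neg_ne_zero.mpr (hc0 R hR))
  have hGp0 : ∀ N, Gp N ≠ 0 := fun N => Finset.prod_ne_zero_iff.mpr fun R hR =>
    pow_ne_zero _ (hg0 R hR)
  have hcperm : ∀ τ ∈ H, ∀ R ∈ s, c (Fr.act τ • R) = τ (c R) := fun τ hτ R hR => by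
    simp only [c]
    conv_lhs => rw [← hu.fixed τ (hH hτ)]
    rw [valAt_act τ R (Or.inr (hu.ord_zero R (hred R hR)).ge)]
  have hCfix : ∀ N : ℤ → ℕ, ∀ τ ∈ H, τ (Cp N) = Cp N := fun N τ hτ =>
    prod_fixed (Fr := Fr) s (fun R => N (D R)) (fun R => -c R)
      (fun R hR => act_mem_suppOver hH hD hτ hR)
      (fun R _ => by rw [fixed_apply (hD τ hτ)]) fun R hR => by rw [hcperm τ hτ R hR, map_neg]
  have habs : ∀ N, Fr.absv false (Gp N) = 1 := fun N => by
    simp only [hGp]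
    refine Finset.prod_induction _ (fun y => Fr.absv false y = 1) (fun y z h1 h2 => by
      rw [absv_mul, h1, h2, mul_one]) (absv_one (Fr := Fr)) fun R hR => ?_
    rw [absv_pow, hg, (hfacts R hR).2.1, one_pow]
  have habs' : ∀ N, Fr.absv true (Gp N) = A.valuation (Cp N) := fun N => by
    simp only [hGp, hCp]
    rw [absv_prod, map_prod]
    refine Finset.prod_congr rfl fun R hR => ?_
    rw [absv_pow, map_pow, hg, (hfacts R hR).2.2.2.1, Valuation.map_neg]
  have hCfix' := fun τ (hτ : τ ∈ H) =>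
    (map_div₀ τ (Cp Int.toNat) (Cp fun i => (-i).toNat)).trans
      (congrArg₂ (· / ·) (hCfix Int.toNat τ hτ) (hCfix (fun i => (-i).toNat) τ hτ))
  refine ⟨Gp Int.toNat / Gp fun i => (-i).toNat, Cp Int.toNat / Cp fun i => (-i).toNat,
    div_ne_zero (hGp0 Int.toNat) (hGp0 fun i => (-i).toNat),
    div_ne_zero (hCp0 Int.toNat) (hCp0 fun i => (-i).toNat), hCfix',
    fun Q hQ => ord_prod_div g hg0 hQ fun R hR => ?_, ?_, ?_, fun W => ?_⟩
  · rw [hg, hu.ord_sub (hb R hR).2 (hb R hR).1 hQ]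
    exact if_congr ⟨fun h => (hu.eq_of_valAt hQ (hred R hR) h).symm, fun h => by rw [h]⟩ rfl rfl
  · rw [div_eq_mul_inv, absv_mul, absv_inv, habs Int.toNat, habs fun i => (-i).toNat, inv_one,
      one_mul]
  · rw [div_eq_mul_inv, absv_mul, absv_inv, habs' Int.toNat, habs' fun i => (-i).toNat, map_div₀,
      div_eq_mul_inv]
  have hperm : ∀ N : ℤ → ℕ, ∀ τ ∈ H, ∀ R ∈ s, Fr.act τ • R ∈ s ∧
      N (D (Fr.act τ • R)) = N (D R) ∧ -c (Fr.act τ • R) = τ (-c R) ∧ (1 : Qb) = τ 1 :=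
    fun N τ hτ R hR => ⟨act_mem_suppOver hH hD hτ hR, by rw [fixed_apply (hD τ hτ)], by
      rw [hcperm τ hτ R hR, map_neg], (map_one τ).symm⟩
  have hfalse : ∀ N : ℤ → ℕ, Fr.FO false W.δ ((Fr.act W.σ • Gp N) / Gp N) 0 := fun N =>
    fo_act_prod W false hu.mem_false (hu.fixed _ W.σ_mem) s (fun R => N (D R)) (fun R => -c R)
      (fun _ => 1) (fun R hR => by simpa using (hb R hR).2.le) (fun _ _ => by simp) (hperm N)
      fun R hR => by
        show (Fr.G false).red (g R) ≠ 0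
        rw [hg, (hu.sub_red_false (hb R hR).2).2]
        exact hu.red_false_ne
  have htrue : ∀ N : ℤ → ℕ, Fr.FO true W.δ ((Fr.act W.σ • Gp' N) / Gp' N) 0 := fun N => by
    have hp' : ∀ R ∈ s, A.valuation (-((p : Qb) / c R)) < 1 := fun R hR => by
      rw [Valuation.map_neg, map_div₀,
        div_lt_one₀ (zero_lt_iff.mpr ((map_ne_zero _).mpr (hc0 R hR)))]
      exact (hb R hR).1
    refine fo_act_prod W true hu.mem_true ?_ s (fun R => N (D R)) (fun _ => (1 : Qb))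
      (fun R => -((p : Qb) / c R)) (fun _ _ => by simp) (fun R hR => (hp' R hR).le)
      (fun τ hτ R hR => ⟨act_mem_suppOver hH hD hτ hR, by rw [fixed_apply (hD τ hτ)],
        (map_one τ).symm, by rw [hcperm τ hτ R hR, map_neg, map_div₀, map_natCast]⟩)
      fun R hR => by
        rw [map_one, (hu.one_add_true (hp' R hR)).2]
        exact one_ne_zero
    rw [Algebra.smul_def, smul_mul', Fr.act_const, hu.fixed _ W.σ_mem, map_inv₀, map_natCast,
      map_inv₀, map_natCast]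
  refine ⟨?_, fun r hr => ?_⟩
  · have h3 := (hfalse Int.toNat).mul W.δ_lt ((hfalse fun i => (-i).toNat).inv W.δ_lt)
    rw [neg_zero, add_zero] at h3
    rw [smul_div₀']
    convert h3 using 1
    field_simp
  · set Np : ℤ → ℕ := Int.toNat
    set Nm : ℤ → ℕ := fun i => (-i).toNat
    have h3 := (fo_const (Fr := Fr) (b := true) hr).mul W.δ_lt
      ((htrue Np).mul W.δ_lt ((htrue Nm).inv W.δ_lt))
    rw [neg_zero, add_zero, add_zero] at h3
    convert h3 using 1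
    rw [smul_div₀', hGC, hGC, smul_mul', smul_mul', Fr.act_const, Fr.act_const]
    simp only [map_div₀]
    field_simp

/-- The residues at the nodes are one constant. -/
theorem ordAt_congr_nodes [IsAlgClosed k] (hnp : Fr.HasNodeParams) (hA : A.LiesOverPrime p)
    (hH : H ≤ A.inertiaSubgroupIn ℚ) (he : 0 < e)
    (val : ∀ x : Qb, x ≠ 0 → (∀ τ ∈ H, τ x = x) →
      ∃ n : ℤ, A.valuation x ^ e = A.valuation (p : Qb) ^ n)
    (wild : p ∣ e → ¬ p ^ 2 ∣ e ∧ ∃ σ ∈ A.inertiaSubgroupIn ℚ, ∃ ϖ : Qb, ∃ j : ℕ,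
      (∀ τ ∈ H, σ⁻¹ * τ * σ ∈ H) ∧ (∀ τ ∈ H, τ ϖ = ϖ) ∧
      A.valuation ϖ ^ e = A.valuation (p : Qb) ∧ 0 < j ∧ j < p ∧
      A.valuation (σ ϖ - ϖ) ^ e = A.valuation (p : Qb) ^ (j + 1))
    (hζ : ∃ ζ : Qb, IsPrimitiveRoot ζ p ∧ ∀ τ ∈ H, τ ζ = ζ)
    (D : Divisor Qb F) {f : F} (hf : f ≠ 0)
    (hdiv : ∀ Q : Place Qb F, Q.ord f = (p : ℤ) * D Q)
    (hfix : ∀ τ ∈ H, Fr.act τ • D - D ∈ Divisor.principal (K := Qb) (F := F))
    {P P' : Place k E} (hP : P ∈ Fr.nodes) (hP' : P' ∈ Fr.nodes) :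
    (p : ℤ) ∣ Fr.ordAt false P f - Fr.ordAt false P' f := by
  have hp0 : (p : Qb) ≠ 0 := by exact_mod_cast Fr.p_prime.ne_zero
  have hvp : 0 < A.valuation (p : Qb) := zero_lt_iff.mpr ((map_ne_zero _).mpr hp0)
  obtain ⟨β, hβ, hD'⟩ := exists_fixed_divisor hH D hf hdiv hfix
  set D' := D + divOf β
  set f' := f * β ^ p with hf'
  have hf'0 : f' ≠ 0 := mul_ne_zero hf (pow_ne_zero _ hβ)
  have hdiv' : ∀ Q : Place Qb F, Q.ord f' = (p : ℤ) * D' Q := fun Q => by
    rw [hf', Q.ord_mul hf (pow_ne_zero _ hβ), FF.ord_pow, hdiv, Finsupp.add_apply,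
      Fr.curve.divOf_apply]
    ring
  -- local data at each node
  have hloc : ∀ R ∈ Fr.nodes, ∃ (h : F) (C : Qb) (n : ℤ), h ≠ 0 ∧ C ≠ 0 ∧
      (∀ τ ∈ H, τ C = C) ∧ A.valuation C ^ e = A.valuation (p : Qb) ^ n ∧
      (∀ Q : Place Qb F, Fr.red Q = (false, R) → Q.ord h = D' Q) ∧
      Fr.absv true f' ^ e = Fr.absv false f' ^ e *
        A.valuation (p : Qb) ^ ((p : ℤ) * n + e * Fr.ordAt false R (f' / h ^ p)) ∧
      ∀ W : WildShape π p H e, Fr.FO false W.δ ((Fr.act W.σ • h) / h) 0 ∧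
        Fr.FO true W.δ ((Fr.act W.σ • h) / h) (algebraMap k E ((n : k) * W.θ)) := by
    intro R hR
    obtain ⟨u, hu⟩ := exists_isNodeParam hnp hR
    obtain ⟨h, C, hh, hC, hCfix, hord, ha0, ha1, hW⟩ :=
      exists_node_factor (e := e) hH hD' hu
    obtain ⟨n, hn⟩ := val C hC hCfix
    refine ⟨h, C, n, hh, hC, hCfix, hn, hord, ?_, fun W =>
      ⟨(hW W).1, (hW W).2 _ (W.co C n hC hCfix hn)⟩⟩
    have hg := hu.absv_true_eq (g := f' / h ^ p) (div_ne_zero hf'0 (pow_ne_zero _ hh))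
      fun Q hQ => by
        rw [FF.ord_div Q hf'0 (pow_ne_zero _ hh), FF.ord_pow, hord Q hQ, hdiv', sub_self]
    rw [div_eq_mul_inv f', absv_mul f', absv_mul f', absv_inv, absv_inv, absv_pow, absv_pow, ha0,
      ha1,
      one_pow, inv_one, mul_one, ← div_eq_mul_inv,
      div_eq_iff (pow_ne_zero _ ((map_ne_zero _).mpr hC)), ← div_eq_mul_inv] at hg
    rw [hg, mul_pow, mul_pow, ← pow_mul (A.valuation C), mul_comm p e, pow_mul, hn,
      zpow_add₀ hvp.ne', zpow_mul' (A.valuation (p : Qb)) (p : ℤ),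
      zpow_mul' (A.valuation (p : Qb)) (e : ℤ), zpow_natCast, zpow_natCast, mul_assoc,
      mul_comm ((A.valuation (p : Qb) ^ n) ^ p)]
  obtain ⟨h₁, C₁, n₁, hh₁, -, -, -, hord₁, hab₁, hW₁⟩ := hloc P hP
  obtain ⟨h₂, C₂, n₂, hh₂, -, -, -, hord₂, hab₂, hW₂⟩ := hloc P' hP'
  set s₁ := Fr.ordAt false P (f' / h₁ ^ p) with hs₁
  set s₂ := Fr.ordAt false P' (f' / h₂ ^ p) with hs₂
  have hexp : (p : ℤ) * n₁ + e * s₁ = (p : ℤ) * n₂ + e * s₂ :=
    zpow_right_injective₀ hvp Fr.p_nonunit.ne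
      (mul_left_cancel₀ (pow_ne_zero _ (absv_ne_zero hf'0)) (hab₁.symm.trans hab₂))
  suffices hs : (p : ℤ) ∣ s₁ - s₂ by
    have key : ∀ (R : Place k E) (h : F), h ≠ 0 → Fr.ordAt false R (f' / h ^ p) =
        Fr.ordAt false R f + (p : ℤ) * (Fr.ordAt false R β - Fr.ordAt false R h) := by
      intro R h hh
      rw [div_eq_mul_inv, ordAt_mul hf'0 (inv_ne_zero (pow_ne_zero _ hh)), ordAt_inv, ordAt_pow,
        hf', ordAt_mul hf (pow_ne_zero _ hβ), ordAt_pow]
      ring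
    rw [hs₁, hs₂, key P h₁ hh₁, key P' h₂ hh₂] at hs
    obtain ⟨m, hm⟩ := hs
    exact ⟨m - (Fr.ordAt false P β - Fr.ordAt false P h₁) +
      (Fr.ordAt false P' β - Fr.ordAt false P' h₂), by linarith⟩
  have hpZ : Prime (p : ℤ) := Nat.prime_iff_prime_int.mp Fr.p_prime
  by_cases hpe : p ∣ e
  swap
  · refine (hpZ.dvd_or_dvd (?_ : (p : ℤ) ∣ (e : ℤ) * (s₁ - s₂))).resolve_left
      (fun h => hpe (Int.natCast_dvd_natCast.mp h))
    exact ⟨n₂ - n₁, by linarith⟩
  -- the wild case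
  obtain ⟨hp2e, σ, hσ, ϖ, j, hnorm, hϖ, hvϖ, hj, hjp, hbreak⟩ := wild hpe
  obtain ⟨W⟩ := nonempty_wildShape Fr.p_prime hA π (res_eq_zero_iff_lt Fr) hH hpe he val hζ
    hσ hnorm hϖ hvϖ hj hjp hbreak
  obtain ⟨e', he'⟩ := hpe
  have he'p : ¬ (p : ℤ) ∣ e' := fun h => hp2e (by
    obtain ⟨m, hm⟩ := Int.natCast_dvd_natCast.mp h
    exact ⟨m, by rw [he', hm]; ring⟩)
  suffices hn : (p : ℤ) ∣ n₁ - n₂ by
    refine (hpZ.dvd_or_dvd (?_ : (p : ℤ) ∣ (e' : ℤ) * (s₁ - s₂))).resolve_left he'p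
    obtain ⟨m, hm⟩ := hn
    refine ⟨-m, mul_left_cancel₀ hpZ.ne_zero ?_⟩
    rw [he'] at hexp
    push_cast at hexp
    linear_combination hexp + (p : ℤ) * hm * (-1)
  haveI := charP_E Fr
  haveI := Fr.charP
  haveI := Fact.mk Fr.p_prime
  -- first order expansion of `σ f' / f'`
  set h₀ := (Fr.act W.σ • f') / f' with hh₀
  have hh₀0 : h₀ ≠ 0 := div_ne_zero (act_ne_zero W.σ hf'0) hf'0
  set nodeSet : Finset (Bool × Place k E) := Fr.nodes.image fun R => (false, R)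
  set S := nodeSet ∪ D'.support.image Fr.red
  obtain ⟨x₀, hx₀, hx₀S⟩ := exists_smooth_notMem (Fr := Fr) S
  obtain ⟨Q₀, hQ₀, -⟩ := exists_fixed_place hx₀
  have hout : ∀ Q : Place Qb F, Fr.red Q ∉ S → Q.ord h₀ = 0 := fun Q hQ => by
    have hz : ∀ R : Place Qb F, Fr.red R = Fr.red Q → D' R = 0 := fun R hR => by
      by_contra hne
      exact hQ (Finset.mem_union_right _
        (Finset.mem_image.mpr ⟨R, Finsupp.mem_support_iff.mpr hne, hR⟩))
    rw [hh₀, ord_act_div W.σ hf'0, hdiv', hdiv', hz Q rfl, hz _ (red_inv_act W.σ_mem Q),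
      sub_self]
  obtain ⟨γ, -, hval, hordγ⟩ := exists_normalise Fr (Q₀ := Q₀) hh₀0 (hout Q₀ (hQ₀ ▸ hx₀S))
  have hnS : ∀ R ∈ Fr.nodes, ((false, R) : Bool × Place k E) ∈ S := fun R hR =>
    Finset.mem_union_left _ (Finset.mem_image.mpr ⟨R, hR, rfl⟩)
  choose hfun Cfun nfun hh hC hCf hn hord hab hWf using hloc
  set ν : Place k E → k := fun R => if hR : R ∈ Fr.nodes then ((nfun R hR : k) * W.θ) ^ p else 0
    with hν
  set r : Bool × Place k E → Bool → E := fun x b =>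
    if Fr.IsNode x ∧ b = true then algebraMap k E (ν x.2) else 0 with hr
  have hδp0 := pow_ne_zero p W.δ_ne
  have hδp1 : A.valuation (W.δ ^ p) < 1 := by
    rw [map_pow]; exact pow_lt_one₀ zero_le W.δ_lt Fr.p_prime.ne_zero
  have hordq : ∀ (x : Bool × Place k E) (h : F), h ≠ 0 →
      (∀ Q : Place Qb F, Fr.red Q = x → Q.ord h = D' Q) → ∀ Q : Place Qb F, Fr.red Q = x →
      Q.ord (γ • h₀) = Q.ord (((Fr.act W.σ • h) / h) ^ p) := by
    intro x h hh hord Q hQ
    rw [hordγ, hh₀, ord_act_div W.σ hf'0, FF.ord_pow, ord_act_div W.σ hh, hdiv', hdiv',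
      hord Q hQ, hord _ ((red_inv_act W.σ_mem Q).trans hQ)]
    ring
  obtain ⟨w, -, -, hwout, hwS, -⟩ := exists_first_order (Fr := Fr) hδp0 hδp1 S r
    (hQ₀ ▸ hx₀) (hQ₀ ▸ hx₀S) hval
    (fun x _ hx => by
      rcases hx with hs | hn'
      · obtain ⟨h, hh', hord', hfo⟩ := exists_smooth_factor hH hD' hs W
        refine ⟨_, fun b hb => ?_, hordq x h hh' hord'⟩
        obtain rfl := onComp_smooth hs hb
        have hnn : ¬ Fr.IsNode x := fun hn => hs.1 hn.1 hn.2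
        have := fo_pow_p W.δ_ne W.δ_lt W.δ_pow hfo
        rw [zero_pow Fr.p_prime.ne_zero] at this
        simpa [hr, hnn] using this
      · obtain ⟨b', R⟩ := x
        obtain ⟨hb', hR⟩ := hn'
        simp only at hb' hR
        subst hb'
        refine ⟨_, fun b _ => ?_, hordq (false, R) (hfun R hR) (hh R hR) (hord R hR)⟩
        obtain ⟨hf0, hf1⟩ := hWf R hR W
        cases b
        · have := fo_pow_p W.δ_ne W.δ_lt W.δ_pow hf0
          rw [zero_pow Fr.p_prime.ne_zero] at this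
          simpa [hr] using this
        · have := fo_pow_p W.δ_ne W.δ_lt W.δ_pow hf1
          rw [← map_pow] at this
          simpa [hr, hν, Frame.IsNode, hR] using this)
    (fun x _ hxS Q hQ => by rw [hordγ]; exact hout Q (hQ.symm ▸ hxS))
  -- each component sees a constant
  have hreg : ∀ x, Fr.IsPoint x → ∀ b, Fr.OnComp x b →
      Vanish (Fr.branch x b) (Fr.rp w b) 0 := by
    intro x hx b hb
    by_cases hxS : x ∈ S
    · have h1 := (hwS x hxS hx).1 b hb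
      have h2 : Vanish (Fr.branch x b) (r x b) 0 := by
        simp only [hr]
        split_ifs
        · exact Vanish.const _
        · exact Vanish.zero_left
      have := h1.add h2
      rwa [sub_add_cancel] at this
    · exact (hwout x hx hxS).1 b hb
  have hconst : ∀ b, ∃ a : k, algebraMap k E a = Fr.rp w b := fun b =>
    Fr.curveBar.const _ fun R => Vanish.zero_iff.mp (by
      by_cases hs : Fr.IsSmooth (b, R)
      · have := hreg (b, R) (Or.inl hs) b (onComp_self _)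
        rwa [branch_self (x := (b, R))] at this
      cases b with
      | false =>
        have hR : R ∈ Fr.nodes := by
          by_contra hR
          exact hs ⟨fun _ => hR, fun h => by simp at h⟩
        have := hreg (false, R) (Or.inr ⟨rfl, hR⟩) false (Or.inl rfl)
        rwa [branch_node_false] at this
      | true =>
        obtain ⟨R', hR', rfl⟩ : ∃ R' ∈ Fr.nodes, Fr.partner R' = R := by
          by_contra hR
          push Not at hR
          exact hs ⟨fun h => by simp at h, fun _ => hR⟩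
        have := hreg (false, R') (Or.inr ⟨rfl, hR'⟩) true (Or.inr ⟨rfl, hR'⟩)
        rwa [branch_node_true] at this)
  choose a ha using hconst
  have hnode : ∀ R (hR : R ∈ Fr.nodes), ((nfun R hR : k) * W.θ) ^ p = a true - a false := by
    intro R hR
    have h1 := (hwS (false, R) (hnS R hR) (Or.inr ⟨rfl, hR⟩)).2 ⟨rfl, hR⟩
    simp only [hr, hν, Frame.IsNode, hR, ← ha, and_self, and_false, Bool.false_eq_true, if_true,
      if_false, sub_zero, dif_pos, ← map_sub, valAt_algebraMap] at h1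
    rw [h1]; ring
  have hk : (nfun P hP : k) = (nfun P' hP' : k) :=
    mul_right_cancel₀ W.θ_ne
      (frobenius_inj k p (by simp only [frobenius_def, hnode P hP, hnode P' hP']))
  rw [← sub_eq_zero, ← Int.cast_sub, CharP.intCast_eq_zero_iff k p] at hk
  have e1 : A.valuation (Cfun P hP) ^ e = A.valuation (p : Qb) ^ nfun P hP := hn P hP
  have hfin : ∀ R (hR : R ∈ Fr.nodes), (p : ℤ) * nfun R hR +
      e * Fr.ordAt false R (f' / hfun R hR ^ p) = (p : ℤ) * n₁ + e * s₁ := fun R hR =>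
    zpow_right_injective₀ hvp Fr.p_nonunit.ne
      (mul_left_cancel₀ (pow_ne_zero _ (absv_ne_zero hf'0)) ((hab R hR).symm.trans hab₁))
  obtain ⟨m, hm⟩ := hk
  have hQ1 := hfin P hP
  have hQ2 := hfin P' hP'
  have hcong : ∀ (R : Place k E) (g g' : F), g ≠ 0 → g' ≠ 0 →
      (p : ℤ) ∣ Fr.ordAt false R (f' / g ^ p) - Fr.ordAt false R (f' / g' ^ p) := by
    intro R g g' hg hg'
    rw [div_eq_mul_inv, div_eq_mul_inv, ordAt_mul hf'0 (inv_ne_zero (pow_ne_zero _ hg)),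
      ordAt_mul hf'0 (inv_ne_zero (pow_ne_zero _ hg')), ordAt_inv, ordAt_inv, ordAt_pow,
      ordAt_pow]
    exact ⟨Fr.ordAt false R g' - Fr.ordAt false R g, by ring⟩
  obtain ⟨m₁, hm₁⟩ := hcong P _ _ (hh P hP) hh₁
  obtain ⟨m₂, hm₂⟩ := hcong P' _ _ (hh P' hP') hh₂
  refine ⟨m + (e' : ℤ) * m₁ - (e' : ℤ) * m₂, mul_left_cancel₀ hpZ.ne_zero ?_⟩
  rw [he'] at hQ1 hQ2 hexp
  push_cast at hQ1 hQ2 hexp
  linear_combination (p : ℤ) * hm - hQ1 + hQ2 + hexp + (p : ℤ) * e' * hm₁ - (p : ℤ) * e' * hm₂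

end Frame

end FLTAgent.MazurP
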