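import Fermat.Agent.MazurP.Classes
import Fermat.Agent.MazurP.Series
import Fermat.Agent.MazurP.ResLevel
import Fermat.Agent.MazurP.Slope

/-!
# The reduced logarithmic derivative vanishes when the level cannot be lowered

`qTheta_redSeries_eq_zero`: for a class of the isotypic part of level `Mp`, if the mod `p` system
is not of level `M` then the reduced series of its function is killed by `q d/dq`. At the
auxiliary level `4 M` the orders of the reduction at the nodes are congruent (`Slope`) and their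
common value is `0` mod `p` by the non Eisenstein argument (`dvd_ordAt_aux`); descending to
level `M` (`ResLevel`), a nonzero `qDlog` would give an eigenform of level `M`.
-/

set_option autoImplicit false
set_option linter.style.haveILetI false
set_option maxHeartbeats 1000000
set_option synthInstance.maxHeartbeats 400000

noncomputable section

open AlgebraicCurve ModularCurve
open scoped Classical

namespace FLTAgent.MazurP

open FLTAgent.Reduction (divOf mapDomain_apply_eq_sum)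

local notation "Qb" => AlgebraicClosure ℚ
local notation "Γℚ" => (AlgebraicClosure ℚ ≃ₐ[ℚ] AlgebraicClosure ℚ)

variable {p : ℕ} [NeZero p] [Fact p.Prime] {A : ValuationSubring Qb}

local notation "kA" => IsLocalRing.ResidueField A


/-- An automorphism moving `f` by a constant and a `p`-th power moves its divisor over `p` by a
principal divisor. -/
private theorem smul_sub_mem_principal_of_smul_eq {K F : Type*} [Field K] [Field F] [Algebra K F]
    [IsAlgClosed K] [FF.IsFF K F] (g : SemilinearAut K F) {p : ℕ} (hp : p ≠ 0) {D : Divisor K F}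
    {f w : F} (hf : f ≠ 0) (hw : w ≠ 0) (hdiv : ∀ Q : Place K F, Q.ord f = (p : ℤ) * D Q) {c : K}
    (h : g • f = algebraMap K F c * (f * w ^ p)) :
    g • D - D ∈ Divisor.principal (K := K) (F := F) := by
  refine ⟨w, hw, fun Q => ?_⟩
  have h2 : Q.ord (g • f) = (p : ℤ) * (g • D) Q := by
    rw [SemilinearAut.divisor_smul_apply, ← hdiv, ← SemilinearAut.ord_smul g _ f, smul_inv_smul]
  have hc : algebraMap K F c ≠ 0 := left_ne_zero_of_mul
    (h ▸ (smul_ne_zero_iff_ne _).mpr hf : algebraMap K F c * (f * w ^ p) ≠ 0)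
  rw [h, Q.ord_mul hc (mul_ne_zero hf (pow_ne_zero p hw)), FF.ord_algebraMap, zero_add,
    Q.ord_mul hf (pow_ne_zero p hw), hdiv, FF.ord_pow] at h2
  rw [Finsupp.sub_apply]
  exact mul_left_cancel₀ (Int.natCast_ne_zero.mpr hp) (by linear_combination -h2)

/-- Scaling by a constant keeps orders divisible by `p`. -/
private theorem dvd_ord_smul {K F : Type*} [Field K] [Field F] [Algebra K F] [IsAlgClosed K]
    [FF.IsFF K F] {p : ℤ} {c : K} (hc : c ≠ 0) {g : F} (hg : g ≠ 0)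
    (h : ∀ w : Place K F, p ∣ w.ord g) (w : Place K F) : p ∣ w.ord (c • g) := by
  rw [Algebra.smul_def, w.ord_mul ((map_ne_zero _).mpr hc) hg, FF.ord_algebraMap, zero_add]
  exact h w

/-- Series proportional to the same `r` are proportional. -/
private theorem coe_eq_coe_smul {k : Type*} [Field k] {N N' : ℕ} [NeZero N] [NeZero N']
    {a a' : k} (ha' : a' ≠ 0) {r : LaurentSeries k} {g : modularFunctionFieldFullC k N}
    {g' : modularFunctionFieldFullC k N'} (h : (g : LaurentSeries k) = HahnSeries.C a * r)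
    (h' : (g' : LaurentSeries k) = HahnSeries.C a' * r) :
    (g : LaurentSeries k) =
      (((a * a'⁻¹) • g' : modularFunctionFieldFullC k N') : LaurentSeries k) := by
  rw [Algebra.smul_def, MulMemClass.coe_mul, h, h',
    show ((algebraMap k (modularFunctionFieldFullC k N') (a * a'⁻¹) :
      modularFunctionFieldFullC k N') : LaurentSeries k) = HahnSeries.C (a * a'⁻¹) from
      algebraMap_laurentSeries_eq_single k _,
    ← mul_assoc, ← map_mul, mul_assoc a, inv_mul_cancel₀ ha', mul_one]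

/-- All orders of the reduction at the auxiliary level `4 M` are divisible by `p`. -/
theorem dvd_ordAt_aux {M : ℕ} [NeZero M] (hp5 : 5 ≤ p) {W : WeierstrassCurve ℤ} (hΔ0 : W.Δ ≠ 0)
    (hirr : W.ModRepIsIrreducible p) (hram : Nonempty (RamData W p A)) (hA : A.LiesOverPrime p)
    {hp : p.Prime} {hpL : ¬ p ∣ M * 2 * 2} (T : ModFrame A p (M * 2 * 2) hp hpL hA)
    (E : EigenPart W p (M * p))
    (D : Divisor.degZero (K := Qb) (F := modularFunctionFieldBar (M * p)))
    (hz : Pic0.mk D ∈ E.S) {f : modularFunctionFieldBar (M * p)} (hf : f ≠ 0)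
    (hdiv : ∀ v, v.ord f = (p : ℤ) * (D : Divisor Qb (modularFunctionFieldBar (M * p))) v)
    {r : LaurentSeries kA} (hrs : IsRedSeries A p (f : LaurentSeries Qb) r)
    (heig : ∀ (ℓ : ℕ) (hℓ : ℓ.Prime), ¬ ℓ ∣ M → ℓ ≠ p → ∀ a : ℤ,
      heckeOperatorBar (M * p) ⟨ℓ, hℓ⟩ (Pic0.mk D) = a • Pic0.mk D → IsHeckeEigen (qDlog r) ℓ a)
    (hr : r ≠ 0) {f' : modularFunctionFieldBar (M * 2 * 2 * p)}
    (hf' : (f' : LaurentSeries Qb) = f) (v : Place kA (modularFunctionFieldFullC kA (M * 2 * 2))) :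
    (p : ℤ) ∣ T.Fr.ordAt false v f' := by
  haveI : NeZero (M * p) := ⟨mul_ne_zero (NeZero.ne M) (NeZero.ne p)⟩
  haveI : NeZero (M * 2 * 2 * p) :=
    ⟨mul_ne_zero (NeZero.ne (M * 2 * 2)) (NeZero.ne p)⟩
  haveI := Kronecker.isFF_bar (M * p)
  haveI := Kronecker.isFF_bar (M * 2 * 2 * p)
  haveI := GalCommon.isAlgClosed_residueField A hp hA
  obtain ⟨R⟩ := hram
  have hlev : M * p ∣ M * 2 * 2 * p := ⟨4, by ring⟩
  set ι := levelIncl hlev with hι
  have hf'ι : f' = ι f := Subtype.ext (hf'.trans (coe_levelIncl hlev f).symm)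
  have hf'0 : f' ≠ 0 := hf'ι ▸ (map_ne_zero ι).mpr hf
  have hiota : ι.toRingHom.IsIntegral := FF.isIntegral_alongFF ι
  have hdvd : ∀ Q : Place Qb (modularFunctionFieldBar (M * 2 * 2 * p)), (p : ℤ) ∣ Q.ord f' := by
    intro Q
    rw [hf'ι, Place.ord_restrictAlong ι hiota, hdiv]
    exact (dvd_mul_right _ _).mul_left _
  obtain ⟨D', -, hD'⟩ := exists_div_eq hp.ne_zero hf'0 hdvd
  have hfix : ∀ τ ∈ R.H, T.Fr.act τ • D' - D' ∈
      Divisor.principal (K := Qb) (F := modularFunctionFieldBar (M * 2 * 2 * p)) := by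
    intro τ hτ
    obtain ⟨c, u, hu, hc⟩ := exists_galois_smul_eq hf hdiv (E.fixed (R.fixes τ hτ) hz)
    have hu' : ι u ≠ 0 := (map_ne_zero ι).mpr hu
    have h1 := congrArg ι hc
    rw [hι, levelIncl_galois, ← hι, map_mul, AlgHom.commutes, map_mul, map_pow, ← hf'ι] at h1
    rw [T.act_eq]
    exact smul_sub_mem_principal_of_smul_eq _ hp.ne_zero hf'0 hu' hD' h1
  obtain ⟨hnp, x, hx, hnode, hsm⟩ := T.node_data ⟨M, by ring⟩
  obtain ⟨ζ, hζ⟩ := HasEnoughRootsOfUnity.exists_primitiveRoot Qb p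
  have hcong := fun {P P'} (hP : P ∈ T.Fr.nodes) (hP' : P' ∈ T.Fr.nodes) =>
    Frame.ordAt_congr_nodes hnp hA R.H_le R.e_pos R.val R.wild
      ⟨ζ, hζ, fun τ hτ => apply_zeta_of_fixesTorsion hΔ0 (R.fixes τ hτ) hζ⟩ D' hf'0 hD' hfix hP hP'
  have hsmooth : ∀ P, P ∉ T.Fr.nodes → (p : ℤ) ∣ T.Fr.ordAt false P f' := by
    intro P hP
    rw [← Frame.fib_smooth hf'0 (x := (false, P)) ⟨fun _ => hP, fun h => absurd h (by simp)⟩,
      Frame.fib, mapDomain_apply_eq_sum]
    exact Finset.dvd_sum fun Q _ => by rw [T.Fr.curve.divOf_apply, hD']; exact dvd_mul_right _ _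
  obtain ⟨P₀, hP₀⟩ := T.Fr.nodes_nonempty
  set a₀ := T.Fr.ordAt false P₀ f' with ha₀
  suffices ha : (p : ℤ) ∣ a₀ by
    by_cases hv : v ∈ T.Fr.nodes
    · have := (hcong hv hP₀).add ha
      rwa [sub_add_cancel] at this
    · exact hsmooth v hv
  have hg : T.Fr.nred false f' ≠ 0 := Frame.nred_ne_zero hf'0
  obtain ⟨a', ha', hser⟩ := hrs _ hp hpL hA T f' hf'
  obtain ⟨ℓ, hℓ, hℓB, hℓp, hgood, hne⟩ :=
    exists_not_eisenstein W hΔ0 (p := p) (by omega) hirr (M * 2 * 2 * p).divisors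
  have hℓN : ¬ ℓ ∣ M * 2 * 2 * p := fun h =>
    hℓB (Nat.mem_divisors.mpr ⟨h, NeZero.ne _⟩)
  refine dvd_of_qDlog_eigen hp5 hpL A hA _ x hg hx a₀ (fun w hw => ?_)
    ⟨P₀, (hnode P₀ hP₀).1, ?_⟩ hℓ (fun h => hℓN (h.mul_right p)) hℓp (W.apOfModel ℓ) ?_ hne
  · show (p : ℤ) ∣ 12 * T.Fr.ordAt false w f' - a₀ * w.ord x
    by_cases hwn : w ∈ T.Fr.nodes
    · rw [(hnode w hwn).2, mul_comm a₀, ← mul_sub]
      exact (hcong hwn hP₀).mul_left 12
    · rw [hsm w hwn hw, mul_zero, sub_zero]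
      exact (hsmooth w hwn).mul_left 12
  · rw [(hnode P₀ hP₀).2]
    intro h
    have h12 : p ∣ 2 * 2 * 3 := Int.natCast_dvd_natCast.mp h
    rcases hp.dvd_mul.mp h12 with h | h
    · rcases hp.dvd_mul.mp h with h | h <;> have := Nat.le_of_dvd two_pos h <;> omega
    · have := Nat.le_of_dvd three_pos h; omega
  · rw [hser, qDlog_C_mul ha' hr]
    exact heig ℓ hℓ (fun h => hℓN (h.trans ⟨4 * p, by ring⟩)) hℓp _
      (E.hecke ℓ hℓ hgood (fun h => hℓN (h.trans hlev)) hℓp _ hz)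

/-- If the level cannot be lowered the reduced series is killed by `q d/dq`. -/
theorem qTheta_redSeries_eq_zero {M : ℕ} [NeZero M] (hp5 : 5 ≤ p) (hpM : ¬ p ∣ M)
    {W : WeierstrassCurve ℤ} (hΔ0 : W.Δ ≠ 0)
    (hirr : W.ModRepIsIrreducible p) (hram : Nonempty (RamData W p A)) (hA : A.LiesOverPrime p)
    (hnot : ¬ W.IsResiduallyModularOfLevel p M) (E : EigenPart W p (M * p))
    (D : Divisor.degZero (K := Qb) (F := modularFunctionFieldBar (M * p)))
    (hz : Pic0.mk D ∈ E.S) {f : modularFunctionFieldBar (M * p)} (hf : f ≠ 0)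
    (hdiv : ∀ v, v.ord f = (p : ℤ) * (D : Divisor Qb (modularFunctionFieldBar (M * p))) v)
    {r : LaurentSeries kA} (hr : r ≠ 0) (hrs : IsRedSeries A p (f : LaurentSeries Qb) r)
    (heig : ∀ (ℓ : ℕ) (hℓ : ℓ.Prime), ¬ ℓ ∣ M → ℓ ≠ p → ∀ a : ℤ,
      heckeOperatorBar (M * p) ⟨ℓ, hℓ⟩ (Pic0.mk D) = a • Pic0.mk D → IsHeckeEigen (qDlog r) ℓ a) :
    qTheta r = 0 := by
  have hp : p.Prime := Fact.out
  haveI : NeZero (M * p) := ⟨mul_ne_zero (NeZero.ne M) (NeZero.ne p)⟩
  haveI : NeZero (M * 2) := ⟨mul_ne_zero (NeZero.ne M) two_ne_zero⟩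
  haveI : NeZero (M * 2 * 2) := ⟨mul_ne_zero (NeZero.ne (M * 2)) two_ne_zero⟩
  haveI : NeZero (M * 2 * 2 * p) := ⟨mul_ne_zero (NeZero.ne (M * 2 * 2)) (NeZero.ne p)⟩
  haveI := GalCommon.isAlgClosed_residueField A hp hA
  haveI := GalCommon.charP_residueField hp hA
  haveI := Reduction.isFF_fullC_residue (M * 2 * 2) A hA
    (not_dvd_mul_two hp5 (not_dvd_mul_two hp5 hpM))
  have hpL : ¬ p ∣ M * 2 * 2 := not_dvd_mul_two hp5 (not_dvd_mul_two hp5 hpM)
  obtain ⟨T⟩ := nonempty_modFrame A hp hpL hA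
  obtain ⟨T₀⟩ := nonempty_modFrame A hp hpM hA
  have hlev : M * p ∣ M * 2 * 2 * p := ⟨4, by ring⟩
  set f' := levelIncl hlev f
  have hf' : (f' : LaurentSeries Qb) = f := coe_levelIncl hlev f
  obtain ⟨a, ha, hga⟩ := hrs _ hp hpM hA T₀ f rfl
  obtain ⟨a', ha', hga'⟩ := hrs _ hp hpL hA T f' hf'
  by_contra hθ
  refine hnot (isResiduallyModularOfLevel_of_qDlog W hp5 hpM A hA (T₀.Fr.nred false f)
    (fun v => ?_) ?_ fun ℓ hℓ hgood hℓM hℓp => ?_)
  · refine dvd_ord_of_level_four A hp5 hpM hA _ _ (coe_eq_coe_smul ha' hga hga')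
      (dvd_ord_smul (mul_ne_zero ha (inv_ne_zero ha'))
        (Frame.nred_ne_zero ((map_ne_zero _).mpr hf)) fun w => ?_) v
    exact dvd_ordAt_aux hp5 hΔ0 hirr hram hA T E D hz hf hdiv hrs heig hr hf' w
  · rw [hga, qTheta_ne_zero_iff (mul_ne_zero (by simpa using ha) hr), qDlog_C_mul ha hr,
      ← qTheta_ne_zero_iff hr]
    exact hθ
  · rw [hga, qDlog_C_mul ha hr]
    refine heig ℓ hℓ hℓM hℓp _ (E.hecke ℓ hℓ hgood (fun h => ?_) hℓp _ hz)
    exact (hℓ.dvd_mul.mp h).elim hℓM fun h' => hℓp ((Nat.prime_dvd_prime_iff_eq hℓ hp).mp h')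

end FLTAgent.MazurP
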