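import Fermat.Agent.MazurP.ResidualCurve
import Fermat.Agent.Reps.Tate
import Fermat.Agent.Reps.HeckeEigen
import Fermat.Agent.Local.Eigenforms

/-!
# The Hecke eigenspace in `J₀(N)[p]`

`exists_eigenform_of_subring`: a mod `p` system of a subring of the Hecke ring lifts to a
normalised eigenform. `heckeEigTors` is the eigenspace `T_ℓ = a_ℓ` (good `ℓ`) in `J₀(N)[p]`; it
is nonzero if `E[p]` is modular of level `N` (`heckeEigTors_ne_bot`) and Galois satisfies there
the quadratic relations of `E[p]` (`eigRep_quadratic`, from the Eichler-Shimura relation and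
density of Frobenius elements).
-/

set_option autoImplicit false

noncomputable section

open AlgebraicCurve ModularCurve WeierstrassCurve

namespace FLTAgent.MazurP

local notation "Qb" => AlgebraicClosure ℚ
local notation "Γℚ" => (AlgebraicClosure ℚ ≃ₐ[ℚ] AlgebraicClosure ℚ)

section Lift

variable {M : ℕ} [NeZero M]

/-- A homomorphism from part of the Hecke ring to a field of characteristic `p` lifts to an
eigenform. -/
theorem exists_eigenform_of_subring {p : ℕ} [Fact p.Prime] {k : Type*} [Field k] [CharP k p]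
    (T : Subring (Reps.TZ M)) (χ : T →+* k) :
    ∃ (g : CuspForm (CongruenceSubgroup.Gamma0 M) 2) (lam : T →+* integralClosure ℤ ℂ)
      (𝔪 : Ideal (integralClosure ℤ ℂ)),
      g.IsNormalizedEigenform ∧ 𝔪.IsMaximal ∧ (p : integralClosure ℤ ℂ) ∈ 𝔪 ∧
      (∀ t, χ t = 0 → lam t ∈ 𝔪) ∧
      ∀ (ℓ : ℕ) (hℓ : ℓ.Prime) (hℓM : ¬ ℓ ∣ M) (h : Reps.heckeTOf hℓ hℓM ∈ T),
        (lam ⟨Reps.heckeTOf hℓ hℓM, h⟩ : ℂ) = ModularFormClass.qCoeff g ℓ := by
  have := IntStr.moduleFinite_heckeAlgebra_two M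
  have hfree : ∀ (n : ℤ) (t : T), n ≠ 0 → (n : T) * t = 0 → t = 0 := by
    intro n t hn h
    apply Subtype.ext
    apply Subtype.ext
    have h' : (n : Module.End ℂ (CuspForm (CongruenceSubgroup.Gamma0 M) 2)) *
        ((t : Reps.TZ M) : Module.End ℂ (CuspForm (CongruenceSubgroup.Gamma0 M) 2)) = 0 := by
      simpa using congrArg (fun z : T => ((z : Reps.TZ M) :
        Module.End ℂ (CuspForm (CongruenceSubgroup.Gamma0 M) 2))) h
    rw [← Int.smul_one_eq_cast, ← Int.cast_smul_eq_zsmul ℂ, smul_mul_assoc, one_mul] at h'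
    simpa using (smul_eq_zero.mp h').resolve_left (Int.cast_ne_zero.mpr hn)
  set P := RingHom.ker χ with hP
  have : P.IsPrime := RingHom.ker_isPrime χ
  obtain ⟨Q₀, hQmin, hQle⟩ := Ideal.exists_minimalPrimes_le (bot_le : (⊥ : Ideal T) ≤ P)
  have : Q₀.IsPrime := hQmin.1.1
  have hQZ : ∀ n : ℤ, (n : T) ∈ Q₀ → n = 0 := by
    intro n hn
    by_contra hne
    refine Set.disjoint_left.mp (Ideal.disjoint_nonZeroDivisors_of_mem_minimalPrimes hQmin) hn ?_
    rw [SetLike.mem_coe, mem_nonZeroDivisors_iff_right]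
    exact fun x hx => hfree n x hne (by rw [mul_comm]; exact hx)
  have : CharZero (T ⧸ Q₀) := ⟨fun a b h => by
    have h1 : (((a : ℤ) - b : ℤ) : T) ∈ Q₀ := by
      rw [← Ideal.Quotient.eq_zero_iff_mem, map_intCast, Int.cast_sub, Int.cast_natCast,
        Int.cast_natCast, h, sub_self]
    have := hQZ _ h1
    omega⟩
  have hinteg : Algebra.IsIntegral ℤ (T ⧸ Q₀) := ⟨fun y => by
    obtain ⟨t, rfl⟩ := Ideal.Quotient.mk_surjective y
    exact map_isIntegral_int _ ((isIntegral_algHom_iff T.subtype.toIntAlgHom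
      Subtype.val_injective).mp (Algebra.IsIntegral.isIntegral _))⟩
  obtain ⟨e, -⟩ := Reps.exists_ringHom_extension (Ω := ℂ) (i := algebraMap ℤ (T ⧸ Q₀))
    (fun a b h => by simpa using h) (algebraMap_isIntegral_iff.mpr hinteg) (Int.castRingHom ℂ)
  have : @Algebra.IsIntegral ℤ (T ⧸ Q₀) _ _ (Ring.toIntAlgebra _) := by
    convert hinteg
    exact Subsingleton.elim _ _
  have he : Function.Injective e := Local.injective_of_int_integral e
  let f : T →+* ℂ := e.comp (Ideal.Quotient.mk Q₀)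
  have hi : (T.subtype).IsIntegral := fun x =>
    RingHom.IsIntegralElem.of_comp (g := T.subtype) (f := Int.castRingHom T) (by
      rw [RingHom.ext_int (T.subtype.comp (Int.castRingHom T)) (algebraMap ℤ (Reps.TZ M))]
      exact Algebra.IsIntegral.isIntegral x)
  obtain ⟨Λ, hΛ⟩ := Reps.exists_ringHom_extension Subtype.val_injective hi f
  obtain ⟨g, hg, hgT⟩ := Local.exists_eigenform_of_hom Λ
  let lam : T →+* integralClosure ℤ ℂ :=
    f.codRestrict (integralClosure ℤ ℂ) fun t => map_isIntegral_int f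
      ((isIntegral_algHom_iff T.subtype.toIntAlgHom Subtype.val_injective).mp
        (Algebra.IsIntegral.isIntegral _))
  let : Algebra T (integralClosure ℤ ℂ) := lam.toAlgebra
  have : Algebra.IsIntegral T (integralClosure ℤ ℂ) := ⟨fun x => by
    obtain ⟨q, hq, hq'⟩ := Algebra.IsIntegral.isIntegral (R := ℤ) x
    refine ⟨q.map (Int.castRingHom T), hq.map _, ?_⟩
    rw [Polynomial.eval₂_map, RingHom.ext_int ((algebraMap T (integralClosure ℤ ℂ)).comp _)
      (algebraMap ℤ (integralClosure ℤ ℂ))]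
    exact hq'⟩
  have hcomap : Ideal.comap (algebraMap T (integralClosure ℤ ℂ)) ⊥ ≤ P := by
    intro t ht
    refine hQle ?_
    have h1 : f t = 0 := congrArg Subtype.val (Ideal.mem_bot.mp ht)
    exact Ideal.Quotient.eq_zero_iff_mem.mp (he (h1.trans (map_zero e).symm))
  obtain ⟨𝔪, -, h𝔪, h𝔪P⟩ := Ideal.exists_ideal_over_prime_of_isIntegral P _ hcomap
  have hp : (p : integralClosure ℤ ℂ) ∈ 𝔪 := by
    have h1 : (p : T) ∈ P := by rw [hP, RingHom.mem_ker, map_natCast, CharP.cast_eq_zero]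
    rw [← h𝔪P, Ideal.mem_comap, map_natCast] at h1
    exact h1
  have hmax : 𝔪.IsMaximal := by
    refine Ideal.isMaximal_of_isIntegral_of_isMaximal_comap (R := ℤ) _ ?_
    refine Ideal.IsPrime.isMaximal inferInstance fun h => ?_
    have h1 : (p : ℤ) ∈ 𝔪.comap (algebraMap ℤ (integralClosure ℤ ℂ)) := by
      rw [Ideal.mem_comap, map_natCast]; exact hp
    rw [h, Ideal.mem_bot] at h1
    exact (Fact.out : p.Prime).ne_zero (mod_cast h1)
  refine ⟨g, lam, 𝔪, hg, hmax, hp, fun t ht => ?_, fun ℓ hℓ hℓM h => ?_⟩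
  · have : t ∈ P := ht
    rwa [← h𝔪P, Ideal.mem_comap] at this
  · rw [hgT ℓ hℓ hℓM]
    exact (RingHom.congr_fun hΛ ⟨_, h⟩).symm

end Lift

variable (W : WeierstrassCurve ℤ) (p N : ℕ) [NeZero N]

/-- The part of `J₀(N)[p]` on which `T_ℓ = a_ℓ` for the good `ℓ`. -/
def heckeEigTors : Submodule (ZMod p) (Reps.tors N p) :=
  AddSubgroup.toZModSubmodule p
    { carrier := {z | ∀ (ℓ : ℕ) (hℓ : ℓ.Prime), W.IsGoodPrimeFor ℓ → ¬ ℓ ∣ N → ℓ ≠ p →
        heckeOperatorBar N ⟨ℓ, hℓ⟩ (z : JZero N) = W.apOfModel ℓ • (z : JZero N)}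
      zero_mem' := fun _ _ _ _ _ => by simp
      add_mem' := fun {a b} ha hb ℓ hℓ h1 h2 h3 => by
        rw [AddSubgroup.coe_add, map_add, ha ℓ hℓ h1 h2 h3, hb ℓ hℓ h1 h2 h3, zsmul_add]
      neg_mem' := fun {a} ha ℓ hℓ h1 h2 h3 => by
        rw [AddSubgroup.coe_neg, map_neg, ha ℓ hℓ h1 h2 h3, zsmul_neg] }

theorem mem_heckeEigTors {z : Reps.tors N p} :
    z ∈ heckeEigTors W p N ↔ ∀ (ℓ : ℕ) (hℓ : ℓ.Prime), W.IsGoodPrimeFor ℓ → ¬ ℓ ∣ N → ℓ ≠ p →
      heckeOperatorBar N ⟨ℓ, hℓ⟩ (z : JZero N) = W.apOfModel ℓ • (z : JZero N) :=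
  Iff.rfl

theorem smul_mem_heckeEigTors (σ : Γℚ) :
    ∀ z ∈ heckeEigTors W p N, JZero.torsionGaloisRep N p σ z ∈ heckeEigTors W p N := by
  intro z hz ℓ hℓ h1 h2 h3
  exact ((Reps.galois_smul_heckeOperatorBar N σ ⟨ℓ, hℓ⟩ (z : JZero N)).symm.trans
    (congrArg (σ • ·) (hz ℓ hℓ h1 h2 h3))).trans <| map_zsmul (DistribSMul.toAddMonoidHom (JZero N) σ) _ _

/-- Galois on the eigenspace. -/
def eigRep : Γℚ →* Module.End (ZMod p) (heckeEigTors W p N) where
  toFun σ := (JZero.torsionGaloisRep N p σ).restrict (smul_mem_heckeEigTors W p N σ)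
  map_one' := LinearMap.ext fun z => Subtype.ext (by simp [LinearMap.coe_restrict_apply])
  map_mul' := fun σ τ => LinearMap.ext fun z => Subtype.ext (by
    simp [LinearMap.coe_restrict_apply, Module.End.mul_apply])

theorem coe_eigRep (σ : Γℚ) (z : heckeEigTors W p N) :
    (((eigRep W p N σ z : heckeEigTors W p N) : Reps.tors N p) : JZero N) =
      σ • ((z : Reps.tors N p) : JZero N) := rfl

/-- The eigenspace inside `J₀(N)`. -/
def eigIncl : heckeEigTors W p N →+ JZero N :=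
  (Reps.tors N p).subtype.comp (heckeEigTors W p N).toAddSubgroup.subtype

theorem eigIncl_apply (z : heckeEigTors W p N) :
    eigIncl W p N z = ((z : Reps.tors N p) : JZero N) := rfl

theorem eigIncl_injective : Function.Injective (eigIncl W p N) :=
  Subtype.val_injective.comp Subtype.val_injective

theorem eigIncl_eigRep (σ : Γℚ) (z : heckeEigTors W p N) :
    eigIncl W p N (eigRep W p N σ z) = σ • eigIncl W p N z := rfl

theorem eigIncl_sum (c : Γℚ →₀ ℤ) (z : heckeEigTors W p N) :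
    eigIncl W p N (Finsupp.linearCombination (ZMod p) (eigRep W p N)
        (c.mapRange (Int.cast : ℤ → ZMod p) Int.cast_zero) z) =
      c.sum fun σ a => a • (σ • eigIncl W p N z) :=
  map_linearCombination_intCast _ (fun σ x => σ • x) _ (eigIncl_eigRep W p N) c z

variable {W p N} [Fact p.Prime]

/-- A mod `p` system of level `N` has an eigen torsion point. -/
theorem heckeEigTors_ne_bot (hmod : W.IsResiduallyModularOfLevel p N) :
    ∃ z ∈ heckeEigTors W p N, z ≠ 0 := by
  obtain ⟨f, 𝔪, hf, h𝔪, hp𝔪, hcong⟩ := hmod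
  have := IntStr.moduleFinite_heckeAlgebra_two N
  let lam : Reps.TZ N →+* integralClosure ℤ ℂ :=
    (Reps.eigenHom hf).codRestrict (integralClosure ℤ ℂ) fun t =>
      map_isIntegral_int (Reps.eigenHom hf) (Algebra.IsIntegral.isIntegral t)
  let := Ideal.Quotient.field 𝔪
  let ψ : Reps.TZ N →+* integralClosure ℤ ℂ ⧸ 𝔪 := (Ideal.Quotient.mk 𝔪).comp lam
  have : CharP (integralClosure ℤ ℂ ⧸ 𝔪) p := (CharP.charP_iff_prime_eq_zero Fact.out).mpr (by
    rw [← map_natCast (Ideal.Quotient.mk 𝔪), Ideal.Quotient.eq_zero_iff_mem]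
    exact hp𝔪)
  obtain ⟨v, hv0, hv⟩ := exists_mod_eigvec (HeckeH.heckeMatHom N) (HeckeH.heckeMatHom_injective N) ψ
  refine ⟨(Reps.coordTors N p).symm v, fun ℓ hℓ hgood hℓN hℓp => ?_,
    fun h => hv0 (by simpa using congrArg (Reps.coordTors N p) h)⟩
  have hψ : ψ (Reps.heckeTOf hℓ hℓN - (W.apOfModel ℓ : Reps.TZ N)) = 0 := by
    obtain ⟨a, ha, hmem⟩ := hcong ℓ hℓ hgood hℓN hℓp
    have h1 : lam (Reps.heckeTOf hℓ hℓN) = a :=
      Subtype.ext ((Reps.eigenHom_T hf hℓ hℓN).trans ha.symm)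
    show Ideal.Quotient.mk 𝔪 (lam (Reps.heckeTOf hℓ hℓN - (W.apOfModel ℓ : Reps.TZ N))) = 0
    rw [Ideal.Quotient.eq_zero_iff_mem, map_sub, h1, map_intCast]
    exact hmem
  have h2 := hv _ hψ
  rw [map_sub, map_sub, map_intCast, map_intCast, Matrix.sub_mulVec, sub_eq_zero,
    Matrix.intCast_mulVec] at h2
  set z := (Reps.coordTors N p).symm v with hz
  have h3 : Reps.coordTors N p ⟨heckeOperatorBar N ⟨ℓ, hℓ⟩ (z : JZero N),
      Reps.heckeOperatorBar_mem_torsion N ⟨ℓ, hℓ⟩ z.2⟩ =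
      Reps.coordTors N p (W.apOfModel ℓ • z) := by
    refine (Reps.coordTors_hecke N p ⟨ℓ, hℓ⟩ z).trans ?_
    rw [Reps.heckeGenOf_T N hℓ hℓN, map_zsmul, hz, AddEquiv.apply_symm_apply,
      h2, Int.cast_smul_eq_zsmul]
  exact (congrArg Subtype.val ((Reps.coordTors N p).injective h3)).trans
    (AddSubgroupClass.coe_zsmul ..)

variable (hΔ : W.Δ ≠ 0)

set_option maxHeartbeats 1600000 in
include hΔ in
/-- Galois satisfies the quadratic relations of `E[p]` on the eigenspace. -/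
theorem eigRep_quadratic (hp2 : p ≠ 2) (σ : Γℚ) :
    eigRep W p N σ * eigRep W p N σ - algebraMap (ZMod p) _ (modTr W p σ) * eigRep W p N σ +
      algebraMap (ZMod p) _ (modDet W p σ) = 0 := by
  have hp : p.Prime := Fact.out
  have := EllTorsion.isElliptic_map_rat hΔ
  obtain ⟨L, hL, hLfix⟩ := Reps.exists_level_galMat N p
  have hker : ∀ u ∈ L.fixingSubgroup, ∀ z : heckeEigTors W p N,
      u • eigIncl W p N z = eigIncl W p N z := by
    intro u hu z
    have h : JZero.torsionGaloisRep N p u (z : Reps.tors N p) = (z : Reps.tors N p) := by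
      apply (Reps.coordTors N p).injective
      rw [← Reps.galMat_mulVec, hLfix u fun x hx =>
        (IntermediateField.mem_fixingSubgroup_iff L u).mp hu x hx, Matrix.one_mulVec]
    exact congrArg Subtype.val h
  let U : Subgroup Γℚ := (modRep W p).ker ⊓ L.fixingSubgroup
  have hU : IsOpen (U : Set Γℚ) :=
    (EllTorsion.isOpen_ker_galoisRepModuleEnd (W.map (Int.castRingHom ℚ)) p hp.ne_zero).inter
      L.fixingSubgroup_isOpen
  refine Density.forall_of_forall_isFrobeniusAt (P := fun σ => eigRep W p N σ * eigRep W p N σ -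
      algebraMap (ZMod p) _ (modTr W p σ) * eigRep W p N σ +
      algebraMap (ZMod p) _ (modDet W p σ) = 0) U hU
    (insert p (N.primeFactors ∪ W.Δ.natAbs.primeFactors)) ?_ ?_ ?_ σ
  · intro g u hu h
    have h1 : modRep W p (g * u) = modRep W p g := by
      rw [map_mul, MonoidHom.mem_ker.mp hu.1, mul_one]
    have h2 : eigRep W p N (g * u) = eigRep W p N g :=
      LinearMap.ext fun z => eigIncl_injective W p N
        (((eigIncl_eigRep W p N (g * u) z).trans
          ((mul_smul g u (eigIncl W p N z)).trans (congrArg (g • ·) (hker u hu.2 z)))).trans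
          (eigIncl_eigRep W p N g z).symm)
    have h3 := modTr_congr h1
    have h4 := modDet_congr h1
    exact quadratic_congr h2 h3 h4 h
  · intro g k h
    have htr : modTr W p (g ^ k) = Reps.luc (modTr W p g) (modDet W p g) k := by
      have := moduleFinite_torsSpace (p := p) hΔ
      rw [modTr, map_pow]
      exact Reps.trace_pow_eq_luc (finrank_torsSpace hΔ) _ k
    exact quadratic_congr (map_pow (eigRep W p N) g k) htr (map_pow (modDet W p) g k)
      (quadratic_pow h k)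
  · intro ℓ hℓ hℓS A hA τ hτ
    simp only [Finset.mem_insert, Finset.mem_union, Nat.mem_primeFactors, not_or] at hℓS
    have hℓp : ℓ ≠ p := hℓS.1
    have hℓN : ¬ ℓ ∣ N := fun h => hℓS.2.1 ⟨hℓ, h, NeZero.ne N⟩
    have hgood : W.IsGoodPrimeFor ℓ := fun h =>
      hℓS.2.2 ⟨hℓ, Int.natCast_dvd.mp h, Int.natAbs_ne_zero.mpr hΔ⟩
    refine quadratic_congr rfl (modTr_frobenius hΔ hp2 hℓ hgood hℓp hA hτ)
      (modDet_frobenius hΔ hℓ hℓp hA hτ) ?_
    refine LinearMap.ext fun z => eigIncl_injective W p N ?_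
    have hz : eigIncl W p N z ∈ Pic0.torsion Qb (modularFunctionFieldBar N) (p ^ 1) := by
      rw [pow_one]; exact (z : Reps.tors N p).2
    have h := Reps.frobenius_rel_torsion N hp hℓ hℓN hℓp hA hτ hz
    have hT : heckeOperatorBar N ⟨ℓ, hℓ⟩ (τ • eigIncl W p N z) =
        W.apOfModel ℓ • (τ • eigIncl W p N z) := (eigRep W p N τ z).2 ℓ hℓ hgood hℓN hℓp
    rw [hT] at h
    simp only [LinearMap.add_apply, LinearMap.sub_apply, Module.End.mul_apply,
      Module.algebraMap_end_apply, Int.cast_smul_eq_zsmul, Nat.cast_smul_eq_nsmul,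
      map_add, map_sub, map_zsmul, map_nsmul, LinearMap.zero_apply, map_zero, eigIncl_eigRep]
    exact h

end FLTAgent.MazurP
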