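import Fermat.Agent.MazurP.Defs
import Fermat.Agent.MazurP.ResidualHecke
import Fermat.Agent.EllLocal.Semistable
import Fermat.Agent.EllP.Frey
import Fermat.Agent.Kronecker.HeckeGalois
import Fermat.Agent.FF.PlacesModular
import Fermat.Prelude.Def_FLTPrelim_ModularRep
import Fermat.Prelude.Def_AlgebraicCurve_Correspondence

/-!
# The isotypic part of `J₀(N)[p]`

`isResiduallyModularOfLevel_of_hom`: Deligne-Serre lifting of a mod `p` system of part of the
Hecke ring. `nonempty_eigenPart`: if `E[p]` is irreducible and modular of level `N`, the Hecke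
eigenspace in `J₀(N)[p]` is an `EigenPart`. A Galois equivariant image of one is again one
(`EigenPart.exists_map`), and one gives a mod `p` system of its level; hence both pushforwards
to level `M` kill it when the level cannot be lowered (`pushforward_mem_principal`).
`exists_not_eisenstein`: the system is not Eisenstein; `modRepIsIrreducible_of_frey` transports
irreducibility to any integral model of a Frey curve.
-/

set_option autoImplicit false

noncomputable section

open AlgebraicCurve ModularCurve WeierstrassCurve Matrix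
open scoped WeierstrassCurve.Affine

namespace FLTAgent.MazurP

local notation "Qb" => AlgebraicClosure ℚ
local notation "Γℚ" => (AlgebraicClosure ℚ ≃ₐ[ℚ] AlgebraicClosure ℚ)

/-- Deligne–Serre lifting: a mod `p` system of a part of the Hecke ring gives an eigenform. -/
theorem isResiduallyModularOfLevel_of_hom {M : ℕ} [NeZero M] (W : WeierstrassCurve ℤ) {p : ℕ}
    [Fact p.Prime] {k : Type*} [Field k] [CharP k p]
    (T : Subring (Reps.TZ M)) (χ : T →+* k)
    (hχ : ∀ (ℓ : ℕ) (hℓ : ℓ.Prime) (hℓM : ¬ ℓ ∣ M), W.IsGoodPrimeFor ℓ → ℓ ≠ p →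
      ∃ h : Reps.heckeTOf hℓ hℓM ∈ T, χ ⟨Reps.heckeTOf hℓ hℓM, h⟩ = (W.apOfModel ℓ : k)) :
    W.IsResiduallyModularOfLevel p M := by
  obtain ⟨g, lam, 𝔪, hg, h𝔪, hp, hker, hT⟩ := exists_eigenform_of_subring T χ
  refine ⟨g, 𝔪, hg, h𝔪, hp, fun ℓ hℓ hgood hℓM hℓp => ?_⟩
  obtain ⟨h, hval⟩ := hχ ℓ hℓ hℓM hgood hℓp
  refine ⟨lam ⟨_, h⟩, hT ℓ hℓ hℓM h, ?_⟩
  rw [← map_intCast lam, ← map_sub]
  exact hker _ (by rw [map_sub, hval, map_intCast, sub_self])

/-- Irreducibility for any integral model of the Frey curve. -/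
theorem modRepIsIrreducible_of_frey (P : FreyPackage) {W : WeierstrassCurve ℤ}
    (hW : W.IsIntegralModelOf P.freyCurve)
    (hirr : Affine.Point.GaloisRepIsIrreducible (K := Qb) ℚ P.freyCurve P.p) :
    W.ModRepIsIrreducible P.p := by
  obtain ⟨C, hC⟩ := hW
  have : Fact P.p.Prime := ⟨P.pp⟩
  have : P.freyCurve.IsElliptic :=
    EllP.frey_map_eq P ▸ EllTorsion.isElliptic_map_rat (EllP.frey_Δ_ne_zero P)
  have hΔ : W.Δ ≠ 0 := by
    intro h
    have h1 : (C • P.freyCurve).Δ ≠ 0 := (C • P.freyCurve).isUnit_Δ.ne_zero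
    rw [hC, map_Δ, h, map_zero] at h1
    exact h1 rfl
  have := EllTorsion.isElliptic_map_rat hΔ
  have hQ : (C.map (algebraMap ℚ Qb)) • (P.freyCurve⁄Qb) =
      ((W.map (Int.castRingHom ℚ))⁄Qb) := by
    show (C.map (algebraMap ℚ Qb)) • P.freyCurve.map (algebraMap ℚ Qb) = _
    rw [map_variableChange, hC]
    rfl
  let φ : (P.freyCurve⁄Qb).Point →+ CurvePoint W :=
    (EllLocal.castPoint hQ).comp (EllLocal.vcPoint (P.freyCurve⁄Qb) (C.map (algebraMap ℚ Qb)))
  have hinj : Function.Injective φ :=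
    (EllLocal.castPoint_injective hQ).comp (EllLocal.vcPoint_injective _)
  have heq : ∀ (σ : Γℚ) (x : (P.freyCurve⁄Qb).Point), φ (σ • x) = σ • φ x := by
    intro σ x
    rcases x with _ | ⟨x, y, hns⟩
    · exact (map_zero φ).trans
        (((congrArg (σ • ·) (map_zero φ)).trans (smul_zero (A := CurvePoint W) σ)).symm)
    · have hσC : (C.map (algebraMap ℚ Qb)).map (σ : Qb →+* Qb) = C.map (algebraMap ℚ Qb) := by
        rw [VariableChange.map_map]
        congr 1
        exact RingHom.ext fun q => σ.commutes q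
      show φ (Affine.Point.some (σ x) (σ y) _) = σ • φ (Affine.Point.some x y hns)
      show EllLocal.castPoint hQ (Affine.Point.some (EllLocal.vcX (C.map (algebraMap ℚ Qb)) (σ x))
          (EllLocal.vcY (C.map (algebraMap ℚ Qb)) (σ x) (σ y)) _) =
        σ • EllLocal.castPoint hQ (Affine.Point.some (EllLocal.vcX (C.map (algebraMap ℚ Qb)) x)
          (EllLocal.vcY (C.map (algebraMap ℚ Qb)) x y) _)
      rw [EllLocal.castPoint_some, EllLocal.castPoint_some]
      show Affine.Point.some _ _ _ = Affine.Point.some (σ (EllLocal.vcX _ x))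
        (σ (EllLocal.vcY _ x y)) _
      congr 1
      · exact (EllLocal.map_vcX (σ := (σ : Qb →+* Qb)) (C := C.map (algebraMap ℚ Qb)) hσC x).symm
      · exact (EllLocal.map_vcY (σ := (σ : Qb →+* Qb)) (C := C.map (algebraMap ℚ Qb)) hσC x y).symm
  let V := Submodule.torsionBy ℤ (P.freyCurve⁄Qb).Point P.p
  let ψ : V →ₗ[ZMod P.p] TorsSpace W P.p :=
    { toFun := fun x => ⟨φ x, by
        rw [Submodule.mem_torsionBy_iff, ← map_zsmul, (Submodule.mem_torsionBy_iff _ _).mp x.2,
          map_zero]⟩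
      map_add' := fun x y => Subtype.ext (map_add φ _ _)
      map_smul' := fun c x => ZMod.map_smul
        (f := (AddMonoidHom.mk' (fun x : V => (⟨φ x, by
          rw [Submodule.mem_torsionBy_iff, ← map_zsmul, (Submodule.mem_torsionBy_iff _ _).mp x.2,
            map_zero]⟩ : TorsSpace W P.p)) fun x y => Subtype.ext (map_add φ _ _))) c x }
  have hψ : Function.Injective ψ := fun x y h => Subtype.ext (hinj (congrArg Subtype.val h))
  have hψs : Function.Surjective ψ := by
    have : Finite (TorsSpace W P.p) :=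
      EllTorsion.finite_torsionBy_rat (W.map (Int.castRingHom ℚ)) P.p P.pp.ne_zero
    refine (hψ.bijective_of_nat_card_le ?_).2
    rw [EllTorsion.natCard_torsionBy_rat (W.map (Int.castRingHom ℚ)) P.p P.pp.ne_zero,
      EllTorsion.natCard_torsionBy_rat P.freyCurve P.p P.pp.ne_zero]
  refine ⟨EllTorsion.nontrivial_torsionBy_rat (W.map (Int.castRingHom ℚ)) P.p P.pp.two_le,
    fun N hN => ?_⟩
  rcases hirr.2 (N.comap ψ) (fun σ x hx => by
    rw [Submodule.mem_comap] at hx ⊢
    rw [show ψ (σ • x) = σ • ψ x from Subtype.ext (heq σ x)]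
    exact hN σ _ hx) with h | h
  · left
    rw [← Submodule.map_comap_eq_of_surjective hψs N, h, Submodule.map_bot]
  · right
    rw [← Submodule.map_comap_eq_of_surjective hψs N, h, Submodule.map_top,
      LinearMap.range_eq_top.mpr hψs]

/-- The isotypic part exists.

Proof: the eigenspace of `T_ℓ = a_ℓ` in `J₀(N)[p]` is nonzero (`heckeEigTors_ne_bot`); on it
every `σ` satisfies `σ² - tr ρ σ + det ρ = 0` (Frobenius elements), and as `ρ` is irreducible and
odd the group ring then acts through `End E[p]` (`relations_of_quadratic`). -/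
theorem nonempty_eigenPart {N : ℕ} [NeZero N] (W : WeierstrassCurve ℤ) (hΔ0 : W.Δ ≠ 0) {p : ℕ}
    [Fact p.Prime] (hp2 : p ≠ 2) (hirr : W.ModRepIsIrreducible p)
    (hmod : W.IsResiduallyModularOfLevel p N) : Nonempty (EigenPart W p N) := by
  have hp : p.Prime := Fact.out
  have : Fact (2 < p) := ⟨lt_of_le_of_ne hp.two_le (Ne.symm hp2)⟩
  have := EllTorsion.isElliptic_map_rat hΔ0
  refine ⟨{ S := (heckeEigTors W p N).toAddSubgroup.map (Reps.tors N p).subtype
            ne_bot := ?_
            torsion := ?_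
            galois_mem := ?_
            hecke := ?_
            rel := ?_ }⟩
  · obtain ⟨z, hz, hz0⟩ := heckeEigTors_ne_bot hmod
    intro h
    refine hz0 (Subtype.ext ?_)
    exact (AddSubgroup.mem_bot.mp (h ▸ AddSubgroup.mem_map_of_mem _ hz))
  · rintro _ ⟨z, -, rfl⟩
    exact Reps.nsmul_eq_zero_of_mem_torsion N z.2
  · rintro σ _ ⟨z, hz, rfl⟩
    exact ⟨_, smul_mem_heckeEigTors W p N σ z hz, rfl⟩
  · rintro ℓ hℓ hgood hℓN hℓp _ ⟨z, hz, rfl⟩
    exact hz ℓ hℓ hgood hℓN hℓp
  · intro c hc _ hz'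
    obtain ⟨z, hz, rfl⟩ := hz'
    set f := c.mapRange (Int.cast : ℤ → ZMod p) Int.cast_zero with hf
    have hρ : Finsupp.linearCombination (ZMod p) (modRep W p) f = 0 :=
      LinearMap.ext fun x => Subtype.ext ((sum_smul_coe c x).trans (hc x (by
        rw [← natCast_zsmul]; exact (Submodule.mem_torsionBy_iff _ _).mp x.2)))
    obtain ⟨a₀, b₀, e, he, hu⟩ := exists_comm_sq hΔ0 hp2 hirr
    have h2 : (2 : ZMod p) ≠ 0 := fun h =>
      ZMod.neg_one_ne_one (show (-1 : ZMod p) = 1 by
        rw [eq_comm, ← sub_eq_zero, sub_neg_eq_add, one_add_one_eq_two, h])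
    have hπ : ∀ g, eigRep W p N g + adjAct (eigRep W p N) (modDet W p) g =
        algebraMap (ZMod p) _ (modTr W p g) := fun g =>
      add_adjAct_of_quadratic (eigRep W p N) (modDet W p) (eigRep_quadratic hΔ0 hp2 g)
    have ht : ∀ f : Γℚ →₀ ZMod p, Finsupp.linearCombination (ZMod p) (modRep W p) f = 0 →
        Finsupp.linearCombination (ZMod p) (modTr W p) f = 0 := fun f hf => by
      have h := congrArg (LinearMap.trace (ZMod p) (TorsSpace W p)) hf
      rw [map_zero, Finsupp.apply_linearCombination] at h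
      exact h
    have h := relations_of_quadratic (modRep W p) (eigRep W p N) (modTr W p) (modDet W p) h2 ht hπ
      he hu hρ
    have h' := congrArg (fun L => eigIncl W p N (L ⟨z, hz⟩)) h
    simp only [LinearMap.zero_apply, map_zero] at h'
    rw [hf, eigIncl_sum] at h'
    exact h'

/-- A Galois equivariant image of an isotypic part is isotypic (`T_ℓ = a_ℓ` follows from the two
quadratic relations of Frobenius). -/
theorem EigenPart.exists_map {N N' : ℕ} [NeZero N] [NeZero N'] {W : WeierstrassCurve ℤ} {p : ℕ}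
    [Fact p.Prime] (hp2 : p ≠ 2) (hΔ0 : W.Δ ≠ 0) (E : EigenPart W p N)
    (φ : JZero N →+ JZero N') (hφ : ∀ (σ : Γℚ) (z : JZero N), φ (σ • z) = σ • φ z)
    (hne : ∃ z ∈ E.S, φ z ≠ 0) :
    ∃ E' : EigenPart W p N', E'.S = E.S.map φ := by
  have hp : p.Prime := Fact.out
  have hrelmap : ∀ c : Γℚ →₀ ℤ,
      (∀ x : CurvePoint W, p • x = 0 → (c.sum fun σ a => a • (σ • x)) = 0) →
      ∀ w ∈ E.S.map φ, (c.sum fun σ a => a • (σ • w)) = 0 := by
    rintro c hc _ ⟨z, hz, rfl⟩
    have h := congrArg φ (E.rel c hc z hz)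
    rw [map_zero, map_finsuppSum] at h
    refine Eq.trans (Finsupp.sum_congr fun σ _ => ?_) h
    rw [map_zsmul, hφ]
  have htors : ∀ w ∈ E.S.map φ, p • w = 0 := by
    rintro _ ⟨z, hz, rfl⟩
    rw [← map_nsmul, E.torsion z hz, map_zero]
  have hgal : ∀ (σ : Γℚ), ∀ w ∈ E.S.map φ, σ • w ∈ E.S.map φ := by
    rintro σ _ ⟨z, hz, rfl⟩
    exact ⟨σ • z, E.galois_mem σ z hz, hφ σ z⟩
  refine ⟨{ S := E.S.map φ
            ne_bot := ?_
            torsion := htors
            galois_mem := hgal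
            hecke := ?_
            rel := hrelmap }, rfl⟩
  · obtain ⟨z, hz, hz0⟩ := hne
    exact fun h => hz0 (AddSubgroup.mem_bot.mp (h ▸ AddSubgroup.mem_map_of_mem φ hz))
  · intro ℓ hℓ hgood hℓN hℓp w hw
    obtain ⟨A, hA, σ, hσ⟩ := GalCommon.exists_place_frobenius hℓ
    set w' := σ⁻¹ • w with hw'
    have hw'S := hgal σ⁻¹ w hw
    have hσw : σ • w' = w := by rw [hw', smul_inv_smul]
    let c : Γℚ →₀ ℤ := Finsupp.single (σ * σ) 1 + Finsupp.single σ (-W.apOfModel ℓ) +
      Finsupp.single 1 (ℓ : ℤ)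
    have hc : ∀ (X : Type) [AddCommGroup X] [MulAction Γℚ X] (y : X),
        (c.sum fun τ a => a • (τ • y)) = σ • σ • y - W.apOfModel ℓ • (σ • y) + (ℓ : ℤ) • y := by
      intro X _ _ y
      rw [Finsupp.sum_add_index' (fun _ => zero_zsmul _) (fun _ _ _ => add_zsmul _ _ _),
        Finsupp.sum_add_index' (fun _ => zero_zsmul _) (fun _ _ _ => add_zsmul _ _ _),
        Finsupp.sum_single_index (zero_zsmul _), Finsupp.sum_single_index (zero_zsmul _),
        Finsupp.sum_single_index (zero_zsmul _), one_zsmul, mul_smul, one_smul, neg_zsmul,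
        ← sub_eq_add_neg]
    have h1 := hrelmap c (fun x hx => (hc _ x).trans
      (EllFrob.frobenius_relation W hℓ hgood (hp.odd_of_ne_two hp2)
        ((Nat.coprime_primes hp hℓ).mpr (Ne.symm hℓp)) hA hσ x hx)) w' hw'S
    rw [hc] at h1
    have hmem : w' ∈ Pic0.torsion Qb (modularFunctionFieldBar N') (p ^ 1) := by
      rw [pow_one, Pic0.mem_torsion, natCast_zsmul]
      exact htors w' hw'S
    have h2 := Reps.frobenius_rel_torsion N' hp hℓ hℓN hℓp hA hσ hmem
    rw [← natCast_zsmul, ← h1, add_left_inj, sub_right_inj, hσw] at h2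
    exact h2

/-- `ρ` is not Eisenstein. -/
theorem exists_not_eisenstein (W : WeierstrassCurve ℤ) (hΔ0 : W.Δ ≠ 0) {p : ℕ} [Fact p.Prime]
    (hp2 : p ≠ 2) (hirr : W.ModRepIsIrreducible p) (B : Finset ℕ) :
    ∃ ℓ : ℕ, ℓ.Prime ∧ ℓ ∉ B ∧ ℓ ≠ p ∧ W.IsGoodPrimeFor ℓ ∧
      ¬ (p : ℤ) ∣ W.apOfModel ℓ - 1 - ℓ := by
  by_contra hcon
  push Not at hcon
  have hp : p.Prime := Fact.out
  have := EllTorsion.isElliptic_map_rat hΔ0
  obtain ⟨σ₀, hσ₀⟩ := exists_modTr_ne hΔ0 hp2 hirr
  refine hσ₀ (Density.forall_of_forall_isFrobeniusAt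
    (P := fun σ => modTr W p σ = 1 + modDet W p σ) (modRep W p).ker
    (EllTorsion.isOpen_ker_galoisRepModuleEnd (W.map (Int.castRingHom ℚ)) p hp.ne_zero)
    (insert p (B ∪ W.Δ.natAbs.primeFactors)) ?_ ?_ ?_ σ₀)
  · intro g u hu h
    have h1 : modRep W p (g * u) = modRep W p g := by
      rw [map_mul, MonoidHom.mem_ker.mp hu, mul_one]
    rw [modTr_congr h1, modDet_congr h1]
    exact h
  · intro g k h
    have := moduleFinite_torsSpace (p := p) hΔ0
    have h1 : modTr W p (g ^ k) = Reps.luc (modTr W p g) (modDet W p g) k := by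
      rw [modTr, map_pow]
      exact Reps.trace_pow_eq_luc (finrank_torsSpace hΔ0) _ k
    rw [h1, map_pow, h]
    have := Reps.pow_add_pow_eq_luc (RingHom.id (ZMod p)) (Commute.one_left (modDet W p g))
      (a := 1 + modDet W p g) (d := modDet W p g) rfl (one_mul _) k
    rw [one_pow] at this
    exact this.symm
  · intro ℓ hℓ hℓS A hA τ hτ
    simp only [Finset.mem_insert, Finset.mem_union, Nat.mem_primeFactors, not_or] at hℓS
    have hgood : W.IsGoodPrimeFor ℓ := fun h =>
      hℓS.2.2 ⟨hℓ, Int.natCast_dvd.mp h, Int.natAbs_ne_zero.mpr hΔ0⟩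
    rw [modTr_frobenius hΔ0 hp2 hℓ hgood hℓS.1 hA hτ, modDet_frobenius hΔ0 hℓ hℓS.1 hA hτ]
    have h := (ZMod.intCast_zmod_eq_zero_iff_dvd _ p).mpr (hcon ℓ hℓ hℓS.2.1 hℓS.1 hgood)
    push_cast at h
    linear_combination h

/-- A point of the eigenspace gives a mod `p` system of its level. -/
theorem isResiduallyModularOfLevel_of_mem {M : ℕ} [NeZero M] {W : WeierstrassCurve ℤ} {p : ℕ}
    [Fact p.Prime] {x : Reps.tors M p} (hx : x ∈ heckeEigTors W p M) (hx0 : x ≠ 0) :
    W.IsResiduallyModularOfLevel p M := by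
  obtain ⟨z, hzmem⟩ := x
  have hz0 : z ≠ 0 := fun h => hx0 (Subtype.ext h)
  set v := Reps.coordTors M p ⟨z, hzmem⟩ with hv
  have hv0 : v ≠ 0 := fun h =>
    hz0 (congrArg Subtype.val ((Reps.coordTors M p).injective (h.trans (map_zero _).symm)))
  let π : Reps.TZ M →+* Matrix (Fin (Period.rankH M)) (Fin (Period.rankH M)) (ZMod p) :=
    (Int.castRingHom (ZMod p)).mapMatrix.comp (HeckeH.heckeMatHom M)
  let T : Subring (Reps.TZ M) :=
    { carrier := {t | ∃ c : ZMod p, π t *ᵥ v = c • v}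
      one_mem' := ⟨1, by rw [map_one, Matrix.one_mulVec, one_smul]⟩
      mul_mem' := fun {s t} ⟨a, ha⟩ ⟨b, hb⟩ => ⟨b * a, by
        rw [map_mul, ← Matrix.mulVec_mulVec, hb, Matrix.mulVec_smul, ha, smul_smul]⟩
      zero_mem' := ⟨0, by rw [map_zero, Matrix.zero_mulVec, zero_smul]⟩
      add_mem' := fun {s t} ⟨a, ha⟩ ⟨b, hb⟩ => ⟨a + b, by
        rw [map_add, Matrix.add_mulVec, ha, hb, add_smul]⟩
      neg_mem' := fun {s} ⟨a, ha⟩ => ⟨-a, by rw [map_neg, Matrix.neg_mulVec, ha, neg_smul]⟩ }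
  have hc : ∀ t : T, ∃ c : ZMod p, π t *ᵥ v = c • v := fun t => t.2
  choose c hc using hc
  have huniq : ∀ (t : T) (a : ZMod p), π t *ᵥ v = a • v → c t = a := fun t a h =>
    smul_left_injective (ZMod p) hv0 ((hc t).symm.trans h)
  let χ : T →+* ZMod p :=
    { toFun := c
      map_one' := huniq 1 1 (by rw [OneMemClass.coe_one, map_one, Matrix.one_mulVec, one_smul])
      map_mul' := fun s t => huniq _ _ (by
        rw [MulMemClass.coe_mul, map_mul, ← Matrix.mulVec_mulVec, hc, Matrix.mulVec_smul, hc,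
          smul_smul, mul_comm])
      map_zero' := huniq 0 0 (by
        rw [ZeroMemClass.coe_zero, map_zero, Matrix.zero_mulVec, zero_smul])
      map_add' := fun s t => huniq _ _ (by
        rw [AddMemClass.coe_add, map_add, Matrix.add_mulVec, hc, hc, add_smul]) }
  refine isResiduallyModularOfLevel_of_hom W T χ fun ℓ hℓ hℓM hgood hℓp => ?_
  have hT : π (Reps.heckeTOf hℓ hℓM) *ᵥ v = (W.apOfModel ℓ : ZMod p) • v := by
    show (Int.castRingHom (ZMod p)).mapMatrix (HeckeH.heckeMatHom M (Reps.heckeTOf hℓ hℓM)) *ᵥ v = _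
    rw [← Reps.heckeGenOf_T M hℓ hℓM]
    refine (Reps.coordTors_hecke M p ⟨ℓ, hℓ⟩ ⟨z, hzmem⟩).symm.trans ?_
    rw [show (⟨heckeOperatorBar M ⟨ℓ, hℓ⟩ z,
        Reps.heckeOperatorBar_mem_torsion M ⟨ℓ, hℓ⟩ hzmem⟩ : Reps.tors M p) =
          W.apOfModel ℓ • ⟨z, hzmem⟩ from Subtype.ext (hx ℓ hℓ hgood hℓM hℓp),
      map_zsmul, Int.cast_smul_eq_zsmul, hv]
  exact ⟨⟨_, hT⟩, huniq _ _ hT⟩

/-- An isotypic part gives a mod `p` system of its level. -/
theorem EigenPart.isResiduallyModularOfLevel {M : ℕ} [NeZero M] {W : WeierstrassCurve ℤ} {p : ℕ}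
    [Fact p.Prime] (E : EigenPart W p M) : W.IsResiduallyModularOfLevel p M := by
  obtain ⟨z, hz, hz0⟩ : ∃ z ∈ E.S, z ≠ 0 := by
    by_contra h
    push Not at h
    exact E.ne_bot ((AddSubgroup.eq_bot_iff_forall _).mpr h)
  have hzmem : z ∈ Reps.tors M p := by
    rw [Pic0.mem_torsion, natCast_zsmul]
    exact E.torsion z hz
  exact isResiduallyModularOfLevel_of_mem (x := ⟨z, hzmem⟩)
    (fun ℓ hℓ hgood hℓM hℓp => E.hecke ℓ hℓ hgood hℓM hℓp z hz)
    fun h => hz0 (congrArg Subtype.val h)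

/-- The image of the isotypic part under a Galois equivariant pushforward is zero if the level
cannot be lowered. -/
theorem pushforward_mem_principal_of_intertwines {M N p : ℕ} [NeZero M] [NeZero N] [Fact p.Prime]
    (hp2 : p ≠ 2) {W : WeierstrassCurve ℤ} (hΔ0 : W.Δ ≠ 0)
    (hnot : ¬ W.IsResiduallyModularOfLevel p M) (E : EigenPart W p N)
    (φ : modularFunctionFieldBar M →ₐ[Qb] modularFunctionFieldBar N) (hφ : φ.toRingHom.IsIntegral)
    (hint : ∀ σ : Γℚ, SemilinearAut.IntertwinesAlong φ.toRingHom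
      (arithmeticGalois (modularFunctionFieldFull M) σ)
      (arithmeticGalois (modularFunctionFieldFull N) σ))
    (D : Divisor.degZero (K := Qb) (F := modularFunctionFieldBar N)) (hD : Pic0.mk D ∈ E.S) :
    Divisor.pushforwardAlong φ hφ (D : Divisor Qb (modularFunctionFieldBar N)) ∈
      Divisor.principal (K := Qb) (F := modularFunctionFieldBar M) := by
  have := Kronecker.isFF_bar M
  have := Kronecker.isFF_bar N
  have hfin : FiniteAlong Qb φ := FF.finiteAlong φ
  have hN : NormFormulaAlong Qb φ hfin := FF.normFormulaAlong φ hfin (FF.separableAlong φ)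
  let pD : Divisor.degZero (K := Qb) (F := modularFunctionFieldBar N) →+
      Divisor.degZero (K := Qb) (F := modularFunctionFieldBar M) :=
    ((Divisor.pushforwardAlong φ hφ).domRestrict _).codRestrict _
      (fun D => Divisor.pushforwardAlong_mem_degZero φ hφ D.2)
  let push : JZero N →+ JZero M := QuotientAddGroup.map _ _ pD fun D hD => by
    rw [AddSubgroup.mem_comap, AddSubgroup.mem_addSubgroupOf]
    exact Divisor.isPrincipal_pushforwardAlong φ hφ hfin hN hD
  have hequiv : ∀ (σ : Γℚ) (z : JZero N), push (σ • z) = σ • push z := by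
    intro σ z
    obtain ⟨D, rfl⟩ := Pic0.mk_surjective z
    rw [galois_smul_pic0_def, galois_smul_pic0_def, SemilinearAut.pic0_smul_mk]
    show Pic0.mk (pD _) = arithmeticGalois (modularFunctionFieldFull M) σ • Pic0.mk (pD D)
    rw [SemilinearAut.pic0_smul_mk]
    exact congrArg Pic0.mk (Subtype.ext (Kronecker.pushforwardAlong_smul φ hφ (hint σ)
      (Kronecker.deg_eq_one_bar M) (Kronecker.deg_eq_one_bar N) _))
  have hzero : push (Pic0.mk D) = 0 := by
    by_contra hne
    obtain ⟨E', -⟩ := EigenPart.exists_map hp2 hΔ0 E push hequiv ⟨_, hD, hne⟩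
    exact hnot E'.isResiduallyModularOfLevel
  change Pic0.mk (pD D) = 0 at hzero
  rw [Pic0.mk, QuotientAddGroup.eq_zero_iff, AddSubgroup.mem_addSubgroupOf] at hzero
  exact hzero

/-- If the level cannot be lowered, the isotypic part is killed by both degeneracy pushforwards.

Proof: a nonzero image is an isotypic part of level `M`, hence gives a mod `p` system there. -/
theorem pushforward_mem_principal {M p : ℕ} [NeZero M] [NeZero p] [Fact p.Prime] (hp2 : p ≠ 2)
    {W : WeierstrassCurve ℤ} (hΔ0 : W.Δ ≠ 0) (hnot : ¬ W.IsResiduallyModularOfLevel p M)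
    (E : EigenPart W p (M * p))
    (hα : HeckeAlphaBarIntegral Qb M p) (hβ : HeckeBetaBarIntegral Qb M p)
    (D : Divisor.degZero (K := Qb) (F := modularFunctionFieldBar (M * p)))
    (hD : Pic0.mk D ∈ E.S) :
    Divisor.pushforwardAlong (heckeAlphaBar Qb M p) hα
        (D : Divisor Qb (modularFunctionFieldBar (M * p))) ∈
        Divisor.principal (K := Qb) (F := modularFunctionFieldBar M) ∧
      Divisor.pushforwardAlong (heckeBetaBar Qb M p) hβ
        (D : Divisor Qb (modularFunctionFieldBar (M * p))) ∈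
        Divisor.principal (K := Qb) (F := modularFunctionFieldBar M) := by
  exact ⟨pushforward_mem_principal_of_intertwines hp2 hΔ0 hnot E (heckeAlphaBar Qb M p) hα
      (fun σ => Kronecker.intertwinesAlong_heckeAlphaBar Qb M p σ) D hD,
    pushforward_mem_principal_of_intertwines hp2 hΔ0 hnot E (heckeBetaBar Qb M p) hβ
      (fun σ => Kronecker.intertwinesAlong_heckeBetaBar Qb M p σ) D hD⟩

end FLTAgent.MazurP
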