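import Fermat.Agent.MazurP.QEigenReg
import Fermat.Agent.MazurP.Residual
import Fermat.Agent.IntStr.Main
import Fermat.Agent.Small2.Duality
import Fermat.Agent.Reduction.GaussGenus
import Fermat.Agent.Torsion.ExtC

/-!
# From an eigen logarithmic derivative to a mod `p` eigenform

Reductions of a basis of the integral cusp forms are independent (`redComb_eq_zero`) and are
regular differentials of the reduced curve, of which there are no more; so `dlog f` of a
function with all orders divisible by `p` is such a reduction (`exists_redComb_eq_qDlog`). The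
Hecke ring acts on these by eigenvalues (`exists_system`), which lift to an eigenform
(`isResiduallyModularOfLevel_of_qDlog_aux`).
-/

set_option autoImplicit false
set_option linter.style.haveILetI false

noncomputable section

open AlgebraicCurve ModularCurve CuspForm CongruenceSubgroup

namespace FLTAgent.MazurP

local notation "Qb" => AlgebraicClosure ℚ

attribute [local instance] isScalarTower_laurent

/-! ### Reduced forms and the Hecke action -/

section Lattice

variable {N : ℕ} [NeZero N] {k : Type*} [Field k]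

/-- The reduced series of an integral form. -/
def redSeries (k : Type*) [Field k] (g : ↥(intLattice N 2)) : LaurentSeries k :=
  coeffMap (Int.castRingHom k) (formSeries N g)

theorem redSeries_add (g g' : ↥(intLattice N 2)) :
    redSeries k (g + g') = redSeries k g + redSeries k g' := by simp [redSeries]

theorem redSeries_zero : redSeries k (0 : ↥(intLattice N 2)) = 0 := by simp [redSeries]

theorem redSeries_zsmul (m : ℤ) (g : ↥(intLattice N 2)) :
    redSeries k (m • g) = HahnSeries.C (m : k) * redSeries k g := by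
  rw [redSeries, map_zsmul, map_zsmul, zsmul_eq_mul, map_intCast]
  rfl

theorem redSeries_sum {ι : Type*} (s : Finset ι) (g : ι → ↥(intLattice N 2)) :
    redSeries k (∑ i ∈ s, g i) = ∑ i ∈ s, redSeries k (g i) := by
  simp [redSeries, map_sum]

/-- The action of the Hecke ring on the lattice. -/
def latAct (t : Reps.TZ N) : Module.End ℤ ↥(intLattice N 2) := latticeActionHom N ∅ t

theorem latAct_T {ℓ : ℕ} (hℓ : ℓ.Prime) (hℓN : ¬ ℓ ∣ N) (g : ↥(intLattice N 2)) (n : ℤ) :
    (redSeries k (latAct (Reps.heckeTOf hℓ hℓN) g)).coeff n =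
      heckeCoeff ℓ (redSeries k g) n := by
  have hpos : (0 : ℤ) < (ℓ : ℤ) := by exact_mod_cast hℓ.pos
  rcases le_or_gt 0 n with h | h
  · obtain ⟨m, rfl⟩ := Int.eq_ofNat_of_zero_le h
    have key : Eisen.coeffInt N m (latAct (Reps.heckeTOf hℓ hℓN) g) =
        Eisen.coeffInt N (ℓ * m) g +
          if ℓ ∣ m then (ℓ : ℤ) * Eisen.coeffInt N (m / ℓ) g else 0 := by
      refine Eisen.coeffInt_eq N ?_
      show Small2.coeffL m (heckeTLin 2 hℓ hℓN (g : CuspForm (Gamma0 N) 2)) = _
      rw [Small2.coeffL_T]
      show ModularFormClass.qCoeff (g : CuspForm (Gamma0 N) 2) (ℓ * m) +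
        (if ℓ ∣ m then (ℓ : ℂ) * ModularFormClass.qCoeff (g : CuspForm (Gamma0 N) 2) (m / ℓ)
          else 0) = _
      rw [Eisen.coeffInt_spec, Eisen.coeffInt_spec]
      split_ifs <;> push_cast <;> ring
    rw [redSeries, redSeries, heckeCoeff, ← Int.natCast_mul, ← Int.natCast_div, coeffMap_coeff,
      coeffMap_coeff, coeffMap_coeff, formSeries_coeff, formSeries_coeff, formSeries_coeff, key,
      map_add]
    simp only [Int.natCast_dvd_natCast]
    split_ifs <;> simp
  · rw [redSeries, redSeries, heckeCoeff, coeffMap_coeff, coeffMap_coeff, coeffMap_coeff,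
      formSeries_coeff_neg _ h, formSeries_coeff_neg _ (mul_neg_of_pos_of_neg hpos h),
      formSeries_coeff_neg _ (Int.ediv_neg_of_neg_of_pos h hpos)]
    simp

variable {ι : Type*} [Fintype ι] (b : Module.Basis ι ℤ ↥(intLattice N 2))

/-- Combination of the reduced basis after applying `t`. -/
def redComb (t : Reps.TZ N) (c : ι → k) : LaurentSeries k :=
  ∑ i, HahnSeries.C (c i) * redSeries k (latAct t (b i))

/-- The coordinates after applying `u`. -/
def moveCoord (u : Reps.TZ N) (c : ι → k) : ι → k :=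
  fun j => ∑ i, c i * (b.repr (latAct u (b i)) j : k)

theorem redComb_mul (t u : Reps.TZ N) (c : ι → k) :
    redComb b (t * u) c = redComb b t (moveCoord b u c) := by
  simp only [redComb, moveCoord, map_sum, Finset.sum_mul, map_mul]
  rw [Finset.sum_comm]
  refine Finset.sum_congr rfl fun i _ => ?_
  simp only [mul_assoc, ← Finset.mul_sum]
  congr 1
  have h : latAct (t * u) (b i) = ∑ j, b.repr (latAct u (b i)) j • latAct t (b j) := by
    rw [latAct, map_mul, Module.End.mul_apply]
    simp only [latAct, ← map_zsmul, ← map_sum, b.sum_repr]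
  rw [h, redSeries_sum]
  simp only [redSeries_zsmul]

/-- `t` acts on the multiples of `s` by the scalar `e`. -/
def IsEigenOn (s : LaurentSeries k) (t : Reps.TZ N) (e : k) : Prop :=
  ∀ (c : ι → k) (x : k), redComb b 1 c = HahnSeries.C x * s →
    redComb b t c = HahnSeries.C (x * e) * s

variable {b} {s : LaurentSeries k}

theorem redComb_one_mul (t : Reps.TZ N) (c : ι → k) :
    redComb b 1 (moveCoord b t c) = redComb b t c := by
  rw [← redComb_mul, one_mul]

theorem IsEigenOn.one : IsEigenOn b s 1 (1 : k) := fun c x h => by rw [h, mul_one]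

theorem IsEigenOn.zero : IsEigenOn b s 0 (0 : k) := fun c x _ => by
  simp [redComb, latAct, redSeries_zero]

theorem IsEigenOn.add {t u : Reps.TZ N} {e e' : k} (ht : IsEigenOn b s t e)
    (hu : IsEigenOn b s u e') : IsEigenOn b s (t + u) (e + e') := fun c x h => by
  have : redComb b (t + u) c = redComb b t c + redComb b u c := by
    simp [redComb, latAct, redSeries_add, mul_add, Finset.sum_add_distrib]
  rw [this, ht c x h, hu c x h, mul_add, map_add, add_mul]

theorem IsEigenOn.neg {t : Reps.TZ N} {e : k} (ht : IsEigenOn b s t e) :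
    IsEigenOn b s (-t) (-e) := fun c x h => by
  have : redComb b (-t) c = -redComb b t c := by
    simp [redComb, latAct, redSeries, mul_neg, Finset.sum_neg_distrib]
  rw [this, ht c x h, mul_neg, map_neg, neg_mul]

theorem IsEigenOn.mul {t u : Reps.TZ N} {e e' : k} (ht : IsEigenOn b s t e)
    (hu : IsEigenOn b s u e') : IsEigenOn b s (t * u) (e * e') := fun c x h => by
  have h1 : redComb b 1 (moveCoord b u c) = HahnSeries.C (x * e') * s := by
    rw [redComb_one_mul, hu c x h]
  rw [redComb_mul, ht _ _ h1, mul_assoc, mul_comm e' e]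

theorem IsEigenOn.unique {t : Reps.TZ N} {e e' : k} (hs : s ≠ 0)
    (hc : ∃ c, redComb b 1 c = s) (ht : IsEigenOn b s t e) (ht' : IsEigenOn b s t e') :
    e = e' := by
  obtain ⟨c, hc⟩ := hc
  have h := (ht c 1 (by rw [map_one, one_mul, hc])).symm.trans (ht' c 1 (by rw [map_one, one_mul, hc]))
  rw [one_mul, one_mul] at h
  exact HahnSeries.C_injective (mul_right_cancel₀ hs h)

theorem isEigenOn_T {ℓ : ℕ} (hℓ : ℓ.Prime) (hℓN : ¬ ℓ ∣ N) (a : ℤ) (hs : IsHeckeEigen s ℓ a) :
    IsEigenOn b s (Reps.heckeTOf hℓ hℓN) (a : k) := fun c x h => by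
  ext n
  have hn := congrArg (fun y : LaurentSeries k => y.coeff ((ℓ : ℤ) * n)) h
  have hd := congrArg (fun y : LaurentSeries k => y.coeff (n / (ℓ : ℤ))) h
  simp only [redComb, HahnSeries.coeff_sum, HahnSeries.C_mul_eq_smul, HahnSeries.coeff_smul,
    smul_eq_mul, latAct, map_one, Module.End.one_apply] at hn hd ⊢
  rw [mul_assoc, ← hs n]
  simp only [← latAct.eq_def, latAct_T, heckeCoeff, mul_add, Finset.sum_add_distrib]
  rw [hn]
  split_ifs with hdvd
  · congr 1
    rw [← mul_assoc, mul_comm x, mul_assoc, ← hd, Finset.mul_sum]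
    exact Finset.sum_congr rfl fun i _ => by ring
  · simp

/-- The system of eigenvalues. -/
theorem exists_system (hs : s ≠ 0) (hc : ∃ c, redComb b 1 c = s) (G : Set (Reps.TZ N))
    (hG : ∀ t ∈ G, ∃ e, IsEigenOn b s t e) :
    ∃ χ : Subring.closure G →+* k, ∀ t : Subring.closure G, IsEigenOn b s (t : Reps.TZ N) (χ t) := by
  have hex : ∀ t ∈ Subring.closure G, ∃ e, IsEigenOn b s t e := by
    intro t ht
    induction ht using Subring.closure_induction with
    | mem t ht => exact hG t ht
    | zero => exact ⟨0, IsEigenOn.zero⟩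
    | one => exact ⟨1, IsEigenOn.one⟩
    | add t u _ _ ht hu => exact ⟨_, ht.choose_spec.add hu.choose_spec⟩
    | neg t _ ht => exact ⟨_, ht.choose_spec.neg⟩
    | mul t u _ _ ht hu => exact ⟨_, ht.choose_spec.mul hu.choose_spec⟩
  choose e he using fun t : Subring.closure G => hex t t.2
  exact ⟨{ toFun := e
           map_one' := (he 1).unique hs hc IsEigenOn.one
           map_zero' := (he 0).unique hs hc IsEigenOn.zero
           map_mul' := fun t u => (he (t * u)).unique hs hc ((he t).mul (he u))
           map_add' := fun t u => (he (t + u)).unique hs hc ((he t).add (he u)) }, he⟩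

/-- The reductions of a basis are independent. -/
theorem redComb_eq_zero {p : ℕ} [Fact p.Prime] [CharP k p] (c : ι → k)
    (hc : redComb b 1 c = 0) : c = 0 := by
  classical
  set v : ι → LaurentSeries (ZMod p) := fun i =>
    coeffMap (Int.castRingHom (ZMod p)) (formSeries N (b i)) with hv
  have hli : LinearIndependent (ZMod p) v := by
    rw [Fintype.linearIndependent_iff]
    intro a ha i
    set m : ι → ℤ := fun i => (a i).val with hm
    have ham : ∀ i, (m i : ZMod p) = a i := fun i => by simp [hm]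
    set g := ∑ i, m i • b i with hg
    have hdiv : ∀ n : ℕ, (p : ℤ) ∣ Eisen.coeffInt N n g := fun n => by
      rw [← ZMod.intCast_zmod_eq_zero_iff_dvd]
      have h := congrArg (fun y : LaurentSeries (ZMod p) => y.coeff (n : ℤ)) ha
      simp only [HahnSeries.coeff_sum, hv, ← HahnSeries.C_mul_eq_smul, HahnSeries.C_apply,
        HahnSeries.coeff_single_zero_mul, coeffMap_coeff, formSeries_coeff, eq_intCast,
        HahnSeries.coeff_zero] at h
      rw [← Eisen.coeffIntLin_apply, hg, map_sum]
      simp only [map_zsmul, Eisen.coeffIntLin_apply, smul_eq_mul, Int.cast_sum, Int.cast_mul, ham]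
      exact h
    choose q hq using hdiv
    have hp0 : (p : ℂ) ≠ 0 := Nat.cast_ne_zero.mpr (Fact.out : p.Prime).ne_zero
    set g' : ↥(intLattice N 2) := ⟨(p : ℂ)⁻¹ • (g : CuspForm (Gamma0 N) 2),
      (IntStr.mem_intLattice_iff _).mpr fun n => ⟨q n, by
        rw [IntStr.qCoeff_smul', Eisen.coeffInt_spec, hq n]
        push_cast
        field_simp⟩⟩
    have hgg : g = (p : ℤ) • g' := Subtype.ext (by
      show (g : CuspForm (Gamma0 N) 2) = (p : ℤ) • ((p : ℂ)⁻¹ • (g : CuspForm (Gamma0 N) 2))
      rw [← Int.cast_smul_eq_zsmul ℂ, Int.cast_natCast, smul_smul, mul_inv_cancel₀ hp0, one_smul])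
    have h1 : b.repr g i = m i := by rw [hg, b.repr_sum_self]
    rw [hgg, map_zsmul, Finsupp.smul_apply, smul_eq_mul] at h1
    rw [← ham i, ← h1, Int.cast_mul, Int.cast_natCast, ZMod.natCast_self, zero_mul]
  have hk := Fintype.linearIndependent_iff.mp
    (Torsion.linearIndependent_coeffMap (ZMod.castHom (dvd_refl p) k) hli)
  funext i
  refine hk c ?_ i
  rw [← hc]
  refine Finset.sum_congr rfl fun j _ => ?_
  rw [← HahnSeries.C_mul_eq_smul, hv, coeffMap_coeffMap, latAct, map_one, Module.End.one_apply]
  congr 1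
  exact coeffMap_congr (RingHom.ext_int _ _) _

include b in
theorem finrank_cuspForm_le_card :
    Module.finrank ℂ (CuspForm (Gamma0 N) 2) ≤ Fintype.card ι := by
  set v : ι → CuspForm (Gamma0 N) 2 := fun i => (b i : CuspForm (Gamma0 N) 2) with hv
  have htop : Submodule.span ℂ (Set.range v) = ⊤ := by
    rw [eq_top_iff, ← IntStr.hasIntegralStructure_weight_two N, Submodule.span_le]
    intro f hf
    have h := congrArg Subtype.val (b.sum_repr (⟨f, hf⟩ : ↥(intLattice N 2)))
    rw [AddSubmonoidClass.coe_finsetSum] at h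
    have h' : _ = f := h
    rw [SetLike.mem_coe, ← h']
    refine Submodule.sum_mem _ fun i _ => ?_
    rw [Submodule.coe_smul]
    exact zsmul_mem (show (b i : CuspForm (Gamma0 N) 2) ∈ Submodule.span ℂ (Set.range v) from
      Submodule.subset_span (Set.mem_range_self i)) _
  rw [← finrank_top ℂ (CuspForm (Gamma0 N) 2), ← htop]
  exact finrank_range_le_card v

end Lattice

/-! ### Logarithmic derivatives without residues -/

section Generic

/-- `psi` is linear over the constants. -/
private theorem psi_smul_const_gen {k : Type*} [Field k] {N : ℕ} (c : k)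
    (ω : Ω[modularFunctionFieldFullC k N⁄k]) : psi k N (c • ω) = HahnSeries.C c * psi k N ω := by
  rw [← algebraMap_smul (modularFunctionFieldFullC k N) c ω, map_smul]
  show ((algebraMap k (modularFunctionFieldFullC k N) c : modularFunctionFieldFullC k N) :
    LaurentSeries k) * _ = _
  rw [show ((algebraMap k (modularFunctionFieldFullC k N) c : modularFunctionFieldFullC k N) :
    LaurentSeries k) = HahnSeries.C c from algebraMap_laurentSeries_eq_single k c]

/-- In characteristic `p` a function with all orders divisible by `p` has a regular logarithmic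
differential. -/
private theorem dlog_regular_gen {K F : Type*} [Field K] [Field F] [Algebra K F] [IsAlgClosed K]
    [FF.IsFF K F] (p : ℕ) [CharP K p] (f : F) (hf : f ≠ 0)
    (hord : ∀ v : Place K F, (p : ℤ) ∣ v.ord f) :
    f⁻¹ • KaehlerDifferential.D K _ f ∈ FF.differentialsGE (0 : Divisor K F) := by
  rw [FF.mem_differentialsGE_iff]
  rcases eq_or_ne (f⁻¹ • KaehlerDifferential.D K _ f) 0 with h0 | h0
  · exact Or.inl h0
  refine Or.inr fun v => ?_
  obtain ⟨π, hπ⟩ := IsDiscreteValuationRing.exists_irreducible v.toValuationSubring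
  have hπ1 := v.ord_coe_irreducible hπ
  set t : F := (π : F)
  have ht : t ≠ 0 := fun e => by rw [e, v.ord_zero] at hπ1; exact zero_ne_one hπ1
  obtain ⟨m, hm⟩ := hord v
  set u := f / (t ^ m) ^ p with hu
  have htm : (t ^ m) ^ p ≠ 0 := pow_ne_zero _ (zpow_ne_zero _ ht)
  have hu0 : u ≠ 0 := div_ne_zero hf htm
  have hfu : f = (t ^ m) ^ p * u := by rw [hu]; field_simp
  have hDp : KaehlerDifferential.D K _ ((t ^ m) ^ p) = 0 := by
    rw [Derivation.leibniz_pow, ← Nat.cast_smul_eq_nsmul K, CharP.cast_eq_zero, zero_smul]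
  have hω : f⁻¹ • KaehlerDifferential.D K _ f = u⁻¹ • KaehlerDifferential.D K _ u := by
    conv_lhs => rw [hfu]
    rw [Derivation.leibniz, hDp, smul_zero, add_zero, smul_smul, mul_inv_rev, mul_assoc,
      inv_mul_cancel₀ htm, mul_one]
  have hordu : v.ord u = 0 := by
    rw [hu, div_eq_mul_inv, v.ord_mul hf (inv_ne_zero htm), v.ord_inv, FF.ord_pow, v.ord_zpow,
      hπ1, hm]
    ring
  have hDu : KaehlerDifferential.D K _ u ≠ 0 := fun e => h0 (by rw [hω, e, smul_zero])
  rw [Finsupp.zero_apply, hω, FF.ordDifferential_smul_of_ne_zero v (inv_ne_zero hu0) hDu,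
    v.ord_inv, hordu]
  have := FF.ordDifferential_D_nonneg v (f := u) hordu.ge
  omega

/-- The residue field only enters through the two inputs `hreg` and `hgenus`. -/
private theorem exists_redComb_eq_qDlog_gen {k : Type*} [Field k] [IsAlgClosed k] {N p : ℕ}
    [NeZero N] [Fact p.Prime] [CharP k p] [FF.IsFF k (modularFunctionFieldFullC k N)]
    {ι : Type} [Fintype ι] (b : Module.Basis ι ℤ ↥(intLattice N 2))
    (hreg : ∀ g : ↥(intLattice N 2), ∃ ω ∈ FF.differentialsGE
      (0 : Divisor k (modularFunctionFieldFullC k N)),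
      psi k N ω = coeffMap (Int.castRingHom k) (formSeries N g))
    (hgenus : genusFF k (modularFunctionFieldFullC k N) ≤
      Module.finrank ℂ (CuspForm (Gamma0 N) 2))
    (f : modularFunctionFieldFullC k N) (hf : f ≠ 0)
    (hord : ∀ v : Place k (modularFunctionFieldFullC k N), (p : ℤ) ∣ v.ord f) :
    ∃ c : ι → k, redComb b 1 c = qDlog (f : LaurentSeries k) := by
  choose ω hω hψ using fun i => hreg (b i)
  have hsum : ∀ c : ι → k, psi k N (∑ i, c i • ω i) = redComb b 1 c := fun c => by
    rw [map_sum]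
    refine Finset.sum_congr rfl fun i _ => ?_
    rw [psi_smul_const_gen, hψ, latAct, map_one, Module.End.one_apply]
    rfl
  let w : ι → ↥(FF.differentialsGE (0 : Divisor k (modularFunctionFieldFullC k N))) :=
    fun i => ⟨ω i, hω i⟩
  have hli : LinearIndependent k w := by
    rw [Fintype.linearIndependent_iff]
    intro c hc i
    have h : ∑ i, c i • ω i = 0 := by
      have := congrArg Subtype.val hc
      simp only [w, AddSubmonoidClass.coe_finsetSum, SetLike.val_smul,
        ZeroMemClass.coe_zero] at this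
      exact this
    refine congrFun (redComb_eq_zero (b := b) (p := p) c ?_) i
    rw [← hsum, h, map_zero]
  have hle : genusFF k (modularFunctionFieldFullC k N) ≤ Fintype.card ι :=
    hgenus.trans (finrank_cuspForm_le_card (b := b))
  have hspan : Submodule.span k (Set.range w) = ⊤ :=
    hli.span_eq_top_of_card_eq_finrank' (le_antisymm hli.fintype_card_le_finrank
      (by rw [FF.finrank_differentialsGE_zero]; exact hle))
  obtain ⟨c, hc⟩ := (Submodule.mem_span_range_iff_exists_fun k).mp
    (hspan ▸ Submodule.mem_top : (⟨_, dlog_regular_gen p f hf hord⟩ :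
      ↥(FF.differentialsGE (0 : Divisor k (modularFunctionFieldFullC k N)))) ∈ _)
  refine ⟨c, ?_⟩
  have h := congrArg Subtype.val hc
  simp only [w, AddSubmonoidClass.coe_finsetSum, SetLike.val_smul] at h
  rw [← hsum, h, psi_smul_D, qDlog, div_eq_inv_mul]
  rfl

end Generic

section Residue

variable {N p : ℕ} [NeZero N] [Fact p.Prime] (A : ValuationSubring Qb)

local notation "kA" => IsLocalRing.ResidueField A

omit [NeZero N] in
theorem psi_smul_const (c : kA) (ω : Ω[modularFunctionFieldFullC kA N⁄kA]) :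
    psi kA N (c • ω) = HahnSeries.C c * psi kA N ω :=
  psi_smul_const_gen c ω

theorem dlog_regular (hA : A.LiesOverPrime p) (hpN : ¬ p ∣ N)
    (f : modularFunctionFieldFullC kA N) (hf : f ≠ 0)
    (hord : ∀ v : Place kA (modularFunctionFieldFullC kA N), (p : ℤ) ∣ v.ord f) :
    haveI := GalCommon.isAlgClosed_residueField A (Fact.out : p.Prime) hA
    haveI := Reduction.isFF_fullC_residue N A hA hpN
    f⁻¹ • KaehlerDifferential.D kA _ f ∈
      FF.differentialsGE (0 : Divisor kA (modularFunctionFieldFullC kA N)) := by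
  haveI := GalCommon.isAlgClosed_residueField A (Fact.out : p.Prime) hA
  haveI := GalCommon.charP_residueField (Fact.out : p.Prime) hA
  haveI := Reduction.isFF_fullC_residue N A hA hpN
  exact dlog_regular_gen p f hf hord

/-- Without residues the logarithmic derivative is the reduction of a cusp form. -/
theorem exists_redComb_eq_qDlog (hA : A.LiesOverPrime p) (hpN : ¬ p ∣ N) (hp5 : 5 ≤ p)
    {ι : Type} [Fintype ι] (b : Module.Basis ι ℤ ↥(intLattice N 2))
    (f : modularFunctionFieldFullC kA N) (hf : f ≠ 0)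
    (hord : ∀ v : Place kA (modularFunctionFieldFullC kA N), (p : ℤ) ∣ v.ord f) :
    ∃ c : ι → kA, redComb b 1 c = qDlog (f : LaurentSeries kA) := by
  haveI := GalCommon.isAlgClosed_residueField A (Fact.out : p.Prime) hA
  haveI := GalCommon.charP_residueField (Fact.out : p.Prime) hA
  haveI := Reduction.isFF_fullC_residue N A hA hpN
  refine exists_redComb_eq_qDlog_gen b (exists_regular_reduction A hA hpN hp5) ?_ f hf hord
  refine le_trans (Reduction.genusFF_fullC_residue_le N A hA hpN) (le_of_eq ?_)
  rw [ModularDiff.finrank_cuspForm_eq_genusFF]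
  exact_mod_cast (ModularPlaces.genusFF_bar N).trans (ModularPlaces.genusFF_FC N).symm

/-- The main statement. -/
theorem isResiduallyModularOfLevel_of_qDlog_aux (W : WeierstrassCurve ℤ) (hA : A.LiesOverPrime p)
    (hp5 : 5 ≤ p) (hpN : ¬ p ∣ N) (f : modularFunctionFieldFullC kA N)
    (hord : ∀ v : Place kA (modularFunctionFieldFullC kA N), (p : ℤ) ∣ v.ord f)
    (hθ : qTheta (f : LaurentSeries kA) ≠ 0)
    (heig : ∀ ℓ : ℕ, ℓ.Prime → W.IsGoodPrimeFor ℓ → ¬ ℓ ∣ N → ℓ ≠ p →
      IsHeckeEigen (qDlog (f : LaurentSeries kA)) ℓ (W.apOfModel ℓ)) :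
    W.IsResiduallyModularOfLevel p N := by
  haveI := GalCommon.charP_residueField (Fact.out : p.Prime) hA
  haveI := intLattice.moduleFinite N
  haveI := intLattice.moduleFree N
  set b := Module.Free.chooseBasis ℤ ↥(intLattice N 2)
  have hf : f ≠ 0 := fun e => hθ (by rw [e]; exact qTheta_zero)
  have hfs : (f : LaurentSeries kA) ≠ 0 := fun e => hf (Subtype.ext e)
  have hc := exists_redComb_eq_qDlog A hA hpN hp5 b f hf hord
  have hs : qDlog (f : LaurentSeries kA) ≠ 0 := div_ne_zero hθ hfs
  set G : Set (Reps.TZ N) := {t | ∃ (ℓ : ℕ) (hℓ : ℓ.Prime) (hℓN : ¬ ℓ ∣ N),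
    W.IsGoodPrimeFor ℓ ∧ ℓ ≠ p ∧ t = Reps.heckeTOf hℓ hℓN}
  obtain ⟨χ, hχ⟩ := exists_system (b := b) hs hc G fun t ⟨ℓ, hℓ, hℓN, hg, hne, e⟩ =>
    ⟨_, e ▸ isEigenOn_T hℓ hℓN _ (heig ℓ hℓ hg hℓN hne)⟩
  refine isResiduallyModularOfLevel_of_hom W (Subring.closure G) χ fun ℓ hℓ hℓN hg hne => ?_
  have hmem : Reps.heckeTOf hℓ hℓN ∈ G := ⟨ℓ, hℓ, hℓN, hg, hne, rfl⟩
  exact ⟨Subring.subset_closure hmem,
    (hχ ⟨_, Subring.subset_closure hmem⟩).unique hs hc
      (isEigenOn_T hℓ hℓN _ (heig ℓ hℓ hg hℓN hne))⟩

end Residue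

end FLTAgent.MazurP
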