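import Fermat.Agent.MazurP.Residual
import Fermat.Agent.Reduction.InputsTower
import Fermat.Agent.Kronecker.Inputs

/-!
# Classes in the isotypic part as functions

A class killed by `p` is a divisor `D` with `p D = div f` (`exists_fun_of_nsmul_eq_zero`); if
Galois fixes the class it moves `f` by a constant and a `p`-th power (`exists_galois_smul_eq`).
`levelIncl` is the inclusion of function fields in a larger level. An element fixing `E[p]` fixes
the classes of an `EigenPart` (`EigenPart.fixed`) and the `p`-th roots of unity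
(`apply_zeta_of_fixesTorsion`, by the Weil pairing determinant).
-/

set_option autoImplicit false
set_option linter.style.haveILetI false
set_option maxHeartbeats 800000

noncomputable section

open AlgebraicCurve ModularCurve
open scoped Classical

namespace FLTAgent.MazurP

open FLTAgent.Reduction (divOf)

local notation "Qb" => AlgebraicClosure ℚ
local notation "Γℚ" => (AlgebraicClosure ℚ ≃ₐ[ℚ] AlgebraicClosure ℚ)

variable {N : ℕ} [NeZero N]

theorem exists_smul_of_ord_eq {g g' : modularFunctionFieldBar N} (hg : g ≠ 0) (hg' : g' ≠ 0)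
    (h : ∀ Q : Place Qb (modularFunctionFieldBar N), Q.ord g = Q.ord g') :
    ∃ c : Qb, g = algebraMap Qb _ c * g' := by
  obtain ⟨c, hc⟩ := (Reduction.curveData_bar N).const (g * g'⁻¹) fun Q => by
    rw [Q.ord_mul hg (inv_ne_zero hg'), Q.ord_inv, h Q]
    omega
  exact ⟨c, by rw [hc, mul_assoc, inv_mul_cancel₀ hg', mul_one]⟩

/-- A class killed by `p` is a divisor `D` with `p D = div f`. -/
theorem exists_fun_of_nsmul_eq_zero {z : JZero N} {p : ℕ} (hz : p • z = 0) :
    ∃ (D : Divisor.degZero (K := Qb) (F := modularFunctionFieldBar N))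
      (f : modularFunctionFieldBar N), Pic0.mk D = z ∧ f ≠ 0 ∧
      ∀ v, v.ord f = (p : ℤ) * (D : Divisor Qb (modularFunctionFieldBar N)) v := by
  obtain ⟨D, rfl⟩ := Pic0.mk_surjective z
  have h : Pic0.mk (p • D) = 0 := hz
  obtain ⟨f, hf, hfd⟩ := AddSubgroup.mem_addSubgroupOf.mp ((QuotientAddGroup.eq_zero_iff _).mp h)
  refine ⟨D, f, rfl, hf, fun v => ?_⟩
  rw [← hfd v]
  simp

/-- A divisor all of whose entries are divisible by `p`. -/
theorem exists_div_eq {p : ℕ} (hp : p ≠ 0) {f : modularFunctionFieldBar N} (hf : f ≠ 0)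
    (h : ∀ v : Place Qb (modularFunctionFieldBar N), (p : ℤ) ∣ v.ord f) :
    ∃ D : Divisor Qb (modularFunctionFieldBar N), Divisor.degree D = 0 ∧
      ∀ v, v.ord f = (p : ℤ) * D v := by
  have hC := Reduction.curveData_bar N
  let D : Divisor Qb (modularFunctionFieldBar N) :=
    (divOf f).mapRange (fun n : ℤ => n / (p : ℤ)) (Int.zero_ediv _)
  have hD : ∀ v, v.ord f = (p : ℤ) * D v := fun v => by
    rw [Finsupp.mapRange_apply, hC.divOf_apply, Int.mul_ediv_cancel' (h v)]
  refine ⟨D, ?_, hD⟩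
  have h0 : (divOf f : Divisor Qb (modularFunctionFieldBar N)) = (p : ℤ) • D :=
    Finsupp.ext fun v => by rw [hC.divOf_apply, hD v, Finsupp.smul_apply, smul_eq_mul]
  have h1 := hC.degree_divOf f
  rw [h0, map_zsmul, smul_eq_mul, mul_eq_zero] at h1
  exact h1.resolve_left (by exact_mod_cast hp)

/-- A fixed class on functions. -/
theorem exists_galois_smul_eq {p : ℕ} {D : Divisor.degZero (K := Qb) (F := modularFunctionFieldBar N)}
    {f : modularFunctionFieldBar N} (hf : f ≠ 0)
    (hdiv : ∀ v, v.ord f = (p : ℤ) * (D : Divisor Qb (modularFunctionFieldBar N)) v) {τ : Γℚ}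
    (h : τ • (Pic0.mk D : JZero N) = Pic0.mk D) :
    ∃ (c : Qb) (u : modularFunctionFieldBar N), u ≠ 0 ∧
      arithmeticGalois (modularFunctionFieldFull N) τ • f = algebraMap Qb _ c * (f * u ^ p) := by
  set g := arithmeticGalois (modularFunctionFieldFull N) τ with hgdef
  haveI := Kronecker.isFF_bar N
  rw [galois_smul_pic0_def, SemilinearAut.pic0_smul_mk, ← hgdef] at h
  obtain ⟨u, hu, hud⟩ := AddSubgroup.mem_addSubgroupOf.mp
    ((QuotientAddGroup.eq_iff_sub_mem).mp h)
  have hgf : g • f ≠ 0 := (smul_ne_zero_iff_ne _).mpr hf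
  obtain ⟨c, hc⟩ := exists_smul_of_ord_eq hgf (mul_ne_zero hf (pow_ne_zero p hu)) fun Q => by
    have hQ : Q.ord (g • f) =
        (p : ℤ) * (g • (D : Divisor Qb (modularFunctionFieldBar N))) Q := by
      rw [SemilinearAut.divisor_smul_apply, ← hdiv, ← SemilinearAut.ord_smul g (g⁻¹ • Q) f,
        smul_inv_smul]
    rw [hQ, Q.ord_mul hf (pow_ne_zero p hu), hdiv, FF.ord_pow, ← hud Q]
    simp only [AddSubgroupClass.coe_sub, SemilinearAut.coe_degZeroSMulHom, Finsupp.sub_apply]
    ring
  exact ⟨c, u, hu, hc⟩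

/-- The inclusion of the level. -/
def levelIncl {N' : ℕ} [NeZero N'] (h : N ∣ N') :
    modularFunctionFieldBar N →ₐ[Qb] modularFunctionFieldBar N' :=
  IntermediateField.inclusion (Reduction.bar_le h)

theorem coe_levelIncl {N' : ℕ} [NeZero N'] (h : N ∣ N') (y : modularFunctionFieldBar N) :
    (levelIncl h y : LaurentSeries Qb) = y := IntermediateField.coe_inclusion _ y

theorem levelIncl_galois {N' : ℕ} [NeZero N'] (h : N ∣ N') (σ : Γℚ)
    (y : modularFunctionFieldBar N) :
    levelIncl h (arithmeticGalois (modularFunctionFieldFull N) σ • y) =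
      arithmeticGalois (modularFunctionFieldFull N') σ • levelIncl h y := by
  refine Subtype.ext ((coe_levelIncl h _).trans ?_)
  show coeffMap (σ : Qb →+* Qb) (y : LaurentSeries Qb) =
    coeffMap (σ : Qb →+* Qb) (levelIncl h y : LaurentSeries Qb)
  rw [coe_levelIncl]

/-- `τ` fixes the classes of the isotypic part if it fixes `E[p]`. -/
theorem EigenPart.fixed {W : WeierstrassCurve ℤ} {p : ℕ} (E : EigenPart W p N) {τ : Γℚ}
    (h : FixesTorsion W p τ) {z : JZero N} (hz : z ∈ E.S) : τ • z = z := by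
  have h1 := E.rel (Finsupp.single τ 1 + Finsupp.single 1 (-1)) (fun x hx => ?_) z hz
  · rw [Finsupp.sum_add_index' (by simp) (fun _ _ _ => add_zsmul _ _ _),
      Finsupp.sum_single_index (by simp), Finsupp.sum_single_index (by simp), one_smul,
      neg_smul, one_smul, one_smul, add_neg_eq_zero] at h1
    exact h1
  · rw [Finsupp.sum_add_index' (by simp) (fun _ _ _ => add_zsmul _ _ _),
      Finsupp.sum_single_index (by simp), Finsupp.sum_single_index (by simp), one_smul,
      neg_smul, one_smul, one_smul, add_neg_eq_zero]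
    exact h x hx

/-- An element fixing `E[p]` fixes the `p`-th roots of unity. -/
theorem apply_zeta_of_fixesTorsion {W : WeierstrassCurve ℤ} (hΔ0 : W.Δ ≠ 0) {p : ℕ} [Fact p.Prime]
    {τ : Γℚ} (h : FixesTorsion W p τ) {ζ : Qb} (hζ : IsPrimitiveRoot ζ p) : τ ζ = ζ := by
  have hp : p.Prime := Fact.out
  haveI : NeZero p := ⟨hp.ne_zero⟩
  obtain ⟨a, -, ha⟩ := hζ.eq_pow_of_pow_eq_one (ξ := τ ζ)
    (by rw [← map_pow, hζ.pow_eq_one, map_one])
  have hspec : ∀ t : Qb, t ^ p = 1 → τ t = t ^ a := by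
    intro t ht
    obtain ⟨i, -, rfl⟩ := hζ.eq_pow_of_pow_eq_one ht
    rw [map_pow, ← ha, ← pow_mul, ← pow_mul, mul_comm]
  have h1 : modRep W p τ = 1 := LinearMap.ext fun x => Subtype.ext (by
    rw [coe_modRep, Module.End.one_apply]
    exact h x.1 (by rw [← natCast_zsmul]; exact (Submodule.mem_torsionBy_iff _ _).mp x.2))
  have h2 : modDet W p τ = 1 := by rw [modDet, MonoidHom.comp_apply, h1, map_one]
  rw [modDet_eq_of_spec hΔ0 hspec, ← Nat.cast_one, ZMod.natCast_eq_natCast_iff] at h2
  rw [← ha, ← pow_one ζ]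
  rw [pow_one]
  nth_rewrite 2 [← pow_one ζ]
  exact pow_eq_pow_of_modEq h2 hζ.pow_eq_one

end FLTAgent.MazurP
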