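import Fermat.Agent.MazurP.Defs
import Fermat.Agent.Kronecker.CoeffGalois
import Fermat.Prelude.Def_ModularCurve_X0ModL

/-!
# Logarithmic derivatives of Laurent series

Algebra of `qTheta` and `qDlog` (sums, products, powers, substitution `q ↦ q^ℓ`, twists by
roots of unity) and the coefficient form `heckeCoeff` of `T_ℓ` in weight two.
`qDlog_norm_coeff`: the logarithmic derivative of `f(q^(ℓ²)) ∏_b f(ζ^b q)` has at `ℓ n` the
coefficient of `T_ℓ` applied to that of `f`.
-/

set_option autoImplicit false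

noncomputable section

open ModularCurve Finset

namespace FLTAgent.MazurP

open FLTAgent.Kronecker (twist)

section Ring

variable {R S : Type*} [CommRing R] [CommRing S]

theorem qTheta_add (x y : LaurentSeries R) : qTheta (x + y) = qTheta x + qTheta y := by
  ext n; simp [mul_add]

theorem qTheta_sub (x y : LaurentSeries R) : qTheta (x - y) = qTheta x - qTheta y := by
  ext n; simp [mul_sub]

theorem qTheta_zero : qTheta (0 : LaurentSeries R) = 0 := by
  ext n; simp

theorem qTheta_single (m : ℤ) (r : R) :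
    qTheta (HahnSeries.single m r) = HahnSeries.single m ((m : R) * r) := by
  ext n
  rcases eq_or_ne n m with rfl | h
  · simp
  · simp [HahnSeries.coeff_single_of_ne h]

theorem qTheta_mul (x y : LaurentSeries R) :
    qTheta (x * y) = x * qTheta y + y * qTheta x := by
  have hsub : ∀ z : LaurentSeries R, (qTheta z).support ⊆ z.support := fun z n hn h0 =>
    hn (by rw [qTheta_coeff, show z.coeff n = 0 from h0, mul_zero])
  ext n
  rw [qTheta_coeff, HahnSeries.coeff_mul, HahnSeries.coeff_add, mul_comm y (qTheta x),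
    HahnSeries.coeff_mul_right' y.isPWO_support (hsub y),
    HahnSeries.coeff_mul_left' x.isPWO_support (hsub x), mul_sum, ← sum_add_distrib]
  refine sum_congr rfl fun ij hij => ?_
  obtain ⟨-, -, h⟩ := mem_antidiagonal.mp hij
  rw [qTheta_coeff, qTheta_coeff, ← h, Int.cast_add]
  ring

theorem coeffMap_qTheta (f : R →+* S) (x : LaurentSeries R) :
    coeffMap f (qTheta x) = qTheta (coeffMap f x) := by
  ext n; simp

theorem qTheta_qExpand (ℓ : ℕ) [NeZero ℓ] (x : LaurentSeries R) :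
    qTheta (qExpand R ℓ x) = (ℓ : LaurentSeries R) * qExpand R ℓ (qTheta x) := by
  ext n
  rw [← nsmul_eq_mul, HahnSeries.coeff_smul, qTheta_coeff, nsmul_eq_mul]
  by_cases h : (ℓ : ℤ) ∣ n
  · obtain ⟨m, rfl⟩ := h
    rw [qExpand_coeff_mul, qExpand_coeff_mul, qTheta_coeff]
    push_cast; ring
  · rw [qExpand_coeff_of_not_dvd ℓ x h, qExpand_coeff_of_not_dvd ℓ _ h, mul_zero, mul_zero]

theorem qTheta_twist (u : Rˣ) (x : LaurentSeries R) :
    qTheta (twist u x) = twist u (qTheta x) := by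
  ext n
  simp only [qTheta_coeff, Kronecker.twist_coeff]
  ring

/-- The coefficient form of `T_ℓ` in weight two. -/
def heckeCoeff (ℓ : ℕ) (c : LaurentSeries R) (n : ℤ) : R :=
  c.coeff ((ℓ : ℤ) * n) + if (ℓ : ℤ) ∣ n then (ℓ : R) * c.coeff (n / (ℓ : ℤ)) else 0

theorem heckeCoeff_add (ℓ : ℕ) (c d : LaurentSeries R) (n : ℤ) :
    heckeCoeff ℓ (c + d) n = heckeCoeff ℓ c n + heckeCoeff ℓ d n := by
  simp only [heckeCoeff, HahnSeries.coeff_add]
  split_ifs <;> ring

theorem heckeCoeff_sub (ℓ : ℕ) (c d : LaurentSeries R) (n : ℤ) :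
    heckeCoeff ℓ (c - d) n = heckeCoeff ℓ c n - heckeCoeff ℓ d n := by
  simp only [heckeCoeff, HahnSeries.coeff_sub]
  split_ifs <;> ring

theorem heckeCoeff_zsmul (ℓ : ℕ) (m : ℤ) (c : LaurentSeries R) (n : ℤ) :
    heckeCoeff ℓ (m • c) n = m • heckeCoeff ℓ c n := by
  simp only [heckeCoeff, HahnSeries.coeff_smul]
  simp only [zsmul_eq_mul]
  split_ifs <;> ring

theorem heckeCoeff_smul (ℓ : ℕ) (r : R) (c : LaurentSeries R) (n : ℤ) :
    heckeCoeff ℓ (r • c) n = r * heckeCoeff ℓ c n := by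
  simp only [heckeCoeff, HahnSeries.coeff_smul, smul_eq_mul]
  split_ifs <;> ring

end Ring

section Field

variable {k : Type*} [Field k]

theorem qTheta_one : qTheta (1 : LaurentSeries k) = 0 := by
  rw [show (1 : LaurentSeries k) = HahnSeries.single 0 1 from rfl, qTheta_single]
  simp

theorem qDlog_mul {x y : LaurentSeries k} (hx : x ≠ 0) (hy : y ≠ 0) :
    qDlog (x * y) = qDlog x + qDlog y := by
  rw [qDlog, qDlog, qDlog, qTheta_mul]
  field_simp
  ring

theorem qDlog_one : qDlog (1 : LaurentSeries k) = 0 := by rw [qDlog, qTheta_one, zero_div]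

theorem qDlog_zero : qDlog (0 : LaurentSeries k) = 0 := by rw [qDlog, div_zero]

theorem qDlog_inv (x : LaurentSeries k) : qDlog x⁻¹ = -qDlog x := by
  rcases eq_or_ne x 0 with rfl | hx
  · rw [inv_zero, qDlog_zero, neg_zero]
  · refine eq_neg_of_add_eq_zero_left ?_
    rw [← qDlog_mul (inv_ne_zero hx) hx, inv_mul_cancel₀ hx, qDlog_one]

theorem qDlog_div {x y : LaurentSeries k} (hx : x ≠ 0) (hy : y ≠ 0) :
    qDlog (x / y) = qDlog x - qDlog y := by
  rw [div_eq_mul_inv, qDlog_mul hx (inv_ne_zero hy), qDlog_inv, sub_eq_add_neg]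

theorem qDlog_pow {x : LaurentSeries k} (hx : x ≠ 0) (n : ℕ) : qDlog (x ^ n) = n • qDlog x := by
  induction n with
  | zero => rw [pow_zero, qDlog_one, zero_smul]
  | succ n ih => rw [pow_succ, qDlog_mul (pow_ne_zero n hx) hx, ih, succ_nsmul]

theorem qDlog_zpow {x : LaurentSeries k} (hx : x ≠ 0) (n : ℤ) : qDlog (x ^ n) = n • qDlog x := by
  obtain ⟨m, rfl | rfl⟩ := n.eq_nat_or_neg
  · rw [zpow_natCast, qDlog_pow hx, natCast_zsmul]
  · rw [zpow_neg, zpow_natCast, qDlog_inv, qDlog_pow hx, neg_zsmul, natCast_zsmul]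

theorem qDlog_prod {ι : Type*} (s : Finset ι) (x : ι → LaurentSeries k) (h : ∀ i ∈ s, x i ≠ 0) :
    qDlog (∏ i ∈ s, x i) = ∑ i ∈ s, qDlog (x i) := by
  classical
  induction s using Finset.induction with
  | empty => simp [qDlog_one]
  | insert i s hi ih =>
    rw [prod_insert hi, sum_insert hi, qDlog_mul (h i (by simp))
      (prod_ne_zero_iff.mpr fun j hj => h j (by simp [hj])), ih fun j hj => h j (by simp [hj])]

theorem qDlog_C (c : k) : qDlog (HahnSeries.C c) = 0 := by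
  rw [qDlog, HahnSeries.C_apply, qTheta_single]
  simp

theorem qDlog_pow_char (p : ℕ) [CharP k p] (x : LaurentSeries k) (hp : p ≠ 0) :
    qDlog (x ^ p) = 0 := by
  rcases eq_or_ne x 0 with rfl | hx
  · rw [zero_pow hp, qDlog_zero]
  · rw [qDlog_pow hx]
    ext n
    simp

theorem qTheta_eq_mul_qDlog {x : LaurentSeries k} (hx : x ≠ 0) : qTheta x = x * qDlog x := by
  rw [qDlog, mul_div_cancel₀ _ hx]

theorem twist_ne_zero (u : kˣ) {x : LaurentSeries k} (hx : x ≠ 0) : twist u x ≠ 0 :=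
  fun h => hx ((map_eq_zero (twist u)).mp h)

theorem qDlog_qExpand (ℓ : ℕ) [NeZero ℓ] (x : LaurentSeries k) :
    qDlog (qExpand k ℓ x) = (ℓ : LaurentSeries k) * qExpand k ℓ (qDlog x) := by
  rw [qDlog, qDlog, qTheta_qExpand, map_div₀, mul_div_assoc]

theorem qDlog_twist (u : kˣ) (x : LaurentSeries k) :
    qDlog (twist u x) = twist u (qDlog x) := by
  rw [qDlog, qDlog, qTheta_twist, map_div₀]

/-- The logarithmic derivative of the norm product is `T_ℓ` of the logarithmic derivative. -/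
theorem qDlog_norm_coeff (ℓ : ℕ) [NeZero ℓ] (hℓ : (ℓ : k) ≠ 0) (ζ : kˣ) (hζ : ζ ^ ℓ = 1)
    {y Z : LaurentSeries k} (hy : y ≠ 0)
    (h : qExpand k ℓ Z = qExpand k ℓ (qExpand k ℓ y) * ∏ b : Fin ℓ, twist (ζ ^ (b : ℕ)) y)
    (n : ℤ) : (qDlog Z).coeff n = heckeCoeff ℓ (qDlog y) n := by
  have hne : qExpand k ℓ (qExpand k ℓ y) ≠ 0 := by simp [map_eq_zero, hy]
  have hne' : ∀ b ∈ (univ : Finset (Fin ℓ)), twist (ζ ^ (b : ℕ)) y ≠ 0 :=
    fun b _ => twist_ne_zero _ hy
  have key := congrArg (fun x : LaurentSeries k => (qDlog x).coeff ((ℓ : ℤ) * n)) h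
  rw [qDlog_mul hne (prod_ne_zero_iff.mpr hne'), qDlog_prod _ _ hne', qDlog_qExpand,
    qDlog_qExpand, qDlog_qExpand, map_mul, map_natCast] at key
  simp only [HahnSeries.coeff_add, HahnSeries.coeff_sum, ← nsmul_eq_mul, HahnSeries.coeff_smul,
    qDlog_twist, Kronecker.twist_coeff] at key
  have hone : ∀ b : Fin ℓ, (((ζ ^ (b : ℕ)) ^ ((ℓ : ℤ) * n) : kˣ) : k) = 1 := fun b => by
    rw [zpow_mul, zpow_natCast, ← pow_mul, mul_comm (b : ℕ), pow_mul, hζ, one_pow, one_zpow,
      Units.val_one]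
  simp only [hone, one_mul, sum_const, card_univ, Fintype.card_fin, nsmul_eq_mul] at key
  rw [← mul_add, qExpand_coeff_mul ℓ, qExpand_coeff_mul ℓ] at key
  rw [mul_left_cancel₀ hℓ key, heckeCoeff, add_comm]
  congr 1
  by_cases hn : (ℓ : ℤ) ∣ n
  · obtain ⟨m, rfl⟩ := hn
    rw [qExpand_coeff_mul, if_pos (dvd_mul_right _ _),
      Int.mul_ediv_cancel_left _ (Int.natCast_ne_zero.mpr (NeZero.ne ℓ))]
  · rw [qExpand_coeff_of_not_dvd ℓ _ hn, if_neg hn, mul_zero]

end Field

end FLTAgent.MazurP
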