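import Mathlib
import Fermat.Agent.Reps.Dickson

/-!
# Algebra for the residual representation

`exists_mod_eigvec`: a mod `p` system of a commutative ring acting faithfully on `ℤ^r` has an
eigenvector mod `p` (Cayley-Hamilton and an element killed by a proper ideal of a finite ring).
`relations_of_quadratic`: the two dimensional Boston-Lenstra-Ribet argument: an action satisfying
the quadratic relations of `ρ` satisfies all linear relations of `ρ` once a commutator of `ρ`
squares to a nonzero scalar.
-/

set_option autoImplicit false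

noncomputable section

open Matrix

namespace FLTAgent.MazurP

/-- A proper ideal of a finite commutative ring is killed by a nonzero element. -/
theorem exists_ne_zero_annihilated {R : Type*} [CommRing R] [Finite R] {I : Ideal R} (hI : I ≠ ⊤) :
    ∃ y : R, y ≠ 0 ∧ ∀ t ∈ I, y * t = 0 := by
  have : Finite (Ideal R) := Finite.of_injective (fun J : Ideal R => (J : Set R)) SetLike.coe_injective
  obtain ⟨i, j, hij, heq⟩ : ∃ i j : ℕ, i < j ∧ I ^ i = I ^ j := by
    obtain ⟨i, j, hne, heq⟩ := Finite.exists_ne_map_eq_of_infinite fun n : ℕ => I ^ n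
    rcases lt_or_gt_of_ne hne with h | h
    · exact ⟨i, j, h, heq⟩
    · exact ⟨j, i, h, heq.symm⟩
  have hs : I ^ (i + 1) = I ^ i :=
    le_antisymm (Ideal.pow_le_pow_right i.le_succ) (heq.le.trans (Ideal.pow_le_pow_right hij))
  have hstab : ∀ k, I ^ (i + k) = I ^ i := by
    intro k
    induction k with
    | zero => rfl
    | succ k ih => rw [← add_assoc, pow_succ, ih, ← pow_succ, hs]
  have hidem : IsIdempotentElem (I ^ (i + 1)) := by
    show I ^ (i + 1) * I ^ (i + 1) = I ^ (i + 1)
    rw [← pow_add, hstab 1, show i + 1 + (i + 1) = i + (i + 2) by ring, hstab]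
  obtain ⟨e, he, heI⟩ := (Ideal.isIdempotentElem_iff_of_fg _ (IsNoetherian.noetherian _)).mp hidem
  have he1 : e ∈ I := Ideal.pow_le_self i.succ_ne_zero (heI ▸ Ideal.mem_span_singleton_self e)
  have hy0 : (1 : R) - e ≠ 0 := fun h => hI ((Ideal.eq_top_iff_one I).mpr (sub_eq_zero.mp h ▸ he1))
  have htop : ∀ t ∈ I ^ (i + 1), (1 - e) * t = 0 := by
    intro t ht
    rw [heI, Submodule.mem_span_singleton] at ht
    obtain ⟨s, rfl⟩ := ht
    rw [smul_eq_mul, sub_mul, one_mul, mul_left_comm, he.eq, sub_self]
  classical
  have hex : ∃ n, ∀ t ∈ I ^ n, (1 - e) * t = 0 := ⟨_, htop⟩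
  have hpos : Nat.find hex ≠ 0 := fun h => hy0 (by
    have := Nat.find_spec hex 1 (by rw [h, pow_zero]; simp)
    rwa [mul_one] at this)
  obtain ⟨n, hn⟩ := Nat.exists_eq_succ_of_ne_zero hpos
  have hmin := Nat.find_min hex (show n < Nat.find hex by omega)
  push Not at hmin
  obtain ⟨t, ht, htne⟩ := hmin
  refine ⟨(1 - e) * t, htne, fun s hs => ?_⟩
  rw [mul_assoc]
  refine Nat.find_spec hex _ ?_
  rw [hn, pow_succ]
  exact Ideal.mul_mem_mul ht hs

/-- A mod `p` system of a commutative ring acting faithfully and integrally on `ℤ^r` has an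
eigenvector modulo `p`. -/
theorem exists_mod_eigvec {T F : Type*} [CommRing T] [Field F] {p : ℕ} [Fact p.Prime] [CharP F p]
    {r : ℕ} (τ : T →+* Matrix (Fin r) (Fin r) ℤ) (hτ : Function.Injective τ) (ψ : T →+* F) :
    ∃ v : Fin r → ZMod p, v ≠ 0 ∧
      ∀ t, ψ t = 0 → (Int.castRingHom (ZMod p)).mapMatrix (τ t) *ᵥ v = 0 := by
  classical
  let π : T →+* Matrix (Fin r) (Fin r) (ZMod p) := (Int.castRingHom (ZMod p)).mapMatrix.comp τ
  have hker : RingHom.ker π ≤ RingHom.ker ψ := by
    intro a ha
    rw [RingHom.mem_ker] at ha ⊢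
    set Q := (τ a).charpoly with hQ
    have hQa : Polynomial.aeval a Q = 0 := hτ (by
      rw [map_zero, show τ (Polynomial.aeval a Q) = Polynomial.aeval (τ a) Q from
        (Polynomial.aeval_algHom_apply τ.toIntAlgHom a Q).symm]
      exact Matrix.aeval_self_charpoly (τ a))
    have hQp : Q.map (Int.castRingHom (ZMod p)) = Polynomial.X ^ r := by
      rw [hQ, ← Matrix.charpoly_map, show (τ a).map (Int.castRingHom (ZMod p)) = 0 from ha,
        Matrix.charpoly_zero, Fintype.card_fin]
    have hQF : Q.map (Int.castRingHom F) = Polynomial.X ^ r := by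
      have h := congrArg (Polynomial.map (ZMod.castHom (dvd_refl p) F)) hQp
      rwa [Polynomial.map_map, RingHom.ext_int ((ZMod.castHom (dvd_refl p) F).comp _)
        (Int.castRingHom F), Polynomial.map_pow, Polynomial.map_X] at h
    have h0 : Polynomial.aeval (ψ a) Q = 0 := by
      rw [show Polynomial.aeval (ψ a) Q = ψ (Polynomial.aeval a Q) from
        Polynomial.aeval_algHom_apply ψ.toIntAlgHom a Q, hQa, map_zero]
    rw [Polynomial.aeval_def, algebraMap_int_eq, ← Polynomial.eval_map, hQF, Polynomial.eval_pow,
      Polynomial.eval_X] at h0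
    exact eq_zero_of_pow_eq_zero h0
  let R := T ⧸ RingHom.ker π
  have : Finite R := Finite.of_injective _ (RingHom.kerLift_injective π)
  let I : Ideal R := (RingHom.ker ψ).map (Ideal.Quotient.mk (RingHom.ker π))
  have hI : I ≠ ⊤ := by
    intro h
    have h1 := congrArg (Ideal.comap (Ideal.Quotient.mk (RingHom.ker π))) h
    rw [Ideal.comap_top, Ideal.comap_map_of_surjective _ Ideal.Quotient.mk_surjective,
      ← RingHom.ker_eq_comap_bot, Ideal.mk_ker, sup_eq_left.mpr hker] at h1
    exact RingHom.ker_ne_top ψ h1
  obtain ⟨y, hy, hyI⟩ := exists_ne_zero_annihilated hI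
  have hy' : RingHom.kerLift π y ≠ 0 := fun h =>
    hy (RingHom.kerLift_injective π (h.trans (map_zero _).symm))
  obtain ⟨w, hw⟩ : ∃ w : Fin r → ZMod p, RingHom.kerLift π y *ᵥ w ≠ 0 := by
    by_contra h
    push Not at h
    exact hy' (Matrix.toLin'.injective (LinearMap.ext fun w => by simpa using h w))
  refine ⟨_, hw, fun t ht => ?_⟩
  rw [Matrix.mulVec_mulVec, show (Int.castRingHom (ZMod p)).mapMatrix (τ t) =
      RingHom.kerLift π (Ideal.Quotient.mk _ t) from rfl, ← map_mul, mul_comm,
    hyI _ (Ideal.mem_map_of_mem _ (RingHom.mem_ker.mpr ht)), map_zero, Matrix.zero_mulVec]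

/-- Integral combinations of an action read through an equivariant additive map. -/
theorem map_linearCombination_intCast {G k V A : Type*} [CommRing k] [AddCommGroup V] [Module k V]
    [AddCommGroup A] (π : G → Module.End k V) (act : G → A → A) (j : V →+ A)
    (hj : ∀ g v, j (π g v) = act g (j v)) (c : G →₀ ℤ) (v : V) :
    j (Finsupp.linearCombination k π (c.mapRange (Int.cast : ℤ → k) Int.cast_zero) v) =
      c.sum fun g a => a • act g (j v) := by
  induction c using Finsupp.induction_linear with
  | zero => simp
  | add f g hf hg =>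
    rw [Finsupp.mapRange_add (fun a b => Int.cast_add a b), map_add, LinearMap.add_apply, map_add,
      hf, hg, Finsupp.sum_add_index' (fun _ => zero_zsmul _) (fun _ _ _ => add_zsmul _ _ _)]
  | single g a =>
    rw [Finsupp.mapRange_single, Finsupp.linearCombination_single,
      Finsupp.sum_single_index (zero_zsmul _), LinearMap.smul_apply, Int.cast_smul_eq_zsmul,
      map_zsmul, hj]

/-- The quadratic relation propagates to powers. -/
theorem quadratic_pow {k C : Type*} [CommRing k] [Ring C] [Algebra k C] {x : C} {t d : k}
    (h : x * x - algebraMap k C t * x + algebraMap k C d = 0) (n : ℕ) :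
    x ^ n * x ^ n - algebraMap k C (Reps.luc t d n) * x ^ n + algebraMap k C (d ^ n) = 0 := by
  set y := algebraMap k C t - x with hy
  have hc : Commute x y := Commute.sub_right (Algebra.commutes t x).symm (Commute.refl x)
  have hxy : x * y = algebraMap k C d := by
    rw [eq_comm, ← sub_eq_zero, ← h, hy, mul_sub, ← Algebra.commutes t x]
    abel
  have hs := Reps.pow_add_pow_eq_luc (algebraMap k C) hc (add_sub_cancel x _) hxy n
  rw [← hs, map_pow, ← hxy, hc.mul_pow, add_mul, ← (hc.pow_pow n n).eq]
  abel

theorem quadratic_congr {k C : Type*} [CommRing k] [Ring C] [Algebra k C] {x x' : C} {t t' d d' : k}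
    (hx : x' = x) (ht : t' = t) (hd : d' = d)
    (h : x * x - algebraMap k C t * x + algebraMap k C d = 0) :
    x' * x' - algebraMap k C t' * x' + algebraMap k C d' = 0 := by
  subst hx ht hd; exact h

section BLR

open Finsupp

variable {G k B C : Type*} [Group G] [Field k] [Ring B] [Algebra k B] [Ring C] [Algebra k C]
variable (ρ : G →* B) (π : G →* C) (t : G → k) (d : G →* k)

/-- The adjugate of a group element. -/
def adjAct (g : G) : C := d g • π g⁻¹

theorem adjAct_mul (a b : G) : adjAct π d (a * b) = adjAct π d b * adjAct π d a := by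
  simp only [adjAct, _root_.mul_inv_rev, map_mul, smul_mul_assoc, mul_smul_comm, smul_smul]

theorem add_adjAct_of_quadratic {g : G} {c : k}
    (h : π g * π g - algebraMap k C c * π g + algebraMap k C (d g) = 0) :
    π g + adjAct π d g = algebraMap k C c := by
  have hu : π g * π g⁻¹ = 1 := by rw [← map_mul, mul_inv_cancel, map_one]
  have h1 := congrArg (· * π g⁻¹) h
  simp only [add_mul, sub_mul, zero_mul, mul_assoc, hu, mul_one] at h1
  rw [adjAct, Algebra.smul_def, ← sub_eq_zero, ← h1]
  abel

theorem linearCombination_translate {D : Type*} [Ring D] [Algebra k D] (φ : G →* D) (a : G)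
    (f : G →₀ k) :
    linearCombination k φ (f.mapDomain (a * ·)) = φ a * linearCombination k φ f := by
  induction f using Finsupp.induction_linear with
  | zero => simp
  | add f g hf hg => rw [mapDomain_add, map_add, map_add, mul_add, hf, hg]
  | single g c => rw [mapDomain_single, linearCombination_single, linearCombination_single,
      map_mul, mul_smul_comm]

theorem adjAct_translate (a : G) (f : G →₀ k) :
    linearCombination k (adjAct π d) (f.mapDomain (a * ·)) =
      linearCombination k (adjAct π d) f * adjAct π d a := by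
  induction f using Finsupp.induction_linear with
  | zero => simp
  | add f g hf hg => rw [mapDomain_add, map_add, map_add, add_mul, hf, hg]
  | single g c => rw [mapDomain_single, linearCombination_single, linearCombination_single,
      adjAct_mul, smul_mul_assoc]

/-- The square of a commutator minus a scalar, in the group algebra. -/
def commSq (a₀ b₀ : G) (e : k) : G →₀ k :=
  single (a₀ * b₀ * (a₀ * b₀)) 1 - single (a₀ * b₀ * (b₀ * a₀)) 1 -
    single (b₀ * a₀ * (a₀ * b₀)) 1 + single (b₀ * a₀ * (b₀ * a₀)) 1 - single 1 e

theorem linearCombination_commSq {D : Type*} [Ring D] [Algebra k D] (φ : G →* D) (a₀ b₀ : G)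
    (e : k) : linearCombination k φ (commSq a₀ b₀ e) =
      (φ a₀ * φ b₀ - φ b₀ * φ a₀) * (φ a₀ * φ b₀ - φ b₀ * φ a₀) - algebraMap k D e := by
  simp only [commSq, map_sub, map_add, linearCombination_single, map_mul, map_one, one_smul,
    Algebra.algebraMap_eq_smul_one, sub_mul, mul_sub]
  abel

/-- Two dimensional Boston–Lenstra–Ribet: if `π` satisfies the quadratic relations of `ρ` and a
commutator of `ρ` squares to a nonzero scalar, then `π` satisfies all linear relations of `ρ`. -/
theorem relations_of_quadratic (h2 : (2 : k) ≠ 0)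
    (ht : ∀ f : G →₀ k, linearCombination k ρ f = 0 → linearCombination k t f = 0)
    (hπ : ∀ g, π g + adjAct π d g = algebraMap k C (t g))
    {a₀ b₀ : G} {e : k} (he : e ≠ 0)
    (hu : (ρ a₀ * ρ b₀ - ρ b₀ * ρ a₀) * (ρ a₀ * ρ b₀ - ρ b₀ * ρ a₀) = algebraMap k B e)
    {f : G →₀ k} (hf : linearCombination k ρ f = 0) : linearCombination k π f = 0 := by
  have hd : ∀ g, d g ≠ 0 := fun g => (Group.isUnit g |>.map d).ne_zero
  -- on relations the adjugate is minus the element
  have hneg : ∀ f : G →₀ k, linearCombination k ρ f = 0 →
      linearCombination k (adjAct π d) f = -linearCombination k π f := by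
    intro f hf
    have h1 : ∀ f : G →₀ k, linearCombination k π f + linearCombination k (adjAct π d) f =
        algebraMap k C (linearCombination k t f) := by
      intro f
      induction f using Finsupp.induction_linear with
      | zero => simp
      | add f g hf hg => rw [map_add, map_add, map_add, map_add, ← hf, ← hg]; abel
      | single g c =>
        rw [linearCombination_single, linearCombination_single, linearCombination_single,
          ← smul_add, hπ, smul_eq_mul, map_mul, Algebra.smul_def]
    have h := h1 f
    rw [ht f hf, map_zero] at h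
    exact eq_neg_of_add_eq_zero_right h
  have hswap : ∀ f : G →₀ k, linearCombination k ρ f = 0 → ∀ a,
      π a * linearCombination k π f = linearCombination k π f * adjAct π d a := by
    intro f hf a
    have h := hneg (f.mapDomain (a * ·)) (by rw [linearCombination_translate, hf, mul_zero])
    rw [linearCombination_translate, adjAct_translate, hneg f hf, neg_mul, neg_inj] at h
    exact h.symm
  set X := linearCombination k π f with hX
  have h3 : ∀ a b, X * adjAct π d b * adjAct π d a = X * adjAct π d a * adjAct π d b := by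
    intro a b
    calc X * adjAct π d b * adjAct π d a = X * adjAct π d (a * b) := by rw [adjAct_mul, mul_assoc]
      _ = π (a * b) * X := (hswap f hf _).symm
      _ = π a * (X * adjAct π d b) := by rw [map_mul, mul_assoc, hswap f hf b]
      _ = X * adjAct π d a * adjAct π d b := by rw [← mul_assoc, hswap f hf a]
  set U := π a₀ * π b₀ - π b₀ * π a₀ with hU
  have hXU : X * U = 0 := by
    have h := h3 b₀⁻¹ a₀⁻¹
    simp only [adjAct, inv_inv, mul_smul_comm, smul_mul_assoc, smul_smul] at h
    rw [mul_comm (d a₀⁻¹), smul_right_inj (mul_ne_zero (hd _) (hd _)), mul_assoc, mul_assoc] at h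
    rw [hU, mul_sub, h, sub_self]
  have hUX : U * X = 0 := by
    rw [hU, sub_mul, ← map_mul, ← map_mul, hswap f hf, hswap f hf, adjAct_mul, adjAct_mul,
      ← mul_assoc, ← mul_assoc, h3 a₀ b₀, sub_self]
  let q : G →₀ k := commSq a₀ b₀ e
  have hqρ : linearCombination k ρ q = 0 := by
    rw [linearCombination_commSq, hu, sub_self]
  set Q := linearCombination k π q with hQ
  have hQval : Q = U * U - algebraMap k C e := linearCombination_commSq π a₀ b₀ e
  have hswapQ : Q * X = X * linearCombination k (adjAct π d) q := by
    rw [hQ]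
    clear_value Q
    clear hQ hQval hqρ
    clear_value q
    induction q using Finsupp.induction_linear with
    | zero => simp
    | add f g hf' hg' => rw [map_add, map_add, add_mul, mul_add, hf', hg']
    | single g c => rw [linearCombination_single, linearCombination_single, smul_mul_assoc,
        mul_smul_comm, hswap f hf g]
  have hc : algebraMap k C e * X = X * algebraMap k C e := Algebra.commutes e X
  rw [hneg q hqρ, ← hQ, hQval, sub_mul, mul_assoc, hUX, mul_zero, zero_sub, mul_neg, mul_sub,
    ← mul_assoc, hXU, zero_mul, zero_sub, neg_neg, hc] at hswapQ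
  have h4 : (2 * e) • X = 0 := by
    rw [mul_smul, two_smul, Algebra.smul_def, hc]
    conv_lhs => arg 1; rw [← neg_neg (X * algebraMap k C e), ← neg_eq_iff_eq_neg.mp (hswapQ)]
    exact neg_add_cancel _
  exact (smul_eq_zero.mp h4).resolve_left (mul_ne_zero h2 he)

end BLR

end FLTAgent.MazurP
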