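import Fermat.Agent.MazurP.Defs
import Fermat.Agent.MazurP.ResidualAlgebra
import Fermat.Agent.EllTorsion.Det
import Fermat.Agent.EllFrob.Interface
import Fermat.Agent.Torsion.API
import Fermat.Agent.GalCommon.Frobenius
import Fermat.Agent.Density.Main
import Fermat.Prelude.Def_FLTPrelim_ModularRep

/-!
# The mod `p` representation of an integral model

`modRep`, `modTr` and `modDet` on the `p`-torsion `TorsSpace W p`, with the trace and
determinant of Frobenius at good primes and of complex conjugation. In the irreducible case some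
commutator squares to a nonzero scalar (`exists_comm_sq`, in a basis diagonalising conjugation)
and the trace differs from `1 + ℓ` at infinitely many primes (`exists_modTr_ne`).
-/

set_option autoImplicit false

noncomputable section

open WeierstrassCurve WeierstrassCurve.Affine.Point
open scoped WeierstrassCurve.Affine

namespace FLTAgent.MazurP

local notation "Qb" => AlgebraicClosure ℚ
local notation "Γℚ" => (AlgebraicClosure ℚ ≃ₐ[ℚ] AlgebraicClosure ℚ)

variable (W : WeierstrassCurve ℤ) (p : ℕ)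

/-- The `p`-torsion of the curve of the model. -/
abbrev TorsSpace := Submodule.torsionBy ℤ (CurvePoint W) p

/-- The mod `p` representation of the model. -/
def modRep : Γℚ →* Module.End (ZMod p) (TorsSpace W p) :=
  galoisRepModuleEnd (K := Qb) ℚ (W.map (Int.castRingHom ℚ)) p

theorem coe_modRep (σ : Γℚ) (x : TorsSpace W p) :
    ((modRep W p σ x : TorsSpace W p) : CurvePoint W) = σ • (x : CurvePoint W) := rfl

/-- Its trace. -/
def modTr (σ : Γℚ) : ZMod p := LinearMap.trace (ZMod p) (TorsSpace W p) (modRep W p σ)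

/-- Its determinant. -/
def modDet : Γℚ →* ZMod p := LinearMap.det.comp (modRep W p)

variable {W p}

theorem modTr_congr {σ τ : Γℚ} (h : modRep W p σ = modRep W p τ) : modTr W p σ = modTr W p τ := by
  rw [modTr, modTr, h]

theorem modDet_congr {σ τ : Γℚ} (h : modRep W p σ = modRep W p τ) :
    modDet W p σ = modDet W p τ := by
  rw [modDet, MonoidHom.comp_apply, MonoidHom.comp_apply, h]

theorem sum_smul_coe (c : Γℚ →₀ ℤ) (x : TorsSpace W p) :
    ((Finsupp.linearCombination (ZMod p) (modRep W p)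
        (c.mapRange (Int.cast : ℤ → ZMod p) Int.cast_zero) x : TorsSpace W p) : CurvePoint W) =
      c.sum fun σ a => a • (σ • (x : CurvePoint W)) :=
  map_linearCombination_intCast _ (fun σ y => σ • y)
    (Submodule.torsionBy ℤ (CurvePoint W) p).subtype.toAddMonoidHom (coe_modRep W p) c x

variable [Fact p.Prime] (hΔ : W.Δ ≠ 0)

include hΔ in
theorem finrank_torsSpace : Module.finrank (ZMod p) (TorsSpace W p) = 2 := by
  have := EllTorsion.isElliptic_map_rat hΔ
  exact EllTorsion.finrank_torsionBy_rat (W.map (Int.castRingHom ℚ)) p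

include hΔ in
theorem moduleFinite_torsSpace : Module.Finite (ZMod p) (TorsSpace W p) :=
  Module.finite_of_finrank_eq_succ (finrank_torsSpace hΔ)

include hΔ in
theorem cayley_hamilton (σ : Γℚ) :
    modRep W p σ * modRep W p σ - algebraMap (ZMod p) _ (modTr W p σ) * modRep W p σ +
      algebraMap (ZMod p) _ (modDet W p σ) = 0 := by
  have := moduleFinite_torsSpace (p := p) hΔ
  have h := LinearMap.aeval_self_charpoly (modRep W p σ)
  rw [Reps.charpoly_of_finrank_eq_two (finrank_torsSpace hΔ)] at h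
  simp only [map_add, map_sub, map_mul, Polynomial.aeval_X, Polynomial.aeval_C, sq] at h
  exact h

include hΔ in
theorem modDet_eq_of_spec {σ : Γℚ} {j : ℕ} (h : ∀ t : Qb, t ^ p = 1 → σ t = t ^ j) :
    modDet W p σ = j := by
  have := EllTorsion.isElliptic_map_rat hΔ
  have : NeZero p := ⟨(Fact.out : p.Prime).ne_zero⟩
  show LinearMap.det (galoisRepModuleEnd (K := Qb) ℚ (W.map (Int.castRingHom ℚ)) p σ) = _
  rw [EllTorsion.det_galoisRepModuleEnd]
  refine (modularCyclotomicCharacter.unique _ _ _ fun t ht => ?_).symm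
  have ht1 : (t : Qb) ^ p = 1 := by
    rw [mem_rootsOfUnity] at ht
    rw [← Units.val_pow_eq_pow_val, ht, Units.val_one]
  show σ (t : Qb) = _
  rw [h _ ht1, ZMod.val_natCast, ← pow_mod_orderOf (t : Qb), ← pow_mod_orderOf (t : Qb) (j % p)]
  congr 1
  exact (Nat.mod_mod_of_dvd j (orderOf_dvd_of_pow_eq_one ht1)).symm

include hΔ in
theorem modDet_frobenius {ℓ : ℕ} (hℓ : ℓ.Prime) (hℓp : ℓ ≠ p) {A : ValuationSubring Qb}
    (hA : A.LiesOverPrime ℓ) {σ : Γℚ} (hσ : A.IsFrobeniusAt σ ℓ) : modDet W p σ = ℓ :=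
  modDet_eq_of_spec hΔ fun _ ht => GalCommon.frobenius_apply_of_pow_eq_one hℓ hA
    (fun h => hℓp ((Nat.prime_dvd_prime_iff_eq hℓ Fact.out).mp h)) hσ ht

include hΔ in
theorem modTr_frobenius (hp2 : p ≠ 2) {ℓ : ℕ} (hℓ : ℓ.Prime) (hgood : W.IsGoodPrimeFor ℓ)
    (hℓp : ℓ ≠ p) {A : ValuationSubring Qb} (hA : A.LiesOverPrime ℓ) {σ : Γℚ}
    (hσ : A.IsFrobeniusAt σ ℓ) : modTr W p σ = W.apOfModel ℓ := by
  have hp : p.Prime := Fact.out
  have := moduleFinite_torsSpace (p := p) hΔ
  set M := modRep W p σ with hM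
  have h1 : M * M - algebraMap (ZMod p) _ (W.apOfModel ℓ : ZMod p) * M +
      algebraMap (ZMod p) _ (ℓ : ZMod p) = 0 := by
    refine LinearMap.ext fun x => Subtype.ext ?_
    have hx : p • (x : CurvePoint W) = 0 := by
      rw [← natCast_zsmul]; exact (Submodule.mem_torsionBy_iff _ _).mp x.2
    have h := EllFrob.frobenius_relation W hℓ hgood (hp.odd_of_ne_two hp2)
      ((Nat.coprime_primes hp hℓ).mpr (Ne.symm hℓp)) hA hσ (x : CurvePoint W) hx
    simp only [LinearMap.add_apply, LinearMap.sub_apply, Module.End.mul_apply,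
      Module.algebraMap_end_apply, Int.cast_smul_eq_zsmul, Nat.cast_smul_eq_nsmul,
      Submodule.coe_add, Submodule.coe_sub, AddSubmonoidClass.coe_nsmul,
      AddSubgroupClass.coe_zsmul, LinearMap.zero_apply, ZeroMemClass.coe_zero]
    rw [← natCast_zsmul]
    exact h
  have h2 := cayley_hamilton (p := p) hΔ σ
  rw [modDet_frobenius hΔ hℓ hℓp hA hσ, ← hM, ← h1, add_left_inj, sub_right_inj] at h2
  by_contra hne
  have hu : IsUnit (algebraMap (ZMod p) (Module.End (ZMod p) (TorsSpace W p))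
      (modTr W p σ - W.apOfModel ℓ)) := (isUnit_iff_ne_zero.mpr (sub_ne_zero.mpr hne)).map _
  have h3 : algebraMap (ZMod p) (Module.End (ZMod p) (TorsSpace W p))
      (modTr W p σ - W.apOfModel ℓ) * M = 0 := by rw [map_sub, sub_mul, h2, sub_self]
  have hM0 : M = 0 := hu.mul_right_eq_zero.mp h3
  have : Nontrivial (TorsSpace W p) :=
    Module.nontrivial_of_finrank_eq_succ (finrank_torsSpace hΔ)
  have h4 : M * modRep W p σ⁻¹ = 1 := by rw [hM, ← map_mul, mul_inv_cancel, map_one]
  rw [hM0, zero_mul] at h4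
  exact zero_ne_one h4

/-- A complex conjugation. -/
theorem exists_conj : ∃ c : Γℚ, c * c = 1 ∧ ∀ n : ℕ, 0 < n → ∀ t : Qb, t ^ n = 1 → c t = t ^ (n - 1) := by
  have : Normal ℚ Qb := GalCommon.normal_Qbar
  let ι : Qb →+* ℂ := (IsAlgClosed.lift : Qb →ₐ[ℚ] ℂ).toRingHom
  obtain ⟨c, hc, hconj⟩ := Torsion.exists_complexConj ι
  refine ⟨c, hc, fun n hn t ht => ι.injective ?_⟩
  have h1 : (ι t) ^ n = 1 := by rw [← map_pow, ht, map_one]
  rw [hconj, ← Complex.inv_eq_conj (Complex.norm_eq_one_of_pow_eq_one h1 hn.ne'), map_pow]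
  refine inv_eq_of_mul_eq_one_left ?_
  rw [← pow_succ, Nat.sub_add_cancel hn, h1]

include hΔ in
theorem modDet_conj {c : Γℚ} (hc : ∀ n : ℕ, 0 < n → ∀ t : Qb, t ^ n = 1 → c t = t ^ (n - 1)) :
    modDet W p c = -1 := by
  have hp : p.Prime := Fact.out
  rw [modDet_eq_of_spec hΔ (hc p hp.pos), Nat.cast_sub hp.one_le, ZMod.natCast_self, Nat.cast_one,
    zero_sub]

include hΔ in
/-- A basis in which complex conjugation is `diag (1, -1)`. -/
theorem exists_conj_basis (hp2 : p ≠ 2) {c : Γℚ} (hc2 : c * c = 1)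
    (hc : ∀ n : ℕ, 0 < n → ∀ t : Qb, t ^ n = 1 → c t = t ^ (n - 1)) :
    ∃ b : Module.Basis (Fin 2) (ZMod p) (TorsSpace W p),
      modRep W p c (b 0) = b 0 ∧ modRep W p c (b 1) = -b 1 := by
  have := moduleFinite_torsSpace (p := p) hΔ
  have hp : p.Prime := Fact.out
  have : Fact (2 < p) := ⟨lt_of_le_of_ne hp.two_le (Ne.symm hp2)⟩
  set M := modRep W p c with hM
  have hMM : ∀ x, M (M x) = x := fun x => by
    rw [← Module.End.mul_apply, hM, ← map_mul, hc2, map_one]; rfl
  have hdet : LinearMap.det M = -1 := modDet_conj hΔ hc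
  obtain ⟨x, hx⟩ : ∃ x, M x ≠ -x := by
    by_contra h
    push Not at h
    have : M = (-1 : ZMod p) • LinearMap.id := LinearMap.ext fun x => by
      rw [h x, LinearMap.smul_apply, LinearMap.id_apply, neg_one_smul]
    rw [this, LinearMap.det_smul, LinearMap.det_id, finrank_torsSpace hΔ, neg_one_sq, one_mul] at hdet
    exact ZMod.neg_one_ne_one hdet.symm
  obtain ⟨y, hy⟩ : ∃ y, M y ≠ y := by
    by_contra h
    push Not at h
    have : M = LinearMap.id := LinearMap.ext h
    rw [this, LinearMap.det_id] at hdet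
    exact ZMod.neg_one_ne_one hdet.symm
  have hu : M (M x + x) = M x + x := by rw [map_add, hMM, add_comm]
  have hv : M (M y - y) = -(M y - y) := by rw [map_sub, hMM, neg_sub]
  have hu0 : M x + x ≠ 0 := fun h => hx (eq_neg_of_add_eq_zero_left h)
  have hv0 : M y - y ≠ 0 := sub_ne_zero.mpr hy
  have h2 : (2 : ZMod p) ≠ 0 := fun h =>
    ZMod.neg_one_ne_one (show (-1 : ZMod p) = 1 by
      rw [eq_comm, ← sub_eq_zero, sub_neg_eq_add, one_add_one_eq_two, h])
  have hli : LinearIndependent (ZMod p) ![M x + x, M y - y] := by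
    refine LinearIndependent.pair_iff.mpr fun s t hst => ?_
    have h1 : s • (M x + x) - t • (M y - y) = 0 := by
      have := congrArg M hst
      rwa [map_add, map_smul, map_smul, hu, hv, smul_neg, ← sub_eq_add_neg, _root_.map_zero] at this
    have hs : (2 * s) • (M x + x) = 0 := by
      rw [show (2 * s) • (M x + x) = (s • (M x + x) + t • (M y - y)) +
        (s • (M x + x) - t • (M y - y)) by module, hst, h1, add_zero]
    have hs0 : s = 0 :=
      (mul_eq_zero.mp ((smul_eq_zero.mp hs).resolve_right hu0)).resolve_left h2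
    refine ⟨hs0, ?_⟩
    rw [hs0, zero_smul, zero_add] at hst
    exact (smul_eq_zero.mp hst).resolve_right hv0
  refine ⟨basisOfLinearIndependentOfCardEqFinrank hli
    (by rw [Fintype.card_fin, finrank_torsSpace hΔ]), ?_, ?_⟩ <;>
    simp only [coe_basisOfLinearIndependentOfCardEqFinrank, Matrix.cons_val_zero, Matrix.cons_val_one]
  · exact hu
  · exact hv

include hΔ in
/-- In the irreducible case some element is off diagonal for the eigenlines of conjugation. -/
theorem exists_offDiag (hp2 : p ≠ 2) (hirr : W.ModRepIsIrreducible p) {c : Γℚ} (hc2 : c * c = 1)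
    (hc : ∀ n : ℕ, 0 < n → ∀ t : Qb, t ^ n = 1 → c t = t ^ (n - 1)) :
    ∃ b : Module.Basis (Fin 2) (ZMod p) (TorsSpace W p),
      LinearMap.toMatrix b b (modRep W p c) = !![1, 0; 0, -1] ∧
      ∃ σ, LinearMap.toMatrix b b (modRep W p σ) 0 1 ≠ 0 ∧
        LinearMap.toMatrix b b (modRep W p σ) 1 0 ≠ 0 := by
  obtain ⟨b, h0, h1⟩ := exists_conj_basis hΔ hp2 hc2 hc
  refine ⟨b, ?_, ?_⟩
  · ext i j
    rw [LinearMap.toMatrix_apply]
    fin_cases j <;> simp only [Fin.zero_eta, Fin.mk_one]
    · rw [h0, b.repr_self]; fin_cases i <;> simp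
    · rw [h1, map_neg, b.repr_self]; fin_cases i <;> simp
  set m : Γℚ → Matrix (Fin 2) (Fin 2) (ZMod p) := fun σ => LinearMap.toMatrix b b (modRep W p σ)
    with hm
  show ∃ σ, m σ 0 1 ≠ 0 ∧ m σ 1 0 ≠ 0
  have hmul : ∀ σ τ, m (σ * τ) = m σ * m τ := fun σ τ => by
    simp only [hm, map_mul, LinearMap.toMatrix_mul]
  have hline : ∀ i j : Fin 2, i ≠ j → ∃ σ, m σ j i ≠ 0 := by
    intro i j hij
    by_contra hcon
    push Not at hcon
    have hst : IsGaloisStable ℚ (Submodule.span (ZMod p) {b i}) := by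
      intro σ x hx
      obtain ⟨s, rfl⟩ := Submodule.mem_span_singleton.mp hx
      show modRep W p σ (s • b i) ∈ _
      rw [map_smul]
      refine Submodule.smul_mem _ _ ?_
      rw [← b.sum_repr (modRep W p σ (b i))]
      refine Submodule.sum_mem _ fun k _ => ?_
      rcases eq_or_ne k i with rfl | hk
      · exact Submodule.smul_mem _ _ (Submodule.mem_span_singleton_self _)
      · have hkj : k = j := by fin_cases k <;> fin_cases i <;> fin_cases j <;> simp_all
        have := hcon σ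
        rw [hm] at this
        simp only [LinearMap.toMatrix_apply] at this
        rw [hkj, this, zero_smul]
        exact zero_mem _
    rcases hirr.2 _ hst with h | h
    · exact b.ne_zero i (Submodule.span_singleton_eq_bot.mp h)
    · have h1 := finrank_span_singleton (K := ZMod p) (b.ne_zero i)
      rw [h, finrank_top, finrank_torsSpace hΔ] at h1
      omega
  by_contra hcon
  push Not at hcon
  obtain ⟨σ₁, hσ₁⟩ := hline 0 1 (by decide)
  obtain ⟨σ₂, hσ₂⟩ := hline 1 0 (by decide)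
  have h01 : m σ₁ 0 1 = 0 := by_contra fun h => hσ₁ (hcon σ₁ h)
  have h10 : m σ₂ 1 0 = 0 := hcon σ₂ hσ₂
  have hdet : ∀ σ, (m σ).det ≠ 0 := fun σ => by
    rw [hm, LinearMap.det_toMatrix]
    exact ((Group.isUnit σ).map (LinearMap.det.comp (modRep W p))).ne_zero
  have h00 : ∀ σ, m σ 0 1 * m σ 1 0 = 0 → m σ 0 0 ≠ 0 := fun σ h h' =>
    hdet σ (by rw [Matrix.det_fin_two, h', zero_mul, h, sub_zero])
  have ha : m σ₂ 0 0 ≠ 0 := h00 σ₂ (by rw [h10, mul_zero])
  have ha' : m σ₁ 0 0 ≠ 0 := h00 σ₁ (by rw [h01, zero_mul])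
  have h := hcon (σ₁ * σ₂) (by
    rw [hmul, Matrix.mul_apply, Fin.sum_univ_two, h01, zero_mul, add_zero]
    exact mul_ne_zero ha' hσ₂)
  rw [hmul, Matrix.mul_apply, Fin.sum_univ_two, h10, mul_zero, add_zero] at h
  exact mul_ne_zero hσ₁ ha h

include hΔ in
/-- A commutator whose square is a nonzero scalar. -/
theorem exists_comm_sq (hp2 : p ≠ 2) (hirr : W.ModRepIsIrreducible p) :
    ∃ (a₀ b₀ : Γℚ) (e : ZMod p), e ≠ 0 ∧
      (modRep W p a₀ * modRep W p b₀ - modRep W p b₀ * modRep W p a₀) *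
        (modRep W p a₀ * modRep W p b₀ - modRep W p b₀ * modRep W p a₀) =
        algebraMap (ZMod p) _ e := by
  obtain ⟨c, hc2, hc⟩ := exists_conj
  obtain ⟨b, hbc, σ, h01, h10⟩ := exists_offDiag hΔ hp2 hirr hc2 hc
  have hp : p.Prime := Fact.out
  have : Fact (2 < p) := ⟨lt_of_le_of_ne hp.two_le (Ne.symm hp2)⟩
  have h2 : (2 : ZMod p) ≠ 0 := fun h =>
    ZMod.neg_one_ne_one (show (-1 : ZMod p) = 1 by
      rw [eq_comm, ← sub_eq_zero, sub_neg_eq_add, one_add_one_eq_two, h])
  set S := LinearMap.toMatrix b b (modRep W p σ) with hS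
  refine ⟨c, σ, -(2 * 2 * (S 0 1 * S 1 0)),
    neg_ne_zero.mpr (mul_ne_zero (mul_ne_zero h2 h2) (mul_ne_zero h01 h10)), ?_⟩
  apply (LinearMap.toMatrixAlgEquiv b).injective
  rw [map_mul, map_sub, map_mul, map_mul, AlgEquiv.commutes]
  change (LinearMap.toMatrix b b (modRep W p c) * S - S * LinearMap.toMatrix b b (modRep W p c)) *
    (LinearMap.toMatrix b b (modRep W p c) * S - S * LinearMap.toMatrix b b (modRep W p c)) = _
  rw [hbc, Matrix.eta_fin_two S]
  ext i j
  fin_cases i <;> fin_cases j <;>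
    simp [Matrix.mul_apply, Fin.sum_univ_two, Matrix.algebraMap_matrix_apply] <;> ring

include hΔ in
/-- `ρ` is not Eisenstein at infinitely many primes. -/
theorem exists_modTr_ne (hp2 : p ≠ 2) (hirr : W.ModRepIsIrreducible p) :
    ∃ σ, modTr W p σ ≠ 1 + modDet W p σ := by
  by_contra hcon
  push Not at hcon
  obtain ⟨c, hc2, hc⟩ := exists_conj
  obtain ⟨b, hbc, σ, h01, h10⟩ := exists_offDiag hΔ hp2 hirr hc2 hc
  have hp : p.Prime := Fact.out
  have : Fact (2 < p) := ⟨lt_of_le_of_ne hp.two_le (Ne.symm hp2)⟩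
  have h2 : (2 : ZMod p) ≠ 0 := fun h =>
    ZMod.neg_one_ne_one (show (-1 : ZMod p) = 1 by
      rw [eq_comm, ← sub_eq_zero, sub_neg_eq_add, one_add_one_eq_two, h])
  have e1 := hcon σ
  have e2 := hcon (c * σ)
  rw [map_mul, modDet_conj hΔ hc] at e2
  set S := LinearMap.toMatrix b b (modRep W p σ) with hS
  have hD : modDet W p σ = S 0 0 * S 1 1 - S 0 1 * S 1 0 := by
    rw [← Matrix.det_fin_two, hS, LinearMap.det_toMatrix]; rfl
  have t1 : modTr W p σ = S 0 0 + S 1 1 := by
    rw [modTr, LinearMap.trace_eq_matrix_trace (ZMod p) b, Matrix.trace_fin_two]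
  have t2 : modTr W p (c * σ) = S 0 0 - S 1 1 := by
    rw [modTr, LinearMap.trace_eq_matrix_trace (ZMod p) b, map_mul, LinearMap.toMatrix_mul, hbc,
      Matrix.trace_fin_two]
    simp [Matrix.mul_apply, Fin.sum_univ_two, hS, sub_eq_add_neg]
  rw [t1] at e1
  rw [t2] at e2
  have h00 : S 0 0 = 1 := mul_left_cancel₀ h2 (by linear_combination e1 + e2)
  refine mul_ne_zero h01 h10 ?_
  rw [h00, one_mul] at hD
  linear_combination hD + e1 - h00

end FLTAgent.MazurP
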