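import Fermat.Agent.MazurP.Points

/-!
# A base set of smooth points on the special fibre

`regSpace B` is the space of pairs regular off `B` with at most simple poles at `B`. For many
points on both components Riemann-Roch gives its dimension (`finrank_regSpace_pointsOf`), and
removing points one at a time (`exists_shrink`) leaves a set `B` of exactly `g` smooth points,
avoiding a given point, for which only the constants remain (`exists_base`).
-/

set_option autoImplicit false
set_option linter.style.haveILetI false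
set_option linter.unusedSectionVars false

noncomputable section

open AlgebraicCurve SemilinearAut Module
open scoped Classical

namespace FLTAgent.MazurP

open FLTAgent.Reduction

namespace Frame

variable {A : ValuationSubring (AlgebraicClosure ℚ)} {k : Type*} [Field k] {π : A →+* k} {p : ℕ}
  {F E : Type*} [Field F] [Field E] [Algebra (AlgebraicClosure ℚ) F] [Algebra k E]

/-- Pairs regular outside `B`, with at most simple poles at `B`. -/
def RegB (Fr : Frame A π p F E) (B : Finset (Bool × Place k E)) (w : Bool → E) : Prop :=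
  (∀ x, Fr.IsPoint x → x ∉ B → Fr.RegAt w x) ∧ ∀ x ∈ B, Vanish x.2 (w x.1) (-1)

/-- `RegB` as a subspace. -/
def regSpace (Fr : Frame A π p F E) (B : Finset (Bool × Place k E)) :
    Submodule k (Bool → E) where
  carrier := {w | Fr.RegB B w}
  zero_mem' := ⟨fun x _ _ => by
      have := regAt_const (Fr := Fr) 0 x
      simp only [map_zero] at this
      exact this,
    fun x _ => Vanish.zero_left⟩
  add_mem' := fun {w w'} h h' =>
    ⟨fun x hx hB => (h.1 x hx hB).add (h'.1 x hx hB), fun x hx => (h.2 x hx).add (h'.2 x hx)⟩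
  smul_mem' := fun a w h => ⟨fun x hx hB => (h.1 x hx hB).smul a, fun x hx => (h.2 x hx).smul a⟩

variable {Fr : Frame A π p F E}

theorem mem_regSpace {B : Finset (Bool × Place k E)} {w : Bool → E} :
    w ∈ Fr.regSpace B ↔ Fr.RegB B w := Iff.rfl

theorem one_mem_regSpace (B : Finset (Bool × Place k E)) : (1 : Bool → E) ∈ Fr.regSpace B := by
  refine ⟨fun x _ _ => ?_, fun x _ => Vanish.one.mono (by omega)⟩
  have := regAt_const (Fr := Fr) 1 x
  simp only [map_one] at this
  exact this

theorem isPoint_self_of_regB {B : Finset (Bool × Place k E)} (hB : ∀ x ∈ B, Fr.IsSmooth x)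
    {w : Bool → E} (h : Fr.RegB B w) (b : Bool) (P : Place k E) :
    Vanish P (w b) (if (b, P) ∈ B then -1 else 0) := by
  split_ifs with hb
  · exact h.2 _ hb
  by_cases hs : Fr.IsSmooth (b, P)
  · have := (h.1 _ (Or.inl hs) hb).1 b (onComp_self _)
    rwa [branch_self (x := (b, P))] at this
  cases b with
  | false =>
    have hP : P ∈ Fr.nodes := by
      by_contra hP
      exact hs ⟨fun _ => hP, fun h => by simp at h⟩
    have := (h.1 (false, P) (Or.inr ⟨rfl, hP⟩) hb).1 false (Or.inl rfl)
    rwa [branch_node_false] at this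
  | true =>
    obtain ⟨P', hP', rfl⟩ : ∃ P' ∈ Fr.nodes, Fr.partner P' = P := by
      by_contra hP
      push Not at hP
      exact hs ⟨fun h => by simp at h, fun _ => hP⟩
    have hnot : (false, P') ∉ B := fun h' => (hB _ h').1 rfl hP'
    have := (h.1 (false, P') (Or.inr ⟨rfl, hP'⟩) hnot).1 true (Or.inr ⟨rfl, hP'⟩)
    rwa [branch_node_true] at this

/-- A pair regular everywhere is one constant. -/
theorem regB_empty {w : Bool → E} (h : Fr.RegB ∅ w) : ∃ a : k, ∀ b, w b = algebraMap k E a := by
  have hc : ∀ b, ∃ a : k, algebraMap k E a = w b := fun b => Fr.curveBar.const _ fun P => by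
    have := isPoint_self_of_regB (B := ∅) (by simp) h b P
    simpa using Vanish.zero_iff.mp (by simpa using this)
  choose a ha using hc
  obtain ⟨P, hP⟩ := Fr.nodes_nonempty
  have hv := (h.1 (false, P) (Or.inr ⟨rfl, hP⟩) (by simp)).2 ⟨rfl, hP⟩
  rw [← ha, ← ha, valAt_algebraMap, valAt_algebraMap] at hv
  exact ⟨a false, fun b => by cases b <;> simp [← ha, hv]⟩

theorem exists_many_smooth [IsAlgClosed k] (b : Bool) (S : Finset (Place k E)) (n : ℕ) :
    ∃ T : Finset (Place k E), T.card = n ∧ ∀ P ∈ T, Fr.IsSmooth (b, P) ∧ P ∉ S := by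
  classical
  induction n with
  | zero => exact ⟨∅, rfl, by simp⟩
  | succ n ih =>
    obtain ⟨T, hT, hprop⟩ := ih
    obtain ⟨P, hP, hPS⟩ := exists_smooth (Fr := Fr) b (S ∪ T)
    simp only [Finset.mem_union, not_or] at hPS
    refine ⟨insert P T, by rw [Finset.card_insert_of_notMem hPS.2, hT], fun Q hQ => ?_⟩
    rcases Finset.mem_insert.mp hQ with rfl | hQ
    · exact ⟨hP, hPS.1⟩
    · exact hprop Q hQ

/-- The points `(b, P)`, `P ∈ T b`. -/
def pointsOf (T : Bool → Finset (Place k E)) : Finset (Bool × Place k E) :=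
  (T false).map ⟨fun P => (false, P), fun _ _ h => (Prod.ext_iff.mp h).2⟩ ∪
    (T true).map ⟨fun P => (true, P), fun _ _ h => (Prod.ext_iff.mp h).2⟩

theorem mem_pointsOf {T : Bool → Finset (Place k E)} {x : Bool × Place k E} :
    x ∈ pointsOf T ↔ x.2 ∈ T x.1 := by
  classical
  obtain ⟨b, P⟩ := x
  cases b <;> simp [pointsOf]

/-- Riemann-Roch on the glued fibre for many smooth points on each component. -/
theorem finrank_regSpace_pointsOf {n : ℕ} (C : ℤ)
    (hC : ∀ D : Divisor k E, C ≤ Divisor.degree D →
      (ell D : ℤ) = Divisor.degree D + 1 - Fr.g')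
    (hn : C + Fr.nodes.card + 1 ≤ n) {T : Bool → Finset (Place k E)}
    (hT : ∀ b, (T b).card = n ∧ ∀ P ∈ T b, Fr.IsSmooth (b, P)) :
    (finrank k (Fr.regSpace (pointsOf T)) : ℤ) + Fr.g = (pointsOf T).card + 1 ∧
      FiniteDimensional k (Fr.regSpace (pointsOf T)) := by
  classical
  let D : Bool → Divisor k E := fun b => ∑ P ∈ T b, Finsupp.single P 1
  have hDapp : ∀ b Q, D b Q = if Q ∈ T b then 1 else 0 := fun b Q => by
    simp only [D, Finset.sum_apply', Finsupp.single_apply, Finset.sum_ite_eq']
  have hDdeg : ∀ b, Divisor.degree (D b) = n := fun b => by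
    simp [D, Fr.curveBar.degree_single, (hT b).1]
  have hnode : ∀ P ∈ Fr.nodes, P ∉ T false ∧ Fr.partner P ∉ T true := fun P hP =>
    ⟨fun h => ((hT false).2 P h).1 rfl hP, fun h => ((hT true).2 _ h).2 rfl P hP rfl⟩
  have hreg : ∀ P ∈ Fr.nodes, ∀ {w : E}, w ∈ riemannRochSpace (D false) → Vanish P w 0 :=
    fun P hP w hw => by simpa [hDapp, (hnode P hP).1] using mem_L_iff.mp hw P
  have hreg' : ∀ P ∈ Fr.nodes, ∀ {w : E}, w ∈ riemannRochSpace (D true) →
      Vanish (Fr.partner P) w 0 :=
    fun P hP w hw => by simpa [hDapp, (hnode P hP).2] using mem_L_iff.mp hw (Fr.partner P)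
  let Δ : riemannRochSpace (D false) × riemannRochSpace (D true) →ₗ[k] Fr.nodes → k :=
    { toFun := fun w P => valAt P.1 (w.1 : E) - valAt (Fr.partner P.1) (w.2 : E)
      map_add' := fun w w' => funext fun P => by
        simp only [Prod.fst_add, Prod.snd_add, Submodule.coe_add, Pi.add_apply]
        rw [Fr.curveBar.valAt_add (hreg _ P.2 w.1.2) (hreg _ P.2 w'.1.2),
          Fr.curveBar.valAt_add (hreg' _ P.2 w.2.2) (hreg' _ P.2 w'.2.2)]
        ring
      map_smul' := fun a w => funext fun P => by
        simp only [Prod.smul_fst, Prod.smul_snd, Submodule.coe_smul, RingHom.id_apply,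
          Pi.smul_apply, smul_eq_mul]
        rw [Fr.curveBar.valAt_smul a (hreg _ P.2 w.1.2),
          Fr.curveBar.valAt_smul a (hreg' _ P.2 w.2.2)]
        ring }
  have hsurj : Function.Surjective Δ := by
    rw [← LinearMap.range_eq_top, eq_top_iff, ← (Pi.basisFun k Fr.nodes).span_eq,
      Submodule.span_le]
    rintro _ ⟨P, rfl⟩
    set D' : Divisor k E := D false - ∑ Q ∈ Fr.nodes.erase P.1, Finsupp.single Q 1 with hD'
    have hdeg : Divisor.degree D' = n - (Fr.nodes.card - 1 : ℕ) := by
      rw [hD', map_sub, hDdeg, map_sum]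
      simp [Fr.curveBar.degree_single, Finset.card_erase_of_mem P.2]
    obtain ⟨z, hz, hz0, hzord⟩ := Fr.curveBar.exists_exact (D := D') P.1 C hC (by
      rw [hdeg]; omega)
    have hD'P : D' P.1 = 0 := by
      simp [hD', hDapp, (hnode _ P.2).1, Finsupp.single_apply]
    have hzD : z ∈ riemannRochSpace (D false) := mem_L_iff.mpr fun v => by
      refine (mem_L_iff.mp hz v).mono ?_
      simp only [hD', Finsupp.sub_apply, Finset.sum_apply', Finsupp.single_apply]
      have : (0 : ℤ) ≤ ∑ x ∈ Fr.nodes.erase P.1, if x = v then (1 : ℤ) else 0 :=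
        Finset.sum_nonneg fun x _ => by split_ifs <;> norm_num
      omega
    have hzP : Vanish P.1 z 0 := Or.inr (by rw [hzord, hD'P, neg_zero])
    have hval : valAt P.1 z ≠ 0 := fun h => by
      have := ((Fr.curveBar.vanish_one_iff hzP).mpr h).resolve_left hz0
      rw [hzord, hD'P] at this; omega
    refine ⟨((valAt P.1 z)⁻¹ • ⟨z, hzD⟩, 0), funext fun Q => ?_⟩
    show valAt Q.1 ((valAt P.1 z)⁻¹ • z) - valAt (Fr.partner Q.1) (0 : E) = _
    rw [Fr.curveBar.valAt_smul _ (hreg _ Q.2 hzD), valAt_zero, sub_zero, Pi.basisFun_apply]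
    rcases eq_or_ne Q P with rfl | hQ
    · simp [inv_mul_cancel₀ hval]
    · have hmem : Q.1 ∈ Fr.nodes.erase P.1 :=
        Finset.mem_erase.mpr ⟨fun h => hQ (Subtype.ext h), Q.2⟩
      have h0 : Vanish Q.1 z 1 := by
        refine (mem_L_iff.mp hz Q.1).mono ?_
        simp [hD', hDapp, (hnode _ Q.2).1, Finsupp.single_apply, hQ.symm]
      simp [valAt_eq_zero_of_vanish h0, Pi.single_eq_of_ne hQ]
  haveI : ∀ b, FiniteDimensional k (riemannRochSpace (D b)) := fun b => Fr.curveBar.finite_L _
  have hprod : (finrank k (riemannRochSpace (D false) × riemannRochSpace (D true)) : ℤ) =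
      2 * (n + 1 - Fr.g') := by
    rw [Module.finrank_prod]
    push_cast
    have h1 := hC (D false) (by rw [hDdeg]; omega)
    have h2 := hC (D true) (by rw [hDdeg]; omega)
    rw [hDdeg] at h1 h2
    simp only [ell] at h1 h2
    omega
  have hker := LinearMap.finrank_range_add_finrank_ker Δ
  rw [LinearMap.range_eq_top.mpr hsurj, finrank_top, Module.finrank_pi,
    Fintype.card_coe] at hker
  let Φ : LinearMap.ker Δ →ₗ[k] Bool → E :=
    { toFun := fun w b => if b then (w.1.2 : E) else (w.1.1 : E)
      map_add' := fun w w' => funext fun b => by cases b <;> simp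
      map_smul' := fun a w => funext fun b => by cases b <;> simp }
  have hΦinj : Function.Injective Φ := fun w w' h => by
    refine Subtype.ext (Prod.ext (Subtype.ext ?_) (Subtype.ext ?_))
    · simpa [Φ] using congrFun h false
    · simpa [Φ] using congrFun h true
  have hrange : LinearMap.range Φ = Fr.regSpace (pointsOf T) := by
    ext w
    constructor
    · rintro ⟨v, rfl⟩
      have hL : ∀ b P, Vanish P (Φ v b) (-D b P) := fun b P => by
        cases b
        · exact mem_L_iff.mp v.1.1.2 P
        · exact mem_L_iff.mp v.1.2.2 P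
      refine ⟨fun x hx hxB => ?_, fun x hx => ?_⟩
      · rw [mem_pointsOf] at hxB
        rcases hx with hs | hn
        · refine ⟨fun b hb => ?_, fun hn => absurd hn.2 (hs.1 hn.1)⟩
          obtain rfl := onComp_smooth hs hb
          rw [branch_self]
          simpa [hDapp, hxB] using hL x.1 x.2
        · obtain ⟨b', P⟩ := x
          obtain ⟨rfl, hP⟩ := hn
          refine ⟨fun b _ => ?_, fun _ => ?_⟩
          · cases b
            · rw [branch_node_false]; exact hreg P hP v.1.1.2
            · rw [branch_node_true]; exact hreg' P hP v.1.2.2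
          · have := congrFun (LinearMap.mem_ker.mp v.2) ⟨P, hP⟩
            exact sub_eq_zero.mp this
      · rw [mem_pointsOf] at hx
        simpa [hDapp, hx] using hL x.1 x.2
    · intro hw
      have hL : ∀ b, w b ∈ riemannRochSpace (D b) := fun b => mem_L_iff.mpr fun P => by
        have := isPoint_self_of_regB (Fr := Fr)
          (fun x hx => (hT x.1).2 x.2 (mem_pointsOf.mp hx)) hw b P
        simp only [mem_pointsOf] at this
        rw [hDapp]
        split_ifs with h
        · rwa [if_pos h] at this
        · rw [if_neg h] at this; simpa using this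
      have hk : ((⟨w false, hL false⟩, ⟨w true, hL true⟩) :
          riemannRochSpace (D false) × riemannRochSpace (D true)) ∈ LinearMap.ker Δ := by
        rw [LinearMap.mem_ker]
        funext P
        have hnot : (false, P.1) ∉ pointsOf T := fun h =>
          (hnode _ P.2).1 (mem_pointsOf.mp h)
        exact sub_eq_zero.mpr ((hw.1 (false, P.1) (Or.inr ⟨rfl, P.2⟩) hnot).2 ⟨rfl, P.2⟩)
      exact ⟨⟨_, hk⟩, funext fun b => by cases b <;> rfl⟩
  refine ⟨?_, hrange ▸ Module.Finite.range Φ⟩
  rw [← hrange, LinearMap.finrank_range_of_inj hΦinj]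
  have hcard : ((pointsOf T).card : ℤ) = 2 * n := by
    rw [pointsOf, Finset.card_union_of_disjoint, Finset.card_map, Finset.card_map, (hT _).1,
      (hT _).1]
    · push_cast; ring
    · rw [Finset.disjoint_left]
      intro x hx hx'
      obtain ⟨P, -, rfl⟩ := Finset.mem_map.mp hx
      obtain ⟨P', -, h⟩ := Finset.mem_map.mp hx'
      simp at h
  have := Fr.genus_eq
  omega

/-- Removing points one at a time leaves `g` of them with only constant regular pairs. -/
theorem exists_shrink (B : Finset (Bool × Place k E)) (hB : ∀ x ∈ B, Fr.IsSmooth x)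
    (hfin : FiniteDimensional k (Fr.regSpace B))
    (hdim : (finrank k (Fr.regSpace B) : ℤ) + Fr.g = B.card + 1) :
    ∃ B' ⊆ B, B'.card = Fr.g ∧ ∀ w, Fr.RegB B' w → ∃ a : k, ∀ b, w b = algebraMap k E a := by
  classical
  induction hn : B.card using Nat.strong_induction_on generalizing B with
  | _ n ih =>
  subst hn
  have hone : (1 : Bool → E) ≠ 0 := one_ne_zero
  by_cases hall : ∀ w ∈ Fr.regSpace B, ∀ x ∈ B, Vanish x.2 (w x.1) 0
  · have hconst : ∀ w, Fr.RegB B w → ∃ a : k, ∀ b, w b = algebraMap k E a := fun w hw => by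
      refine regB_empty (Fr := Fr) ⟨fun x hx _ => ?_, by simp⟩
      by_cases hxB : x ∈ B
      · refine ⟨fun b hb => ?_, fun hn => absurd hn.2 ((hB x hxB).1 hn.1)⟩
        obtain rfl := onComp_smooth (hB x hxB) hb
        rw [branch_self]
        exact hall w hw x hxB
      · exact hw.1 x hx hxB
    refine ⟨B, subset_rfl, ?_, hconst⟩
    have hle : Fr.regSpace B ≤ Submodule.span k {(1 : Bool → E)} := fun w hw => by
      obtain ⟨a, ha⟩ := hconst w hw
      exact Submodule.mem_span_singleton.mpr ⟨a, funext fun b => by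
        rw [ha b, Pi.smul_apply, Pi.one_apply, Algebra.algebraMap_eq_smul_one]⟩
    have hle' : Submodule.span k {(1 : Bool → E)} ≤ Fr.regSpace B :=
      (Submodule.span_singleton_le_iff_mem _ _).mpr (one_mem_regSpace B)
    have h1 : finrank k (Fr.regSpace B) = 1 := by
      rw [le_antisymm hle hle', finrank_span_singleton hone]
    rw [h1] at hdim
    push_cast at hdim
    omega
  · push Not at hall
    obtain ⟨w₀, hw₀, x, hx, hpole⟩ := hall
    obtain ⟨t, ht, htord⟩ := FF.exists_ord_eq x.2 1
    have hregt : ∀ w : Fr.regSpace B, Vanish x.2 ((w : Bool → E) x.1 * t) 0 := fun w => by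
      have := (w.2.2 x hx).mul (Vanish.self (v := x.2) t)
      rw [htord] at this
      simpa using this
    let φ : Fr.regSpace B →ₗ[k] k :=
      { toFun := fun w => valAt x.2 ((w : Bool → E) x.1 * t)
        map_add' := fun w w' => by
          simp only [Submodule.coe_add, Pi.add_apply, add_mul]
          exact Fr.curveBar.valAt_add (hregt w) (hregt w')
        map_smul' := fun a w => by
          simp only [Submodule.coe_smul, Pi.smul_apply, Algebra.smul_mul_assoc, RingHom.id_apply,
            smul_eq_mul]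
          exact Fr.curveBar.valAt_smul a (hregt w) }
    have hker : ∀ w : Fr.regSpace B, φ w = 0 ↔ Vanish x.2 ((w : Bool → E) x.1) 0 := by
      intro w
      show valAt x.2 ((w : Bool → E) x.1 * t) = 0 ↔ _
      rw [← Fr.curveBar.vanish_one_iff (hregt w)]
      constructor
      · intro h
        have h2 := h.mul (Vanish.self (v := x.2) t⁻¹)
        rw [mul_assoc, mul_inv_cancel₀ ht, mul_one, Place.ord_inv, htord] at h2
        exact h2.mono (by omega)
      · intro h
        have h2 := h.mul (Vanish.self (v := x.2) t)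
        rw [htord] at h2
        simpa using h2
    have hmap : (LinearMap.ker φ).map (Fr.regSpace B).subtype = Fr.regSpace (B.erase x) := by
      ext w
      constructor
      · rintro ⟨w', hw', rfl⟩
        have h0 := (hker w').mp (LinearMap.mem_ker.mp hw')
        refine ⟨fun y hy hyB => ?_, fun y hy => w'.2.2 y (Finset.mem_of_mem_erase hy)⟩
        by_cases hyx : y = x
        · subst hyx
          refine ⟨fun b hb => ?_, fun hn => absurd hn.2 ((hB y hx).1 hn.1)⟩
          obtain rfl := onComp_smooth (hB y hx) hb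
          rw [branch_self]
          exact h0
        · exact w'.2.1 y hy fun h => hyB (Finset.mem_erase.mpr ⟨hyx, h⟩)
      · intro hw
        have hreg : Vanish x.2 (w x.1) 0 := by
          have := (hw.1 x (Or.inl (hB x hx)) (Finset.notMem_erase x B)).1 x.1 (onComp_self x)
          rwa [branch_self] at this
        have hmem : w ∈ Fr.regSpace B := ⟨fun y hy hyB => hw.1 y hy fun h =>
          hyB (Finset.mem_of_mem_erase h), fun y hy => by
          by_cases hyx : y = x
          · subst hyx; exact hreg.mono (by omega)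
          · exact hw.2 y (Finset.mem_erase.mpr ⟨hyx, hy⟩)⟩
        exact ⟨⟨w, hmem⟩, LinearMap.mem_ker.mpr ((hker ⟨w, hmem⟩).mpr hreg), rfl⟩
    have hrange : LinearMap.range φ = ⊤ := by
      rcases eq_bot_or_eq_top (LinearMap.range φ) with h | h
      · exact absurd ((hker ⟨w₀, hw₀⟩).mp ((Submodule.eq_bot_iff _).mp h _ ⟨_, rfl⟩)) hpole
      · exact h
    have hdimker := LinearMap.finrank_range_add_finrank_ker φ
    rw [hrange, finrank_top, finrank_self, ← Submodule.finrank_map_subtype_eq, hmap] at hdimker
    haveI : FiniteDimensional k (Fr.regSpace (B.erase x)) := hmap ▸ inferInstance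
    have hcard := Finset.card_erase_of_mem hx
    have hpos : 0 < B.card := Finset.card_pos.mpr ⟨x, hx⟩
    obtain ⟨B', hB', hprop⟩ := ih (B.erase x).card (by omega) (B.erase x)
      (fun y hy => hB y (Finset.mem_of_mem_erase hy)) inferInstance (by omega) rfl
    exact ⟨B', hB'.trans (Finset.erase_subset _ _), hprop⟩

/-- The points for the chart. -/
theorem exists_base [IsAlgClosed k] (x₀ : Bool × Place k E) :
    ∃ B : Finset (Bool × Place k E), x₀ ∉ B ∧ (∀ x ∈ B, Fr.IsSmooth x) ∧ B.card = Fr.g ∧
      ∀ w, Fr.RegB B w → ∃ a : k, ∀ b, w b = algebraMap k E a := by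
  obtain ⟨C, hC⟩ := Fr.curveBar.exists_C
  set n := (C + Fr.nodes.card + 1).toNat with hn
  choose T hTc hT using fun b => exists_many_smooth (Fr := Fr) b {x₀.2} n
  obtain ⟨hdim, hfin⟩ := finrank_regSpace_pointsOf (Fr := Fr) C hC (Int.self_le_toNat _)
    (T := T) fun b => ⟨hTc b, fun P hP => (hT b P hP).1⟩
  obtain ⟨B', hB', hcard, hconst⟩ := exists_shrink (pointsOf T)
    (fun x hx => (hT x.1 x.2 (mem_pointsOf.mp hx)).1) hfin hdim
  refine ⟨B', fun h => ?_, fun x hx => (hT x.1 x.2 (mem_pointsOf.mp (hB' hx))).1, hcard, hconst⟩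
  exact (hT _ _ (mem_pointsOf.mp (hB' h))).2 (Finset.mem_singleton.mpr rfl)

end Frame

end FLTAgent.MazurP
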