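import Fermat.Agent.MazurP.Frame
import Fermat.Agent.Reduction.PlacesMap

/-!
# Gauss absolute values and orders on a frame

For each component `b` of a `Frame`, `absv b f` is the Gauss absolute value of a function, `nred`
its scaled reduction and `ordAt b P f` the order of that reduction at a point `P`; their rules
(`absv_mul`, `absv_add_le`, `ordAt_mul`, ...) are proved from uniqueness of the scaling.
`fib f x` is the total order of `f` over a closed point `x` of the special fibre; `fib_smooth` and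
`fib_node` express it through `ordAt`. `IsSmooth`, `IsNode`, `IsPoint`, `OnComp` and `branch`
describe the closed points of the glued special fibre.
-/

set_option autoImplicit false
set_option linter.style.haveILetI false
set_option linter.unusedSectionVars false

noncomputable section

open AlgebraicCurve SemilinearAut

namespace FLTAgent.MazurP

open FLTAgent.Reduction

local notation "Qb" => AlgebraicClosure ℚ

namespace Frame

variable {A : ValuationSubring Qb} {k : Type*} [Field k] {π : A →+* k} {p : ℕ}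
  {F E : Type*} [Field F] [Field E] [Algebra Qb F] [Algebra k E] (Fr : Frame A π p F E)

open Classical in
/-- A scalar making `f` a unit of the `b`-th Gauss ring (`0` if `f = 0`). -/
def scaleConst (b : Bool) (f : F) : Qb :=
  if h : f ≠ 0 then (Fr.scale b f h).choose else 0

/-- The Gauss absolute value on the component `b`. -/
def absv (b : Bool) (f : F) : A.ValueGroup := (A.valuation (Fr.scaleConst b f))⁻¹

/-- The reduction on the component `b` after scaling. -/
def nred (b : Bool) (f : F) : E := (Fr.G b).red (Fr.scaleConst b f • f)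

/-- The order at a point of the component `b` of the scaled reduction. -/
def ordAt (b : Bool) (P : Place k E) (f : F) : ℤ := P.ord (Fr.nred b f)

variable {Fr} {b : Bool}

theorem scaleConst_spec {f : F} (hf : f ≠ 0) : Fr.scaleConst b f ≠ 0 ∧
    Fr.scaleConst b f • f ∈ (Fr.G b).V ∧ (Fr.G b).red (Fr.scaleConst b f • f) ≠ 0 := by
  rw [scaleConst, dif_pos hf]
  exact (Fr.scale b f hf).choose_spec

@[simp] theorem absv_zero : Fr.absv b 0 = 0 := by simp [absv, scaleConst]

theorem nred_zero : Fr.nred b 0 = 0 := by simp [nred, scaleConst, (Fr.G b).red_zero]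

theorem absv_ne_zero {f : F} (hf : f ≠ 0) : Fr.absv b f ≠ 0 :=
  inv_ne_zero ((map_ne_zero _).mpr (scaleConst_spec hf).1)

theorem nred_ne_zero {f : F} (hf : f ≠ 0) : Fr.nred b f ≠ 0 := (scaleConst_spec hf).2.2

/-- Two scalings of the same function differ by a unit. -/
theorem scale_unique {f : F} {c d : Qb} (hd : d ≠ 0) (hc : c • f ∈ (Fr.G b).V)
    (hd' : d • f ∈ (Fr.G b).V) (hdr : (Fr.G b).red (d • f) ≠ 0) :
    ∃ a : A, (a : Qb) = c / d ∧ (Fr.G b).red (c • f) = π a • (Fr.G b).red (d • f) := by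
  have hmem : c / d ∈ A := by
    by_contra hn
    have hinv : d / c ∈ A := by
      have := (A.mem_or_inv_mem (c / d)).resolve_left hn
      rwa [inv_div] at this
    have hc0 : c ≠ 0 := by rintro rfl; simp [A.zero_mem] at hn
    have h1 : d • f = (⟨d / c, hinv⟩ : A).1 • (c • f) := by
      rw [smul_smul, div_mul_cancel₀ _ hc0]
    rw [h1, (Fr.G b).red_smul _ hc] at hdr
    have h2 := (Fr.G b).res_inv_of_notMem hn
    have h3 : (⟨(c / d)⁻¹, (A.mem_or_inv_mem (c / d)).resolve_left hn⟩ : A) = ⟨d / c, hinv⟩ :=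
      Subtype.ext (inv_div _ _)
    rw [h3] at h2
    exact hdr (by rw [h2, zero_smul])
  refine ⟨⟨c / d, hmem⟩, rfl, ?_⟩
  rw [← (Fr.G b).red_smul _ hd', smul_smul, div_mul_cancel₀ _ hd]

theorem absv_eq {f : F} {c : Qb} (hc0 : c ≠ 0) (hc : c • f ∈ (Fr.G b).V)
    (hcr : (Fr.G b).red (c • f) ≠ 0) : Fr.absv b f = (A.valuation c)⁻¹ := by
  have hf : f ≠ 0 := by rintro rfl; simp [(Fr.G b).red_zero] at hcr
  obtain ⟨hd0, hd, hdr⟩ := scaleConst_spec (Fr := Fr) (b := b) hf
  obtain ⟨a, ha, -⟩ := scale_unique hd0 hc hd hdr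
  obtain ⟨a', ha', -⟩ := scale_unique hc0 hd hc hcr
  have h1 := (A.valuation_le_one_iff _).mpr (ha ▸ a.2)
  have h2 := (A.valuation_le_one_iff _).mpr (ha' ▸ a'.2)
  rw [map_div₀, div_le_one₀ ((zero_lt_iff).mpr ((map_ne_zero _).mpr hd0))] at h1
  rw [map_div₀, div_le_one₀ ((zero_lt_iff).mpr ((map_ne_zero _).mpr hc0))] at h2
  rw [absv, le_antisymm h2 h1]

theorem ord_red_smul {f : F} {c : Qb} (hc : c • f ∈ (Fr.G b).V)
    (hcr : (Fr.G b).red (c • f) ≠ 0) (P : Place k E) :
    P.ord ((Fr.G b).red (c • f)) = Fr.ordAt b P f := by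
  have hf : f ≠ 0 := by rintro rfl; simp [(Fr.G b).red_zero] at hcr
  obtain ⟨hd0, hd, hdr⟩ := scaleConst_spec (Fr := Fr) (b := b) hf
  obtain ⟨a, ha, hred⟩ := scale_unique hd0 hc hd hdr
  have hπ : π a ≠ 0 := fun h => hcr (by rw [hred, h, zero_smul])
  rw [hred, Algebra.smul_def, P.ord_mul (by simpa using hπ) hdr, FF.ord_algebraMap, zero_add]
  rfl

theorem absv_eq_one {f : F} (hf : f ∈ (Fr.G b).V) (hr : (Fr.G b).red f ≠ 0) :
    Fr.absv b f = 1 := by
  rw [absv_eq (c := 1) one_ne_zero (by rwa [one_smul]) (by rwa [one_smul]), map_one, inv_one]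

theorem ordAt_eq {f : F} (hf : f ∈ (Fr.G b).V) (hr : (Fr.G b).red f ≠ 0) (P : Place k E) :
    Fr.ordAt b P f = P.ord ((Fr.G b).red f) := by
  have := ord_red_smul (Fr := Fr) (b := b) (f := f) (c := 1) (by rwa [one_smul])
    (by rwa [one_smul]) P
  rw [one_smul] at this
  exact this.symm

theorem mem_iff {f : F} : f ∈ (Fr.G b).V ↔ Fr.absv b f ≤ 1 := by
  rcases eq_or_ne f 0 with rfl | hf
  · simp
  obtain ⟨hd0, hd, hdr⟩ := scaleConst_spec (Fr := Fr) (b := b) hf
  rw [absv, inv_le_one₀ (zero_lt_iff.mpr ((map_ne_zero _).mpr hd0))]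
  constructor
  · intro h
    obtain ⟨a, ha, -⟩ := scale_unique (c := (1 : Qb)) hd0 (by rwa [one_smul]) hd hdr
    have h1 := (A.valuation_le_one_iff _).mpr (ha ▸ a.2)
    rwa [map_div₀, map_one, div_le_one₀ (zero_lt_iff.mpr ((map_ne_zero _).mpr hd0))] at h1
  · intro h
    have hinv : (Fr.scaleConst b f)⁻¹ ∈ A := by
      rw [← A.valuation_le_one_iff, map_inv₀,
        inv_le_one₀ (zero_lt_iff.mpr ((map_ne_zero _).mpr hd0))]
      exact h
    simpa [smul_smul, inv_mul_cancel₀ hd0] using (Fr.G b).smul_mem' hinv hd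

theorem red_ne_zero_iff {f : F} (hf : f ∈ (Fr.G b).V) :
    (Fr.G b).red f ≠ 0 ↔ Fr.absv b f = 1 := by
  refine ⟨absv_eq_one hf, fun h hr => ?_⟩
  have h0 : f ≠ 0 := by rintro rfl; simp at h
  obtain ⟨hd0, hd, hdr⟩ := scaleConst_spec (Fr := Fr) (b := b) h0
  have hv : A.valuation (Fr.scaleConst b f) = 1 := inv_eq_one.mp h
  have hmem : Fr.scaleConst b f ∈ A := (A.valuation_le_one_iff _).mp hv.le
  apply hdr
  rw [show Fr.scaleConst b f • f = ((⟨_, hmem⟩ : A) : Qb) • f from rfl,
    (Fr.G b).red_smul _ hf, hr, smul_zero]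

theorem absv_smul (c : Qb) (f : F) : Fr.absv b (c • f) = A.valuation c * Fr.absv b f := by
  rcases eq_or_ne c 0 with rfl | hc
  · simp
  rcases eq_or_ne f 0 with rfl | hf
  · simp
  obtain ⟨hd0, hd, hdr⟩ := scaleConst_spec (Fr := Fr) (b := b) hf
  have he : (Fr.scaleConst b f / c) • (c • f) = Fr.scaleConst b f • f := by
    rw [smul_smul, div_mul_cancel₀ _ hc]
  rw [absv_eq (c := Fr.scaleConst b f / c) (div_ne_zero hd0 hc) (he.symm ▸ hd)
    (he.symm ▸ hdr), map_div₀, inv_div, absv, div_eq_mul_inv]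

theorem ordAt_smul {c : Qb} (hc : c ≠ 0) (f : F) (P : Place k E) :
    Fr.ordAt b P (c • f) = Fr.ordAt b P f := by
  rcases eq_or_ne f 0 with rfl | hf
  · simp
  obtain ⟨hd0, hd, hdr⟩ := scaleConst_spec (Fr := Fr) (b := b) hf
  have he : (Fr.scaleConst b f / c) • (c • f) = Fr.scaleConst b f • f := by
    rw [smul_smul, div_mul_cancel₀ _ hc]
  rw [← ord_red_smul (Fr := Fr) (b := b) (c := Fr.scaleConst b f / c) (he.symm ▸ hd)
    (he.symm ▸ hdr) P, he]
  rfl

theorem absv_mul (f f' : F) : Fr.absv b (f * f') = Fr.absv b f * Fr.absv b f' := by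
  rcases eq_or_ne f 0 with rfl | hf
  · simp
  rcases eq_or_ne f' 0 with rfl | hf'
  · simp
  obtain ⟨hd0, hd, hdr⟩ := scaleConst_spec (Fr := Fr) (b := b) hf
  obtain ⟨hd0', hd', hdr'⟩ := scaleConst_spec (Fr := Fr) (b := b) hf'
  have he : (Fr.scaleConst b f * Fr.scaleConst b f') • (f * f') =
      (Fr.scaleConst b f • f) * (Fr.scaleConst b f' • f') := (smul_mul_smul_comm ..).symm
  rw [absv_eq (mul_ne_zero hd0 hd0') (he.symm ▸ (Fr.G b).V.mul_mem hd hd')
    (by rw [he, (Fr.G b).red_mul hd hd']; exact mul_ne_zero hdr hdr'), map_mul, mul_inv, absv,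
    absv]

theorem ordAt_mul {f f' : F} (hf : f ≠ 0) (hf' : f' ≠ 0) (P : Place k E) :
    Fr.ordAt b P (f * f') = Fr.ordAt b P f + Fr.ordAt b P f' := by
  obtain ⟨-, hd, hdr⟩ := scaleConst_spec (Fr := Fr) (b := b) hf
  obtain ⟨-, hd', hdr'⟩ := scaleConst_spec (Fr := Fr) (b := b) hf'
  have he : (Fr.scaleConst b f * Fr.scaleConst b f') • (f * f') =
      (Fr.scaleConst b f • f) * (Fr.scaleConst b f' • f') := (smul_mul_smul_comm ..).symm
  rw [← ord_red_smul (Fr := Fr) (b := b) (c := Fr.scaleConst b f * Fr.scaleConst b f')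
    (he.symm ▸ (Fr.G b).V.mul_mem hd hd')
    (by rw [he, (Fr.G b).red_mul hd hd']; exact mul_ne_zero hdr hdr') P, he,
    (Fr.G b).red_mul hd hd', P.ord_mul hdr hdr']
  rfl

@[simp] theorem absv_one : Fr.absv b (1 : F) = 1 :=
  absv_eq_one (Fr.G b).V.one_mem (by rw [(Fr.G b).red_one]; exact one_ne_zero)

@[simp] theorem absv_algebraMap (c : Qb) : Fr.absv b (algebraMap Qb F c) = A.valuation c := by
  rw [Algebra.algebraMap_eq_smul_one, absv_smul, absv_one, mul_one]

theorem absv_inv (f : F) : Fr.absv b f⁻¹ = (Fr.absv b f)⁻¹ := by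
  rcases eq_or_ne f 0 with rfl | hf
  · simp
  refine eq_inv_of_mul_eq_one_left ?_
  rw [← absv_mul, inv_mul_cancel₀ hf, absv_one]

theorem ordAt_one (P : Place k E) : Fr.ordAt b P (1 : F) = 0 := by
  rw [ordAt_eq (Fr.G b).V.one_mem (by rw [(Fr.G b).red_one]; exact one_ne_zero),
    (Fr.G b).red_one, Place.ord_one]

theorem ordAt_inv (f : F) (P : Place k E) : Fr.ordAt b P f⁻¹ = -Fr.ordAt b P f := by
  rcases eq_or_ne f 0 with rfl | hf
  · simp [ordAt, nred_zero]
  have := ordAt_mul (Fr := Fr) (b := b) (inv_ne_zero hf) hf P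
  rw [inv_mul_cancel₀ hf, ordAt_one] at this
  omega

theorem absv_pow (f : F) (n : ℕ) : Fr.absv b (f ^ n) = Fr.absv b f ^ n := by
  induction n with
  | zero => simp
  | succ n ih => rw [pow_succ, absv_mul, ih, pow_succ]

theorem ordAt_pow (f : F) (n : ℕ) (P : Place k E) :
    Fr.ordAt b P (f ^ n) = n * Fr.ordAt b P f := by
  rcases eq_or_ne f 0 with rfl | hf
  · rcases n with _ | n
    · rw [pow_zero, ordAt_one (Fr := Fr)]
      simp
    · simp [ordAt, nred_zero]
  induction n with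
  | zero => simpa using ordAt_one (Fr := Fr) (b := b) P
  | succ n ih => rw [pow_succ, ordAt_mul (pow_ne_zero _ hf) hf, ih]; push_cast; ring

theorem absv_add_le (f f' : F) : Fr.absv b (f + f') ≤ max (Fr.absv b f) (Fr.absv b f') := by
  wlog h : Fr.absv b f' ≤ Fr.absv b f generalizing f f'
  · rw [add_comm, max_comm]
    exact this f' f (le_of_not_ge h)
  refine le_trans ?_ (le_max_left _ _)
  rcases eq_or_ne f 0 with rfl | hf
  · simp only [absv_zero, le_zero_iff] at h
    rw [zero_add, absv_zero, h]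
  obtain ⟨hd0, hd, -⟩ := scaleConst_spec (Fr := Fr) (b := b) hf
  set c := Fr.scaleConst b f with hc
  have hv : 0 < A.valuation c := zero_lt_iff.mpr ((map_ne_zero _).mpr hd0)
  have h' : c • f' ∈ (Fr.G b).V := by
    rw [mem_iff, absv_smul, ← le_inv_mul_iff₀ hv, mul_one]
    exact h
  have := mem_iff.mp ((Fr.G b).V.add_mem hd h')
  rw [← smul_add, absv_smul, ← le_inv_mul_iff₀ hv, mul_one] at this
  exact this

theorem absv_neg (f : F) : Fr.absv b (-f) = Fr.absv b f := by
  rw [← neg_one_smul Qb f, absv_smul, Valuation.map_neg, map_one, one_mul]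

theorem absv_sub_le (f f' : F) : Fr.absv b (f - f') ≤ max (Fr.absv b f) (Fr.absv b f') := by
  rw [sub_eq_add_neg]
  exact (absv_add_le _ _).trans (by rw [absv_neg])

variable (Fr)

/-- The total order of `f` over a closed point. -/
def fib (f : F) (x : Bool × Place k E) : ℤ :=
  Finsupp.mapDomain Fr.red (divOf f : Divisor Qb F) x

variable {Fr}

theorem fib_eq_zero {f : F} {x : Bool × Place k E}
    (h : ∀ Q, Fr.red Q = x → Q.ord f = 0) : Fr.fib f x = 0 := by
  classical
  rw [fib, mapDomain_apply_eq_sum]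
  exact Finset.sum_eq_zero fun Q hQ => by
    rw [Fr.curve.divOf_apply]; exact h Q (Finset.mem_filter.mp hQ).2

theorem fib_nonneg {f : F} {x : Bool × Place k E}
    (h : ∀ Q, Fr.red Q = x → 0 ≤ Q.ord f) : 0 ≤ Fr.fib f x := by
  classical
  rw [fib, mapDomain_apply_eq_sum]
  exact Finset.sum_nonneg fun Q hQ => by
    rw [Fr.curve.divOf_apply]; exact h Q (Finset.mem_filter.mp hQ).2

theorem fib_eq_single {f : F} {x : Bool × Place k E} {Q₀ : Place Qb F} (h₀ : Fr.red Q₀ = x)
    (h : ∀ Q, Fr.red Q = x → Q ≠ Q₀ → Q.ord f = 0) : Fr.fib f x = Q₀.ord f := by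
  classical
  rw [fib, mapDomain_apply_eq_sum, Finset.sum_eq_single Q₀ ?_ ?_, Fr.curve.divOf_apply]
  · intro Q hQ hne
    rw [Fr.curve.divOf_apply]; exact h Q (Finset.mem_filter.mp hQ).2 hne
  · intro hn
    rw [Finset.mem_filter, Finsupp.mem_support_iff] at hn
    by_contra h0
    exact hn ⟨h0, h₀⟩

/-- If the fibre has total `1` and no poles, it is one simple zero. -/
theorem exists_unique_zero {f : F} {x : Bool × Place k E}
    (h : ∀ Q, Fr.red Q = x → 0 ≤ Q.ord f) (h1 : Fr.fib f x = 1) :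
    ∃ Q₀, Fr.red Q₀ = x ∧ Q₀.ord f = 1 ∧ ∀ Q, Fr.red Q = x → Q ≠ Q₀ → Q.ord f = 0 := by
  classical
  have hle : ∀ Q, Fr.red Q = x → Q.ord f ≤ 1 := fun Q hQ => by
    have := le_mapDomain_of_nonneg Fr.red (divOf f : Divisor Qb F) x
      (fun a ha => by rw [Fr.curve.divOf_apply]; exact h a ha) hQ
    rw [Fr.curve.divOf_apply] at this
    exact this.trans h1.le
  obtain ⟨Q₀, hQ₀, hpos⟩ : ∃ Q₀, Fr.red Q₀ = x ∧ 0 < Q₀.ord f := by
    by_contra hall
    push Not at hall
    rw [fib_eq_zero (fun Q hQ => le_antisymm (hall Q hQ) (h Q hQ))] at h1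
    exact zero_ne_one h1
  refine ⟨Q₀, hQ₀, le_antisymm (hle Q₀ hQ₀) hpos, fun Q hQ hne => ?_⟩
  have h2 := add_le_mapDomain_of_nonneg Fr.red (divOf f : Divisor Qb F) x
    (fun a ha => by rw [Fr.curve.divOf_apply]; exact h a ha) hQ hQ₀ hne
  rw [Fr.curve.divOf_apply, Fr.curve.divOf_apply] at h2
  have := h Q hQ
  have : Q.ord f + Q₀.ord f ≤ 1 := h2.trans h1.le
  omega

theorem fib_mul {f f' : F} (hf : f ≠ 0) (hf' : f' ≠ 0) (x : Bool × Place k E) :
    Fr.fib (f * f') x = Fr.fib f x + Fr.fib f' x := by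
  rw [fib, Fr.curve.divOf_mul hf hf', Finsupp.mapDomain_add, Finsupp.add_apply]
  rfl

variable (Fr)

/-- The node above a point of the first component. -/
def IsNode (x : Bool × Place k E) : Prop := x.1 = false ∧ x.2 ∈ Fr.nodes

/-- A closed point of the special fibre which is not a node. -/
def IsSmooth (x : Bool × Place k E) : Prop :=
  (x.1 = false → x.2 ∉ Fr.nodes) ∧ (x.1 = true → ∀ P ∈ Fr.nodes, Fr.partner P ≠ x.2)

/-- A canonical representative of a closed point. -/
def IsPoint (x : Bool × Place k E) : Prop := Fr.IsSmooth x ∨ Fr.IsNode x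

/-- The component `b` passes through `x`. -/
def OnComp (x : Bool × Place k E) (b : Bool) : Prop := b = x.1 ∨ Fr.IsNode x

/-- The branch at `x` on the component `b`. -/
def branch (x : Bool × Place k E) (b : Bool) : Place k E :=
  if b = x.1 then x.2 else Fr.partner x.2

variable {Fr}

theorem isPoint_red (Q : Place Qb F) : Fr.IsPoint (Fr.red Q) := by
  by_cases h : Fr.IsNode (Fr.red Q)
  · exact Or.inr h
  refine Or.inl ⟨fun h1 h2 => h ⟨h1, h2⟩, fun h1 P hP he => ?_⟩
  exact Fr.red_ne_partner Q P hP (Prod.ext h1 he.symm)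

theorem onComp_self (x : Bool × Place k E) : Fr.OnComp x x.1 := Or.inl rfl

theorem branch_self (x : Bool × Place k E) : Fr.branch x x.1 = x.2 := if_pos rfl

theorem onComp_smooth {x : Bool × Place k E} (hx : Fr.IsSmooth x) {b : Bool}
    (hb : Fr.OnComp x b) : b = x.1 :=
  hb.resolve_right fun h => hx.1 h.1 h.2

theorem branch_node_false {P : Place k E} : Fr.branch (false, P) false = P := if_pos rfl

theorem branch_node_true {P : Place k E} : Fr.branch (false, P) true = Fr.partner P :=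
  if_neg (by simp)

theorem fib_smooth {f : F} (hf : f ≠ 0) {x : Bool × Place k E} (hx : Fr.IsSmooth x) :
    Fr.fib f x = Fr.ordAt x.1 x.2 f := by
  obtain ⟨hd0, hd, hdr⟩ := scaleConst_spec (Fr := Fr) (b := x.1) hf
  have h := Fr.ord_smooth x.1 x.2 hx.1 hx.2 _ hd hdr
  have hdiv : (divOf (Fr.scaleConst x.1 f • f) : Divisor Qb F) = divOf f := by
    rw [Algebra.smul_def, Fr.curve.divOf_mul (by simpa using hd0) hf]
    ext Q
    simp [Fr.curve.divOf_apply]
  rw [hdiv] at h
  exact h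

theorem fib_node {f : F} (hf : f ≠ 0) {P : Place k E} (hP : P ∈ Fr.nodes) :
    Fr.fib f (false, P) = Fr.ordAt false P f + Fr.ordAt true (Fr.partner P) f :=
  Fr.ord_node P hP f _ _ (scaleConst_spec hf).2.1 (scaleConst_spec hf).2.2
    (scaleConst_spec hf).2.1 (scaleConst_spec hf).2.2

end Frame

end FLTAgent.MazurP
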