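import Fermat.Agent.MazurP.Base

/-!
# First order expansions on a frame

`FO b ε q r` means `q = 1 + ε y` on the component `b` with `y` reducing to `r`; it is compatible
with products, inverses and powers. `exists_first_order`: a normalised function which has such
local shapes at a finite set `S` and no zeros or poles elsewhere is globally `1 + ε w`, where the
reduction of `w` is regular off `S` and has the prescribed singular parts at `S`.
`red_eq_pow_of_eq`: if `1 + c^p z` is a `p`-th power with `|p| < |c|^(p-1) < 1`, the reduction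
of `z` is a `p`-th power.
-/

set_option autoImplicit false
set_option linter.style.haveILetI false
set_option linter.unusedSectionVars false

noncomputable section

open AlgebraicCurve SemilinearAut

namespace FLTAgent.MazurP

open FLTAgent.Reduction

local notation "Qb" => AlgebraicClosure ℚ

theorem one_add_pow_prime {p : ℕ} (hp : p.Prime) {R : Type*} [CommRing R] (y : R) :
    ∃ r, (1 + y) ^ p = 1 + y ^ p + (p : R) * y * (1 + y * r) := by
  obtain ⟨r, hr⟩ := exists_add_pow_prime_eq hp (1 : Polynomial ℤ) Polynomial.X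
  have h1 := congrArg (fun f : Polynomial ℤ => f.coeff 1) hr
  simp only [Polynomial.coeff_one_add_X_pow, Nat.choose_one_right, one_pow, mul_one,
    Polynomial.coeff_add, Polynomial.coeff_one, Polynomial.coeff_X_pow] at h1
  rw [mul_assoc, Polynomial.coeff_natCast_mul, Polynomial.coeff_X_mul, if_neg one_ne_zero,
    if_neg hp.one_lt.ne] at h1
  have h0 : r.coeff 0 = 1 :=
    mul_left_cancel₀ (a := (p : ℤ)) (by exact_mod_cast hp.ne_zero) (by rw [mul_one]; linarith)
  have hr' := Polynomial.X_mul_divX_add r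
  rw [h0, map_one] at hr'
  refine ⟨Polynomial.aeval y r.divX, ?_⟩
  have h2 := congrArg (Polynomial.aeval y) hr
  rw [← hr'] at h2
  simp only [map_pow, map_add, map_one, Polynomial.aeval_X, one_pow, map_mul, map_natCast,
    mul_one] at h2
  rw [h2]
  ring

namespace Frame

variable {A : ValuationSubring Qb} {k : Type*} [Field k] {π : A →+* k} {p : ℕ}
  {F E : Type*} [Field F] [Field E] [Algebra Qb F] [Algebra k E] (Fr : Frame A π p F E)

/-- `q = 1 + ε y` on the component `b`, with `y` reducing to `r`. -/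
def FO (b : Bool) (ε : Qb) (q : F) (r : E) : Prop :=
  ∃ y ∈ (Fr.G b).V, q = 1 + ε • y ∧ (Fr.G b).red y = r

variable {Fr} {b : Bool} {ε : Qb}

theorem smul_mem_red_zero {c : Qb} (hc : A.valuation c < 1) {y : F} (hy : y ∈ (Fr.G b).V) :
    c • y ∈ (Fr.G b).V ∧ (Fr.G b).red (c • y) = 0 := by
  have hcA : c ∈ A := (A.valuation_le_one_iff c).mp hc.le
  refine ⟨(Fr.G b).smul_mem' hcA hy, ?_⟩
  rw [show c • y = ((⟨c, hcA⟩ : A) : Qb) • y from rfl, (Fr.G b).red_smul _ hy,
    (res_eq_zero_iff_lt Fr ⟨c, hcA⟩).mpr hc, zero_smul]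

namespace FO

variable {q q' : F} {r r' : E}

theorem mem (hε : A.valuation ε < 1) (h : Fr.FO b ε q r) :
    q ∈ (Fr.G b).V ∧ (Fr.G b).red q = 1 := by
  obtain ⟨y, hy, rfl, -⟩ := h
  obtain ⟨h1, h2⟩ := smul_mem_red_zero (Fr := Fr) hε hy
  exact ⟨(Fr.G b).V.add_mem (Fr.G b).V.one_mem h1, by
    rw [(Fr.G b).red_add (Fr.G b).V.one_mem h1, (Fr.G b).red_one, h2, add_zero]⟩

theorem ne_zero (hε : A.valuation ε < 1) (h : Fr.FO b ε q r) : q ≠ 0 := fun h0 => by
  have := (h.mem hε).2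
  rw [h0, (Fr.G b).red_zero] at this
  exact zero_ne_one this

theorem one : Fr.FO b ε (1 : F) 0 :=
  ⟨0, (Fr.G b).V.zero_mem, by simp, (Fr.G b).red_zero⟩

theorem mul (hε : A.valuation ε < 1) (h : Fr.FO b ε q r) (h' : Fr.FO b ε q' r') :
    Fr.FO b ε (q * q') (r + r') := by
  obtain ⟨y, hy, rfl, rfl⟩ := h
  obtain ⟨y', hy', rfl, rfl⟩ := h'
  obtain ⟨h1, h2⟩ := smul_mem_red_zero (Fr := Fr) hε ((Fr.G b).V.mul_mem hy hy')
  refine ⟨y + y' + ε • (y * y'), (Fr.G b).V.add_mem ((Fr.G b).V.add_mem hy hy') h1, ?_, ?_⟩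
  · simp only [Algebra.smul_def]; ring
  · rw [(Fr.G b).red_add ((Fr.G b).V.add_mem hy hy') h1, (Fr.G b).red_add hy hy', h2, add_zero]

theorem inv (hε : A.valuation ε < 1) (h : Fr.FO b ε q r) : Fr.FO b ε q⁻¹ (-r) := by
  have hq0 := h.ne_zero hε
  obtain ⟨hm, hr⟩ := h.mem hε
  obtain ⟨y, hy, rfl, rfl⟩ := h
  have hi := (Fr.G b).inv_mem hm (by rw [hr]; exact one_ne_zero)
  refine ⟨-(y * (1 + ε • y)⁻¹), (Fr.G b).V.neg_mem ((Fr.G b).V.mul_mem hy hi), ?_, ?_⟩
  · apply mul_left_cancel₀ hq0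
    rw [mul_inv_cancel₀ hq0]
    simp only [Algebra.smul_def]
    rw [mul_add, mul_one, mul_neg, mul_neg, mul_left_comm (1 + algebraMap Qb F ε * y),
      mul_left_comm (1 + algebraMap Qb F ε * y),
      show (1 + algebraMap Qb F ε * y) * (1 + algebraMap Qb F ε * y)⁻¹ = 1 from
        mul_inv_cancel₀ (by simpa [Algebra.smul_def] using hq0)]
    ring
  · have hi' := (Fr.G b).red_mul hm hi
    rw [mul_inv_cancel₀ hq0, (Fr.G b).red_one, hr, one_mul] at hi'
    rw [(Fr.G b).red_neg ((Fr.G b).V.mul_mem hy hi), (Fr.G b).red_mul hy hi, ← hi', mul_one]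

theorem pow (hε : A.valuation ε < 1) (h : Fr.FO b ε q r) (n : ℕ) :
    Fr.FO b ε (q ^ n) (n • r) := by
  induction n with
  | zero => simpa using FO.one (Fr := Fr) (b := b) (ε := ε)
  | succ n ih => rw [pow_succ, succ_nsmul]; exact ih.mul hε h

/-- Change of the small parameter. -/
theorem rescale {c : Qb} (hε0 : ε ≠ 0) (hc : A.valuation c ≤ A.valuation ε) {y : F}
    (hy : y ∈ (Fr.G b).V) (a : A) (ha : (a : Qb) = c / ε) :
    Fr.FO b ε (1 + c • y) (π a • (Fr.G b).red y) :=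
  ⟨(a : Qb) • y, (Fr.G b).smul_mem a hy, by rw [ha, smul_smul, mul_div_cancel₀ _ hε0],
    (Fr.G b).red_smul a hy⟩

end FO

/-! ### The expansion of a normalised function -/

/-- A normalised function with first order shapes `r` at `S` and no zeros or poles elsewhere is
`1 + ε w`, with `w` integral and its reduction regular apart from the singular parts `r`. -/
theorem exists_first_order [IsAlgClosed k] {h : F} {ε : Qb} (hε0 : ε ≠ 0)
    (hε : A.valuation ε < 1) (S : Finset (Bool × Place k E))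
    (r : Bool × Place k E → Bool → E) {Q₀ : Place Qb F} (hs₀ : Fr.IsSmooth (Fr.red Q₀))
    (hS₀ : Fr.red Q₀ ∉ S) (hval : valAt Q₀ h = 1)
    (hS : ∀ x ∈ S, Fr.IsPoint x → ∃ q : F, (∀ b, Fr.OnComp x b → Fr.FO b ε q (r x b)) ∧
      ∀ Q, Fr.red Q = x → Q.ord h = Q.ord q)
    (hout : ∀ x, Fr.IsPoint x → x ∉ S → ∀ Q, Fr.red Q = x → Q.ord h = 0) :
    ∃ w : F, (∀ b, w ∈ (Fr.G b).V) ∧ h = 1 + ε • w ∧
      (∀ x, Fr.IsPoint x → x ∉ S → Fr.RegAt (Fr.rp w) x) ∧
      (∀ x ∈ S, Fr.IsPoint x → Fr.RegAt (fun b => Fr.rp w b - r x b) x) ∧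
      valAt (Fr.red Q₀).2 (Fr.rp w (Fr.red Q₀).1) = 0 := by
  classical
  set x₀ := Fr.red Q₀ with hx₀
  have hh : h ≠ 0 := by
    rintro rfl
    rw [valAt_zero] at hval
    exact zero_ne_one hval
  -- `h ≡ 1` on both components
  obtain ⟨c, hc0, hc⟩ := unit_const (Fr := Fr) hh fun x hx => by
    by_cases hxS : x ∈ S
    · obtain ⟨q, hq, hord⟩ := hS x hxS hx
      exact ⟨q, fun b hb => (hq b hb).mem hε, hord⟩
    · exact ⟨1, fun b _ => ⟨(Fr.G b).V.one_mem, (Fr.G b).red_one⟩, fun Q hQ => by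
        rw [hout x hx hxS Q hQ, Place.ord_one]⟩
  have hreg₀ : ∀ Q, Fr.red Q = x₀ → Vanish Q h 0 := fun Q hQ =>
    Or.inr (hout x₀ (Or.inl hs₀) hS₀ Q hQ).ge
  obtain ⟨hcA, hcπ⟩ := valAt_red hs₀ (hc x₀.1).1 (fun Q hQ => (hreg₀ Q hQ).smul c) hx₀.symm
  rw [(hc x₀.1).2, valAt_one] at hcπ
  simp only [Fr.curve.valAt_smul c (hreg₀ Q₀ hx₀.symm), hval, mul_one] at hcA hcπ
  have hci : c⁻¹ ∈ A := (Fr.G false).res_ne_zero_inv_mem (a := ⟨c, hcA⟩)
    (by rw [hcπ]; exact one_ne_zero)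
  have hπi : π ⟨c⁻¹, hci⟩ = 1 := by
    have h1 : (⟨c, hcA⟩ : A) * ⟨c⁻¹, hci⟩ = 1 := Subtype.ext (mul_inv_cancel₀ hc0)
    have h2 := congrArg π h1
    rwa [map_mul, hcπ, one_mul, map_one] at h2
  have hone : ∀ b, h ∈ (Fr.G b).V ∧ (Fr.G b).red h = 1 := fun b => by
    have he : h = ((⟨c⁻¹, hci⟩ : A) : Qb) • (c • h) := by
      rw [smul_smul, inv_mul_cancel₀ hc0, one_smul]
    rw [he]
    exact ⟨(Fr.G b).smul_mem _ (hc b).1, by
      rw [(Fr.G b).red_smul _ (hc b).1, hπi, one_smul, (hc b).2]⟩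
  have hsub : ∀ b, Fr.absv b (h - 1) < 1 := fun b => by
    have hm := (Fr.G b).V.sub_mem (hone b).1 (Fr.G b).V.one_mem
    refine lt_of_le_of_ne (mem_iff.mp hm) fun he => (red_ne_zero_iff hm).mpr he ?_
    rw [(Fr.G b).red_sub (hone b).1 (Fr.G b).V.one_mem, (hone b).2, (Fr.G b).red_one, sub_self]
  -- the expansion in terms of a bound for `h - 1`
  have key : ∀ d : Qb, d ≠ 0 → A.valuation ε ≤ A.valuation d →
      (∀ b, Fr.absv b (h - 1) ≤ A.valuation d) → ∀ a : A, (a : Qb) = ε / d →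
      (∀ b, d⁻¹ • (h - 1) ∈ (Fr.G b).V) ∧
      (∀ x, Fr.IsPoint x → x ∉ S → Fr.RegAt (Fr.rp (d⁻¹ • (h - 1))) x) ∧
      (∀ x ∈ S, Fr.IsPoint x →
        Fr.RegAt (fun b => Fr.rp (d⁻¹ • (h - 1)) b - π a • r x b) x) ∧
      valAt x₀.2 (Fr.rp (d⁻¹ • (h - 1)) x₀.1) = 0 := by
    intro d hd0 _ hbd a ha
    have hvd : 0 < A.valuation d := zero_lt_iff.mpr ((map_ne_zero _).mpr hd0)
    have hw : ∀ b, d⁻¹ • (h - 1) ∈ (Fr.G b).V := fun b => by
      rw [mem_iff, absv_smul, map_inv₀, inv_mul_le_one₀ hvd]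
      exact hbd b
    refine ⟨hw, fun x hx hxS => regAt_red hx (fun b _ => hw b) fun Q hQ =>
      ((show Vanish Q h 0 from Or.inr (hout x hx hxS Q hQ).ge).sub Vanish.one).smul _,
      fun x hxS hx => ?_, ?_⟩
    · obtain ⟨q, hq, hord⟩ := hS x hxS hx
      have hq0 : q ≠ 0 := (hq x.1 (onComp_self x)).ne_zero hε
      set y := d⁻¹ • (h * q⁻¹ - 1) with hy
      have key' : ∀ b, Fr.OnComp x b → y ∈ (Fr.G b).V ∧
          (Fr.G b).red y = Fr.rp (d⁻¹ • (h - 1)) b - π a • r x b := fun b hb => by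
        obtain ⟨hqm, hqr⟩ := (hq b hb).mem hε
        obtain ⟨z, hz, hqz, hzr⟩ := hq b hb
        have hi := (Fr.G b).inv_mem hqm (by rw [hqr]; exact one_ne_zero)
        have hi' := (Fr.G b).red_mul hqm hi
        rw [mul_inv_cancel₀ hq0, (Fr.G b).red_one, hqr, one_mul] at hi'
        have he : y = (d⁻¹ • (h - 1) - (a : Qb) • z) * q⁻¹ := by
          have h1 : h * q⁻¹ - 1 = ((h - 1) - ε • z) * q⁻¹ := by
            rw [sub_mul, sub_mul, one_mul]
            have h2 : q * q⁻¹ = 1 := mul_inv_cancel₀ hq0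
            rw [hqz] at h2 ⊢
            rw [add_mul, one_mul] at h2
            linear_combination h2
          rw [hy, h1, ← smul_mul_assoc, smul_sub, smul_smul, ha, div_eq_inv_mul]
        rw [he]
        refine ⟨(Fr.G b).V.mul_mem ((Fr.G b).V.sub_mem (hw b) ((Fr.G b).smul_mem a hz)) hi, ?_⟩
        rw [(Fr.G b).red_mul ((Fr.G b).V.sub_mem (hw b) ((Fr.G b).smul_mem a hz)) hi, ← hi',
          mul_one, (Fr.G b).red_sub (hw b) ((Fr.G b).smul_mem a hz), (Fr.G b).red_smul a hz,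
          hzr, rp]
      refine regAt_congr (fun b hb => (key' b hb).2) (regAt_red hx (fun b hb => (key' b hb).1)
        fun Q hQ => ?_)
      refine (Vanish.sub (Vanish.zero_iff.mpr ?_) Vanish.one).smul _
      rw [Q.ord_mul hh (inv_ne_zero hq0), Place.ord_inv, hord Q hQ]
      omega
    · have hz : Vanish Q₀ (d⁻¹ • (h - 1)) 1 := by
        have := Fr.curve.exists_valAt (hreg₀ Q₀ hx₀.symm)
        rw [hval, map_one] at this
        exact this.smul _
      obtain ⟨hm, hπ⟩ := valAt_red hs₀ (hw x₀.1) (fun Q hQ =>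
        ((hreg₀ Q hQ).sub Vanish.one).smul _) hx₀.symm
      simp only [rp, ← hπ, valAt_eq_zero_of_vanish hz]
      exact map_zero π
  have hle : ∀ b, Fr.absv b (h - 1) ≤ A.valuation ε := by
    by_contra hall
    push Not at hall
    obtain ⟨b₁, hb₁⟩ := hall
    obtain ⟨b₀, hb₀⟩ : ∃ b₀, ∀ b, Fr.absv b (h - 1) ≤ Fr.absv b₀ (h - 1) := by
      by_cases hle : Fr.absv false (h - 1) ≤ Fr.absv true (h - 1)
      · exact ⟨true, fun b => by cases b <;> simp [hle]⟩
      · exact ⟨false, fun b => by cases b <;> simp [le_of_not_ge hle]⟩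
    have hne : h - 1 ≠ 0 := fun h0 => by simp [h0] at hb₁
    set d := (Fr.scaleConst b₀ (h - 1))⁻¹ with hd
    have hvd : A.valuation d = Fr.absv b₀ (h - 1) := by rw [hd, map_inv₀]; rfl
    have hd0 : d ≠ 0 := inv_ne_zero (scaleConst_spec hne).1
    have hlt : A.valuation (ε / d) < 1 := by
      rw [map_div₀, div_lt_one₀ (zero_lt_iff.mpr ((map_ne_zero _).mpr hd0)), hvd]
      exact hb₁.trans_le (hb₀ b₁)
    have haA : ε / d ∈ A := (A.valuation_le_one_iff _).mp hlt.le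
    obtain ⟨hw, h1, h2, h3⟩ := key d hd0 (hvd ▸ (hb₁.trans_le (hb₀ b₁)).le)
      (fun b => hvd ▸ hb₀ b) ⟨_, haA⟩ rfl
    have hπ0 := (res_eq_zero_iff_lt Fr ⟨_, haA⟩).mpr hlt
    obtain ⟨e, he⟩ := regB_empty (Fr := Fr) (w := Fr.rp (d⁻¹ • (h - 1)))
      ⟨fun x hx _ => by
        by_cases hxS : x ∈ S
        · have := h2 x hxS hx
          simp only [hπ0, zero_smul, sub_zero] at this
          exact this
        · exact h1 x hx hxS, by simp⟩
    rw [he, valAt_algebraMap] at h3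
    have hr0 : (Fr.G b₀).red (d⁻¹ • (h - 1)) = 0 := by
      have := he b₀
      rwa [h3, map_zero] at this
    refine (red_ne_zero_iff (hw b₀)).mpr ?_ hr0
    rw [absv_smul, map_inv₀, hvd, inv_mul_cancel₀ (absv_ne_zero hne)]
  obtain ⟨hw, h1, h2, h3⟩ := key ε hε0 le_rfl hle 1 (by simp [div_self hε0])
  refine ⟨ε⁻¹ • (h - 1), hw, ?_, h1, fun x hx hp => ?_, h3⟩
  · rw [smul_smul, mul_inv_cancel₀ hε0, one_smul, add_sub_cancel]
  · simpa using h2 x hx hp

/-! ### `p`-th powers congruent to one -/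

theorem charP_E (Fr : Frame A π p F E) : CharP E p :=
  haveI := Fr.charP
  charP_of_injective_algebraMap (algebraMap k E).injective p

/-- If `X ^ p = 1 + cm ^ p • z` with `|p| < |cm|^(p-1)`, the reduction of `z` is a `p`-th power. -/
theorem red_eq_pow_of_eq {X z : F} {cm : Qb} (hcm0 : cm ≠ 0) (hcm : A.valuation cm < 1)
    (hbig : A.valuation (p : Qb) < A.valuation cm ^ (p - 1)) (hz : z ∈ (Fr.G b).V)
    (hX : X ^ p = 1 + cm ^ p • z) : ∃ u, (Fr.G b).red z = u ^ p := by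
  haveI := charP_E Fr
  haveI := Fact.mk Fr.p_prime
  have hp0 := Fr.p_prime.ne_zero
  have hvp : A.valuation (cm ^ p) < 1 := by rw [map_pow]; exact pow_lt_one₀ zero_le hcm hp0
  obtain ⟨hm, hr⟩ := FO.mem hvp (⟨z, hz, hX, rfl⟩ : Fr.FO b (cm ^ p) (X ^ p) _)
  have hXabs : Fr.absv b X = 1 := by
    have := absv_eq_one hm (by rw [hr]; exact one_ne_zero)
    rw [absv_pow] at this
    exact (pow_eq_one_iff.mp this).resolve_right hp0
  have hXm : X ∈ (Fr.G b).V := mem_iff.mpr hXabs.le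
  have hXr : (Fr.G b).red X = 1 := by
    rw [(Fr.G b).red_pow hXm] at hr
    exact frobenius_inj E p (by simp only [frobenius_def, hr, one_pow])
  set y : (Fr.G b).V := ⟨X - 1, (Fr.G b).V.sub_mem hXm (Fr.G b).V.one_mem⟩ with hy
  obtain ⟨T, hT⟩ := one_add_pow_prime Fr.p_prime y
  set R : F := 1 + (y : F) * (T : F) with hR
  have hRm : R ∈ (Fr.G b).V := (Fr.G b).V.add_mem (Fr.G b).V.one_mem
    ((Fr.G b).V.mul_mem y.2 T.2)
  have hsum : cm ^ p • z = (y : F) ^ p + (p : Qb) • ((y : F) * R) := by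
    have h1 := congrArg (fun t : (Fr.G b).V => (t : F)) hT
    push_cast at h1
    rw [show (1 : F) + (y : F) = X by simp [hy]] at h1
    rw [hX] at h1
    rw [Algebra.smul_def (p : Qb), map_natCast, hR]
    linear_combination h1
  have hyle : Fr.absv b (y : F) ≤ A.valuation cm := by
    by_contra hgt
    push Not at hgt
    have hpos : 0 < Fr.absv b (y : F) := lt_of_le_of_lt zero_le hgt
    have h1 : Fr.absv b (y : F) ^ p ≤
        max (Fr.absv b (cm ^ p • z)) (Fr.absv b ((p : Qb) • ((y : F) * R))) := by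
      rw [← absv_pow, show (y : F) ^ p = cm ^ p • z - (p : Qb) • ((y : F) * R) by
        rw [hsum]; ring]
      exact absv_sub_le _ _
    have h2 : Fr.absv b (cm ^ p • z) < Fr.absv b (y : F) ^ p := by
      rw [absv_smul, map_pow]
      exact lt_of_le_of_lt (mul_le_of_le_one_right' (mem_iff.mp hz))
        (pow_lt_pow_left₀ hgt zero_le hp0)
    have h3 : Fr.absv b ((p : Qb) • ((y : F) * R)) < Fr.absv b (y : F) ^ p := by
      rw [absv_smul, absv_mul]
      calc A.valuation (p : Qb) * (Fr.absv b (y : F) * Fr.absv b R)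
          ≤ A.valuation (p : Qb) * Fr.absv b (y : F) := by
            gcongr
            exact mul_le_of_le_one_right' (mem_iff.mp hRm)
        _ < Fr.absv b (y : F) ^ (p - 1) * Fr.absv b (y : F) := by
            gcongr
            exact hbig.trans_le (pow_le_pow_left₀ zero_le hgt.le _)
        _ = Fr.absv b (y : F) ^ p := by
            rw [← pow_succ, Nat.sub_add_cancel Fr.p_prime.one_le]
    exact (lt_of_le_of_lt h1 (max_lt h2 h3)).false
  have hvc : 0 < A.valuation cm := zero_lt_iff.mpr ((map_ne_zero _).mpr hcm0)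
  set y' : F := cm⁻¹ • (y : F) with hy'
  have hy'm : y' ∈ (Fr.G b).V := by
    rw [mem_iff, hy', absv_smul, map_inv₀, inv_mul_le_one₀ hvc]
    exact hyle
  have hδ : A.valuation ((p : Qb) / cm ^ (p - 1)) < 1 := by
    rw [map_div₀, map_pow, div_lt_one₀ (pow_pos hvc _)]
    exact hbig
  obtain ⟨h1, h2⟩ := smul_mem_red_zero (Fr := Fr) hδ ((Fr.G b).V.mul_mem hy'm hRm)
  refine ⟨(Fr.G b).red y', ?_⟩
  have hzeq : z = y' ^ p + ((p : Qb) / cm ^ (p - 1)) • (y' * R) := by
    apply (smul_right_injective F (pow_ne_zero p hcm0))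
    show cm ^ p • z = cm ^ p • _
    rw [hsum, smul_add, hy', smul_pow, smul_smul, ← mul_pow, mul_inv_cancel₀ hcm0, one_pow,
      one_smul, smul_mul_assoc, smul_smul, smul_smul]
    congr 2
    rw [show cm ^ p = cm ^ (p - 1) * cm by
      rw [← pow_succ, Nat.sub_add_cancel Fr.p_prime.one_le]]
    field_simp
  rw [hzeq, (Fr.G b).red_add (pow_mem hy'm p) h1, h2, add_zero, (Fr.G b).red_pow hy'm]

end Frame

end FLTAgent.MazurP
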