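import Fermat.Agent.MazurP.Scalar

/-!
# A divisor fixed by a subgroup of inertia

`exists_fixed_divisor`: if `p D = div f` and a subgroup `H` of inertia fixes the class of `D`,
then a divisor linearly equivalent to `D` is fixed by `H`. Normalising at an inertia fixed smooth
place gives a cocycle on the finite orbit of `f`, and a nonzero twisted trace splits it.
-/

set_option autoImplicit false
set_option linter.style.haveILetI false
set_option linter.unusedSectionVars false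

noncomputable section

open AlgebraicCurve SemilinearAut
open scoped Classical

namespace FLTAgent.MazurP

open FLTAgent.Reduction

local notation "Qb" => AlgebraicClosure ℚ
local notation "Γℚ" => (AlgebraicClosure ℚ ≃ₐ[ℚ] AlgebraicClosure ℚ)

namespace Frame

variable {A : ValuationSubring Qb} {k : Type*} [Field k] {π : A →+* k} {p : ℕ}
  {F E : Type*} [Field F] [Field E] [Algebra Qb F] [Algebra k E] {Fr : Frame A π p F E}

theorem exists_fixed_place {x : Bool × Place k E} (hx : Fr.IsSmooth x) :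
    ∃ Q₀, Fr.red Q₀ = x ∧ ∀ σ ∈ A.inertiaSubgroupIn ℚ, Fr.act σ • Q₀ = Q₀ := by
  obtain ⟨t, ht⟩ := exists_isParam Fr hx
  obtain ⟨Q₀, hQ₀, hv, -, -⟩ := ht.exists_pt (c := 0) (by simp)
  refine ⟨Q₀, hQ₀, fun σ hσ => ?_⟩
  have hred : Fr.red (Fr.act σ • Q₀) = x := by rw [Fr.act_red σ hσ, hQ₀]
  refine ht.eq_of_valAt hred hQ₀ ?_
  conv_lhs => rw [← ht.fixed σ hσ]
  rw [valAt_act σ Q₀ (ht.no_pole Q₀ hQ₀), hv, map_zero]

/-- A finite set of places of the special fibre misses a smooth point. -/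
theorem exists_smooth_notMem [IsAlgClosed k] (s : Finset (Bool × Place k E)) :
    ∃ x, Fr.IsSmooth x ∧ x ∉ s := by
  obtain ⟨P, hP, hPs⟩ := exists_smooth (Fr := Fr) false (s.image Prod.snd)
  exact ⟨(false, P), hP, fun h => hPs (Finset.mem_image.mpr ⟨_, h, rfl⟩)⟩

theorem ord_act (σ : Γℚ) (g : F) (Q : Place Qb F) :
    Q.ord (Fr.act σ • g) = ((Fr.act σ)⁻¹ • Q).ord g := by
  have h := SemilinearAut.ord_smul (Fr.act σ) ((Fr.act σ)⁻¹ • Q) g
  rwa [smul_inv_smul] at h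

theorem act_ne_zero (σ : Γℚ) {g : F} (hg : g ≠ 0) : Fr.act σ • g ≠ 0 := fun h0 =>
  hg (smul_left_cancel (Fr.act σ) (h0.trans (smul_zero _).symm))

theorem exists_smul_eq (Fr : Frame A π p F E) {g g' : F} (hg : g ≠ 0) (hg' : g' ≠ 0)
    (h : ∀ Q : Place Qb F, Q.ord g = Q.ord g') : ∃ c : Qb, g = c • g' := by
  obtain ⟨c, hc⟩ := Fr.curve.const (g * g'⁻¹) fun Q => by
    rw [Q.ord_mul hg (inv_ne_zero hg'), Place.ord_inv, h Q]
    omega
  exact ⟨c, by rw [Algebra.smul_def, hc, mul_assoc, inv_mul_cancel₀ hg', mul_one]⟩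

theorem valAt_pow (Fr : Frame A π p F E) {Q : Place Qb F} {g : F} (hg : Vanish Q g 0) (n : ℕ) :
    valAt Q (g ^ n) = valAt Q g ^ n := by
  induction n with
  | zero => simpa using valAt_one Q
  | succ n ih => rw [pow_succ, pow_succ, Fr.curve.valAt_mul (by simpa using hg.pow n) hg, ih]

/-- A class fixed by `H` contains a divisor fixed by `H`. -/
theorem exists_fixed_divisor [IsAlgClosed k] {H : Subgroup Γℚ}
    (hH : H ≤ A.inertiaSubgroupIn ℚ) (D : Divisor Qb F) {f : F} (hf : f ≠ 0)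
    (hdiv : ∀ Q : Place Qb F, Q.ord f = (p : ℤ) * D Q)
    (hfix : ∀ τ ∈ H, Fr.act τ • D - D ∈ Divisor.principal (K := Qb) (F := F)) :
    ∃ b : F, b ≠ 0 ∧ ∀ τ ∈ H, Fr.act τ • (D + divOf b) = D + divOf b := by
  have hp0 : (p : ℤ) ≠ 0 := by exact_mod_cast Fr.p_prime.ne_zero
  obtain ⟨x₀, hx₀, hx₀D⟩ := exists_smooth_notMem (Fr := Fr) (D.support.image Fr.red)
  obtain ⟨Q₀, hQ₀, hQfix⟩ := exists_fixed_place hx₀
  have hD₀ : D Q₀ = 0 := by
    by_contra h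
    exact hx₀D (Finset.mem_image.mpr ⟨Q₀, Finsupp.mem_support_iff.mpr h, hQ₀⟩)
  obtain ⟨γ, hγ, hval, hordf⟩ := exists_normalise Fr (Q₀ := Q₀) hf
    (by rw [hdiv, hD₀, mul_zero])
  set f₁ := γ • f with hf₁
  have hf₁0 : f₁ ≠ 0 := smul_ne_zero hγ hf
  have hdiv₁ : ∀ Q : Place Qb F, Q.ord f₁ = (p : ℤ) * D Q := fun Q => by rw [hordf, hdiv]
  have hreg₁ : Vanish Q₀ f₁ 0 := Or.inr (by rw [hdiv₁, hD₀, mul_zero])
  -- the orbit
  have hfin : (Set.range fun τ : H => Fr.act τ • f₁).Finite := (Fr.act_finite f₁).subset (by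
    rintro _ ⟨τ, rfl⟩; exact ⟨τ, rfl⟩)
  set O := hfin.toFinset with hO
  have hmemO : ∀ g, g ∈ O ↔ ∃ τ : H, Fr.act τ • f₁ = g := fun g => hfin.mem_toFinset
  have hexφ : ∀ g : F, ∃ φ : F, g ∈ O →
      φ ≠ 0 ∧ valAt Q₀ φ = 1 ∧ Q₀.ord φ = 0 ∧ g = f₁ * φ ^ p := by
    intro g
    by_cases hg : g ∈ O
    swap
    · exact ⟨0, fun h => absurd h hg⟩
    obtain ⟨⟨τ, hτ⟩, rfl⟩ := (hmemO g).mp hg
    obtain ⟨ψ, hψ, hψD⟩ := hfix τ hτ
    have hQ' : (Fr.act τ)⁻¹ • Q₀ = Q₀ := inv_smul_eq_iff.mpr (hQfix τ (hH hτ)).symm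
    have hψ0 : Q₀.ord ψ = 0 := by
      rw [← hψD, Finsupp.sub_apply, SemilinearAut.divisor_smul_apply, hQ', hD₀, sub_zero]
    obtain ⟨δ, hδ, hvalψ, hordψ⟩ := exists_normalise Fr (Q₀ := Q₀) hψ hψ0
    have hφ0 : δ • ψ ≠ 0 := smul_ne_zero hδ hψ
    have hreg : Vanish Q₀ (δ • ψ) 0 := Or.inr (by rw [hordψ, hψ0])
    refine ⟨δ • ψ, fun _ => ⟨hφ0, hvalψ, by rw [hordψ, hψ0], ?_⟩⟩
    obtain ⟨c, hc⟩ := exists_smul_eq Fr (act_ne_zero (Fr := Fr) τ hf₁0)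
      (mul_ne_zero hf₁0 (pow_ne_zero p hφ0)) fun Q => by
        rw [ord_act, Q.ord_mul hf₁0 (pow_ne_zero p hφ0), FF.ord_pow, hordψ, hdiv₁, hdiv₁,
          ← hψD Q, Finsupp.sub_apply, SemilinearAut.divisor_smul_apply]
        ring
    have h1 : valAt Q₀ (Fr.act τ • f₁) = 1 := by
      conv_lhs => rw [← hQfix τ (hH hτ)]
      rw [valAt_act τ Q₀ hreg₁, hval, map_one]
    rw [hc, Fr.curve.valAt_smul c (hreg₁.mul_zero' (by simpa using hreg.pow p)),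
      Fr.curve.valAt_mul hreg₁ (by simpa using hreg.pow p), valAt_pow Fr hreg, hval, hvalψ,
      one_pow, one_mul, mul_one] at h1
    show Fr.act τ • f₁ = _
    rw [hc, h1, one_smul]
  choose φ hφ using hexφ
  -- the cocycle rule
  have hmul : ∀ τ ∈ H, ∀ g ∈ O, Fr.act τ • g ∈ O ∧
      φ (Fr.act τ • g) = φ (Fr.act τ • f₁) * Fr.act τ • φ g := by
    intro τ hτ g hg
    obtain ⟨⟨ρ, hρ⟩, hρg⟩ := (hmemO g).mp hg
    have hg' : Fr.act τ • g ∈ O := (hmemO _).mpr ⟨⟨τ * ρ, H.mul_mem hτ hρ⟩, by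
      rw [← hρg]; show Fr.act (τ * ρ) • f₁ = _; rw [map_mul, mul_smul]⟩
    have hτf : Fr.act τ • f₁ ∈ O := (hmemO _).mpr ⟨⟨τ, hτ⟩, rfl⟩
    refine ⟨hg', ?_⟩
    obtain ⟨a0, a1, a2, a3⟩ := hφ _ hg
    obtain ⟨b0, b1, b2, b3⟩ := hφ _ hτf
    obtain ⟨d0, d1, d2, d3⟩ := hφ _ hg'
    have hQ' : (Fr.act τ)⁻¹ • Q₀ = Q₀ := inv_smul_eq_iff.mpr (hQfix τ (hH hτ)).symm
    have he : φ (Fr.act τ • g) ^ p = (φ (Fr.act τ • f₁) * Fr.act τ • φ g) ^ p := by
      apply mul_left_cancel₀ hf₁0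
      rw [← d3, mul_pow, ← mul_assoc, ← b3, ← smul_pow', ← smul_mul', ← a3]
    obtain ⟨c, hc⟩ := exists_smul_eq Fr d0 (mul_ne_zero b0 (act_ne_zero (Fr := Fr) τ a0)) fun Q => by
      have := congrArg Q.ord he
      rw [FF.ord_pow, FF.ord_pow] at this
      exact mul_left_cancel₀ hp0 this
    have hregb : Vanish Q₀ (φ (Fr.act τ • f₁)) 0 := Or.inr b2.ge
    have hrega : Vanish Q₀ (Fr.act τ • φ g) 0 := Or.inr (by rw [ord_act, hQ', a2])
    have hva : valAt Q₀ (Fr.act τ • φ g) = 1 := by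
      conv_lhs => rw [← hQfix τ (hH hτ)]
      rw [valAt_act τ Q₀ (Or.inr a2.ge), a1, map_one]
    have h1 := congrArg (valAt Q₀) hc
    rw [d1, Fr.curve.valAt_smul c (hregb.mul_zero' hrega), Fr.curve.valAt_mul hregb hrega, b1,
      hva, mul_one, mul_one] at h1
    rw [hc, ← h1, one_smul]
  -- a nonzero twisted trace
  have hf₁O : f₁ ∈ O := (hmemO _).mpr ⟨1, by simp⟩
  obtain ⟨n, hn⟩ : ∃ n : ℕ, ∑ g ∈ O, φ g * g ^ n ≠ 0 := by
    by_contra hall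
    push Not at hall
    set e := O.equivFin.symm with he
    have hv := Matrix.eq_zero_of_forall_pow_sum_mul_pow_eq_zero
      (f := fun i => ((e i : O) : F)) (v := fun i => φ (e i : O))
      (fun i j hij => e.injective (Subtype.ext hij)) fun i => by
        rw [← hall i, ← Finset.sum_coe_sort O]
        exact Fintype.sum_equiv e _ _ fun j => rfl
    have := congrFun hv (e.symm ⟨f₁, hf₁O⟩)
    simp only [Equiv.apply_symm_apply, Pi.zero_apply] at this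
    exact (hφ _ hf₁O).1 this
  refine ⟨_, hn, fun τ hτ => ?_⟩
  set b := ∑ g ∈ O, φ g * g ^ n with hb
  have hτf : Fr.act τ • f₁ ∈ O := (hmemO _).mpr ⟨⟨τ, hτ⟩, rfl⟩
  obtain ⟨b0, -, -, b3⟩ := hφ _ hτf
  have htb : φ (Fr.act τ • f₁) * Fr.act τ • b = b := by
    rw [hb, Finset.smul_sum, Finset.mul_sum]
    refine Finset.sum_nbij (fun g => Fr.act τ • g) (fun g hg => (hmul τ hτ g hg).1)
      (fun g _ g' _ h => smul_left_cancel _ h) (fun g hg => ?_) fun g hg => ?_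
    · obtain ⟨h1, -⟩ := hmul τ⁻¹ (H.inv_mem hτ) g hg
      exact ⟨_, h1, by simp only [map_inv, smul_inv_smul]⟩
    · rw [smul_mul', smul_pow', (hmul τ hτ g hg).2]
      ring
  ext Q
  have h1 : Q.ord b = Q.ord (φ (Fr.act τ • f₁)) + ((Fr.act τ)⁻¹ • Q).ord b := by
    conv_lhs => rw [← htb]
    rw [Q.ord_mul b0 (act_ne_zero (Fr := Fr) τ hn), ord_act]
  have h2 : (p : ℤ) * D ((Fr.act τ)⁻¹ • Q) =
      (p : ℤ) * D Q + (p : ℤ) * Q.ord (φ (Fr.act τ • f₁)) := by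
    rw [← hdiv₁, ← hdiv₁, ← ord_act, ← FF.ord_pow]
    conv_lhs => rw [b3]
    rw [Q.ord_mul hf₁0 (pow_ne_zero _ b0)]
  have h3 : D ((Fr.act τ)⁻¹ • Q) = D Q + Q.ord (φ (Fr.act τ • f₁)) :=
    mul_left_cancel₀ hp0 (by rw [h2]; ring)
  rw [SemilinearAut.divisor_smul_apply, Finsupp.add_apply, Finsupp.add_apply,
    Fr.curve.divOf_apply, Fr.curve.divOf_apply]
  omega

end Frame

end FLTAgent.MazurP
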