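import Mathlib
import Fermat.Agent.MazurP.Defs
import Fermat.Agent.Reduction.PlacesGauss
import Fermat.Agent.Reduction.PlacesCurve

/-!
# Frames: a curve with two reductions glued along nodes

`Frame A π p F E` axiomatises what is used of `X₀(Mp)` at a place `A` over `p`: two Gauss
reductions to copies of `E`, nodes with their partner points, reduction of places and its order
and gluing rules, the genus relation, the Galois action with inertia invariant parameters at
smooth points, and the two norms to level `M`. `Frame.HasNodeParams` asks for inertia invariant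
parameters of thickness one at the nodes. The instance is built in `MazurP.FrameInst`.
-/

set_option autoImplicit false
set_option linter.style.haveILetI false

noncomputable section

open AlgebraicCurve SemilinearAut

namespace FLTAgent.MazurP

open FLTAgent.Reduction

local notation "Qb" => AlgebraicClosure ℚ
local notation "Γℚ" => (AlgebraicClosure ℚ ≃ₐ[ℚ] AlgebraicClosure ℚ)

/-- A curve `F` over `ℚ̄` with two Gauss reductions (indexed by `Bool`) to `E` over `k`, whose union
is glued along nodes of thickness one. A closed point of the special fibre is a pair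
(component, point); a node is represented by its point `(false, P)` on the first component and
meets the second one at `(true, partner P)`. -/
structure Frame (A : ValuationSubring Qb) {k : Type*} [Field k] (π : A →+* k) (p : ℕ)
    (F E : Type*) [Field F] [Field E] [Algebra Qb F] [Algebra k E] where
  p_prime : p.Prime
  p_nonunit : A.valuation (p : Qb) < 1
  charP : CharP k p
  /-- The genus of `F`. -/
  g : ℕ
  /-- The genus of `E`. -/
  g' : ℕ
  curve : CurveData Qb F g
  curveBar : CurveData k E g'
  /-- The two reductions. -/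
  G : Bool → GaussRed A π F E
  scale : ∀ (b : Bool) (f : F), f ≠ 0 → ∃ c : Qb, c ≠ 0 ∧ c • f ∈ (G b).V ∧ (G b).red (c • f) ≠ 0
  /-- The nodes, on the first component. -/
  nodes : Finset (Place k E)
  nodes_nonempty : nodes.Nonempty
  /-- The other branch at a node. -/
  partner : Place k E → Place k E
  partner_injOn : Set.InjOn partner nodes
  /-- Reduction of places. -/
  red : Place Qb F → Bool × Place k E
  red_ne_partner : ∀ (Q : Place Qb F), ∀ P ∈ nodes, red Q ≠ (true, partner P)
  ord_smooth : ∀ (b : Bool) (P : Place k E), (b = false → P ∉ nodes) →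
    (b = true → ∀ P' ∈ nodes, partner P' ≠ P) →
    ∀ f ∈ (G b).V, (G b).red f ≠ 0 →
      Finsupp.mapDomain red (divOf f : Divisor Qb F) (b, P) = P.ord ((G b).red f)
  ord_node : ∀ P ∈ nodes, ∀ f : F, ∀ c d : Qb,
    c • f ∈ (G false).V → (G false).red (c • f) ≠ 0 →
    d • f ∈ (G true).V → (G true).red (d • f) ≠ 0 →
      Finsupp.mapDomain red (divOf f : Divisor Qb F) (false, P) =
        P.ord ((G false).red (c • f)) + (partner P).ord ((G true).red (d • f))
  glue : ∀ P ∈ nodes, ∀ f ∈ (G false).V, f ∈ (G true).V →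
    (∀ Q : Place Qb F, red Q = (false, P) → Vanish Q f 0) →
      Vanish P ((G false).red f) 0 ∧ Vanish (partner P) ((G true).red f) 0 ∧
        valAt P ((G false).red f) = valAt (partner P) ((G true).red f)
  genus_eq : g + 1 = 2 * g' + nodes.card
  /-- The Galois action. -/
  act : Γℚ →* SemilinearAut Qb F
  act_const : ∀ (σ : Γℚ) (x : Qb), act σ • algebraMap Qb F x = algebraMap Qb F (σ x)
  act_finite : ∀ f : F, (Set.range fun σ => act σ • f).Finite
  act_mem : ∀ σ ∈ A.inertiaSubgroupIn ℚ, ∀ (b : Bool), ∀ f ∈ (G b).V,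
    act σ • f ∈ (G b).V ∧ (G b).red (act σ • f) = (G b).red f
  act_red : ∀ σ ∈ A.inertiaSubgroupIn ℚ, ∀ Q : Place Qb F, red (act σ • Q) = red Q
  /-- Inertia-invariant parameters at the smooth points. -/
  param : ∀ (b : Bool) (P : Place k E), (b = false → P ∉ nodes) →
    (b = true → ∀ P' ∈ nodes, partner P' ≠ P) →
    ∃ t ∈ (G b).V, P.ord ((G b).red t) = 1 ∧
      (∀ Q : Place Qb F, red Q = (b, P) → Vanish Q t 0) ∧
      ∀ σ ∈ A.inertiaSubgroupIn ℚ, act σ • t = t
  /-- The norms down to level `M`, pulled back. -/
  N : Bool → F →* F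
  N_const : ∀ (b : Bool) (c : Qb), N b (algebraMap Qb F c) = algebraMap Qb F (c ^ (p + 1))
  N_spec : ∀ (b : Bool), ∀ y ∈ (G false).V, y ∈ (G true).V → ∀ ε : Qb, A.valuation ε < 1 →
    ∃ z ∈ (G b).V, N b (1 + ε • y) = 1 + ε • z ∧ (G b).red z = (G b).red y

/-- Inertia-invariant parameters of thickness one at the nodes. -/
def Frame.HasNodeParams {A : ValuationSubring Qb} {k : Type*} [Field k] {π : A →+* k} {p : ℕ}
    {F E : Type*} [Field F] [Field E] [Algebra Qb F] [Algebra k E] (Fr : Frame A π p F E) : Prop :=
  ∀ P ∈ Fr.nodes, ∃ u ∈ (Fr.G false).V, u ≠ 0 ∧ P.ord ((Fr.G false).red u) = 1 ∧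
    ((p : Qb)⁻¹ • u) ∈ (Fr.G true).V ∧
    (Fr.partner P).ord ((Fr.G true).red ((p : Qb)⁻¹ • u)) = -1 ∧
    (∀ Q : Place Qb F, Fr.red Q = (false, P) → Q.ord u = 0) ∧
    ∀ σ ∈ A.inertiaSubgroupIn ℚ, Fr.act σ • u = u

end FLTAgent.MazurP
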