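import Fermat.Agent.MazurP.FrameLift
import Fermat.Agent.FF.PlacesBasic

/-!
# Orders of a unit at the nodes of a lifting datum

`UnitFn` abstracts a function like `Δ(τ)/Δ(qτ)` and `NodeElt` an element like `β a' - (α a)^q` at
a node. Gluing bounds the order of the reduced unit at each node by `12` (`node_bound`); if the
number of nodes is as large as the total allows all these orders equal `12` (`ord_red_node`), and
then `ϖ / u` is a parameter of thickness one at the node (`node_param`).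
-/

set_option autoImplicit false
set_option linter.style.haveILetI false
set_option linter.unusedSectionVars false

noncomputable section

open AlgebraicCurve SemilinearAut

namespace FLTAgent.MazurP

open FLTAgent.Reduction FLTAgent.Lift FLTAgent.Lift.Data

variable {K k F F₀ E : Type*} [Field K] [Field k] [Field F] [Field F₀] [Field E] [Algebra K F]
  [Algebra K F₀] [Algebra k E] {A : ValuationSubring K} {π : A →+* k} {q g g' : ℕ}

/-- A function on the curve behaving like `Δ(τ)/Δ(qτ)`. -/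
structure UnitFn (D : Lift.Data A π q F F₀ E g g') (ϖ : K) where
  /-- The function. -/
  w : F
  mem_inf : w ∈ D.Ginf.V
  red_inf : D.Ginf.red w ≠ 0
  mem_zero : (ϖ⁻¹) ^ 12 • w ∈ D.Gzero.V
  red_zero : D.Gzero.red ((ϖ⁻¹) ^ 12 • w) ≠ 0
  /-- At the cusps, the pole of `β j` is at most `q` times that of `α j`. -/
  cusp : ∀ R : Place K F, R.ord (D.α D.j) ≤ 0 → R.ord (D.β D.j) ≤ 0 →
    (q : ℤ) * R.ord (D.α D.j) ≤ R.ord (D.β D.j) ∧
      R.ord w = R.ord (D.β D.j) - R.ord (D.α D.j)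
  affine : ∀ R : Place K F, 0 ≤ R.ord (D.α D.j) → R.ord w = 0

variable {D : Lift.Data A π q F F₀ E g g'} [Infinite k] {ϖ : K}

theorem ord_nonpos_of_sp_cusp {R : Place K F} (h : (D.sp R).2.ord D.tau < 0) :
    R.ord (D.α D.j) ≤ 0 ∧ R.ord (D.β D.j) ≤ 0 := by
  have hnot : ¬ IsDisc A D.T R := fun hd => by
    have := sp_finite_iff.mpr hd
    omega
  have h1 := D.inv.alpha_ord_nonneg (isDisc_inv_of_not hnot).1.1
  have ha : R.ord (D.inv.α D.inv.j) = -R.ord (D.α D.j) := by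
    show R.ord (D.α D.j⁻¹) = _
    rw [map_inv₀, Place.ord_inv]
  have hb : R.ord (D.inv.β D.inv.j) = -R.ord (D.β D.j) := by
    show R.ord (D.β D.j⁻¹) = _
    rw [map_inv₀, Place.ord_inv]
  rw [ha, hb] at h1
  omega

theorem ord_eq_zero_of_sp_finite (W : UnitFn D ϖ) {R : Place K F}
    (h : 0 ≤ (D.sp R).2.ord D.tau) : R.ord W.w = 0 :=
  W.affine R (D.alpha_ord_nonneg (sp_finite_iff.mp h).1).1

/-- The nodes are away from the poles of `τ`. -/
theorem node_finite (W : UnitFn D ϖ) {Q : Place k E} (hQ : Q ∈ D.X) : 0 ≤ Q.ord D.tau := by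
  by_contra hneg
  push Not at hneg
  have hq := D.q_prime.two_le
  have hαV : D.α D.j ^ q ∈ D.V := pow_mem (D.alpha_mem D.param.mem) q
  have hr1 : D.Ginf.red (D.α D.j ^ q) = D.tau ^ q := by
    rw [D.Ginf.red_pow (D.alpha_mem_inf _ D.param.mem), D.red_alpha_inf _ D.param.mem]
    rfl
  have hr2 : D.Gzero.red (D.α D.j ^ q) = D.tau ^ (q * q) := by
    rw [D.Gzero.red_pow (D.alpha_mem_zero _ D.param.mem), D.red_alpha_zero _ D.param.mem, pow_mul]
    exact congrArg (· ^ q) D.Fr_tau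
  have i1 := D.Ginf.inv_mem hαV.1 (by rw [hr1]; exact pow_ne_zero _ D.tau_ne_zero)
  have i2 := D.Gzero.inv_mem hαV.2 (by rw [hr2]; exact pow_ne_zero _ D.tau_ne_zero)
  set f : F := D.β D.j * (D.α D.j ^ q)⁻¹ with hf
  have hb1 := D.beta_mem_inf _ D.param.mem
  have hb2 := D.beta_mem_zero _ D.param.mem
  have e1 : D.Ginf.red f = 1 := by
    rw [hf, D.Ginf.red_mul hb1 i1,
      D.Ginf.red_inv hαV.1 (by rw [hr1]; exact pow_ne_zero _ D.tau_ne_zero),
      D.red_beta_inf _ D.param.mem, hr1]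
    show D.Fr D.tau * _ = 1
    rw [D.Fr_tau, mul_inv_cancel₀ (pow_ne_zero _ D.tau_ne_zero)]
  have e2 : D.Gzero.red f = D.tau * (D.tau ^ (q * q))⁻¹ := by
    rw [hf, D.Gzero.red_mul hb2 i2,
      D.Gzero.red_inv hαV.2 (by rw [hr2]; exact pow_ne_zero _ D.tau_ne_zero),
      D.red_beta_zero _ D.param.mem, hr2]
    rfl
  obtain ⟨-, -, hval⟩ := glue_at_node (D := D) (mem_Xfin.mpr hQ) (f := f)
    (D.Ginf.V.mul_mem hb1 i1) (D.Gzero.V.mul_mem hb2 i2) (fun R hR => by
      have hsp := redSide_eq_iff.mp hR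
      obtain ⟨ha, hb⟩ := ord_nonpos_of_sp_cusp (R := R) (by rw [hsp]; exact hneg)
      refine Or.inr ?_
      rw [hf, R.ord_mul D.beta_j_ne_zero (inv_ne_zero (pow_ne_zero _ D.alpha_j_ne_zero)),
        Place.ord_inv, FF.ord_pow]
      have := (W.cusp R ha hb).1
      omega)
  rw [e1, e2, valAt_one] at hval
  refine one_ne_zero (hval.trans (valAt_eq_zero_of_vanish (Or.inr ?_)))
  rw [(D.frob • Q).ord_mul D.tau_ne_zero (inv_ne_zero (pow_ne_zero _ D.tau_ne_zero)),
    Place.ord_inv, FF.ord_pow, D.ord_tau_smul]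
  have h4 : (4 : ℤ) ≤ ((q * q : ℕ) : ℤ) := by exact_mod_cast Nat.mul_le_mul hq hq
  nlinarith

/-- The reduction of the unit at a smooth affine point. -/
theorem ord_red_of_finite [IsAlgClosed K] (W : UnitFn D ϖ) {z : Place k E} (hz : z ∉ D.X)
    (hfin : 0 ≤ z.ord D.tau) : z.ord (D.Ginf.red W.w) = 0 := by
  rw [← ord_smooth_inf (fun h => hz (mem_Xfin.mp h)) W.mem_inf W.red_inf]
  refine mapDomain_eq_zero_of fun R hR0 hR => hR0 ?_
  rw [D.curve.divOf_apply]
  exact ord_eq_zero_of_sp_finite W (by rw [redSide_eq_iff.mp hR]; exact hfin)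

/-- The reduction of the unit at a cusp. -/
theorem ord_red_of_cusp [IsAlgClosed K] (W : UnitFn D ϖ) {z : Place k E}
    (hneg : z.ord D.tau < 0) : z.ord (D.Ginf.red W.w) = ((q : ℤ) - 1) * z.ord D.tau := by
  have hz : z ∉ D.X := fun h => absurd (node_finite W h) (not_le.mpr hneg)
  have hb1 := D.beta_mem_inf _ D.param.mem
  have hrb : D.Ginf.red (D.β D.j) = D.tau ^ q := (D.red_beta_inf _ D.param.mem).trans D.Fr_tau
  have i1 := D.Ginf.inv_mem hb1 (by rw [hrb]; exact pow_ne_zero _ D.tau_ne_zero)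
  have ha1 := D.alpha_mem_inf _ D.param.mem
  have hfV := D.Ginf.V.mul_mem W.mem_inf (D.Ginf.V.mul_mem ha1 i1)
  have hred : D.Ginf.red (W.w * (D.α D.j * (D.β D.j)⁻¹)) =
      D.Ginf.red W.w * (D.tau * (D.tau ^ q)⁻¹) := by
    rw [D.Ginf.red_mul W.mem_inf (D.Ginf.V.mul_mem ha1 i1), D.Ginf.red_mul ha1 i1,
      D.Ginf.red_inv hb1 (by rw [hrb]; exact pow_ne_zero _ D.tau_ne_zero),
      D.red_alpha_inf _ D.param.mem, hrb]
    rfl
  have hτ := D.tau_ne_zero
  have hne : D.tau * (D.tau ^ q)⁻¹ ≠ 0 := mul_ne_zero hτ (inv_ne_zero (pow_ne_zero _ hτ))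
  have hw0 : W.w ≠ 0 := fun h => W.red_inf (by rw [h, D.Ginf.red_zero])
  have h := ord_smooth_inf (fun h => hz (mem_Xfin.mp h)) hfV
    (by rw [hred]; exact mul_ne_zero W.red_inf hne)
  rw [hred, mapDomain_eq_zero_of (fun R hR0 hR => hR0 ?_),
    z.ord_mul W.red_inf hne, z.ord_mul hτ (inv_ne_zero (pow_ne_zero _ hτ)), Place.ord_inv,
    FF.ord_pow] at h
  · linarith
  · rw [D.curve.divOf_apply,
      R.ord_mul hw0 (mul_ne_zero D.alpha_j_ne_zero (inv_ne_zero D.beta_j_ne_zero)),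
      R.ord_mul D.alpha_j_ne_zero (inv_ne_zero D.beta_j_ne_zero), Place.ord_inv]
    obtain ⟨ha, hb⟩ :=
      ord_nonpos_of_sp_cusp (R := R) (by rw [redSide_eq_iff.mp hR]; exact hneg)
    rw [(W.cusp R ha hb).2]
    ring

/-- The sum of the orders at the nodes. -/
theorem sum_ord_nodes [IsAlgClosed K] (W : UnitFn D ϖ) :
    ∑ P ∈ D.Xfin, P.ord (D.Ginf.red W.w) =
      ((q : ℤ) - 1) * Divisor.degree (poleDiv D.tau : Divisor k E) := by
  classical
  have hC := D.param.curveBar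
  have hdiv : (divOf (D.Ginf.red W.w) : Divisor k E) =
      ∑ P ∈ D.Xfin, Finsupp.single P (P.ord (D.Ginf.red W.w)) -
        ((q : ℤ) - 1) • poleDiv D.tau := by
    refine Finsupp.ext fun z => ?_
    rw [hC.divOf_apply, Finsupp.sub_apply, Finsupp.finsetSum_apply, Finsupp.smul_apply,
      hC.poleDiv_apply, smul_eq_mul]
    simp only [Finsupp.single_apply, Finset.sum_ite_eq']
    by_cases hz : z ∈ D.X
    · rw [if_pos (mem_Xfin.mpr hz), max_eq_left (by have := node_finite W hz; omega)]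
      ring
    · rw [if_neg (fun h => hz (mem_Xfin.mp h))]
      rcases le_or_gt 0 (z.ord D.tau) with hfin | hneg
      · rw [ord_red_of_finite W hz hfin, max_eq_left (by omega)]
        ring
      · rw [ord_red_of_cusp W hneg, max_eq_right (by omega)]
        ring
  have h := congrArg Divisor.degree hdiv
  rw [hC.degree_divOf, map_sub, map_sum, map_zsmul, smul_eq_mul] at h
  simp only [hC.degree_single] at h
  linarith

/-- An element like `β a' - (α a) ^ q` at a node: it dies on the first component and has a simple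
zero on the second. -/
structure NodeElt (D : Lift.Data A π q F F₀ E g g') [Infinite k] (ϖ : K) (P : Place k E) where
  /-- The element. -/
  u : F
  mem_inf : ϖ⁻¹ • u ∈ D.Ginf.V
  mem_zero : u ∈ D.Gzero.V
  ord_zero : (D.frob • P).ord (D.Gzero.red u) = 1
  regular : ∀ R : Place K F, redSide D R = (false, P) → Vanish R u 0

/-- The bound at a node, and what holds when it is attained. -/
theorem node_bound [IsAlgClosed K] (W : UnitFn D ϖ) {P : Place k E} (hP : P ∈ D.Xfin)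
    (U : NodeElt D ϖ P) :
    P.ord (D.Ginf.red W.w) ≤ 12 ∧
    (P.ord (D.Ginf.red W.w) = 12 → P.ord (D.Ginf.red (ϖ⁻¹ • U.u)) = -1 ∧
      ∀ R : Place K F, redSide D R = (false, P) → R.ord U.u = 0) := by
  classical
  have hw0 : W.w ≠ 0 := fun h => W.red_inf (by rw [h, D.Ginf.red_zero])
  have hu0 : D.Gzero.red U.u ≠ 0 := fun h => by
    have := U.ord_zero
    rw [h, Place.ord_zero] at this
    omega
  have hufin : ∀ R : Place K F, redSide D R = (false, P) → 0 ≤ (D.sp R).2.ord D.tau :=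
    fun R hR => by
      rw [redSide_eq_iff.mp hR]
      exact node_finite W (mem_Xfin.mp hP)
  -- the unit has no zero or pole over the node
  have hx : P.ord (D.Ginf.red W.w) + (D.frob • P).ord (D.Gzero.red ((ϖ⁻¹) ^ 12 • W.w)) = 0 := by
    have h := ord_at_node (D := D) hP (f := W.w) (c := 1) (d := (ϖ⁻¹) ^ 12)
      (by rw [one_smul]; exact W.mem_inf) (by rw [one_smul]; exact W.red_inf)
      W.mem_zero W.red_zero
    rw [one_smul] at h
    rw [← h]
    refine mapDomain_eq_zero_of fun R hR0 hR => hR0 ?_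
    rw [D.curve.divOf_apply]
    exact ord_eq_zero_of_sp_finite W (hufin R hR)
  set v : F := ϖ⁻¹ • U.u with hv
  set f : F := v ^ 12 * W.w with hf
  have hf' : f = U.u ^ 12 * ((ϖ⁻¹) ^ 12 • W.w) := by
    rw [hf, hv, smul_pow, smul_mul_assoc, mul_smul_comm]
  have hf1 : f ∈ D.Ginf.V := D.Ginf.V.mul_mem (pow_mem U.mem_inf 12) W.mem_inf
  have hf2 : f ∈ D.Gzero.V := by
    rw [hf']; exact D.Gzero.V.mul_mem (pow_mem U.mem_zero 12) W.mem_zero
  obtain ⟨g1, g2, g3⟩ := glue_at_node (D := D) hP hf1 hf2 (fun R hR => by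
    refine Vanish.mul_zero' ?_ (Or.inr (ord_eq_zero_of_sp_finite W (hufin R hR)).ge)
    simpa using ((U.regular R hR).smul ϖ⁻¹).pow 12)
  have e1 : D.Ginf.red f = D.Ginf.red v ^ 12 * D.Ginf.red W.w := by
    rw [hf, D.Ginf.red_mul (pow_mem U.mem_inf 12) W.mem_inf, D.Ginf.red_pow U.mem_inf]
  have e2 : D.Gzero.red f = D.Gzero.red U.u ^ 12 * D.Gzero.red ((ϖ⁻¹) ^ 12 • W.w) := by
    rw [hf', D.Gzero.red_mul (pow_mem U.mem_zero 12) W.mem_zero, D.Gzero.red_pow U.mem_zero]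
  have o2 : (D.frob • P).ord (D.Gzero.red f) = 12 - P.ord (D.Ginf.red W.w) := by
    rw [e2, (D.frob • P).ord_mul (pow_ne_zero _ hu0) W.red_zero, FF.ord_pow, U.ord_zero]
    push_cast
    linarith
  have hne2 : D.Gzero.red f ≠ 0 := by
    rw [e2]; exact mul_ne_zero (pow_ne_zero _ hu0) W.red_zero
  refine ⟨?_, fun h12 => ?_⟩
  · have := g2.resolve_left hne2
    omega
  -- the two values at the node are not zero
  have hC := D.param.curveBar
  have hval : valAt (D.frob • P) (D.Gzero.red f) ≠ 0 :=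
    (Reduction.valAt_inv hC hne2 (by rw [o2, h12, sub_self])).1
  rw [← g3] at hval
  have hne1 : D.Ginf.red f ≠ 0 := fun h => hval (by rw [h, valAt_zero])
  have o1 : P.ord (D.Ginf.red f) = 0 := by
    rcases lt_or_eq_of_le (g1.resolve_left hne1) with hlt | heq
    · exact absurd (valAt_eq_zero_of_vanish (Or.inr hlt)) hval
    · exact heq.symm
  rw [e1] at o1 hne1
  have hv0 : D.Ginf.red v ≠ 0 := ne_zero_pow (n := 12) (by norm_num) (left_ne_zero_of_mul hne1)
  rw [P.ord_mul (pow_ne_zero _ hv0) W.red_inf, FF.ord_pow, h12] at o1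
  push_cast at o1
  have hord : P.ord (D.Ginf.red v) = -1 := by linarith
  refine ⟨hord, fun R hR => ?_⟩
  have h := ord_at_node (D := D) hP (f := U.u) (c := ϖ⁻¹) (d := 1) U.mem_inf hv0
    (by rw [one_smul]; exact U.mem_zero) (by rw [one_smul]; exact hu0)
  rw [one_smul, hord, U.ord_zero, neg_add_cancel] at h
  have hu : U.u ≠ 0 := fun h' => hu0 (by rw [h', D.Gzero.red_zero])
  have hnn : ∀ R', redSide D R' = (false, P) → 0 ≤ (divOf U.u : Divisor K F) R' := fun R' hR' => by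
    rw [D.curve.divOf_apply]
    exact (U.regular R' hR').resolve_left hu
  have hle := le_mapDomain_of_nonneg (redSide D) (divOf U.u : Divisor K F) _ hnn hR
  rw [h, D.curve.divOf_apply] at hle
  exact le_antisymm hle ((U.regular R hR).resolve_left hu)

/-- With the count of the nodes, the orders at the nodes are exactly `12`. -/
theorem ord_red_node [IsAlgClosed K] (W : UnitFn D ϖ) (U : ∀ P ∈ D.Xfin, NodeElt D ϖ P)
    (hcount : ((q : ℤ) - 1) * Divisor.degree (poleDiv D.tau : Divisor k E) = 12 * D.Xfin.card)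
    {P : Place k E} (hP : P ∈ D.Xfin) : P.ord (D.Ginf.red W.w) = 12 := by
  have hle : ∀ P ∈ D.Xfin, P.ord (D.Ginf.red W.w) ≤ 12 := fun P hP =>
    (node_bound W hP (U P hP)).1
  have hsum : ∑ P ∈ D.Xfin, P.ord (D.Ginf.red W.w) = ∑ _P ∈ D.Xfin, (12 : ℤ) := by
    rw [sum_ord_nodes W, hcount, Finset.sum_const, nsmul_eq_mul, mul_comm]
  exact (Finset.sum_eq_sum_iff_of_le hle).mp hsum P hP

/-- The node parameter `ϖ / u` when the orders are `12`. -/
theorem node_param [IsAlgClosed K] (W : UnitFn D ϖ) (hϖ : ϖ ≠ 0) {P : Place k E}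
    (hP : P ∈ D.Xfin) (U : NodeElt D ϖ P) (h12 : P.ord (D.Ginf.red W.w) = 12) :
    ϖ • U.u⁻¹ ∈ D.Ginf.V ∧ ϖ • U.u⁻¹ ≠ 0 ∧ P.ord (D.Ginf.red (ϖ • U.u⁻¹)) = 1 ∧
      ϖ⁻¹ • (ϖ • U.u⁻¹) ∈ D.Gzero.V ∧
      (D.frob • P).ord (D.Gzero.red (ϖ⁻¹ • (ϖ • U.u⁻¹))) = -1 ∧
      ∀ R : Place K F, redSide D R = (false, P) → R.ord (ϖ • U.u⁻¹) = 0 := by
  obtain ⟨hord, hreg⟩ := (node_bound W hP U).2 h12
  have hu0 : D.Gzero.red U.u ≠ 0 := fun h => by
    have := U.ord_zero
    rw [h, Place.ord_zero] at this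
    omega
  have hv0 : D.Ginf.red (ϖ⁻¹ • U.u) ≠ 0 := fun h => by
    rw [h, Place.ord_zero] at hord
    omega
  have hu : U.u ≠ 0 := fun h => hu0 (by rw [h, D.Gzero.red_zero])
  have he : ϖ • U.u⁻¹ = (ϖ⁻¹ • U.u)⁻¹ := by
    rw [Algebra.smul_def, Algebra.smul_def, mul_inv, map_inv₀, inv_inv]
  have e2 : ϖ⁻¹ • (ϖ • U.u⁻¹) = U.u⁻¹ := by
    rw [smul_smul, inv_mul_cancel₀ hϖ, one_smul]
  refine ⟨?_, smul_ne_zero hϖ (inv_ne_zero hu), ?_, ?_, ?_, fun R hR => ?_⟩
  · rw [he]; exact D.Ginf.inv_mem U.mem_inf hv0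
  · rw [he, D.Ginf.red_inv U.mem_inf hv0, Place.ord_inv, hord, neg_neg]
  · rw [e2]; exact D.Gzero.inv_mem U.mem_zero hu0
  · rw [e2, D.Gzero.red_inv U.mem_zero hu0, Place.ord_inv, U.ord_zero]
  · rw [Algebra.smul_def, R.ord_mul ((map_ne_zero _).mpr hϖ) (inv_ne_zero hu), Place.ord_inv,
      hreg R hR, FF.ord_algebraMap, neg_zero, add_zero]

end FLTAgent.MazurP
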