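import Mathlib
import Fermat.Agent.Reduction.PlacesGauss
import Fermat.Prelude.Def_AlgebraicCurve_Correspondence

/-!
# Norms of `1 + ε y` along a split degeneracy map

`SplitFamily` is a family of `p + 1` elements adapted to a map whose two reductions have degrees
`1` and `p` (the latter purely inseparable). The reduced matrix of multiplication by an integral
`y` then has trace the first reduction of `y` (`red_trace`: the inseparable block has `p` equal
diagonal entries), so the norm of `1 + ε y` is `1 + ε z` with `z` reducing to it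
(`exists_norm_eq`); the norm of a constant `c` is `c^(p+1)` (`norm_const`).
-/

set_option autoImplicit false
set_option linter.style.haveILetI false
set_option linter.unusedSectionVars false

noncomputable section

open AlgebraicCurve Matrix

namespace FLTAgent.MazurP

open FLTAgent.Reduction

variable {K k F₀ F E : Type*} [Field K] [Field k] [Field F₀] [Field F] [Field E] [Algebra K F₀]
  [Algebra K F] [Algebra k E] {A : ValuationSubring K} {π : A →+* k}

/-- An element is integral or its inverse is. -/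
theorem mem_or_inv_mem_of_scale (G : GaussRed A π F₀ E)
    (hscale : ∀ x : F₀, x ≠ 0 → ∃ c : K, c ≠ 0 ∧ c • x ∈ G.V ∧ G.red (c • x) ≠ 0) (x : F₀) :
    x ∈ G.V ∨ x⁻¹ ∈ G.V := by
  rcases eq_or_ne x 0 with rfl | hx
  · exact Or.inl G.V.zero_mem
  obtain ⟨c, hc, hcV, hc0⟩ := hscale x hx
  rcases A.mem_or_inv_mem c with hcA | hcA
  · refine Or.inr ?_
    have h := G.V.mul_mem (G.const_mem ⟨c, hcA⟩) (G.inv_mem hcV hc0)
    rwa [Algebra.smul_def, mul_inv, ← mul_assoc,
      mul_inv_cancel₀ ((map_ne_zero (algebraMap K F₀)).mpr hc), one_mul] at h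
  · refine Or.inl ?_
    have h := G.V.mul_mem (G.const_mem ⟨c⁻¹, hcA⟩) hcV
    rwa [← Algebra.smul_def, smul_smul, inv_mul_cancel₀ hc, one_smul] at h

/-- Among finitely many elements one divides all the others. -/
theorem exists_dominant (G : GaussRed A π F₀ E)
    (hscale : ∀ x : F₀, x ≠ 0 → ∃ c : K, c ≠ 0 ∧ c • x ∈ G.V ∧ G.red (c • x) ≠ 0)
    {ι : Type*} (s : Finset ι) (c : ι → F₀) (hne : ∃ i ∈ s, c i ≠ 0) :
    ∃ i₀ ∈ s, c i₀ ≠ 0 ∧ ∀ i ∈ s, c i / c i₀ ∈ G.V := by
  classical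
  induction s using Finset.induction with
  | empty => simp at hne
  | insert a s ha ih =>
    by_cases h : ∃ i ∈ s, c i ≠ 0
    · obtain ⟨i₀, hi₀, h0, hall⟩ := ih h
      rcases mem_or_inv_mem_of_scale G hscale (c a / c i₀) with hV | hV
      · refine ⟨i₀, Finset.mem_insert_of_mem hi₀, h0, fun i hi => ?_⟩
        rcases Finset.mem_insert.mp hi with rfl | hi
        exacts [hV, hall i hi]
      · by_cases hca : c a = 0
        · refine ⟨i₀, Finset.mem_insert_of_mem hi₀, h0, fun i hi => ?_⟩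
          rcases Finset.mem_insert.mp hi with rfl | hi
          · rw [hca, zero_div]; exact G.V.zero_mem
          · exact hall i hi
        · refine ⟨a, Finset.mem_insert_self a s, hca, fun i hi => ?_⟩
          rcases Finset.mem_insert.mp hi with rfl | hi
          · rw [div_self hca]; exact G.V.one_mem
          · have h' := G.V.mul_mem (hall i hi) hV
            rwa [inv_div, div_mul_div_cancel₀ h0] at h'
    · push Not at h
      obtain ⟨i, hi, hi0⟩ := hne
      rcases Finset.mem_insert.mp hi with rfl | hi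
      · refine ⟨i, Finset.mem_insert_self i s, hi0, fun j hj => ?_⟩
        rcases Finset.mem_insert.mp hj with rfl | hj
        · rw [div_self hi0]; exact G.V.one_mem
        · rw [h j hj, zero_div]; exact G.V.zero_mem
      · exact absurd (h i hi) hi0

/-- The data of a map with reductions `1` and `Fr`, and a split family. -/
structure SplitFamily (G : GaussRed A π F₀ E) (G₁ G₂ : GaussRed A π F E) (φ : F₀ →ₐ[K] F)
    (n : ℕ) where
  /-- The Frobenius. -/
  Fr : E →+* E
  scale : ∀ x : F₀, x ≠ 0 → ∃ c : K, c ≠ 0 ∧ c • x ∈ G.V ∧ G.red (c • x) ≠ 0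
  mem₁ : ∀ a ∈ G.V, φ a ∈ G₁.V
  mem₂ : ∀ a ∈ G.V, φ a ∈ G₂.V
  red₁ : ∀ a ∈ G.V, G₁.red (φ a) = G.red a
  red₂ : ∀ a ∈ G.V, G₂.red (φ a) = Fr (G.red a)
  /-- A generator over the image of the Frobenius. -/
  τ : E
  /-- Its `p`-th power. -/
  s : E
  τ_pow : τ ^ (n + 1) = Fr s
  indep : ∀ a : Fin (n + 1) → E, ∑ r, Fr (a r) * τ ^ (r : ℕ) = 0 → a = 0
  /-- The family. -/
  b : Fin (n + 2) → F
  b_mem₁ : ∀ i, b i ∈ G₁.V
  b_mem₂ : ∀ i, b i ∈ G₂.V
  /-- The nonzero reduction on the first side. -/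
  u₀ : E
  u₀_ne : u₀ ≠ 0
  /-- The common factor on the second side. -/
  P₀ : E
  P₀_ne : P₀ ≠ 0
  b₁_zero : G₁.red (b 0) = u₀
  b₂_zero : G₂.red (b 0) = 0
  b₁_succ : ∀ i : Fin (n + 1), G₁.red (b i.succ) = 0
  b₂_succ : ∀ i : Fin (n + 1), G₂.red (b i.succ) = P₀ * τ ^ (i : ℕ)
  charP : CharP E (n + 1)
  degree : finrankAlong K φ = n + 2

namespace SplitFamily

variable {G : GaussRed A π F₀ E} {G₁ G₂ : GaussRed A π F E} {φ : F₀ →ₐ[K] F} {n : ℕ}
  (S : SplitFamily G G₁ G₂ φ n)

include S in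
theorem red_sum {ι : Type*} (G' : GaussRed A π F E) (s : Finset ι) (x : ι → F)
    (hx : ∀ i ∈ s, x i ∈ G'.V) : G'.red (∑ i ∈ s, x i) = ∑ i ∈ s, G'.red (x i) := by
  classical
  induction s using Finset.induction with
  | empty => simp [G'.red_zero]
  | insert a s ha ih =>
    have h' : ∀ i ∈ s, x i ∈ G'.V := fun i hi => hx i (Finset.mem_insert_of_mem hi)
    rw [Finset.sum_insert ha, Finset.sum_insert ha,
      G'.red_add (hx a (Finset.mem_insert_self a s)) (G'.V.sum_mem h'), ih h']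

theorem red_comb {a : Fin (n + 2) → F₀} (ha : ∀ i, a i ∈ G.V) :
    ((∑ i, φ (a i) * S.b i) ∈ G₁.V ∧ (∑ i, φ (a i) * S.b i) ∈ G₂.V) ∧
    G₁.red (∑ i, φ (a i) * S.b i) = G.red (a 0) * S.u₀ ∧
    G₂.red (∑ i, φ (a i) * S.b i) =
      S.P₀ * ∑ r : Fin (n + 1), S.Fr (G.red (a r.succ)) * S.τ ^ (r : ℕ) := by
  have m1 : ∀ i, φ (a i) * S.b i ∈ G₁.V := fun i => G₁.V.mul_mem (S.mem₁ _ (ha i)) (S.b_mem₁ i)
  have m2 : ∀ i, φ (a i) * S.b i ∈ G₂.V := fun i => G₂.V.mul_mem (S.mem₂ _ (ha i)) (S.b_mem₂ i)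
  refine ⟨⟨G₁.V.sum_mem fun i _ => m1 i, G₂.V.sum_mem fun i _ => m2 i⟩, ?_, ?_⟩
  · rw [S.red_sum G₁ _ _ fun i _ => m1 i, Fin.sum_univ_succ,
      G₁.red_mul (S.mem₁ _ (ha 0)) (S.b_mem₁ 0), S.red₁ _ (ha 0), S.b₁_zero, add_eq_left]
    exact Finset.sum_eq_zero fun i _ => by
      rw [G₁.red_mul (S.mem₁ _ (ha _)) (S.b_mem₁ _), S.b₁_succ, mul_zero]
  · rw [S.red_sum G₂ _ _ fun i _ => m2 i, Fin.sum_univ_succ,
      G₂.red_mul (S.mem₂ _ (ha 0)) (S.b_mem₂ 0), S.b₂_zero, mul_zero, zero_add, Finset.mul_sum]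
    refine Finset.sum_congr rfl fun i _ => ?_
    rw [G₂.red_mul (S.mem₂ _ (ha _)) (S.b_mem₂ _), S.b₂_succ, S.red₂ _ (ha _)]
    ring

/-- The family is independent of reductions: a combination with both reductions zero. -/
theorem red_eq_zero {a : Fin (n + 2) → F₀} (ha : ∀ i, a i ∈ G.V)
    (h1 : G₁.red (∑ i, φ (a i) * S.b i) = 0) (h2 : G₂.red (∑ i, φ (a i) * S.b i) = 0) (i) :
    G.red (a i) = 0 := by
  obtain ⟨-, e1, e2⟩ := S.red_comb ha
  rw [h1] at e1
  rw [h2] at e2
  induction i using Fin.cases with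
  | zero => exact (mul_eq_zero.mp e1.symm).resolve_right S.u₀_ne
  | succ r =>
    exact congrFun (S.indep (fun r => G.red (a r.succ))
      ((mul_eq_zero.mp e2.symm).resolve_left S.P₀_ne)) r

/-- Coefficients of an integral combination are integral. -/
theorem coeff_mem {c : Fin (n + 2) → F₀} (h1 : (∑ i, φ (c i) * S.b i) ∈ G₁.V)
    (h2 : (∑ i, φ (c i) * S.b i) ∈ G₂.V) (i) : c i ∈ G.V := by
  classical
  by_contra hi
  have hne : c i ≠ 0 := fun h => hi (h ▸ G.V.zero_mem)
  obtain ⟨i₀, -, h0, hall⟩ := exists_dominant G S.scale Finset.univ c ⟨i, Finset.mem_univ i, hne⟩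
  have hi₀ : c i₀ ∉ G.V := fun h => hi (by
    simpa [div_mul_cancel₀ _ h0] using G.V.mul_mem (hall i (Finset.mem_univ i)) h)
  have hinv : (c i₀)⁻¹ ∈ G.V :=
    (mem_or_inv_mem_of_scale G S.scale (c i₀)).resolve_left hi₀
  have hred : G.red (c i₀)⁻¹ = 0 := by
    by_contra h
    exact hi₀ (by simpa using G.inv_mem hinv h)
  have hsum : ∑ j, φ (c j / c i₀) * S.b j = φ (c i₀)⁻¹ * ∑ j, φ (c j) * S.b j := by
    rw [Finset.mul_sum]
    refine Finset.sum_congr rfl fun j _ => ?_
    rw [div_eq_inv_mul, map_mul, mul_assoc]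
  have h := S.red_eq_zero (a := fun j => c j / c i₀) (fun j => hall j (Finset.mem_univ j))
    (by rw [hsum, G₁.red_mul (S.mem₁ _ hinv) h1, S.red₁ _ hinv, hred, zero_mul])
    (by rw [hsum, G₂.red_mul (S.mem₂ _ hinv) h2, S.red₂ _ hinv, hred, map_zero, zero_mul]) i₀
  rw [div_self h0, G.red_one] at h
  exact one_ne_zero h

theorem eq_zero_of_comb {c : Fin (n + 2) → F₀} (h : ∑ i, φ (c i) * S.b i = 0) (i) : c i = 0 := by
  classical
  by_contra hi
  obtain ⟨i₀, -, h0, hall⟩ := exists_dominant G S.scale Finset.univ c ⟨i, Finset.mem_univ i, hi⟩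
  have hsum : ∑ j, φ (c j / c i₀) * S.b j = 0 := by
    have : ∑ j, φ (c j / c i₀) * S.b j = φ (c i₀)⁻¹ * ∑ j, φ (c j) * S.b j := by
      rw [Finset.mul_sum]
      exact Finset.sum_congr rfl fun j _ => by rw [div_eq_inv_mul, map_mul, mul_assoc]
    rw [this, h, mul_zero]
  have h' := S.red_eq_zero (a := fun j => c j / c i₀) (fun j => hall j (Finset.mem_univ j))
    (by rw [hsum, G₁.red_zero]) (by rw [hsum, G₂.red_zero]) i₀
  rw [div_self h0, G.red_one] at h'
  exact one_ne_zero h'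

/-- Multiplication by an integral element, in the family: the trace of the reduced matrix. -/
theorem red_trace {y : F} (hy1 : y ∈ G₁.V) (hy2 : y ∈ G₂.V)
    {M : Fin (n + 2) → Fin (n + 2) → F₀} (hM : ∀ c, ∑ r, φ (M r c) * S.b r = y * S.b c) :
    (∀ r c, M r c ∈ G.V) ∧ ∑ i, G.red (M i i) = G₁.red y := by
  have hMV : ∀ r c, M r c ∈ G.V := fun r c => S.coeff_mem (c := fun r => M r c)
    (by rw [hM c]; exact G₁.V.mul_mem hy1 (S.b_mem₁ c))
    (by rw [hM c]; exact G₂.V.mul_mem hy2 (S.b_mem₂ c)) r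
  refine ⟨hMV, ?_⟩
  have h00 : G.red (M 0 0) = G₁.red y := by
    have e := (S.red_comb (a := fun r => M r 0) fun r => hMV r 0).2.1
    rw [hM, G₁.red_mul hy1 (S.b_mem₁ 0), S.b₁_zero] at e
    exact (mul_right_cancel₀ S.u₀_ne e).symm
  set m : Fin (n + 1) → Fin (n + 1) → E := fun r c => G.red (M r.succ c.succ) with hm
  have hcol : ∀ c : Fin (n + 1), G₂.red y * S.τ ^ (c : ℕ) = ∑ r, S.Fr (m r c) * S.τ ^ (r : ℕ) :=
    fun c => by
      have e := (S.red_comb (a := fun r => M r c.succ) fun r => hMV r c.succ).2.2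
      rw [hM, G₂.red_mul hy2 (S.b_mem₂ _), S.b₂_succ] at e
      refine mul_left_cancel₀ S.P₀_ne ?_
      rw [← e]
      ring
  have hstep : ∀ c : Fin n, m c.succ c.succ = m c.castSucc c.castSucc := by
    intro c
    let d : Fin (n + 1) → E :=
      Fin.cons (S.s * m (Fin.last n) c.castSucc) fun r : Fin n => m r.castSucc c.castSucc
    have e1 : ∑ r, S.Fr (d r) * S.τ ^ (r : ℕ) =
        S.τ * ∑ r, S.Fr (m r c.castSucc) * S.τ ^ (r : ℕ) := by
      rw [Fin.sum_univ_succ, Fin.sum_univ_castSucc (f := fun r => S.Fr (m r c.castSucc) * _),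
        mul_add, Finset.mul_sum, add_comm]
      simp only [d, Fin.cons_zero, Fin.cons_succ, Fin.val_zero, pow_zero, mul_one, Fin.val_succ,
        Fin.val_castSucc, Fin.val_last, map_mul]
      refine congrArg₂ (· + ·) (Finset.sum_congr rfl fun r _ => by ring) ?_
      rw [← S.τ_pow]
      ring
    have e2 : d = fun r => m r c.succ := by
      refine sub_eq_zero.mp (S.indep _ ?_)
      simp only [Pi.sub_apply, map_sub, sub_mul, Finset.sum_sub_distrib, e1, ← hcol, Fin.val_succ,
        Fin.val_castSucc, pow_succ]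
      ring
    have := congrFun e2 c.succ
    simp only [d, Fin.cons_succ] at this
    exact this.symm
  have hconst : ∀ c : Fin (n + 1), m c c = m 0 0 := fun c => by
    induction c using Fin.induction with
    | zero => rfl
    | succ c ih => rw [hstep c, ih]
  rw [Fin.sum_univ_succ, h00, add_eq_left]
  show ∑ i : Fin (n + 1), m i i = 0
  haveI := S.charP
  rw [Finset.sum_congr rfl fun i _ => hconst i, Finset.sum_const, Finset.card_univ,
    Fintype.card_fin, nsmul_eq_mul, CharP.cast_eq_zero, zero_mul]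

include S in
/-- The norm of `1 + ε y`. -/
theorem exists_norm_eq {y : F} (hy1 : y ∈ G₁.V) (hy2 : y ∈ G₂.V) {ε : K} (hε : ε ∈ A)
    (hε0 : π ⟨ε, hε⟩ = 0) :
    ∃ z ∈ G₁.V, φ (letI := algebraAlong φ; Algebra.norm F₀ (1 + ε • y)) = 1 + ε • z ∧
      G₁.red z = G₁.red y := by
  classical
  letI := algebraAlong φ
  haveI := isScalarTower_along φ
  have hmap : ∀ a : F₀, algebraMap F₀ F a = φ a := fun _ => rfl
  have hli : LinearIndependent F₀ S.b := Fintype.linearIndependent_iff.mpr fun c hc =>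
    S.eq_zero_of_comb (by simpa [Algebra.smul_def, hmap] using hc)
  have hcard : Fintype.card (Fin (n + 2)) = Module.finrank F₀ F := by
    rw [Fintype.card_fin]; exact S.degree.symm
  let B : Module.Basis (Fin (n + 2)) F₀ F :=
    basisOfLinearIndependentOfCardEqFinrank hli hcard
  have hB : ∀ i, B i = S.b i := fun i => by simp [B]
  set M := Algebra.leftMulMatrix B y with hMdef
  have hM : ∀ c, ∑ r, φ (M r c) * S.b r = y * S.b c := fun c => by
    conv_rhs => rw [← hB c, ← B.sum_repr (y * B c)]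
    refine Finset.sum_congr rfl fun r _ => ?_
    rw [hMdef, Algebra.leftMulMatrix_eq_repr_mul, Algebra.smul_def, hmap, hB, hB]
  obtain ⟨hMV, htr⟩ := S.red_trace hy1 hy2 hM
  let e : F₀ := algebraMap K F₀ ε
  have heV : e ∈ G.V := G.const_mem ⟨ε, hε⟩
  let M' : Matrix (Fin (n + 2)) (Fin (n + 2)) G.V := Matrix.of fun r c => ⟨M r c, hMV r c⟩
  let r' : G.V := ⟨e, heV⟩
  have hεy : ε • y = e • y := (algebra_compatible_smul F₀ ε y)
  have hnorm : Algebra.norm F₀ (1 + ε • y) = ((1 + r' • M').det : G.V) := by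
    rw [hεy, Algebra.norm_eq_matrix_det B, map_add, map_one, map_smul, ← hMdef,
      ← G.V.subtype_apply, RingHom.map_det]
    refine congrArg Matrix.det ?_
    ext r c
    simp only [RingHom.mapMatrix_apply, Matrix.map_apply, Matrix.add_apply, Matrix.smul_apply,
      smul_eq_mul, map_add, map_mul, M', r', Matrix.of_apply, Subring.subtype_apply]
    by_cases h : r = c
    · subst h; simp
    · simp [Matrix.one_apply_ne h]
  rw [Matrix.det_one_add_smul] at hnorm
  set R : G.V := (det (1 + (Polynomial.X : Polynomial G.V) • M'.map Polynomial.C)).divX.divX.eval r'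
  let z0 : F₀ := (M'.trace : G.V) + e * R
  have hz0 : z0 ∈ G.V := G.V.add_mem (M'.trace).2 (G.V.mul_mem heV R.2)
  refine ⟨φ z0, S.mem₁ _ hz0, ?_, ?_⟩
  · rw [hnorm, Algebra.smul_def, ← φ.commutes ε, ← map_mul, ← map_one φ, ← map_add]
    refine congrArg φ ?_
    simp only [z0, r', Subring.coe_add, Subring.coe_mul, Subring.coe_one, SubmonoidClass.coe_pow]
    ring
  · rw [S.red₁ _ hz0, G.red_add (M'.trace).2 (G.V.mul_mem heV R.2), G.red_mul heV R.2,
      show G.red e = 0 by rw [show e = algebraMap K F₀ ((⟨ε, hε⟩ : A) : K) from rfl, G.red_const,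
        hε0, map_zero], zero_mul, add_zero, ← htr]
    have : ((M'.trace : G.V) : F₀) = ∑ i, M i i := by
      simp [Matrix.trace, M']
    rw [this]
    have hsum : ∀ s : Finset (Fin (n + 2)), G.red (∑ i ∈ s, M i i) = ∑ i ∈ s, G.red (M i i) := by
      intro s
      induction s using Finset.induction with
      | empty => simp [G.red_zero]
      | insert a s ha ih =>
        rw [Finset.sum_insert ha, Finset.sum_insert ha,
          G.red_add (hMV a a) (G.V.sum_mem fun i _ => hMV i i), ih]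
    exact hsum _

include S in
/-- The norm of a constant. -/
theorem norm_const (c : K) :
    φ (letI := algebraAlong φ; Algebra.norm F₀ (algebraMap K F c)) =
      algebraMap K F (c ^ (n + 2)) := by
  letI := algebraAlong φ
  haveI := isScalarTower_along φ
  rw [IsScalarTower.algebraMap_apply K F₀ F, Algebra.norm_algebraMap, ← S.degree, finrankAlong]
  show φ ((algebraMap K F₀ c) ^ Module.finrank F₀ F) = _
  rw [← map_pow, φ.commutes, IsScalarTower.algebraMap_apply K F₀ F]

end SplitFamily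

end FLTAgent.MazurP
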