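import Fermat.Agent.BadQ.TwoInstBase
import Fermat.Agent.BadQ.CoeffGauss
import Fermat.Agent.Kronecker.Swap
import Fermat.Agent.BadQ.ReductionQM

/-!
# Lifts with unramified coefficients

`fixFrac A`: quotients of series over the maximal unramified ring at `A` with primitive
denominator; they are fixed by inertia. A function with rational expansion is a quotient of
integer series (`exists_intSer_frac`), a Galois stable finite dimensional space is spanned by
rational series (`exists_rational_spanning`), so after an integral echelon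
(`exists_int_echelon`) every integral function of such a space reduces like one in `fixFrac A`
(`exists_fix_lift`).
-/

set_option autoImplicit false
set_option linter.style.haveILetI false
set_option linter.unusedSectionVars false
set_option maxHeartbeats 800000

noncomputable section

open ModularCurve HahnSeries

namespace FLTAgent.MazurP

open FLTAgent.BadQ FLTAgent.BadQ.TwoInst

local notation "Qb" => AlgebraicClosure ℚ

variable (A : ValuationSubring Qb)

/-- Series over `W₀` read in `ℚ̄`. -/
def wIn : LaurentSeries (W0 A) →+* LaurentSeries Qb := coeffMap (A.subtype.comp (toA A))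

/-- Series over `W₀` reduced. -/
def wRed : LaurentSeries (W0 A) →+* LaurentSeries (kres A) := coeffMap (redW A)

theorem wIn_eq (u : LaurentSeries (W0 A)) : wIn A u = incl A (coeffMap (toA A) u) :=
  (coeffMap_coeffMap _ _ _).symm

theorem wRed_eq (u : LaurentSeries (W0 A)) :
    wRed A u = redSer A (IsLocalRing.residue A) (coeffMap (toA A) u) :=
  (coeffMap_coeffMap _ _ _).symm

/-- Quotients of series over `W₀` with primitive denominator. -/
def fixFrac : Subring (LaurentSeries Qb) where
  carrier := {x | ∃ u v : LaurentSeries (W0 A), wRed A v ≠ 0 ∧ x * wIn A v = wIn A u}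
  mul_mem' := by
    rintro x y ⟨u, v, hv, hx⟩ ⟨u', v', hv', hy⟩
    exact ⟨u * u', v * v', by rw [map_mul]; exact mul_ne_zero hv hv',
      by rw [map_mul, map_mul, ← hx, ← hy]; ring⟩
  one_mem' := ⟨1, 1, by simp, by simp⟩
  add_mem' := by
    rintro x y ⟨u, v, hv, hx⟩ ⟨u', v', hv', hy⟩
    refine ⟨u * v' + u' * v, v * v', by rw [map_mul]; exact mul_ne_zero hv hv', ?_⟩
    rw [map_add, map_mul, map_mul, map_mul, ← hx, ← hy]; ring
  zero_mem' := ⟨0, 1, by simp, by simp⟩
  neg_mem' := by
    rintro x ⟨u, v, hv, hx⟩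
    exact ⟨-u, v, hv, by rw [map_neg, neg_mul, hx]⟩

theorem mem_fixFrac {x : LaurentSeries Qb} :
    x ∈ fixFrac A ↔ ∃ u v : LaurentSeries (W0 A), wRed A v ≠ 0 ∧ x * wIn A v = wIn A u :=
  Iff.rfl

theorem wIn_mem_fixFrac (u : LaurentSeries (W0 A)) : wIn A u ∈ fixFrac A :=
  ⟨u, 1, by simp, by simp⟩

theorem const_mem_fixFrac (a : W0 A) :
    (HahnSeries.C ((a : K0 A) : Qb) : LaurentSeries Qb) ∈ fixFrac A := by
  have h := wIn_mem_fixFrac A (HahnSeries.C a)
  rwa [show wIn A (HahnSeries.C a) = HahnSeries.C ((a : K0 A) : Qb) from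
    coeffMap_single _ 0 a] at h

theorem coeffMap_intSer {R S : Type*} [CommRing R] [CommRing S] (f : R →+* S)
    (x : LaurentSeries ℤ) : coeffMap f (intSer R x) = intSer S x :=
  (coeffMap_coeffMap _ _ _).trans (coeffMap_congr (RingHom.ext_int _ _) _)

theorem wIn_intSer (x : LaurentSeries ℤ) : wIn A (intSer (W0 A) x) = intSer Qb x :=
  coeffMap_intSer _ x

theorem wRed_intSer (x : LaurentSeries ℤ) :
    wRed A (intSer (W0 A) x) = intSer (kres A) x :=
  coeffMap_intSer _ x

theorem intSer_mem_fixFrac (x : LaurentSeries ℤ) : intSer Qb x ∈ fixFrac A :=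
  wIn_intSer A x ▸ wIn_mem_fixFrac A _

variable {A}

theorem fixFrac_le_gV {x : LaurentSeries Qb} (hx : x ∈ fixFrac A) :
    x ∈ gV A (IsLocalRing.residue A) := by
  obtain ⟨u, v, hv, h⟩ := hx
  exact ⟨coeffMap (toA A) u, coeffMap (toA A) v, by rwa [← wRed_eq],
    by rwa [← wIn_eq, ← wIn_eq]⟩

theorem fixFrac_fixed {x : LaurentSeries Qb} (hx : x ∈ fixFrac A) {σ : Qb ≃ₐ[ℚ] Qb}
    (hσ : σ ∈ A.inertiaSubgroupIn ℚ) : coeffMap (σ : Qb →+* Qb) x = x := by
  obtain ⟨u, v, hv, h⟩ := hx
  have hfix : ∀ z, coeffMap (σ : Qb →+* Qb) (wIn A z) = wIn A z := fun z => by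
    refine (coeffMap_coeffMap _ _ _).trans (coeffMap_congr (RingHom.ext fun a => ?_) _)
    exact TwoChart.mem_fixedK.1 (a : K0 A).2 σ hσ
  have hv0 : wIn A v ≠ 0 := fun h0 => hv (by
    rw [show v = 0 from HahnSeries.ext (funext fun i => by
      have := congrArg (fun s : LaurentSeries Qb => s.coeff i) h0
      exact Subtype.ext (Subtype.ext (by simpa [wIn, coe_toA] using this))), map_zero])
  refine mul_right_cancel₀ hv0 ?_
  conv_lhs => rw [← hfix v, ← map_mul, h, hfix, ← h]

variable {q : ℕ} [hq : Fact q.Prime] (hA : A.LiesOverPrime q)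

include hA in
/-- An element with zero reduction is divisible by `q`. -/
theorem fixFrac_div_q {x : LaurentSeries Qb} (hx : x ∈ fixFrac A)
    (h0 : gval A (IsLocalRing.residue A) x = 0) :
    HahnSeries.C ((q : Qb)⁻¹) * x ∈ fixFrac A := by
  obtain ⟨u, v, hv, h⟩ := hx
  rw [gval_eq A (IsLocalRing.residue A) (v := coeffMap (toA A) v) (u := coeffMap (toA A) u)
    (by rwa [← wRed_eq]) (by rwa [← wIn_eq, ← wIn_eq]), ← wRed_eq, ← wRed_eq,
    div_eq_zero_iff] at h0
  obtain ⟨u₁, hu₁⟩ := (base hA).exists_eq_ϖ_mul (u := u) (h0.resolve_right hv)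
  let u' : LaurentSeries (W0 A) := u₁
  have hu' : u = (HahnSeries.C ((base hA).ϖ : W0 A) : LaurentSeries (W0 A)) * u' := hu₁
  refine ⟨u', v, hv, ?_⟩
  have hC : wIn A (HahnSeries.C ((base hA).ϖ : W0 A)) = HahnSeries.C (q : Qb) := by
    rw [show wIn A (HahnSeries.C ((base hA).ϖ : W0 A)) =
      HahnSeries.C ((((base hA).ϖ : W0 A) : K0 A) : Qb) from coeffMap_single _ 0 _]
    simp [base_ϖ]
  rw [mul_assoc, h, hu', map_mul, hC, ← mul_assoc, ← map_mul,
    inv_mul_cancel₀ (by exact_mod_cast hq.out.ne_zero), map_one, one_mul]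

/-! ### Integer echelons -/

theorem ser_smul_mul {K : Type*} [Field K] (c : K) (x y : LaurentSeries K) :
    c • x * y = c • (x * y) := by
  rw [← HahnSeries.C_mul_eq_smul, ← HahnSeries.C_mul_eq_smul, mul_assoc]

theorem ser_mul_smul {K : Type*} [Field K] (c : K) (x y : LaurentSeries K) :
    x * c • y = c • (x * y) := by
  rw [← HahnSeries.C_mul_eq_smul, ← HahnSeries.C_mul_eq_smul, mul_left_comm]

include hA in
/-- A finite family of integer series spans the same as one with independent reductions. -/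
theorem exists_int_echelon : ∀ {n : ℕ} (U : Fin n → LaurentSeries ℤ),
    ∃ (r : ℕ) (e : Fin r → LaurentSeries ℤ),
      LinearIndependent (kres A) (fun i => intSer (kres A) (e i)) ∧
      (∀ i, intSer Qb (e i) ∈ Submodule.span Qb (Set.range fun j => intSer Qb (U j))) ∧
      (∀ j, intSer Qb (U j) ∈ Submodule.span Qb (Set.range fun i => intSer Qb (e i))) ∧
      ∀ m : ℤ, (∀ j, (U j).coeff m = 0) → ∀ i, (e i).coeff m = 0 := by
  intro n
  induction n with
  | zero =>
    intro U
    exact ⟨0, Fin.elim0, linearIndependent_empty_type, fun i => i.elim0, fun j => j.elim0,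
      fun _ _ i => i.elim0⟩
  | succ n ih =>
    intro U
    haveI := GalCommon.charP_residueField hq.out hA
    have hsucc : ∀ j : Fin n, (fun j => intSer Qb (U j)) j.succ = intSer Qb (U j.succ) :=
      fun _ => rfl
    by_cases hU : U 0 = 0
    · obtain ⟨r, e, h1, h2, h3, h4⟩ := ih (fun j => U j.succ)
      refine ⟨r, e, h1, fun i => Submodule.span_mono ?_ (h2 i), fun j => ?_,
        fun m hm => h4 m fun j => hm j.succ⟩
      · rintro _ ⟨j, rfl⟩
        exact ⟨j.succ, rfl⟩
      · refine Fin.cases ?_ h3 j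
        rw [hU, map_zero]
        exact zero_mem _
    · obtain ⟨s, g, m, hs, hm⟩ := exists_primitive_intSer hq.out.two_le hU
      set U' : Fin n → LaurentSeries ℤ := fun j =>
        HahnSeries.C (g.coeff m) * U j.succ - HahnSeries.C ((U j.succ).coeff m) * g with hU'
      have hU'm : ∀ j, (U' j).coeff m = 0 := fun j => by
        show (HahnSeries.C (g.coeff m) * U j.succ -
          HahnSeries.C ((U j.succ).coeff m) * g).coeff m = 0
        rw [HahnSeries.coeff_sub, HahnSeries.C_apply, HahnSeries.C_apply,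
          HahnSeries.coeff_single_mul, HahnSeries.coeff_single_mul, sub_zero, mul_comm, sub_self]
      obtain ⟨r, e, h1, h2, h3, h4⟩ := ih U'
      have hcast : ∀ (c : ℤ) (x : LaurentSeries ℤ),
          intSer Qb (HahnSeries.C c * x) = (c : Qb) • intSer Qb x := fun c x => by
        rw [map_mul, ← HahnSeries.C_mul_eq_smul]
        congr 1
        exact coeffMap_single _ 0 c
      have hgS : intSer Qb g ∈ Submodule.span Qb (Set.range fun j => intSer Qb (U j)) := by
        have h : intSer Qb (U 0) ∈ Submodule.span Qb (Set.range fun j => intSer Qb (U j)) :=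
          Submodule.subset_span ⟨0, rfl⟩
        have e0 : intSer Qb g = ((q : Qb) ^ s)⁻¹ • intSer Qb (U 0) := by
          rw [hs, hcast, smul_smul]
          push_cast
          rw [inv_mul_cancel₀ (pow_ne_zero _ (by exact_mod_cast hq.out.ne_zero)), one_smul]
        rw [e0]
        exact Submodule.smul_mem _ _ h
      have hem : ∀ i, (e i).coeff m = 0 := h4 m hU'm
      refine ⟨r + 1, Fin.cons g e, ?_, fun i => ?_, fun j => ?_, fun l hl i => ?_⟩
      · rw [Fintype.linearIndependent_iff]
        intro c hc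
        rw [Fin.sum_univ_succ] at hc
        simp only [Fin.cons_zero, Fin.cons_succ] at hc
        have hgm : ((g.coeff m : ℤ) : kres A) ≠ 0 := by
          rw [Ne, CharP.intCast_eq_zero_iff (kres A) q]
          exact hm
        have hC : ∀ (a : kres A) (y : LaurentSeries (kres A)), (a • y).coeff m = a * y.coeff m :=
          fun a y => by rw [HahnSeries.coeff_smul, smul_eq_mul]
        have h0 : c 0 = 0 := by
          have h := congrArg (fun y : LaurentSeries (kres A) => y.coeff m) hc
          simp only [HahnSeries.coeff_add, HahnSeries.coeff_sum, hC, coeffMap_coeff, hem,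
            map_zero, mul_zero, Finset.sum_const_zero, add_zero, HahnSeries.coeff_zero] at h
          exact (mul_eq_zero.mp h).resolve_right hgm
        rw [h0, zero_smul, zero_add] at hc
        exact fun i => Fin.cases h0 (Fintype.linearIndependent_iff.mp h1 _ hc) i
      · refine Fin.cases ?_ (fun i => ?_) i
        · exact hgS
        · rw [Fin.cons_succ]
          refine Submodule.span_le.mpr ?_ (h2 i)
          rintro _ ⟨j, rfl⟩
          simp only [SetLike.mem_coe, hU', map_sub, hcast]
          exact Submodule.sub_mem _ (Submodule.smul_mem _ _ (Submodule.subset_span ⟨j.succ, rfl⟩))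
            (Submodule.smul_mem _ _ hgS)
      · have hg' : intSer Qb g ∈
            Submodule.span Qb (Set.range fun i => intSer Qb ((Fin.cons g e : Fin (r + 1) → _) i)) :=
          Submodule.subset_span ⟨0, by simp⟩
        have hmono : Submodule.span Qb (Set.range fun i => intSer Qb (e i)) ≤
            Submodule.span Qb (Set.range fun i => intSer Qb ((Fin.cons g e : Fin (r + 1) → _) i)) :=
          Submodule.span_mono (by rintro _ ⟨i, rfl⟩; exact ⟨i.succ, by simp⟩)
        refine Fin.cases ?_ (fun j => ?_) j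
        · rw [hs, hcast]
          exact Submodule.smul_mem _ _ hg'
        · have h := hmono (h3 j)
          simp only [hU', map_sub, hcast] at h
          have hg0 : ((g.coeff m : ℤ) : Qb) ≠ 0 :=
            Int.cast_ne_zero.mpr fun h0 => hm (by rw [h0]; exact dvd_zero _)
          have h' := Submodule.add_mem _ h (Submodule.smul_mem _ ((U j.succ).coeff m : Qb) hg')
          rw [sub_add_cancel] at h'
          have h'' := Submodule.smul_mem _ ((g.coeff m : Qb))⁻¹ h'
          rwa [smul_smul, inv_mul_cancel₀ hg0, one_smul] at h''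
      · have hgl : g.coeff l = 0 := by
          have h := congrArg (fun y : LaurentSeries ℤ => y.coeff l) hs
          simp only [hl 0, HahnSeries.C_apply, HahnSeries.coeff_single_mul, sub_zero] at h
          exact (mul_eq_zero.mp h.symm).resolve_left
            (pow_ne_zero _ (by exact_mod_cast hq.out.ne_zero))
        refine Fin.cases hgl (fun i => ?_) i
        rw [Fin.cons_succ]
        exact h4 l (fun j => by
          show (HahnSeries.C (g.coeff m) * U j.succ -
            HahnSeries.C ((U j.succ).coeff m) * g).coeff l = 0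
          rw [HahnSeries.coeff_sub, HahnSeries.C_apply, HahnSeries.C_apply,
            HahnSeries.coeff_single_mul, HahnSeries.coeff_single_mul, sub_zero, hl j.succ, hgl,
            mul_zero, mul_zero, sub_zero]) i

/-! ### Rational series of functions are quotients of integer series -/

/-- Coefficientwise application of a functional. -/
def coordSer (φ : Qb →ₗ[ℚ] ℚ) : LaurentSeries Qb →+ LaurentSeries ℚ where
  toFun x := x.map φ.toAddMonoidHom
  map_zero' := HahnSeries.ext (funext fun i => by simp)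
  map_add' x x' := HahnSeries.ext (funext fun i => by simp)

theorem coordSer_coeff (φ : Qb →ₗ[ℚ] ℚ) (x : LaurentSeries Qb) (i : ℤ) :
    (coordSer φ x).coeff i = φ (x.coeff i) := rfl

theorem coordSer_smul_coeffEmb (φ : Qb →ₗ[ℚ] ℚ) (c : Qb) (x : LaurentSeries ℚ) :
    coordSer φ (c • coeffEmb Qb x) = φ c • x := by
  refine HahnSeries.ext (funext fun i => ?_)
  rw [coordSer_coeff, HahnSeries.coeff_smul, HahnSeries.coeff_smul, coeffEmb_coeff, smul_eq_mul,
    smul_eq_mul, mul_comm c, ← Algebra.smul_def, map_smul, smul_eq_mul, mul_comm]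

theorem coeffEmb_intSer (x : LaurentSeries ℤ) : coeffEmb Qb (intSer ℚ x) = intSer Qb x :=
  coeffMap_intSer _ x

/-- A rational combination of integer series, cleared of denominators. -/
theorem exists_clear_den {y : LaurentSeries ℚ}
    (hy : y ∈ Submodule.span ℚ (Set.range (intSer ℚ))) :
    ∃ (D : ℤ) (u : LaurentSeries ℤ), D ≠ 0 ∧ (D : ℚ) • y = intSer ℚ u := by
  induction hy using Submodule.span_induction with
  | mem x hx => obtain ⟨u, rfl⟩ := hx; exact ⟨1, u, one_ne_zero, by simp⟩
  | zero => exact ⟨1, 0, one_ne_zero, by simp⟩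
  | add x x' _ _ h h' =>
    obtain ⟨D, u, hD, h⟩ := h
    obtain ⟨D', u', hD', h'⟩ := h'
    refine ⟨D * D', HahnSeries.C D' * u + HahnSeries.C D * u', mul_ne_zero hD hD', ?_⟩
    have hc : ∀ (c : ℤ) (z : LaurentSeries ℤ),
        intSer ℚ (HahnSeries.C c * z) = (c : ℚ) • intSer ℚ z := fun c z => by
      rw [map_mul, ← HahnSeries.C_mul_eq_smul]
      congr 1
      exact coeffMap_single _ 0 c
    rw [map_add, hc, hc, ← h, ← h', smul_smul, smul_smul, smul_add]
    push_cast
    congr 2
    ring
  | smul c x _ h =>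
    obtain ⟨D, u, hD, h⟩ := h
    refine ⟨D * c.den, HahnSeries.C c.num * u, mul_ne_zero hD (by exact_mod_cast c.den_nz), ?_⟩
    rw [map_mul, show intSer ℚ (HahnSeries.C c.num) = HahnSeries.C (c.num : ℚ) from
      coeffMap_single _ 0 _, HahnSeries.C_mul_eq_smul, ← h, smul_smul, smul_smul]
    push_cast
    congr 1
    rw [mul_assoc, mul_comm (c.den : ℚ) c, Rat.mul_den_eq_num, mul_comm]

variable {N : ℕ} [NeZero N]

/-- A function with rational expansion is a quotient of integer series. -/
theorem exists_intSer_frac {x : LaurentSeries Qb} (hx : x ∈ modularFunctionFieldBar N)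
    {x₀ : LaurentSeries ℚ} (hx₀ : coeffEmb Qb x₀ = x) :
    ∃ u v : LaurentSeries ℤ, v ≠ 0 ∧ x * intSer Qb v = intSer Qb u := by
  classical
  set S : Submodule Qb (LaurentSeries Qb) := Submodule.span Qb (Set.range (intSer Qb)) with hS
  have hmul : ∀ {a b : LaurentSeries Qb}, a ∈ S → b ∈ S → a * b ∈ S := fun {a b} ha hb => by
    induction ha using Submodule.span_induction with
    | mem y hy =>
      obtain ⟨u, rfl⟩ := hy
      induction hb using Submodule.span_induction with
      | mem y hy =>
        obtain ⟨v, rfl⟩ := hy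
        exact Submodule.subset_span ⟨u * v, map_mul _ _ _⟩
      | zero => rw [mul_zero]; exact S.zero_mem
      | add y y' _ _ h h' => rw [mul_add]; exact S.add_mem h h'
      | smul c y _ h => rw [ser_mul_smul]; exact S.smul_mem c h
    | zero => rw [zero_mul]; exact S.zero_mem
    | add y y' _ _ h h' => rw [add_mul]; exact S.add_mem h h'
    | smul c y _ h => rw [ser_smul_mul]; exact S.smul_mem c h
  have hone : (1 : LaurentSeries Qb) ∈ S := Submodule.subset_span ⟨1, map_one _⟩
  let Fs : IntermediateField Qb (LaurentSeries Qb) :=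
    { carrier := {y | ∃ a ∈ S, ∃ b ∈ S, b ≠ 0 ∧ y * b = a}
      mul_mem' := by
        rintro y y' ⟨a, ha, b, hb, hb0, h⟩ ⟨a', ha', b', hb', hb0', h'⟩
        exact ⟨a * a', hmul ha ha', b * b', hmul hb hb', mul_ne_zero hb0 hb0',
          by rw [← h, ← h']; ring⟩
      one_mem' := ⟨1, hone, 1, hone, one_ne_zero, one_mul 1⟩
      add_mem' := by
        rintro y y' ⟨a, ha, b, hb, hb0, h⟩ ⟨a', ha', b', hb', hb0', h'⟩
        exact ⟨a * b' + a' * b, Submodule.add_mem _ (hmul ha hb') (hmul ha' hb), b * b',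
          hmul hb hb', mul_ne_zero hb0 hb0', by rw [← h, ← h']; ring⟩
      zero_mem' := ⟨0, S.zero_mem, 1, hone, one_ne_zero, zero_mul 1⟩
      algebraMap_mem' := fun c => ⟨c • 1, S.smul_mem c hone, 1, hone, one_ne_zero,
        by rw [mul_one, algebraMap_laurentSeries_eq_single, ← HahnSeries.C_mul_eq_smul, mul_one,
          HahnSeries.C_apply]⟩
      inv_mem' := by
        rintro y ⟨a, ha, b, hb, hb0, h⟩
        rcases eq_or_ne y 0 with rfl | hy
        · exact ⟨0, S.zero_mem, 1, hone, one_ne_zero, by rw [inv_zero, zero_mul]⟩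
        · exact ⟨b, hb, a, ha, h ▸ mul_ne_zero hy hb0,
            by rw [← h, ← mul_assoc, inv_mul_cancel₀ hy, one_mul]⟩ }
  have hle : modularFunctionFieldBar N ≤ Fs := by
    show laurentBaseChange Qb (modularFunctionFieldFull N) ≤ Fs
    rw [Kronecker.laurentBaseChange_full_eq_adjoin, IntermediateField.adjoin_le_iff]
    rintro _ ⟨d, rfl⟩
    refine ⟨_, ?_, 1, hone, one_ne_zero, mul_one _⟩
    show Kronecker.jSeries Qb (d : ℕ) ∈ S
    rw [BadQ.jSeries_eq_intSer]
    exact Submodule.subset_span ⟨_, rfl⟩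
  obtain ⟨a, ha, b, hb, hb0, hab⟩ := hle hx
  obtain ⟨i, hi⟩ : ∃ i, b.coeff i ≠ 0 := by
    by_contra h
    push Not at h
    exact hb0 (HahnSeries.ext (funext h))
  obtain ⟨φ, hφ⟩ := Module.Projective.exists_dual_ne_zero ℚ hi
  have hproj : ∀ z ∈ S, coordSer φ z ∈ Submodule.span ℚ (Set.range (intSer ℚ)) ∧
      coordSer φ (z * x) = coordSer φ z * x₀ := fun z hz => by
    induction hz using Submodule.span_induction with
    | mem y hy =>
      obtain ⟨u, rfl⟩ := hy
      have h1 := coordSer_smul_coeffEmb φ 1 (intSer ℚ u)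
      have h2 := coordSer_smul_coeffEmb φ 1 (intSer ℚ u * x₀)
      rw [one_smul, coeffEmb_intSer] at h1
      rw [one_smul, map_mul, coeffEmb_intSer, hx₀] at h2
      rw [h1, h2]
      exact ⟨Submodule.smul_mem _ _ (Submodule.subset_span ⟨u, rfl⟩), by rw [ser_smul_mul]⟩
    | zero => exact ⟨by rw [map_zero]; exact zero_mem _, by simp⟩
    | add y y' _ _ h h' =>
      exact ⟨by rw [map_add]; exact Submodule.add_mem _ h.1 h'.1,
        by rw [add_mul, map_add, map_add, h.2, h'.2, add_mul]⟩
    | smul c y hy ih =>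
      clear ih
      induction hy using Submodule.span_induction generalizing c with
      | mem y hy =>
        obtain ⟨u, rfl⟩ := hy
        have h1 := coordSer_smul_coeffEmb φ c (intSer ℚ u)
        have h2 := coordSer_smul_coeffEmb φ c (intSer ℚ u * x₀)
        rw [coeffEmb_intSer] at h1
        rw [map_mul, coeffEmb_intSer, hx₀, ← ser_smul_mul] at h2
        rw [h1, h2]
        exact ⟨Submodule.smul_mem _ _ (Submodule.subset_span ⟨u, rfl⟩), by rw [ser_smul_mul]⟩
      | zero => exact ⟨by rw [smul_zero, map_zero]; exact zero_mem _, by simp⟩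
      | add y y' _ _ h h' =>
        refine ⟨?_, ?_⟩
        · rw [smul_add, map_add]; exact Submodule.add_mem _ (h c).1 (h' c).1
        · rw [smul_add, add_mul, map_add, map_add, (h c).2, (h' c).2, add_mul]
      | smul c' y _ h =>
        rw [smul_smul]
        exact h (c * c')
  have hz0 : coordSer φ b ≠ 0 := fun h => hφ (by
    rw [← coordSer_coeff, h, HahnSeries.coeff_zero])
  obtain ⟨hb1, hb2⟩ := hproj b hb
  obtain ⟨D, v, hD, hv⟩ := exists_clear_den hb1
  obtain ⟨D', u, hD', hu⟩ := exists_clear_den (hproj a ha).1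
  rw [mul_comm, hab] at hb2
  refine ⟨HahnSeries.C D * u, HahnSeries.C D' * v, ?_, ?_⟩
  · refine mul_ne_zero (HahnSeries.C_ne_zero hD') fun h0 => ?_
    rw [h0, map_zero, smul_eq_zero] at hv
    exact hv.elim (by simpa using hD) hz0
  · have key : x₀ * intSer ℚ (HahnSeries.C D' * v) = intSer ℚ (HahnSeries.C D * u) := by
      rw [map_mul, map_mul, ← hv, ← hu, hb2]
      simp only [show ∀ c : ℤ, intSer ℚ (HahnSeries.C c) = HahnSeries.C (c : ℚ)
        from fun c => coeffMap_single _ 0 c, ← HahnSeries.C_mul_eq_smul]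
      ring
    rw [← hx₀, ← coeffEmb_intSer, ← coeffEmb_intSer, ← map_mul, key]

/-! ### Lifts with coefficients in `W₀` -/

/-- The space is stable under the action of Galois on coefficients. -/
def CoeffStable (L : Submodule Qb (LaurentSeries Qb)) : Prop :=
  ∀ (σ : Qb ≃ₐ[ℚ] Qb), ∀ f ∈ L, coeffMap (σ : Qb →+* Qb) f ∈ L

theorem exists_rat_of_fixed {a : Qb} (h : ∀ σ : Qb ≃ₐ[ℚ] Qb, σ a = a) :
    ∃ r : ℚ, algebraMap ℚ Qb r = a := by
  haveI : IsGalois ℚ Qb := inferInstance
  exact (InfiniteGalois.mem_range_algebraMap_iff_fixed a).mpr h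

/-- A stable finite dimensional space is spanned by rational series. -/
theorem exists_rational_spanning {L : Submodule Qb (LaurentSeries Qb)} [FiniteDimensional Qb L]
    (hL : CoeffStable L) : ∃ (n : ℕ) (g : Fin n → LaurentSeries ℚ),
      (∀ i, coeffEmb Qb (g i) ∈ L) ∧
      ∀ f ∈ L, f ∈ Submodule.span Qb (Set.range fun i => coeffEmb Qb (g i)) := by
  classical
  let ev : ℤ → L →ₗ[Qb] Qb := fun m =>
    { toFun := fun f => (f : LaurentSeries Qb).coeff m
      map_add' := fun f f' => by simp
      map_smul' := fun c f => by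
        simp only [Submodule.coe_smul, HahnSeries.coeff_smul, RingHom.id_apply] }
  have hex : ∃ n : ℕ, ∃ T : Finset ℤ, T.card = n ∧
      ∀ f : L, (∀ m ∈ T, ev m f = 0) → f = 0 := by
    suffices h : ∀ d : ℕ, ∀ W : Submodule Qb L, Module.finrank Qb W ≤ d →
        ∃ T : Finset ℤ, ∀ f ∈ W, (∀ m ∈ T, ev m f = 0) → f = 0 by
      obtain ⟨T, hT⟩ := h _ ⊤ le_rfl
      exact ⟨T.card, T, rfl, fun f hf => hT f trivial hf⟩
    intro d
    induction d with
    | zero =>
      intro W hW
      refine ⟨∅, fun f hf _ => ?_⟩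
      rw [Submodule.finrank_eq_zero.mp (Nat.le_zero.mp hW)] at hf
      exact (Submodule.mem_bot Qb).mp hf
    | succ d ih =>
      intro W hW
      by_cases h0 : W = ⊥
      · exact ⟨∅, fun f hf _ => (Submodule.mem_bot Qb).mp (h0 ▸ hf)⟩
      obtain ⟨f, hf, hf0⟩ := W.exists_mem_ne_zero_of_ne_bot h0
      obtain ⟨m, hm⟩ : ∃ m, ev m f ≠ 0 := by
        by_contra h
        push Not at h
        exact hf0 (Subtype.ext (HahnSeries.ext (funext h)))
      have hlt : W ⊓ LinearMap.ker (ev m) < W :=
        lt_of_le_of_ne inf_le_left fun he => hm (LinearMap.mem_ker.mp (by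
          rw [← he] at hf; exact hf.2))
      obtain ⟨T, hT⟩ := ih (W ⊓ LinearMap.ker (ev m)) (by
        have := Submodule.finrank_lt_finrank_of_lt hlt
        omega)
      exact ⟨insert m T, fun g hg hgv => hT g ⟨hg, LinearMap.mem_ker.mpr
        (hgv m (Finset.mem_insert_self m T))⟩ fun l hl => hgv l (Finset.mem_insert_of_mem hl)⟩
  obtain ⟨T, hTc, hT⟩ := Nat.find_spec hex
  have hdual : ∀ t : T, ∃ f : L, ∀ m ∈ T, ev m f = if m = (t : ℤ) then 1 else 0 := by
    intro t
    have hne : ∃ f : L, (∀ m ∈ T.erase t, ev m f = 0) ∧ ev t f ≠ 0 := by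
      by_contra h
      push Not at h
      refine Nat.find_min hex (m := (T.erase t).card) ?_ ⟨T.erase t, rfl, fun f hf =>
        hT f fun m hm => ?_⟩
      · rw [← hTc]; exact Finset.card_erase_lt_of_mem t.2
      · rcases eq_or_ne m (t : ℤ) with rfl | hne
        · exact h f hf
        · exact hf m (Finset.mem_erase.mpr ⟨hne, hm⟩)
    obtain ⟨f, hf, hft⟩ := hne
    refine ⟨(ev t f)⁻¹ • f, fun m hm => ?_⟩
    rw [map_smul, smul_eq_mul]
    split_ifs with he
    · rw [he, inv_mul_cancel₀ hft]
    · rw [hf m (Finset.mem_erase.mpr ⟨he, hm⟩), mul_zero]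
  choose f hf using hdual
  have hrat : ∀ t : T, ∃ g : LaurentSeries ℚ, coeffEmb Qb g = (f t : LaurentSeries Qb) := by
    intro t
    have hfix : ∀ (σ : Qb ≃ₐ[ℚ] Qb) (i : ℤ),
        σ ((f t : LaurentSeries Qb).coeff i) = (f t : LaurentSeries Qb).coeff i := by
      intro σ i
      have h := hT (⟨_, hL σ _ (f t).2⟩ - f t) fun m hm => by
        rw [map_sub, sub_eq_zero, hf t m hm]
        show σ (ev m (f t)) = _
        rw [hf t m hm]
        split_ifs
        · exact map_one σ
        · exact map_zero σ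
      rw [sub_eq_zero] at h
      exact congrArg (fun z : L => (z : LaurentSeries Qb).coeff i) h
    choose r hr using fun i => exists_rat_of_fixed fun σ => hfix σ i
    have hsupp : Function.support r ⊆ Function.support (f t : LaurentSeries Qb).coeff :=
      fun i hi h0 => hi (by
        have := hr i
        rw [h0, map_eq_zero] at this
        exact this)
    exact ⟨⟨r, (f t : LaurentSeries Qb).isPWO_support'.mono hsupp⟩, HahnSeries.ext (funext hr)⟩
  choose g hg using hrat
  let e : Fin T.card ≃ T := T.equivFin.symm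
  refine ⟨T.card, fun i => g (e i), fun i => hg (e i) ▸ (f (e i)).2, fun x hx => ?_⟩
  have hx' : (⟨x, hx⟩ : L) = ∑ t : T, ev t ⟨x, hx⟩ • f t := by
    refine sub_eq_zero.mp (hT _ fun m hm => ?_)
    rw [map_sub, map_sum, sub_eq_zero, Finset.sum_eq_single (⟨m, hm⟩ : T)]
    · rw [map_smul, hf _ m hm, if_pos rfl, smul_eq_mul, mul_one]
    · intro t _ ht
      rw [map_smul, hf t m hm, if_neg (fun h => ht (Subtype.ext h.symm)), smul_zero]
    · exact fun h => absurd (Finset.mem_univ _) h
  have := congrArg Subtype.val hx'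
  simp only [Submodule.coe_sum, Submodule.coe_smul] at this
  rw [this]
  exact Submodule.sum_mem _ fun t _ => Submodule.smul_mem _ _
    (Submodule.subset_span ⟨e.symm t, by simp only [Equiv.apply_symm_apply]; exact hg t⟩)

include hA in
/-- An integral function in a stable space reduces like one with coefficients in `W₀`. -/
theorem exists_fix_lift {L : Submodule Qb (LaurentSeries Qb)} [FiniteDimensional Qb L]
    (hL : CoeffStable L) (hLF : ∀ f ∈ L, f ∈ modularFunctionFieldBar N) {f : LaurentSeries Qb}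
    (hf : f ∈ L) (hfV : f ∈ gV A (IsLocalRing.residue A)) :
    ∃ a ∈ L, a ∈ fixFrac A ∧
      gval A (IsLocalRing.residue A) a = gval A (IsLocalRing.residue A) f := by
  classical
  haveI := GalCommon.charP_residueField hq.out hA
  set π := IsLocalRing.residue A
  obtain ⟨n, g, hgL, hspan⟩ := exists_rational_spanning hL
  choose u v hv huv using fun i => exists_intSer_frac (hLF _ (hgL i)) rfl
  have hVne : (∏ i, v i) ≠ 0 := Finset.prod_ne_zero_iff.mpr fun i _ => hv i
  obtain ⟨s, V0, m₀, hV, hm₀⟩ := exists_primitive_intSer hq.out.two_le hVne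
  have hint0 : ∀ {R : Type} [CommRing R] [CharP R q], intSer R V0 ≠ 0 := fun {R} _ _ h => by
    have h1 := congrArg (fun y : LaurentSeries R => y.coeff m₀) h
    simp only [coeffMap_coeff, HahnSeries.coeff_zero, eq_intCast] at h1
    exact hm₀ ((CharP.intCast_eq_zero_iff R q _).mp h1)
  have hredV0 : intSer (kres A) V0 ≠ 0 := hint0
  have hV0 : intSer Qb V0 ≠ 0 := fun h => hredV0 (by
    rw [show V0 = 0 from HahnSeries.ext (funext fun i => by
      simpa using congrArg (fun y : LaurentSeries Qb => y.coeff i) h), map_zero])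
  set U : Fin n → LaurentSeries ℤ := fun i => u i * ∏ l ∈ Finset.univ.erase i, v l with hU
  have hgU : ∀ i, coeffEmb Qb (g i) * intSer Qb V0 = ((q : Qb) ^ s)⁻¹ • intSer Qb (U i) := by
    intro i
    have e1 : coeffEmb Qb (g i) * intSer Qb (∏ l, v l) = intSer Qb (U i) := by
      rw [← Finset.mul_prod_erase _ _ (Finset.mem_univ i), map_mul, ← mul_assoc, huv, hU, map_mul]
    rw [hV, map_mul, show intSer Qb (HahnSeries.C ((q : ℤ) ^ s)) =
        HahnSeries.C ((q : Qb) ^ s) from by
          rw [show intSer Qb (HahnSeries.C ((q : ℤ) ^ s)) =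
            HahnSeries.C (((q : ℤ) ^ s : ℤ) : Qb) from coeffMap_single _ 0 _]
          norm_num] at e1
    rw [← e1, ← HahnSeries.C_mul_eq_smul,
      mul_left_comm (coeffEmb Qb (g i)), ← mul_assoc, ← map_mul,
      inv_mul_cancel₀ (pow_ne_zero _ (by exact_mod_cast hq.out.ne_zero)), map_one, one_mul]
  obtain ⟨r, e, he, heU, hUe, -⟩ := exists_int_echelon hA U
  let μ : LaurentSeries Qb →ₗ[Qb] LaurentSeries Qb :=
    { toFun := fun y => y * intSer Qb V0
      map_add' := fun y y' => add_mul _ _ _
      map_smul' := fun c y => ser_smul_mul c y _ }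
  have hμ : Function.Injective μ := mul_left_injective₀ hV0
  have heL : ∀ i, intSer Qb (e i) ∈ L.map μ := fun i => by
    refine Submodule.span_le.mpr ?_ (heU i)
    rintro _ ⟨j, rfl⟩
    refine ⟨((q : Qb) ^ s) • coeffEmb Qb (g j), L.smul_mem _ (hgL j), ?_⟩
    show ((q : Qb) ^ s) • coeffEmb Qb (g j) * intSer Qb V0 = _
    rw [ser_smul_mul, hgU, smul_smul,
      mul_inv_cancel₀ (pow_ne_zero _ (by exact_mod_cast hq.out.ne_zero)), one_smul]
  obtain ⟨c, hc⟩ : ∃ c : Fin r → Qb, ∑ i, c i • intSer Qb (e i) = f * intSer Qb V0 := by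
    refine (Submodule.mem_span_range_iff_exists_fun Qb).mp ?_
    have h : f * intSer Qb V0 ∈ (Submodule.span Qb (Set.range fun i => coeffEmb Qb (g i))).map μ :=
      ⟨f, hspan f hf, rfl⟩
    refine (Submodule.map_le_iff_le_comap.mpr (Submodule.span_le.mpr ?_)) h
    rintro _ ⟨j, rfl⟩
    show coeffEmb Qb (g j) * intSer Qb V0 ∈ Submodule.span Qb (Set.range fun i => intSer Qb (e i))
    rw [hgU]
    exact Submodule.smul_mem _ _ (hUe j)
  have hfVV : f * intSer Qb V0 ∈ gV A π := mul_mem hfV (gval_intSer A π V0).1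
  have hCsmul : ∀ (a : A) {y : LaurentSeries Qb}, y ∈ gV A π →
      (a : Qb) • y ∈ gV A π ∧ gval A π ((a : Qb) • y) = π a • gval A π y := fun a {y} hy => by
    obtain ⟨h1, h2⟩ := gval_C A π a
    rw [← HahnSeries.C_mul_eq_smul]
    refine ⟨mul_mem h1 hy, ?_⟩
    rw [gval_mul A π h1 hy, h2, HahnSeries.C_mul_eq_smul]
  have hsum : ∀ a : Fin r → A, (∑ i, (a i : Qb) • intSer Qb (e i)) ∈ gV A π ∧
      gval A π (∑ i, (a i : Qb) • intSer Qb (e i)) = ∑ i, π (a i) • intSer (kres A) (e i) := by
    intro a
    induction (Finset.univ : Finset (Fin r)) using Finset.induction with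
    | empty => exact ⟨by simp, by simp [gval_zero]⟩
    | insert i t hi ih =>
      obtain ⟨h1, h2⟩ := hCsmul (a i) (gval_intSer A π (e i)).1
      rw [Finset.sum_insert hi, Finset.sum_insert hi]
      exact ⟨add_mem h1 ih.1, by rw [gval_add A π h1 ih.1, h2, ih.2, (gval_intSer A π (e i)).2]⟩
  have hcA : ∀ i, c i ∈ A := by
    by_contra h
    push Not at h
    obtain ⟨i, hi⟩ := h
    haveI : Nonempty (Fin r) := ⟨i⟩
    obtain ⟨i₀, -, hmax⟩ := Finset.exists_max_image Finset.univ
      (fun l => A.valuation (c l)) Finset.univ_nonempty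
    have hi₀ : ¬ A.valuation (c i₀) ≤ 1 := fun h' =>
      hi ((A.valuation_le_one_iff _).mp ((hmax i (Finset.mem_univ i)).trans h'))
    have hne : c i₀ ≠ 0 := fun h' => hi₀ (by simp [h'])
    have hdiv : ∀ l, c l / c i₀ ∈ A := fun l => by
      rw [← A.valuation_le_one_iff, map_div₀]
      exact div_le_one_of_le₀ (hmax l (Finset.mem_univ l)) zero_le
    let a : Fin r → A := fun l => ⟨c l / c i₀, hdiv l⟩
    have hinvA : (c i₀)⁻¹ ∈ A :=
      (A.mem_or_inv_mem (c i₀)).resolve_left fun h' => hi₀ ((A.valuation_le_one_iff _).mpr h')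
    have heq : ∑ l, (a l : Qb) • intSer Qb (e l) =
        ((⟨(c i₀)⁻¹, hinvA⟩ : A) : Qb) • (f * intSer Qb V0) := by
      rw [← hc, Finset.smul_sum]
      exact Finset.sum_congr rfl fun l _ => by rw [smul_smul, inv_mul_eq_div]
    have hπ0 : π (⟨(c i₀)⁻¹, hinvA⟩ : A) = 0 := by
      rw [← GalCommon.coe_mem_nonunits_iff_residue, ValuationSubring.mem_nonunits_iff, map_inv₀]
      exact inv_lt_one_of_one_lt₀ (not_le.mp hi₀)
    have h1 := (hsum a).2
    rw [heq, (hCsmul _ hfVV).2, hπ0, zero_smul] at h1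
    have h2 := Fintype.linearIndependent_iff.mp he _ h1.symm i₀
    rw [show a i₀ = 1 from Subtype.ext (div_self hne), map_one] at h2
    exact one_ne_zero h2
  choose ζ hζ using fun i => redW_surjective hA (π ⟨c i, hcA i⟩)
  set y : LaurentSeries Qb := ∑ i, ((ζ i : K0 A) : Qb) • intSer Qb (e i) with hy
  obtain ⟨a, haL, hay⟩ : y ∈ L.map μ := Submodule.sum_mem _ fun i _ => Submodule.smul_mem _ _ (heL i)
  change a * intSer Qb V0 = y at hay
  have hyfix : y ∈ fixFrac A := Subring.sum_mem _ fun i _ => by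
    rw [← HahnSeries.C_mul_eq_smul]
    exact mul_mem (const_mem_fixFrac A (ζ i)) (intSer_mem_fixFrac A (e i))
  have hafix : a ∈ fixFrac A := by
    obtain ⟨uy, vy, hvy, huy⟩ := hyfix
    refine ⟨uy, intSer (W0 A) V0 * vy, ?_, ?_⟩
    · rw [map_mul, wRed_intSer]; exact mul_ne_zero hredV0 hvy
    · rw [map_mul, wIn_intSer, ← mul_assoc, hay, huy]
  have hag := fixFrac_le_gV hafix
  refine ⟨a, haL, hafix, mul_right_cancel₀ hredV0 ?_⟩
  rw [← (gval_intSer A π V0).2, ← gval_mul A π hag (gval_intSer A π V0).1,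
    ← gval_mul A π hfV (gval_intSer A π V0).1, hay, ← hc]
  have h1 := (hsum fun i => toA A (ζ i)).2
  have h2 := (hsum fun i => ⟨c i, hcA i⟩).2
  simp only [coe_toA] at h1
  rw [h1, h2]
  exact Finset.sum_congr rfl fun i _ => by rw [show π (toA A (ζ i)) = redW A (ζ i) from rfl, hζ]

end FLTAgent.MazurP
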