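import Fermat.Agent.MazurP.Descent

/-!
# Functions near a node of thickness one

`IsNodeParam P u`: an inertia invariant parameter `u` at the node `P`, a uniformiser on the first
branch, with `u / p` having a simple pole on the second. The places over the node are
parametrised by the value of `u` (`valAt_bounds`, `ord_sub`, `eq_of_valAt`), and for a function
without zeros or poles over the node the two absolute values differ by the power of `p` given by
its order on the first branch (`absv_true_eq`).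
-/

set_option autoImplicit false
set_option linter.style.haveILetI false
set_option linter.unusedSectionVars false

noncomputable section

open AlgebraicCurve SemilinearAut
open scoped Classical

namespace FLTAgent.MazurP

open FLTAgent.Reduction

local notation "Qb" => AlgebraicClosure ℚ
local notation "Γℚ" => (AlgebraicClosure ℚ ≃ₐ[ℚ] AlgebraicClosure ℚ)

namespace Frame

variable {A : ValuationSubring Qb} {k : Type*} [Field k] {π : A →+* k} {p : ℕ}
  {F E : Type*} [Field F] [Field E] [Algebra Qb F] [Algebra k E] {Fr : Frame A π p F E}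

theorem absv_zpow {b : Bool} (f : F) (n : ℤ) : Fr.absv b (f ^ n) = Fr.absv b f ^ n := by
  cases n with
  | ofNat m => simp [absv_pow]
  | negSucc m => simp [zpow_negSucc, absv_inv, absv_pow]

theorem ordAt_zpow {b : Bool} (f : F) (n : ℤ) (P : Place k E) :
    Fr.ordAt b P (f ^ n) = n * Fr.ordAt b P f := by
  cases n with
  | ofNat m => simp [ordAt_pow]
  | negSucc m => rw [zpow_negSucc, ordAt_inv, ordAt_pow, Int.negSucc_eq]; push_cast; ring

theorem ord_zpow (Q : Place Qb F) (f : F) (n : ℤ) : Q.ord (f ^ n) = n * Q.ord f := by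
  cases n with
  | ofNat m => simp [FF.ord_pow]
  | negSucc m => rw [zpow_negSucc, Place.ord_inv, FF.ord_pow, Int.negSucc_eq]; push_cast; ring

variable (Fr)

/-- A parameter of thickness one at the node `P`. -/
structure IsNodeParam (P : Place k E) (u : F) : Prop where
  mem : P ∈ Fr.nodes
  mem_false : u ∈ (Fr.G false).V
  ne_zero : u ≠ 0
  ord_false : P.ord ((Fr.G false).red u) = 1
  mem_true : ((p : Qb)⁻¹ • u) ∈ (Fr.G true).V
  ord_true : (Fr.partner P).ord ((Fr.G true).red ((p : Qb)⁻¹ • u)) = -1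
  ord_zero : ∀ Q : Place Qb F, Fr.red Q = (false, P) → Q.ord u = 0
  fixed : ∀ σ ∈ A.inertiaSubgroupIn ℚ, Fr.act σ • u = u

variable {Fr}

theorem exists_isNodeParam (hnp : Fr.HasNodeParams) {P : Place k E} (hP : P ∈ Fr.nodes) :
    ∃ u, Fr.IsNodeParam P u := by
  obtain ⟨u, h1, h2, h3, h4, h5, h6, h7⟩ := hnp P hP
  exact ⟨u, hP, h1, h2, h3, h4, h5, h6, h7⟩

namespace IsNodeParam

variable {P : Place k E} {u : F} (hu : Fr.IsNodeParam P u)
include hu

theorem red_false_ne : (Fr.G false).red u ≠ 0 := fun h => by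
  have := hu.ord_false
  simp [h] at this

theorem red_true_ne : (Fr.G true).red ((p : Qb)⁻¹ • u) ≠ 0 := fun h => by
  have := hu.ord_true
  simp [h] at this

theorem absv_false : Fr.absv false u = 1 := absv_eq_one hu.mem_false hu.red_false_ne

theorem absv_true : Fr.absv true u = A.valuation (p : Qb) := by
  have hp0 : (p : Qb) ≠ 0 := by exact_mod_cast Fr.p_prime.ne_zero
  rw [absv_eq (inv_ne_zero hp0) hu.mem_true hu.red_true_ne, map_inv₀, inv_inv]

theorem ordAt_false : Fr.ordAt false P u = 1 := by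
  rw [ordAt_eq hu.mem_false hu.red_false_ne]
  exact hu.ord_false

theorem ordAt_true : Fr.ordAt true (Fr.partner P) u = -1 := by
  rw [← ord_red_smul hu.mem_true hu.red_true_ne]
  exact hu.ord_true

theorem sub_red_false {c : Qb} (hc : A.valuation c < 1) :
    u - algebraMap Qb F c ∈ (Fr.G false).V ∧
      (Fr.G false).red (u - algebraMap Qb F c) = (Fr.G false).red u := by
  have hcA : c ∈ A := (A.valuation_le_one_iff c).mp hc.le
  refine ⟨(Fr.G false).V.sub_mem hu.mem_false ((Fr.G false).const_mem ⟨c, hcA⟩), ?_⟩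
  rw [(Fr.G false).red_sub hu.mem_false ((Fr.G false).const_mem ⟨c, hcA⟩),
    (Fr.G false).red_const ⟨c, hcA⟩, (res_eq_zero_iff_lt Fr ⟨c, hcA⟩).mpr hc, map_zero, sub_zero]

theorem sub_eq {c : Qb} (hc : c ≠ 0) :
    u - algebraMap Qb F c = (-c) • (1 + (-((p : Qb) / c)) • ((p : Qb)⁻¹ • u)) := by
  have hp0 : (p : Qb) ≠ 0 := by exact_mod_cast Fr.p_prime.ne_zero
  rw [smul_add, smul_smul, smul_smul,
    show -c * -((p : Qb) / c) * (p : Qb)⁻¹ = 1 by field_simp, one_smul, Algebra.smul_def, map_neg]
  ring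

theorem one_add_true {c : Qb} (hc : A.valuation c < 1) :
    1 + c • ((p : Qb)⁻¹ • u) ∈ (Fr.G true).V ∧
      (Fr.G true).red (1 + c • ((p : Qb)⁻¹ • u)) = 1 := by
  obtain ⟨h1, h2⟩ := smul_mem_red_zero (Fr := Fr) hc hu.mem_true
  exact ⟨(Fr.G true).V.add_mem (Fr.G true).V.one_mem h1, by
    rw [(Fr.G true).red_add (Fr.G true).V.one_mem h1, (Fr.G true).red_one, h2, add_zero]⟩

theorem sub_facts {c : Qb} (hc1 : A.valuation c < 1)
    (hcp : A.valuation (p : Qb) < A.valuation c) :
    u - algebraMap Qb F c ≠ 0 ∧ Fr.absv false (u - algebraMap Qb F c) = 1 ∧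
      Fr.ordAt false P (u - algebraMap Qb F c) = 1 ∧
      Fr.absv true (u - algebraMap Qb F c) = A.valuation c ∧
      Fr.ordAt true (Fr.partner P) (u - algebraMap Qb F c) = 0 := by
  have hc0 : c ≠ 0 := fun h => by simp [h] at hcp
  obtain ⟨h1, h2⟩ := hu.sub_red_false hc1
  have hne : (Fr.G false).red (u - algebraMap Qb F c) ≠ 0 := h2 ▸ hu.red_false_ne
  have hlt : A.valuation (-((p : Qb) / c)) < 1 := by
    rw [Valuation.map_neg, map_div₀, div_lt_one₀ (zero_lt_iff.mpr ((map_ne_zero _).mpr hc0))]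
    exact hcp
  obtain ⟨h3, h4⟩ := hu.one_add_true hlt
  refine ⟨fun h0 => hne (by rw [h0, (Fr.G false).red_zero]), absv_eq_one h1 hne, ?_, ?_, ?_⟩
  · rw [ordAt_eq h1 hne, h2]
    exact hu.ord_false
  · rw [hu.sub_eq hc0, absv_smul, absv_eq_one h3 (h4.symm ▸ one_ne_zero), mul_one,
      Valuation.map_neg]
  · rw [hu.sub_eq hc0, ordAt_smul (neg_ne_zero.mpr hc0), ordAt_eq h3 (h4.symm ▸ one_ne_zero), h4,
      Place.ord_one]

theorem valAt_bounds {Q : Place Qb F} (hQ : Fr.red Q = (false, P)) :
    A.valuation (p : Qb) < A.valuation (valAt Q u) ∧ A.valuation (valAt Q u) < 1 := by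
  set c := valAt Q u with hc
  have hreg : Vanish Q u 0 := Or.inr (hu.ord_zero Q hQ).ge
  have hz : Vanish Q (u - algebraMap Qb F c) 1 := Fr.curve.exists_valAt hreg
  have hc0 : c ≠ 0 := fun h => by
    have := ((Fr.curve.vanish_one_iff hreg).mpr (hc.symm.trans h)).resolve_left hu.ne_zero
    rw [hu.ord_zero Q hQ] at this
    omega
  have hp0 : (p : Qb) ≠ 0 := by exact_mod_cast Fr.p_prime.ne_zero
  have hne : u - algebraMap Qb F c ≠ 0 := fun h => by
    have := hu.ord_false
    rw [sub_eq_zero.mp h] at this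
    by_cases hcA : A.valuation c ≤ 1
    · rw [(Fr.G false).red_const ⟨c, (A.valuation_le_one_iff c).mp hcA⟩, FF.ord_algebraMap] at this
      exact zero_ne_one this
    · have hab := hu.absv_false
      rw [sub_eq_zero.mp h, absv_algebraMap] at hab
      exact hcA hab.le
  have hpos : 0 < Fr.fib (u - algebraMap Qb F c) (false, P) := by
    have h1 := le_mapDomain_of_nonneg Fr.red
      (divOf (u - algebraMap Qb F c) : Divisor Qb F) (false, P) (fun a ha => by
        rw [Fr.curve.divOf_apply]
        exact Vanish.zero_iff.mp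
          ((show Vanish a u 0 from Or.inr (hu.ord_zero a ha).ge).sub (Vanish.const c))) hQ
    rw [Fr.curve.divOf_apply] at h1
    have := hz.resolve_left hne
    show 0 < Finsupp.mapDomain Fr.red _ _
    omega
  rw [fib_node hne hu.mem] at hpos
  refine ⟨?_, ?_⟩
  · by_contra hle
    push Not at hle
    have hc1 : A.valuation c < 1 := hle.trans_lt Fr.p_nonunit
    obtain ⟨h1, h2⟩ := hu.sub_red_false hc1
    have ha : Fr.ordAt false P (u - algebraMap Qb F c) = 1 := by
      rw [ordAt_eq h1 (h2 ▸ hu.red_false_ne), h2]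
      exact hu.ord_false
    have hcpA : A.valuation (c / (p : Qb)) ≤ 1 := by
      rw [map_div₀, div_le_one₀ (zero_lt_iff.mpr ((map_ne_zero _).mpr hp0))]
      exact hle
    set a : A := ⟨c / (p : Qb), (A.valuation_le_one_iff _).mp hcpA⟩ with hadef
    have he : (p : Qb)⁻¹ • (u - algebraMap Qb F c) =
        (p : Qb)⁻¹ • u - algebraMap Qb F (a : Qb) := by
      rw [smul_sub, Algebra.smul_def (p : Qb)⁻¹ (algebraMap Qb F c), ← map_mul]
      show _ = _ - algebraMap Qb F (c / (p : Qb))
      rw [div_eq_inv_mul]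
    have hm : (p : Qb)⁻¹ • (u - algebraMap Qb F c) ∈ (Fr.G true).V :=
      he ▸ (Fr.G true).V.sub_mem hu.mem_true ((Fr.G true).const_mem a)
    have hr : (Fr.G true).red ((p : Qb)⁻¹ • (u - algebraMap Qb F c)) =
        (Fr.G true).red ((p : Qb)⁻¹ • u) - algebraMap k E (π a) := by
      rw [he, (Fr.G true).red_sub hu.mem_true ((Fr.G true).const_mem a),
        (Fr.G true).red_const a]
    have hord : (Fr.partner P).ord ((Fr.G true).red ((p : Qb)⁻¹ • u) - algebraMap k E (π a))
        = -1 := by
      rw [sub_eq_add_neg, (FF.ord_add_of_lt _ hu.red_true_ne ?_).2, hu.ord_true]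
      by_cases h0 : π a = 0
      · exact Or.inl (by rw [h0, map_zero, neg_zero])
      · refine Or.inr ?_
        rw [FF.ord_neg, FF.ord_algebraMap, hu.ord_true]
        omega
    have hb : Fr.ordAt true (Fr.partner P) (u - algebraMap Qb F c) = -1 := by
      rw [← ord_red_smul hm (fun h0 => ?_), hr, hord]
      rw [hr] at h0
      rw [h0] at hord
      simp at hord
    omega
  · by_contra hge
    push Not at hge
    have hcA : A.valuation c⁻¹ ≤ 1 := by
      rw [map_inv₀]
      exact inv_le_one_of_one_le₀ hge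
    have hpc : A.valuation (-((p : Qb) / c)) < 1 := by
      rw [Valuation.map_neg, map_div₀, div_lt_one₀ (zero_lt_iff.mpr ((map_ne_zero _).mpr hc0))]
      exact Fr.p_nonunit.trans_le hge
    obtain ⟨h3, h4⟩ := hu.one_add_true hpc
    have hb : Fr.ordAt true (Fr.partner P) (u - algebraMap Qb F c) = 0 := by
      rw [hu.sub_eq hc0, ordAt_smul (neg_ne_zero.mpr hc0),
        ordAt_eq h3 (h4.symm ▸ one_ne_zero), h4, Place.ord_one]
    set a : A := ⟨c⁻¹, (A.valuation_le_one_iff _).mp hcA⟩ with hadef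
    have he : c⁻¹ • (u - algebraMap Qb F c) = (a : Qb) • u - 1 := by
      rw [smul_sub, Algebra.smul_def c⁻¹ (algebraMap Qb F c), ← map_mul, inv_mul_cancel₀ hc0,
        map_one]
    have hm : c⁻¹ • (u - algebraMap Qb F c) ∈ (Fr.G false).V :=
      he ▸ (Fr.G false).V.sub_mem ((Fr.G false).smul_mem a hu.mem_false) (Fr.G false).V.one_mem
    have hr : (Fr.G false).red (c⁻¹ • (u - algebraMap Qb F c)) =
        π a • (Fr.G false).red u - 1 := by
      rw [he, (Fr.G false).red_sub ((Fr.G false).smul_mem a hu.mem_false) (Fr.G false).V.one_mem,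
        (Fr.G false).red_smul a hu.mem_false, (Fr.G false).red_one]
    have hord : P.ord (π a • (Fr.G false).red u - 1) = 0 := by
      rw [sub_eq_neg_add, (FF.ord_add_of_lt P (f := (-1 : E))
        (neg_ne_zero.mpr one_ne_zero) ?_).2]
      · rw [FF.ord_neg, Place.ord_one]
      · by_cases h0 : π a = 0
        · exact Or.inl (by rw [h0, zero_smul])
        · refine Or.inr ?_
          rw [FF.ord_neg, Place.ord_one, Algebra.smul_def, P.ord_mul (by simpa using h0)
            hu.red_false_ne, FF.ord_algebraMap, hu.ord_false]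
          omega
    have hne' : π a • (Fr.G false).red u - 1 ≠ 0 := fun h0 => by
      have h1 := congrArg P.ord (sub_eq_zero.mp h0)
      by_cases h2 : π a = 0
      · rw [h2, zero_smul, zero_sub] at h0
        exact one_ne_zero (neg_eq_zero.mp h0)
      · rw [Algebra.smul_def, P.ord_mul (by simpa using h2) hu.red_false_ne,
          FF.ord_algebraMap, hu.ord_false, Place.ord_one] at h1
        omega
    have ha : Fr.ordAt false P (u - algebraMap Qb F c) = 0 := by
      rw [← ord_red_smul hm (hr.symm ▸ hne'), hr, hord]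
    omega

theorem ord_sub {c : Qb} (hc1 : A.valuation c < 1) (hcp : A.valuation (p : Qb) < A.valuation c)
    {Q : Place Qb F} (hQ : Fr.red Q = (false, P)) :
    Q.ord (u - algebraMap Qb F c) = if valAt Q u = c then 1 else 0 := by
  obtain ⟨hne, -, ha, -, hb⟩ := hu.sub_facts hc1 hcp
  have hreg : ∀ R, Fr.red R = (false, P) → Vanish R u 0 := fun R hR =>
    Or.inr (hu.ord_zero R hR).ge
  have hfib : Fr.fib (u - algebraMap Qb F c) (false, P) = 1 := by
    rw [fib_node hne hu.mem, ha, hb, add_zero]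
  obtain ⟨R, hR, h1, h2⟩ := exists_unique_zero
    (fun R hR => Vanish.zero_iff.mp ((hreg R hR).sub (Vanish.const c))) hfib
  have hv : valAt R u = c := valAt_eq (Or.inr h1.ge)
  split_ifs with h
  · rcases eq_or_ne Q R with rfl | hne'
    · exact h1
    · exfalso
      have := h2 Q hQ hne'
      have h3 := (Fr.curve.exists_valAt (hreg Q hQ))
      rw [h] at h3
      have := h3.resolve_left hne
      omega
  · exact h2 Q hQ fun he => h (he ▸ hv)

theorem eq_of_valAt {Q Q' : Place Qb F} (hQ : Fr.red Q = (false, P))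
    (hQ' : Fr.red Q' = (false, P)) (h : valAt Q u = valAt Q' u) : Q = Q' := by
  obtain ⟨hb1, hb2⟩ := hu.valAt_bounds hQ
  obtain ⟨hne, -, ha, -, hb⟩ := hu.sub_facts hb2 hb1
  have hfib : Fr.fib (u - algebraMap Qb F (valAt Q u)) (false, P) = 1 := by
    rw [fib_node hne hu.mem, ha, hb, add_zero]
  obtain ⟨R, hR, -, h2⟩ := exists_unique_zero (fun S hS => Vanish.zero_iff.mp
    ((show Vanish S u 0 from Or.inr (hu.ord_zero S hS).ge).sub (Vanish.const _))) hfib
  have key : ∀ S, Fr.red S = (false, P) → valAt S u = valAt Q u → S = R := fun S hS hv => by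
    by_contra hne'
    have h0 := h2 S hS hne'
    rw [hu.ord_sub hb2 hb1 hS, if_pos hv] at h0
    exact one_ne_zero h0
  rw [key Q hQ rfl, key Q' hQ' h.symm]

/-- A function without zeros or poles over a node: the two absolute values differ by the power of
`p` given by its order on the first branch. -/
theorem absv_true_eq {g : F} (hg : g ≠ 0)
    (hzero : ∀ Q : Place Qb F, Fr.red Q = (false, P) → Q.ord g = 0) :
    Fr.absv true g = Fr.absv false g * A.valuation (p : Qb) ^ Fr.ordAt false P g := by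
  set s := Fr.ordAt false P g with hs
  set g₁ := g / u ^ s with hg₁
  have hus : u ^ s ≠ 0 := zpow_ne_zero _ hu.ne_zero
  have hg₁0 : g₁ ≠ 0 := div_ne_zero hg hus
  have hz₁ : ∀ Q : Place Qb F, Fr.red Q = (false, P) → Q.ord g₁ = 0 := fun Q hQ => by
    rw [hg₁, FF.ord_div Q hg hus, ord_zpow (Q := Q), hu.ord_zero Q hQ, hzero Q hQ]
    simp
  have ha : Fr.ordAt false P g₁ = 0 := by
    rw [hg₁, div_eq_mul_inv, ordAt_mul hg (inv_ne_zero hus), ordAt_inv, ordAt_zpow,
      hu.ordAt_false]
    omega
  have hb : Fr.ordAt true (Fr.partner P) g₁ = 0 := by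
    have h := fib_node hg₁0 hu.mem
    rw [fib_eq_zero hz₁, ha] at h
    omega
  suffices hkey : Fr.absv true g₁ = Fr.absv false g₁ by
    have h1 : g = g₁ * u ^ s := by rw [hg₁, div_mul_cancel₀ _ hus]
    conv_lhs => rw [h1]
    conv_rhs => rw [h1]
    rw [absv_mul, absv_mul, absv_zpow, absv_zpow, hu.absv_true, hu.absv_false, one_zpow,
      mul_one, hkey]
  obtain ⟨b₀, hb₀⟩ : ∃ b₀, ∀ b, Fr.absv b g₁ ≤ Fr.absv b₀ g₁ := by
    by_cases hle : Fr.absv false g₁ ≤ Fr.absv true g₁
    · exact ⟨true, fun b => by cases b <;> simp [hle]⟩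
    · exact ⟨false, fun b => by cases b <;> simp [le_of_not_ge hle]⟩
  obtain ⟨hd0, hd, hdr⟩ := scaleConst_spec (Fr := Fr) (b := b₀) hg₁0
  set d := Fr.scaleConst b₀ g₁
  have habs : A.valuation d * Fr.absv b₀ g₁ = 1 := by rw [← absv_smul, absv_eq_one hd hdr]
  have hmem : ∀ b, d • g₁ ∈ (Fr.G b).V := fun b => by
    rw [mem_iff, absv_smul, ← habs]
    exact mul_le_mul_right (hb₀ b) _
  have hreg := regAt_red (Fr := Fr) (f := d • g₁) (x := (false, P)) (Or.inr ⟨rfl, hu.mem⟩)
    (fun b _ => hmem b) fun Q hQ =>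
      (show Vanish Q g₁ 0 from Or.inr (hz₁ Q hQ).ge).smul d
  have hr0 := hreg.1 false (Or.inl rfl)
  rw [branch_node_false] at hr0
  have hr1 := hreg.1 true (Or.inr ⟨rfl, hu.mem⟩)
  rw [branch_node_true] at hr1
  have hval := hreg.2 ⟨rfl, hu.mem⟩
  -- a nonzero reduction has nonzero value at the node
  have hnz : ∀ (b : Bool) (R : Place k E), Fr.ordAt b R g₁ = 0 →
      Vanish R (Fr.rp (d • g₁) b) 0 → Fr.rp (d • g₁) b ≠ 0 →
      valAt R (Fr.rp (d • g₁) b) ≠ 0 := by
    intro b R h0 hv hne h
    have h1 := ((Fr.curveBar.vanish_one_iff hv).mpr h).resolve_left hne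
    simp only [rp] at h1 hne
    rw [ord_red_smul (hmem b) hne, h0] at h1
    omega
  have hboth : ∀ b, (Fr.G b).red (d • g₁) ≠ 0 := by
    intro b hb'
    cases b <;> cases b₀
    · exact hdr hb'
    · refine hnz true _ hb hr1 hdr ?_
      rw [← hval]
      simp [rp, hb', valAt_zero]
    · refine hnz false _ ha hr0 hdr ?_
      simp only at hval
      rw [hval]
      simp [rp, hb', valAt_zero]
    · exact hdr hb'
  have h1 := absv_eq_one (hmem true) (hboth true)
  have h2 := absv_eq_one (hmem false) (hboth false)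
  rw [absv_smul] at h1 h2
  exact mul_left_cancel₀ ((map_ne_zero _).mpr hd0) (h1.trans h2.symm)

end IsNodeParam

end Frame

end FLTAgent.MazurP
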