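import Fermat.Agent.MazurP.Basic

/-!
# Regularity at closed points and parameters at smooth points

`RegAt w x` says that a pair of functions on the two components is regular at the closed point
`x` (with equal values at a node); reductions of integral functions without poles over `x` are
such pairs (`regAt_red`) and values reduce to values (`valAt_red`). `unit_const`: a function
which is, at every closed point, a local unit reducing to one has a scaling reducing to `1` on
both components. `IsParam` is an inertia invariant parameter at a smooth point, and `pt` is the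
place over that point where it takes a given value.
-/

set_option autoImplicit false
set_option linter.style.haveILetI false
set_option linter.unusedSectionVars false

noncomputable section

open AlgebraicCurve SemilinearAut

namespace FLTAgent.MazurP

open FLTAgent.Reduction

local notation "Qb" => AlgebraicClosure ℚ
local notation "Γℚ" => (AlgebraicClosure ℚ ≃ₐ[ℚ] AlgebraicClosure ℚ)

namespace Frame

variable {A : ValuationSubring Qb} {k : Type*} [Field k] {π : A →+* k} {p : ℕ}
  {F E : Type*} [Field F] [Field E] [Algebra Qb F] [Algebra k E] (Fr : Frame A π p F E)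

/-- The pair of reductions. -/
def rp (f : F) : Bool → E := fun b => (Fr.G b).red f

/-- A pair of functions regular at a closed point (glued at a node). -/
def RegAt (w : Bool → E) (x : Bool × Place k E) : Prop :=
  (∀ b, Fr.OnComp x b → Vanish (Fr.branch x b) (w b) 0) ∧
    (Fr.IsNode x → valAt x.2 (w false) = valAt (Fr.partner x.2) (w true))

variable {Fr}

theorem RegAt.add {w w' : Bool → E} {x : Bool × Place k E} (h : Fr.RegAt w x)
    (h' : Fr.RegAt w' x) : Fr.RegAt (fun b => w b + w' b) x := by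
  refine ⟨fun b hb => (h.1 b hb).add (h'.1 b hb), fun hn => ?_⟩
  have hf := h.1 false (Or.inr hn)
  have hf' := h'.1 false (Or.inr hn)
  have ht := h.1 true (Or.inr hn)
  have ht' := h'.1 true (Or.inr hn)
  rw [branch, if_pos hn.1.symm] at hf hf'
  rw [branch, if_neg (by simp [hn.1])] at ht ht'
  rw [Fr.curveBar.valAt_add hf hf', Fr.curveBar.valAt_add ht ht', h.2 hn, h'.2 hn]

theorem RegAt.sub {w w' : Bool → E} {x : Bool × Place k E} (h : Fr.RegAt w x)
    (h' : Fr.RegAt w' x) : Fr.RegAt (fun b => w b - w' b) x := by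
  refine ⟨fun b hb => (h.1 b hb).sub (h'.1 b hb), fun hn => ?_⟩
  have hf := h.1 false (Or.inr hn)
  have hf' := h'.1 false (Or.inr hn)
  have ht := h.1 true (Or.inr hn)
  have ht' := h'.1 true (Or.inr hn)
  rw [branch, if_pos hn.1.symm] at hf hf'
  rw [branch, if_neg (by simp [hn.1])] at ht ht'
  rw [Fr.curveBar.valAt_sub hf hf', Fr.curveBar.valAt_sub ht ht', h.2 hn, h'.2 hn]

theorem RegAt.smul {w : Bool → E} {x : Bool × Place k E} (a : k) (h : Fr.RegAt w x) :
    Fr.RegAt (fun b => a • w b) x := by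
  refine ⟨fun b hb => (h.1 b hb).smul a, fun hn => ?_⟩
  have hf := h.1 false (Or.inr hn)
  have ht := h.1 true (Or.inr hn)
  rw [branch, if_pos hn.1.symm] at hf
  rw [branch, if_neg (by simp [hn.1])] at ht
  rw [Fr.curveBar.valAt_smul a hf, Fr.curveBar.valAt_smul a ht, h.2 hn]

theorem regAt_const (a : k) (x : Bool × Place k E) :
    Fr.RegAt (fun _ => algebraMap k E a) x :=
  ⟨fun _ _ => Vanish.const a, fun _ => by rw [valAt_algebraMap, valAt_algebraMap]⟩

theorem regAt_congr {w w' : Bool → E} {x : Bool × Place k E} (he : ∀ b, Fr.OnComp x b → w b = w' b)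
    (h : Fr.RegAt w x) : Fr.RegAt w' x := by
  refine ⟨fun b hb => he b hb ▸ h.1 b hb, fun hn => ?_⟩
  rw [← he false (Or.inr hn), ← he true (Or.inr hn), h.2 hn]

/-- An integral function without poles over a closed point reduces to a regular pair there. -/
theorem regAt_red {f : F} {x : Bool × Place k E} (hx : Fr.IsPoint x)
    (hV : ∀ b, Fr.OnComp x b → f ∈ (Fr.G b).V)
    (hpole : ∀ Q, Fr.red Q = x → Vanish Q f 0) : Fr.RegAt (Fr.rp f) x := by
  rcases hx with hs | hn
  · refine ⟨fun b hb => ?_, fun hn => absurd hn.2 (hs.1 hn.1)⟩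
    obtain rfl := onComp_smooth hs hb
    rw [branch_self]
    rcases eq_or_ne ((Fr.G x.1).red f) 0 with h0 | h0
    · exact Or.inl h0
    · have hf : f ≠ 0 := by rintro rfl; exact h0 (Fr.G x.1).red_zero
      refine Or.inr ?_
      show 0 ≤ x.2.ord ((Fr.G x.1).red f)
      rw [← ordAt_eq (hV _ hb) h0, ← fib_smooth hf hs]
      exact fib_nonneg fun Q hQ => Vanish.zero_iff.mp (hpole Q hQ)
  · obtain ⟨b', P⟩ := x
    obtain ⟨rfl, hP⟩ := hn
    obtain ⟨h1, h2, h3⟩ := Fr.glue P hP f (hV false (Or.inl rfl))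
      (hV true (Or.inr ⟨rfl, hP⟩)) hpole
    refine ⟨fun b _ => ?_, fun _ => h3⟩
    cases b
    · rw [branch_node_false]; exact h1
    · rw [branch_node_true]; exact h2

theorem res_eq_zero_iff_lt (Fr : Frame A π p F E) (a : A) : π a = 0 ↔ A.valuation (a : Qb) < 1 := by
  rw [(Fr.G false).res_eq_zero_iff, ← mem_nonunits_iff, ← IsLocalRing.mem_maximalIdeal,
    ValuationSubring.valuation_lt_one_iff]

/-- The value at a place reducing to a smooth point reduces to the value of the reduction. -/
theorem valAt_red {f : F} {x : Bool × Place k E} (hs : Fr.IsSmooth x) (hf : f ∈ (Fr.G x.1).V)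
    (hpole : ∀ Q, Fr.red Q = x → Vanish Q f 0) {Q : Place Qb F} (hQ : Fr.red Q = x) :
    ∃ hc : valAt Q f ∈ A, π ⟨valAt Q f, hc⟩ = valAt x.2 ((Fr.G x.1).red f) := by
  set c := valAt Q f with hc
  have hz : Vanish Q (f - algebraMap Qb F c) 1 := Fr.curve.exists_valAt (hpole Q hQ)
  have key : ∀ g : F, g ≠ 0 → (∀ Q', Fr.red Q' = x → Vanish Q' g 0) → Vanish Q g 1 →
      0 < Fr.ordAt x.1 x.2 g := by
    intro g hg hreg hQg
    rw [← fib_smooth hg hs]
    classical
    have h1 := le_mapDomain_of_nonneg Fr.red (divOf g : Divisor Qb F) x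
      (fun a ha => by rw [Fr.curve.divOf_apply]; exact Vanish.zero_iff.mp (hreg a ha)) hQ
    rw [Fr.curve.divOf_apply] at h1
    have := hQg.resolve_left hg
    show 0 < Finsupp.mapDomain Fr.red _ x
    omega
  have hreg : ∀ Q', Fr.red Q' = x → Vanish Q' (f - algebraMap Qb F c) 0 := fun Q' hQ' =>
    (hpole Q' hQ').sub (Vanish.const c)
  have hcA : c ∈ A := by
    by_contra hn
    have hc0 : c ≠ 0 := fun h => hn (h ▸ A.zero_mem)
    have hinv : c⁻¹ ∈ A := (A.mem_or_inv_mem c).resolve_left hn
    have he : c⁻¹ • (f - algebraMap Qb F c) = c⁻¹ • f - 1 := by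
      rw [smul_sub, Algebra.algebraMap_eq_smul_one, smul_smul, inv_mul_cancel₀ hc0, one_smul]
    have hred : (Fr.G x.1).red (c⁻¹ • (f - algebraMap Qb F c)) = -1 := by
      have h0 := (Fr.G x.1).red_smul ⟨c⁻¹, hinv⟩ hf
      rw [(Fr.G x.1).res_inv_of_notMem hn, zero_smul] at h0
      rw [he, (Fr.G x.1).red_sub ((Fr.G x.1).smul_mem' hinv hf) (Fr.G x.1).V.one_mem,
        show (Fr.G x.1).red (c⁻¹ • f) = 0 from h0, (Fr.G x.1).red_one, zero_sub]
    have hmem : c⁻¹ • (f - algebraMap Qb F c) ∈ (Fr.G x.1).V := by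
      rw [he]; exact (Fr.G x.1).V.sub_mem ((Fr.G x.1).smul_mem' hinv hf) (Fr.G x.1).V.one_mem
    have hne : f - algebraMap Qb F c ≠ 0 := fun h => by
      rw [h, smul_zero, (Fr.G x.1).red_zero] at hred
      exact one_ne_zero (neg_eq_zero.mp hred.symm)
    have h2 := key _ hne hreg hz
    rw [← ordAt_smul (Fr := Fr) (inv_ne_zero hc0), ordAt_eq hmem
      (by rw [hred]; exact neg_ne_zero.mpr one_ne_zero), hred, FF.ord_neg, Place.ord_one] at h2
    exact lt_irrefl 0 h2
  refine ⟨hcA, ?_⟩
  have hmem : f - algebraMap Qb F c ∈ (Fr.G x.1).V :=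
    (Fr.G x.1).V.sub_mem hf ((Fr.G x.1).const_mem ⟨c, hcA⟩)
  have hred : (Fr.G x.1).red (f - algebraMap Qb F c) =
      (Fr.G x.1).red f - algebraMap k E (π ⟨c, hcA⟩) := by
    rw [(Fr.G x.1).red_sub hf ((Fr.G x.1).const_mem ⟨c, hcA⟩),
      (Fr.G x.1).red_const ⟨c, hcA⟩]
  refine (valAt_eq (v := x.2) ?_).symm
  rw [← hred]
  rcases eq_or_ne ((Fr.G x.1).red (f - algebraMap Qb F c)) 0 with h0 | h0
  · exact Or.inl h0
  · have hne : f - algebraMap Qb F c ≠ 0 := fun h => h0 (by rw [h, (Fr.G x.1).red_zero])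
    have h2 := key _ hne hreg hz
    rw [ordAt_eq hmem h0] at h2
    exact Or.inr h2

/-- A pair without zeros and poles, seen through local units `q ≡ 1`, is a constant. -/
theorem unit_const [IsAlgClosed k] {h : F} (hh : h ≠ 0)
    (hq : ∀ x, Fr.IsPoint x → ∃ q : F,
      (∀ b, Fr.OnComp x b → q ∈ (Fr.G b).V ∧ (Fr.G b).red q = 1) ∧
        ∀ Q, Fr.red Q = x → Q.ord h = Q.ord q) :
    ∃ c : Qb, c ≠ 0 ∧ ∀ b, c • h ∈ (Fr.G b).V ∧ (Fr.G b).red (c • h) = 1 := by
  classical
  have hq0 : ∀ {x : Bool × Place k E} {q : F},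
      (∀ b, Fr.OnComp x b → q ∈ (Fr.G b).V ∧ (Fr.G b).red q = 1) → q ≠ 0 := fun {x q} hx hq => by
    have := (hx x.1 (onComp_self x)).2
    rw [hq, (Fr.G x.1).red_zero] at this
    exact zero_ne_one this
  -- smooth points
  have hsm : ∀ x, Fr.IsSmooth x → Fr.ordAt x.1 x.2 h = 0 := by
    intro x hx
    obtain ⟨q, hqV, hord⟩ := hq x (Or.inl hx)
    have hqne := hq0 hqV
    have h1 := hqV x.1 (onComp_self x)
    have h2 : Fr.fib (h / q) x = 0 := fib_eq_zero fun Q hQ => by
      rw [FF.ord_div Q hh hqne, hord Q hQ, sub_self]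
    rw [fib_smooth (div_ne_zero hh hqne) hx, div_eq_mul_inv,
      ordAt_mul hh (inv_ne_zero hqne), ordAt_inv,
      ordAt_eq (f := q) h1.1 (by rw [h1.2]; exact one_ne_zero), h1.2, Place.ord_one] at h2
    omega
  -- scale so that the larger absolute value is one
  obtain ⟨b₀, hb₀⟩ : ∃ b₀, ∀ b, Fr.absv b h ≤ Fr.absv b₀ h := by
    by_cases hle : Fr.absv false h ≤ Fr.absv true h
    · exact ⟨true, fun b => by cases b <;> simp [hle]⟩
    · exact ⟨false, fun b => by cases b <;> simp [le_of_not_ge hle]⟩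
  obtain ⟨hd0, hd, hdr⟩ := scaleConst_spec (Fr := Fr) (b := b₀) hh
  set d := Fr.scaleConst b₀ h with hdd
  have habs : A.valuation d * Fr.absv b₀ h = 1 := by
    rw [← absv_smul, absv_eq_one hd hdr]
  have hmem : ∀ b, d • h ∈ (Fr.G b).V := fun b => by
    rw [mem_iff, absv_smul, ← habs]
    exact mul_le_mul_right (hb₀ b) _
  -- regularity at the nodes
  have hnode : ∀ P ∈ Fr.nodes, Fr.RegAt (Fr.rp (d • h)) (false, P) := by
    intro P hP
    obtain ⟨q, hqV, hord⟩ := hq (false, P) (Or.inr ⟨rfl, hP⟩)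
    have hqne := hq0 hqV
    have hqi : ∀ b, Fr.OnComp (false, P) b →
        q⁻¹ ∈ (Fr.G b).V ∧ (Fr.G b).red q⁻¹ = 1 := fun b hb => by
      have hi := (Fr.G b).inv_mem (hqV b hb).1 (by rw [(hqV b hb).2]; exact one_ne_zero)
      refine ⟨hi, ?_⟩
      have := (Fr.G b).red_mul (hqV b hb).1 hi
      rw [mul_inv_cancel₀ hqne, (Fr.G b).red_one, (hqV b hb).2, one_mul] at this
      exact this.symm
    have hreg := regAt_red (Fr := Fr) (f := (d • h) * q⁻¹) (x := (false, P)) (Or.inr ⟨rfl, hP⟩)
      (fun b hb => (Fr.G b).V.mul_mem (hmem b) (hqi b hb).1) fun Q hQ => Vanish.zero_iff.mpr (by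
        have h1 : Q.ord (d • h) = Q.ord h := by
          rw [Algebra.smul_def, Q.ord_mul (by simpa using hd0) hh, FF.ord_algebraMap, zero_add]
        rw [Q.ord_mul (smul_ne_zero hd0 hh) (inv_ne_zero hqne), Place.ord_inv, h1, hord Q hQ]
        omega)
    refine regAt_congr (fun b hb => ?_) hreg
    simp only [rp]
    rw [(Fr.G b).red_mul (hmem b) (hqi b hb).1, (hqi b hb).2, mul_one]
  -- the component `b₀` has constant reduction
  have hordb : ∀ P : Place k E, 0 ≤ P.ord ((Fr.G b₀).red (d • h)) := by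
    intro P
    by_cases hs : Fr.IsSmooth (b₀, P)
    · rw [ord_red_smul hd hdr, hsm _ hs]
    · cases hb : b₀ with
      | false =>
        subst hb
        have hP : P ∈ Fr.nodes := by
          by_contra hP
          exact hs ⟨fun _ => hP, fun h => by simp at h⟩
        have := (hnode P hP).1 false (Or.inl rfl)
        rw [branch_node_false] at this
        exact Vanish.zero_iff.mp this
      | true =>
        subst hb
        obtain ⟨P', hP', rfl⟩ : ∃ P' ∈ Fr.nodes, Fr.partner P' = P := by
          by_contra hP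
          push Not at hP
          exact hs ⟨fun h => by simp at h, fun _ => hP⟩
        have := (hnode P' hP').1 true (Or.inr ⟨rfl, hP'⟩)
        rw [branch_node_true] at this
        exact Vanish.zero_iff.mp this
  obtain ⟨a, ha⟩ := Fr.curveBar.const _ hordb
  have ha0 : a ≠ 0 := fun h0 => hdr (by rw [← ha, h0, map_zero])
  -- the other component sees the same constant at a node
  have hother : ∀ b, (Fr.G b).red (d • h) = algebraMap k E a := by
    intro b
    rcases eq_or_ne b b₀ with rfl | hb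
    · exact ha.symm
    obtain ⟨P, hP⟩ := Fr.nodes_nonempty
    have hv := (hnode P hP).2 ⟨rfl, hP⟩
    have hne : (Fr.G b).red (d • h) ≠ 0 := by
      intro h0
      have hb' : b₀ = !b := by revert hb; cases b <;> cases b₀ <;> simp
      cases b <;> simp only [Bool.not_false, Bool.not_true] at hb' <;> subst hb' <;>
        simp only [rp, h0, ← ha, valAt_zero, valAt_algebraMap] at hv
      · exact ha0 hv.symm
      · exact ha0 hv
    obtain ⟨a', ha'⟩ := Fr.curveBar.const ((Fr.G b).red (d • h)) fun (P' : Place k E) => by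
      by_cases hs : Fr.IsSmooth (b, P')
      · rw [ord_red_smul (hmem b) hne, hsm _ hs]
      · cases hb' : b with
        | false =>
          subst hb'
          have hP' : P' ∈ Fr.nodes := by
            by_contra hP'
            exact hs ⟨fun _ => hP', fun h => by simp at h⟩
          have := (hnode P' hP').1 false (Or.inl rfl)
          rw [branch_node_false] at this
          exact Vanish.zero_iff.mp this
        | true =>
          subst hb'
          obtain ⟨P'', hP'', rfl⟩ : ∃ P'' ∈ Fr.nodes, Fr.partner P'' = P' := by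
            by_contra hP'
            push Not at hP'
            exact hs ⟨fun h => by simp at h, fun _ => hP'⟩
          have := (hnode P'' hP'').1 true (Or.inr ⟨rfl, hP''⟩)
          rw [branch_node_true] at this
          exact Vanish.zero_iff.mp this
    have hb' : b₀ = !b := by revert hb; cases b <;> cases b₀ <;> simp
    cases b <;> simp only [Bool.not_false, Bool.not_true] at hb' <;> subst hb' <;>
      simp only [rp, ← ha, ← ha', valAt_algebraMap] at hv
    · rw [← ha', hv]
    · rw [← ha', hv]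
  obtain ⟨u, hu⟩ := (Fr.G false).res_surj a⁻¹
  refine ⟨(u : Qb) * d, mul_ne_zero (fun h0 => ?_) hd0, fun b => ?_⟩
  · have : u = 0 := Subtype.ext h0
    rw [this, map_zero] at hu
    exact inv_ne_zero ha0 hu.symm
  · rw [← smul_smul]
    refine ⟨(Fr.G b).smul_mem u (hmem b), ?_⟩
    rw [(Fr.G b).red_smul u (hmem b), hother b, hu, Algebra.smul_def, ← map_mul,
      inv_mul_cancel₀ ha0, map_one]

/-! ### Parameters at smooth points -/

variable (Fr)

/-- An inertia-invariant parameter at the smooth point `x`. -/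
structure IsParam (x : Bool × Place k E) (t : F) : Prop where
  smooth : Fr.IsSmooth x
  mem : t ∈ (Fr.G x.1).V
  ord_red : x.2.ord ((Fr.G x.1).red t) = 1
  no_pole : ∀ Q : Place Qb F, Fr.red Q = x → Vanish Q t 0
  fixed : ∀ σ ∈ A.inertiaSubgroupIn ℚ, Fr.act σ • t = t

theorem exists_isParam {x : Bool × Place k E} (hx : Fr.IsSmooth x) : ∃ t, Fr.IsParam x t := by
  obtain ⟨t, h1, h2, h3, h4⟩ := Fr.param x.1 x.2 hx.1 hx.2
  exact ⟨t, hx, h1, h2, h3, h4⟩

variable {Fr}

namespace IsParam

variable {x : Bool × Place k E} {t : F} (ht : Fr.IsParam x t)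
include ht

theorem red_ne_zero : (Fr.G x.1).red t ≠ 0 := fun h => by
  have := ht.ord_red
  simp [h] at this

theorem valAt_red_eq_zero : valAt x.2 ((Fr.G x.1).red t) = 0 :=
  valAt_eq_zero_of_vanish (Or.inr ht.ord_red.ge)

theorem valAt_lt {Q : Place Qb F} (hQ : Fr.red Q = x) : A.valuation (valAt Q t) < 1 := by
  obtain ⟨hc, h⟩ := valAt_red ht.smooth ht.mem ht.no_pole hQ
  rw [ht.valAt_red_eq_zero] at h
  exact (res_eq_zero_iff_lt Fr _).mp h

theorem red_sub {c : Qb} (hc : A.valuation c < 1) :
    t - algebraMap Qb F c ∈ (Fr.G x.1).V ∧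
      (Fr.G x.1).red (t - algebraMap Qb F c) = (Fr.G x.1).red t := by
  have hcA : c ∈ A := (A.valuation_le_one_iff c).mp hc.le
  refine ⟨(Fr.G x.1).V.sub_mem ht.mem ((Fr.G x.1).const_mem ⟨c, hcA⟩), ?_⟩
  rw [(Fr.G x.1).red_sub ht.mem ((Fr.G x.1).const_mem ⟨c, hcA⟩),
    (Fr.G x.1).red_const ⟨c, hcA⟩,
    (res_eq_zero_iff_lt Fr ⟨c, hcA⟩).mpr hc, map_zero, sub_zero]

theorem sub_ne_zero {c : Qb} (hc : A.valuation c < 1) : t - algebraMap Qb F c ≠ 0 := fun h => by
  have := (ht.red_sub hc).2
  rw [h, (Fr.G x.1).red_zero] at this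
  exact ht.red_ne_zero this.symm

theorem exists_pt {c : Qb} (hc : A.valuation c < 1) :
    ∃ Q, Fr.red Q = x ∧ valAt Q t = c ∧ Q.ord (t - algebraMap Qb F c) = 1 ∧
      ∀ Q', Fr.red Q' = x → Q' ≠ Q → Q'.ord (t - algebraMap Qb F c) = 0 := by
  obtain ⟨hm, hr⟩ := ht.red_sub hc
  have hfib : Fr.fib (t - algebraMap Qb F c) x = 1 := by
    rw [fib_smooth (ht.sub_ne_zero hc) ht.smooth, ordAt_eq hm (hr.symm ▸ ht.red_ne_zero), hr,
      ht.ord_red]
  obtain ⟨Q, hQ, h1, h2⟩ := exists_unique_zero
    (fun Q hQ => Vanish.zero_iff.mp ((ht.no_pole Q hQ).sub (Vanish.const c))) hfib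
  exact ⟨Q, hQ, valAt_eq (Or.inr h1.ge), h1, h2⟩

theorem eq_of_valAt {Q Q' : Place Qb F} (hQ : Fr.red Q = x) (hQ' : Fr.red Q' = x)
    (h : valAt Q t = valAt Q' t) : Q = Q' := by
  obtain ⟨R, hR, -, -, hu⟩ := ht.exists_pt (ht.valAt_lt hQ)
  have key : ∀ S, Fr.red S = x → valAt S t = valAt Q t → S = R := fun S hS hv => by
    by_contra hne
    have h0 := hu S hS hne
    have h1 := (Fr.curve.exists_valAt (ht.no_pole S hS))
    rw [hv] at h1
    have := h1.resolve_left (ht.sub_ne_zero (ht.valAt_lt hQ))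
    omega
  rw [key Q hQ rfl, key Q' hQ' h.symm]

theorem ord_sub {c : Qb} (hc : A.valuation c < 1) {Q : Place Qb F} (hQ : Fr.red Q = x) :
    Q.ord (t - algebraMap Qb F c) = if valAt Q t = c then 1 else 0 := by
  obtain ⟨R, hR, hv, h1, h2⟩ := ht.exists_pt hc
  split_ifs with h
  · rw [ht.eq_of_valAt hQ hR (h.trans hv.symm)]; exact h1
  · exact h2 Q hQ fun he => h (he ▸ hv)

end IsParam

open Classical in
/-- The place over `x` where the parameter `t` takes the value `c`. -/
def pt (Fr : Frame A π p F E) (x : Bool × Place k E) (t : F) (c : Qb) (hdef : Place Qb F) :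
    Place Qb F :=
  if h : ∃ Q, Fr.red Q = x ∧ valAt Q t = c then h.choose else hdef

theorem valAt_act (σ : Γℚ) (Q : Place Qb F) {f : F} (hf : Vanish Q f 0) :
    valAt (Fr.act σ • Q) (Fr.act σ • f) = σ (valAt Q f) := by
  refine valAt_eq ?_
  rw [← Fr.act_const, ← smul_sub]
  rcases Fr.curve.exists_valAt hf with h | h
  · exact Or.inl (by rw [h, smul_zero])
  · exact Or.inr (by rw [SemilinearAut.ord_smul]; exact h)

theorem exists_smooth [IsAlgClosed k] (b : Bool) (S : Finset (Place k E)) :
    ∃ P, Fr.IsSmooth (b, P) ∧ P ∉ S := by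
  classical
  have hinf : Infinite (Place k E) := by
    refine ⟨fun hfin => ?_⟩
    obtain ⟨P₀, -⟩ := Fr.nodes_nonempty
    obtain ⟨C, hC⟩ := Fr.curveBar.exists_C
    obtain ⟨z, hz, hnc⟩ : ∃ z : E, z ≠ 0 ∧ ∀ a : k, z ≠ algebraMap k E a := by
      set D : Divisor k E := Finsupp.single P₀ (max C (Fr.g' + 1)) with hD
      have hdeg : Divisor.degree D = max C (Fr.g' + 1) := Fr.curveBar.degree_single _ _
      have hdim := hC D (hdeg ▸ le_max_left _ _)
      by_contra hall
      push Not at hall
      have hle : riemannRochSpace D ≤ Submodule.span k {(1 : E)} := fun z _ => by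
        rcases eq_or_ne z 0 with rfl | hz
        · exact zero_mem _
        · obtain ⟨a, rfl⟩ := hall z hz
          rw [Algebra.algebraMap_eq_smul_one]
          exact Submodule.smul_mem _ _ (Submodule.mem_span_singleton_self _)
      have h1 := (Submodule.finrank_mono hle).trans (finrank_span_le_card ({(1 : E)} : Set E))
      simp only [Set.toFinset_singleton, Finset.card_singleton] at h1
      rw [hdeg] at hdim
      have := le_max_right C ((Fr.g' : ℤ) + 1)
      simp only [ell] at hdim
      omega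
    have hzero : ∀ a : k, ∃ v : Place k E, 0 < v.ord (z - algebraMap k E a) := by
      intro a
      have hne : z - algebraMap k E a ≠ 0 := sub_ne_zero.mpr (hnc a)
      by_contra hno
      push Not at hno
      obtain ⟨D, hD, hdeg⟩ := Fr.curveBar.exists_divisor _ hne
      have hD0 : D ≤ 0 := fun v => by rw [hD]; exact hno v
      have h00 := Fr.curveBar.eq_of_le_of_degree_eq hD0 (by rw [hdeg, map_zero])
      obtain ⟨a', ha'⟩ := Fr.curveBar.const (z - algebraMap k E a) fun v => by
        rw [← hD, h00]; rfl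
      exact hnc (a' + a) (by rw [map_add, ha', sub_add_cancel])
    choose v hv using hzero
    have hinj : Function.Injective v := by
      intro a a' h
      by_contra hne
      have h1 : Vanish (v a) (z - algebraMap k E a) 1 := Or.inr (hv a)
      have h2 : Vanish (v a) (z - algebraMap k E a') 1 := Or.inr (h ▸ hv a')
      have h3 := h1.sub h2
      rw [sub_sub_sub_cancel_left, ← map_sub] at h3
      rcases h3 with h3 | h3
      · exact hne (sub_eq_zero.mp ((map_eq_zero _).mp h3)).symm
      · rw [FF.ord_algebraMap] at h3; omega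
    haveI := hfin
    exact not_finite_iff_infinite.mpr inferInstance (Finite.of_injective v hinj)
  obtain ⟨P, hP⟩ := Infinite.exists_notMem_finset
    (S ∪ Fr.nodes ∪ Fr.nodes.image Fr.partner)
  simp only [Finset.mem_union, Finset.mem_image, not_or, not_exists, not_and] at hP
  exact ⟨P, ⟨fun _ => hP.1.2, fun _ P' hP' => hP.2 P' hP'⟩, hP.1.1⟩

end Frame

end FLTAgent.MazurP
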