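import Fermat.Agent.MazurP.QEigenNorm
import Fermat.Agent.Kronecker.Specialization

/-!
# An eigen class killed by `p` gives an eigen logarithmic derivative

If `p D = div (y₁ / y₂)` and `T_ℓ [D] = a [D]`, then `T_ℓ D - a D` is principal, so the norm
products of `y₁`, `y₂` differ from their `a`-th powers by a constant and a `p`-th power
(`correspondence_eq_norm_sub`, `exists_const_of_ord_eq`). Taking reduced logarithmic derivatives
gives `isHeckeEigen_sub_of_heckeOperatorBar`.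
-/

set_option autoImplicit false
set_option linter.style.haveILetI false
set_option maxHeartbeats 1000000

noncomputable section

open AlgebraicCurve ModularCurve

namespace FLTAgent.MazurP

local notation "Qb" => AlgebraicClosure ℚ

variable {N : ℕ} [NeZero N]

/-- `T D - a D` is principal. -/
theorem exists_div_of_eigen {ℓ : ℕ} [NeZero ℓ] (hℓ : ℓ.Prime)
    (hα : HeckeAlphaBarIntegral Qb N ℓ) (hβ : HeckeBetaBarIntegral Qb N ℓ)
    [HasPrincipalDivisors Qb (laurentBaseChange Qb (modularFunctionFieldFull (N * ℓ)))]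
    (hFI : FundamentalIdentityAlong Qb (heckeBetaBar Qb N ℓ) hβ)
    (hfin : FiniteAlong Qb (heckeAlphaBar Qb N ℓ))
    (hN : NormFormulaAlong Qb (heckeAlphaBar Qb N ℓ) hfin)
    (D : Divisor.degZero (K := Qb) (F := modularFunctionFieldBar N)) (a : ℤ)
    (heig : heckeOperatorBar N ⟨ℓ, hℓ⟩ (Pic0.mk D) = a • Pic0.mk D) :
    ∃ h : modularFunctionFieldBar N, h ≠ 0 ∧ ∀ v,
      a * (D : Divisor Qb (modularFunctionFieldBar N)) v -
        Divisor.correspondence (heckeBetaBar Qb N ℓ) (heckeAlphaBar Qb N ℓ) hβ hα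
          (D : Divisor Qb (modularFunctionFieldBar N)) v = v.ord h := by
  have heig' : Pic0.correspondence (heckeBetaBar Qb N ℓ) (heckeAlphaBar Qb N ℓ) hβ hα hFI hfin hN
      (Pic0.mk D) = a • Pic0.mk D := by
    rw [← heig]
    show _ = heckeOperatorAlong Qb N ℓ (Pic0.mk D)
    rw [heckeOperatorAlong_eq hα hβ hFI hfin hN]
    rfl
  have heig'' : Pic0.mk (Pic0.degZeroCorrespondence (heckeBetaBar Qb N ℓ) (heckeAlphaBar Qb N ℓ)
      hβ hα hFI D) = Pic0.mk (a • D) :=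
    heig'.trans (map_zsmul (QuotientAddGroup.mk' _) a D).symm
  have hprin := QuotientAddGroup.eq.mp heig''
  rw [AddSubgroup.mem_addSubgroupOf] at hprin
  obtain ⟨h, h0, hh⟩ := hprin
  refine ⟨h, h0, fun v => ?_⟩
  refine Eq.trans ?_ (hh v)
  show _ = -(Divisor.correspondence (heckeBetaBar Qb N ℓ) (heckeAlphaBar Qb N ℓ) hβ hα
    (D : Divisor Qb (modularFunctionFieldBar N)) v) + a * _
  abel

/-- `p • T D` in terms of the norms of `y₁`, `y₂`. -/
theorem correspondence_eq_norm_sub {ℓ : ℕ} [NeZero ℓ]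
    (hα : HeckeAlphaBarIntegral Qb N ℓ) (hβ : HeckeBetaBarIntegral Qb N ℓ)
    [HasPrincipalDivisors Qb (laurentBaseChange Qb (modularFunctionFieldFull (N * ℓ)))]
    (hfin : FiniteAlong Qb (heckeAlphaBar Qb N ℓ))
    (hN : NormFormulaAlong Qb (heckeAlphaBar Qb N ℓ) hfin)
    {y₁ y₂ : modularFunctionFieldBar N} (h₁ : y₁ ≠ 0) (h₂ : y₂ ≠ 0) (p : ℤ)
    (D : Divisor Qb (modularFunctionFieldBar N))
    (hdiv : ∀ v, p * D v = v.ord y₁ - v.ord y₂) (v : Place Qb (modularFunctionFieldBar N)) :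
    p * Divisor.correspondence (heckeBetaBar Qb N ℓ) (heckeAlphaBar Qb N ℓ) hβ hα D v =
      v.ord (Kronecker.normAlpha Qb N ℓ (heckeBetaBar Qb N ℓ y₁)) -
        v.ord (Kronecker.normAlpha Qb N ℓ (heckeBetaBar Qb N ℓ y₂)) := by
  haveI := Kronecker.hasPrincipalDivisors_bar N
  obtain ⟨E₁, hE₁, -⟩ := HasPrincipalDivisors.exists_divisor (K := Qb) y₁ h₁
  have hE₂ : ∀ w, (E₁ - p • D : Divisor Qb (modularFunctionFieldBar N)) w = w.ord y₂ := fun w => by
    rw [Finsupp.sub_apply, Finsupp.smul_apply, smul_eq_mul, hE₁, hdiv w]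
    ring
  have e1 := Kronecker.correspondence_apply_eq_ord_norm (heckeBetaBar Qb N ℓ)
    (heckeAlphaBar Qb N ℓ) hβ hα hfin hN h₁ hE₁ v
  have e2 := Kronecker.correspondence_apply_eq_ord_norm (heckeBetaBar Qb N ℓ)
    (heckeAlphaBar Qb N ℓ) hβ hα hfin hN h₂ hE₂ v
  rw [map_sub, map_zsmul, Finsupp.sub_apply, Finsupp.smul_apply, smul_eq_mul, e1] at e2
  show _ = v.ord (letI := algebraAlong (heckeAlphaBar Qb N ℓ); Algebra.norm _
    (heckeBetaBar Qb N ℓ y₁)) - v.ord (letI := algebraAlong (heckeAlphaBar Qb N ℓ);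
      Algebra.norm _ (heckeBetaBar Qb N ℓ y₂))
  linear_combination -e2

/-- The ratio of two functions with equal divisors is constant. -/
theorem exists_const_of_ord_eq {U V : modularFunctionFieldBar N} (hU : U ≠ 0) (hV : V ≠ 0)
    (h : ∀ v : Place Qb (modularFunctionFieldBar N), v.ord U = v.ord V) :
    ∃ e : Qb, (U : LaurentSeries Qb) = HahnSeries.C e * (V : LaurentSeries Qb) := by
  haveI := Kronecker.isFF_bar N
  obtain ⟨e, he⟩ := FF.mem_range_of_forall_ord_nonneg (K := Qb) (f := U / V) fun v => by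
    rw [div_eq_mul_inv, v.ord_mul hU (inv_ne_zero hV), v.ord_inv, h v]
    omega
  refine ⟨e, ?_⟩
  rw [eq_div_iff hV] at he
  rw [← he, HahnSeries.C_apply, ← algebraMap_laurentSeries_eq_single]
  rfl

/-- An eigen class `D` with `p D = div (y₁ / y₂)` gives an eigen reduced logarithmic derivative. -/
theorem isHeckeEigen_sub_of_heckeOperatorBar {p : ℕ} [Fact p.Prime]
    (A : ValuationSubring Qb) {k : Type*} [Field k] [CharP k p]
    (π : A →+* k) (y₁ y₂ : LaurentSeries A)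
    (hy₁ : coeffMap A.subtype y₁ ∈ modularFunctionFieldBar N)
    (hy₂ : coeffMap A.subtype y₂ ∈ modularFunctionFieldBar N)
    (hne₁ : coeffMap π y₁ ≠ 0) (hne₂ : coeffMap π y₂ ≠ 0)
    (D : Divisor.degZero (K := Qb) (F := modularFunctionFieldBar N))
    (hdiv : ∀ v : Place Qb (modularFunctionFieldBar N),
      (p : ℤ) * (D : Divisor Qb (modularFunctionFieldBar N)) v =
        v.ord (⟨coeffMap A.subtype y₁, hy₁⟩ : modularFunctionFieldBar N) -
          v.ord (⟨coeffMap A.subtype y₂, hy₂⟩ : modularFunctionFieldBar N))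
    {ℓ : ℕ} (hℓ : ℓ.Prime) (hℓN : ¬ ℓ ∣ N) (hℓp : ℓ ≠ p) (a : ℤ)
    (heig : heckeOperatorBar N ⟨ℓ, hℓ⟩ (Pic0.mk D) = a • Pic0.mk D) :
    IsHeckeEigen (qDlog (coeffMap π y₁) - qDlog (coeffMap π y₂)) ℓ a := by
  haveI : NeZero ℓ := ⟨hℓ.ne_zero⟩
  haveI := Fact.mk hℓ
  obtain ⟨hα, hβ, hP', hfin, hFI, hN⟩ := Kronecker.heckeInputs_bar N ℓ
  haveI := hP'
  have hpi0 : ∀ {y : LaurentSeries A}, coeffMap π y ≠ 0 → coeffMap A.subtype y ≠ 0 :=
    fun {y} hy e => hy (by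
      rw [show y = 0 from HahnSeries.ext (funext fun n => Subtype.ext
        (congrArg (fun x : LaurentSeries Qb => x.coeff n) e)), map_zero])
  obtain ⟨h, h0, hh⟩ := exists_div_of_eigen hℓ hα hβ hFI hfin hN D a heig
  obtain ⟨c, h₁, h₂, m₁, m₂, hc, hh₁, hh₂, heq⟩ := exists_normalised A π h h0
  set y₁' : modularFunctionFieldBar N := ⟨coeffMap A.subtype y₁, hy₁⟩
  set y₂' : modularFunctionFieldBar N := ⟨coeffMap A.subtype y₂, hy₂⟩
  set h₁' : modularFunctionFieldBar N := ⟨coeffMap A.subtype h₁, m₁⟩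
  set h₂' : modularFunctionFieldBar N := ⟨coeffMap A.subtype h₂, m₂⟩
  have hy1' : y₁' ≠ 0 := fun e => hpi0 hne₁ (congrArg Subtype.val e)
  have hy2' : y₂' ≠ 0 := fun e => hpi0 hne₂ (congrArg Subtype.val e)
  have hh1' : h₁' ≠ 0 := fun e => hpi0 hh₁ (congrArg Subtype.val e)
  have hh2' : h₂' ≠ 0 := fun e => hpi0 hh₂ (congrArg Subtype.val e)
  obtain ⟨ζ, hζ⟩ := Kronecker.exists_primitiveRoot hℓ A
  have hswap := Kronecker.hasSwap Qb Kronecker.embComplex (N := N) hℓ hℓN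
  have hfr := Kronecker.finrankAlong_alpha N hℓ hℓN
  obtain ⟨u₁, z₁, hu₁, hz₁, hw₁⟩ := exists_integral_norm hfin hfr hswap ζ hζ y₁ hy₁
  obtain ⟨u₂, z₂, hu₂, hz₂, hw₂⟩ := exists_integral_norm hfin hfr hswap ζ hζ y₂ hy₂
  have hℓk : (ℓ : k) ≠ 0 := fun e =>
    hℓp ((Nat.prime_dvd_prime_iff_eq Fact.out hℓ).mp ((CharP.cast_eq_zero_iff k p ℓ).mp e)).symm
  obtain ⟨hz₁0, hd₁⟩ := reduced_norm π hℓk hu₁ hw₁ hne₁
  obtain ⟨hz₂0, hd₂⟩ := reduced_norm π hℓk hu₂ hw₂ hne₂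
  set N₁ := Kronecker.normAlpha Qb N ℓ (heckeBetaBar Qb N ℓ y₁') with hN₁
  set N₂ := Kronecker.normAlpha Qb N ℓ (heckeBetaBar Qb N ℓ y₂') with hN₂
  have hN1 : N₁ ≠ 0 := fun e => hpi0 hz₁0 (hz₁.trans (congrArg Subtype.val e))
  have hN2 : N₂ ≠ 0 := fun e => hpi0 hz₂0 (hz₂.trans (congrArg Subtype.val e))
  obtain ⟨m, m', rfl⟩ : ∃ m m' : ℕ, a = (m : ℤ) - m' :=
    ⟨a.toNat, (-a).toNat, by omega⟩
  haveI := Kronecker.isFF_bar N
  obtain ⟨e, he⟩ := exists_const_of_ord_eq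
    (U := N₁ * y₂' ^ m * y₁' ^ m' * h₁' ^ p) (V := N₂ * y₁' ^ m * y₂' ^ m' * h₂' ^ p)
    (mul_ne_zero (mul_ne_zero (mul_ne_zero hN1 (pow_ne_zero _ hy2'))
      (pow_ne_zero _ hy1')) (pow_ne_zero _ hh1'))
    (mul_ne_zero (mul_ne_zero (mul_ne_zero hN2 (pow_ne_zero _ hy1'))
      (pow_ne_zero _ hy2')) (pow_ne_zero _ hh2')) fun v => by
      have e1 := hh v
      rw [heq, v.ord_mul ((_root_.map_ne_zero _).mpr hc) (div_ne_zero hh1' hh2'),
        FF.ord_algebraMap, div_eq_mul_inv, v.ord_mul hh1' (inv_ne_zero hh2'), v.ord_inv] at e1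
      have e2 : (p : ℤ) * _ = v.ord N₁ - v.ord N₂ :=
        correspondence_eq_norm_sub hα hβ hfin hN hy1' hy2' p _ hdiv v
      have e3 := hdiv v
      simp only [v.ord_mul, FF.ord_pow, ne_eq, mul_ne_zero_iff, pow_ne_zero, hN1, hN2, hy1', hy2',
        hh1', hh2', not_false_eq_true, and_self]
      linear_combination ((m : ℤ) - m') * e3 - (p : ℤ) * e1 - e2
  have key := qDlog_eq_of_proportional (e := e) π
    (X := z₁ * y₂ ^ m * y₁ ^ m' * h₁ ^ p) (Y := z₂ * y₁ ^ m * y₂ ^ m' * h₂ ^ p)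
    (by simp only [map_mul, map_pow]
        exact mul_ne_zero (mul_ne_zero (mul_ne_zero hz₁0 (pow_ne_zero _ hne₂))
          (pow_ne_zero _ hne₁)) (pow_ne_zero _ hh₁))
    (by simp only [map_mul, map_pow]
        exact mul_ne_zero (mul_ne_zero (mul_ne_zero hz₂0 (pow_ne_zero _ hne₁))
          (pow_ne_zero _ hne₂)) (pow_ne_zero _ hh₂))
    (by simp only [map_mul, map_pow, hz₁, hz₂]
        exact he)
  simp only [map_mul, map_pow] at key
  rw [qDlog_mul, qDlog_mul, qDlog_mul, qDlog_mul, qDlog_mul, qDlog_mul,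
    qDlog_pow_char p _ (Fact.out : p.Prime).ne_zero, qDlog_pow_char p _ (Fact.out : p.Prime).ne_zero,
    qDlog_pow hne₁, qDlog_pow hne₁, qDlog_pow hne₂, qDlog_pow hne₂] at key
  · intro n
    show heckeCoeff ℓ _ n = _
    rw [heckeCoeff_sub, ← hd₁, ← hd₂]
    have := congrArg (fun x : LaurentSeries k => x.coeff n) key
    simp only [HahnSeries.coeff_add, HahnSeries.coeff_smul, add_zero] at this
    simp only [nsmul_eq_mul] at this
    push_cast
    rw [HahnSeries.coeff_sub]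
    linear_combination this
  all_goals first
    | assumption
    | exact pow_ne_zero _ ‹_›
    | simp [hz₁0, hz₂0, hne₁, hne₂]

end FLTAgent.MazurP
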