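import Fermat.Agent.MazurP.Defs
import Fermat.Agent.MazurP.QEigenHecke
import Fermat.Agent.MazurP.QEigenModular
import Fermat.Agent.MazurP.QEigenSS
import Fermat.Prelude.Def_FLTPrelim_ModularRep

/-!
# Logarithmic derivatives modulo `p` of eigen divisor classes

The three statements used by Mazur's principle: an eigen class killed by `p` has an eigen
logarithmic derivative (`isHeckeEigen_qDlog`); a nonzero eigen logarithmic derivative with all
orders divisible by `p` gives a mod `p` system of that level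
(`isResiduallyModularOfLevel_of_qDlog`); in the non Eisenstein case the residues at supersingular
points cannot be a nonzero constant (`dvd_of_qDlog_eigen`). The proofs are in the `QEigen*`
files imported here.
-/

set_option autoImplicit false

noncomputable section

open AlgebraicCurve ModularCurve WeierstrassCurve

namespace FLTAgent.MazurP

local notation "Qb" => AlgebraicClosure ℚ

/-- A class killed by `p` which is an eigenvector of `T_ℓ` gives an eigen logarithmic derivative
modulo `p`: `T_ℓ` sends `f` to the function with `f_T(q^ℓ) = f(q^(ℓ²)) ∏_b f(ζ^b q)`, and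
`f_T = f^a` up to `p`-th powers and constants. The level may be divisible by `p`. -/
theorem isHeckeEigen_qDlog {N : ℕ} [NeZero N] {p : ℕ} [Fact p.Prime]
    (A : ValuationSubring Qb) (hA : A.LiesOverPrime p) {k : Type*} [Field k] [CharP k p]
    (π : A →+* k) (y₁ y₂ : LaurentSeries A)
    (hy₁ : coeffMap A.subtype y₁ ∈ modularFunctionFieldBar N)
    (hy₂ : coeffMap A.subtype y₂ ∈ modularFunctionFieldBar N)
    (hne₁ : coeffMap π y₁ ≠ 0) (hne₂ : coeffMap π y₂ ≠ 0)
    (D : Divisor.degZero (K := Qb) (F := modularFunctionFieldBar N))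
    (hdiv : ∀ v : Place Qb (modularFunctionFieldBar N),
      (p : ℤ) * (D : Divisor Qb (modularFunctionFieldBar N)) v =
        v.ord (⟨coeffMap A.subtype y₁, hy₁⟩ : modularFunctionFieldBar N) -
          v.ord (⟨coeffMap A.subtype y₂, hy₂⟩ : modularFunctionFieldBar N))
    {ℓ : ℕ} (hℓ : ℓ.Prime) (hℓN : ¬ ℓ ∣ N) (hℓp : ℓ ≠ p) (a : ℤ)
    (heig : heckeOperatorBar N ⟨ℓ, hℓ⟩ (Pic0.mk D) = a • Pic0.mk D) :
    IsHeckeEigen (qDlog (coeffMap π y₁) - qDlog (coeffMap π y₂)) ℓ a :=
  isHeckeEigen_sub_of_heckeOperatorBar A π y₁ y₂ hy₁ hy₂ hne₁ hne₂ D hdiv hℓ hℓN hℓp a heig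

/-- A nonzero eigen logarithmic derivative without poles gives an eigenform of level `M`.

Proof: it is a regular differential of the reduced curve, these are the reductions of the
integral cusp forms (equal dimensions), so the Hecke ring gets a system modulo `p`. -/
theorem isResiduallyModularOfLevel_of_qDlog (W : WeierstrassCurve ℤ) {p : ℕ} [Fact p.Prime]
    (hp5 : 5 ≤ p) {M : ℕ} [NeZero M] (hpM : ¬ p ∣ M) (A : ValuationSubring Qb)
    (hA : A.LiesOverPrime p) (f : modularFunctionFieldFullC (IsLocalRing.ResidueField A) M)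
    (hord : ∀ v : Place (IsLocalRing.ResidueField A)
      (modularFunctionFieldFullC (IsLocalRing.ResidueField A) M), (p : ℤ) ∣ v.ord f)
    (hθ : qTheta (f : LaurentSeries (IsLocalRing.ResidueField A)) ≠ 0)
    (heig : ∀ ℓ : ℕ, ℓ.Prime → W.IsGoodPrimeFor ℓ → ¬ ℓ ∣ M → ℓ ≠ p →
      IsHeckeEigen (qDlog (f : LaurentSeries (IsLocalRing.ResidueField A))) ℓ (W.apOfModel ℓ)) :
    W.IsResiduallyModularOfLevel p M :=
  isResiduallyModularOfLevel_of_qDlog_aux A W hA hp5 hpM f hord hθ heig

/-- The residues at supersingular points of a non-Eisenstein eigen logarithmic derivative cannot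
be a nonzero constant: `u = f^12 x^(-a)` (`x = Δ^(1-p)`) has orders divisible by `p` away from
the cusps, so does its norm under `T_ℓ`, and `dlog x = E₂` has eigenvalue `1 + ℓ`, so comparing
the two gives `p ∣ a (1 + ℓ - a_ℓ) ord x`. -/
theorem dvd_of_qDlog_eigen {p : ℕ} [Fact p.Prime] (hp5 : 5 ≤ p) {M : ℕ} [NeZero M]
    (hpM : ¬ p ∣ M) (A : ValuationSubring Qb) (hA : A.LiesOverPrime p)
    (f x : modularFunctionFieldFullC (IsLocalRing.ResidueField A) M) (hf : f ≠ 0)
    (hx : (x : LaurentSeries (IsLocalRing.ResidueField A)) =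
      ssUnit (IsLocalRing.ResidueField A) p) (a : ℤ)
    (hres : ∀ v : Place (IsLocalRing.ResidueField A)
        (modularFunctionFieldFullC (IsLocalRing.ResidueField A) M),
      0 ≤ v.ord ⟨_, jqModC_mem_full (IsLocalRing.ResidueField A) M⟩ →
        (p : ℤ) ∣ 12 * v.ord f - a * v.ord x)
    (hnode : ∃ v : Place (IsLocalRing.ResidueField A)
        (modularFunctionFieldFullC (IsLocalRing.ResidueField A) M),
      0 ≤ v.ord ⟨_, jqModC_mem_full (IsLocalRing.ResidueField A) M⟩ ∧ ¬ (p : ℤ) ∣ v.ord x)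
    {ℓ : ℕ} (hℓ : ℓ.Prime) (hℓM : ¬ ℓ ∣ M) (hℓp : ℓ ≠ p) (aℓ : ℤ)
    (heig : IsHeckeEigen (qDlog (f : LaurentSeries (IsLocalRing.ResidueField A))) ℓ aℓ)
    (hne : ¬ (p : ℤ) ∣ aℓ - 1 - ℓ) : (p : ℤ) ∣ a := by
  obtain ⟨v, hv, hvx⟩ := hnode
  exact dvd_of_qDlog_eigen_aux hpM A hA f x hf hx a hres v hv hvx hℓ hℓM hℓp aℓ heig hne

end FLTAgent.MazurP
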