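import Fermat.Agent.MazurP.QEigenSeries
import Fermat.Agent.Modular.JFun
import Fermat.Agent.Eisen.Sigma

/-!
# The logarithmic derivative of `Δ` is `E₂`

`psTheta` is `q d/dq` on power series; differentiating the eta product gives
`qDlog_deltaR : q d/dq log Δ = E₂` (`eTwo`). `heckeCoeff_eTwo`: `E₂` is an eigen series of
eigenvalue `1 + ℓ` for `T_ℓ`; `qDlog_ssUnit`: in characteristic `p` the logarithmic derivative
of `Δ^(1-p)` is `E₂`.
-/

set_option autoImplicit false

noncomputable section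

open ModularCurve Finset

namespace FLTAgent.MazurP

section Eta

variable {R : Type*} [CommRing R]

/-- `q d/dq` on power series. -/
def psTheta (f : PowerSeries R) : PowerSeries R :=
  PowerSeries.mk fun n => (n : R) * PowerSeries.coeff n f

theorem psTheta_mul (f g : PowerSeries R) : psTheta (f * g) = f * psTheta g + g * psTheta f := by
  ext n
  rw [psTheta, PowerSeries.coeff_mk, PowerSeries.coeff_mul, map_add, mul_comm g,
    PowerSeries.coeff_mul, PowerSeries.coeff_mul, mul_sum, ← sum_add_distrib]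
  refine sum_congr rfl fun ij hij => ?_
  rw [← HasAntidiagonal.mem_antidiagonal.mp hij]
  simp only [psTheta, PowerSeries.coeff_mk, Nat.cast_add]
  ring

theorem psTheta_one : psTheta (1 : PowerSeries R) = 0 := by
  ext n
  rw [psTheta, PowerSeries.coeff_mk, map_zero, PowerSeries.coeff_one]
  split_ifs with h <;> simp [h]

/-- The logarithmic derivative of `1 - q^m`. -/
def dlogFactor (m : ℕ) : PowerSeries R :=
  PowerSeries.mk fun i => if m ∣ i ∧ i ≠ 0 then -(m : R) else 0

theorem psTheta_one_sub_X_pow {m : ℕ} (hm : m ≠ 0) :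
    psTheta (1 - PowerSeries.X ^ m : PowerSeries R) = (1 - PowerSeries.X ^ m) * dlogFactor m := by
  ext i
  simp only [psTheta, dlogFactor, sub_mul, one_mul, PowerSeries.coeff_mk, map_sub,
    PowerSeries.coeff_X_pow_mul', PowerSeries.coeff_one, PowerSeries.coeff_X_pow]
  rcases eq_or_ne i 0 with rfl | hi
  · simp [hm, Ne.symm hm]
  rcases eq_or_ne i m with rfl | hne
  · simp [hi]
  rcases lt_or_ge i m with hlt | hle
  · have : ¬ m ∣ i := fun h => absurd (Nat.le_of_dvd (Nat.pos_of_ne_zero hi) h) (not_le.mpr hlt)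
    simp [hi, hne, this, not_le.mpr hlt]
  · have hsub : i - m ≠ 0 := by omega
    have hd : m ∣ i - m ↔ m ∣ i := Nat.dvd_sub_iff_left hle dvd_rfl
    by_cases h : m ∣ i <;> simp [hi, hne, hle, hsub, hd, h]

theorem psTheta_prod (s : Finset ℕ) :
    psTheta (∏ n ∈ s, (1 - PowerSeries.X ^ (n + 1)) : PowerSeries R) =
      (∏ n ∈ s, (1 - PowerSeries.X ^ (n + 1))) * ∑ n ∈ s, dlogFactor (n + 1) := by
  induction s using Finset.induction with
  | empty => simp [psTheta_one]
  | insert a s ha ih =>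
    rw [prod_insert ha, sum_insert ha, psTheta_mul, psTheta_one_sub_X_pow a.add_one_ne_zero,
      ih]
    ring

/-- The series `-∑ σ₁(n) qⁿ`. -/
def negSigma : PowerSeries ℤ := PowerSeries.mk fun i => -∑ d ∈ i.divisors, (d : ℤ)

theorem coeff_sum_dlogFactor {i : ℕ} {s : Finset ℕ} (h : range i ⊆ s) :
    PowerSeries.coeff i (∑ n ∈ s, dlogFactor (n + 1) : PowerSeries ℤ) =
      PowerSeries.coeff i negSigma := by
  simp only [map_sum, dlogFactor, negSigma, PowerSeries.coeff_mk]
  rw [← sum_filter, ← sum_neg_distrib]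
  refine (sum_bij' (fun d _ => d - 1) (fun n _ => n + 1) ?_ ?_ ?_ ?_ ?_).symm
  · intro d hd
    obtain ⟨hdi, hi⟩ := Nat.mem_divisors.mp hd
    have hd1 := Nat.le_of_dvd (Nat.pos_of_ne_zero hi) hdi
    have hd0 : 0 < d := Nat.pos_of_mem_divisors hd
    refine mem_filter.mpr ⟨h (mem_range.mpr (by omega)), ?_, hi⟩
    rwa [Nat.sub_add_cancel hd0]
  · intro n hn
    exact Nat.mem_divisors.mpr (mem_filter.mp hn).2
  · intro d hd
    exact Nat.sub_add_cancel (Nat.pos_of_mem_divisors hd)
  · intro n _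
    exact Nat.add_sub_cancel n 1
  · intro d hd
    rw [Nat.sub_add_cancel (Nat.pos_of_mem_divisors hd)]

theorem psTheta_etaProd : psTheta etaProd = etaProd * negSigma := by
  ext i
  have hev : ∀ᶠ s : Finset ℕ in Filter.atTop, (∀ j ∈ range (i + 1),
      PowerSeries.coeff j (∏ n ∈ s, (1 - PowerSeries.X ^ (n + 1)) : PowerSeries ℤ) =
        PowerSeries.coeff j etaProd) ∧ range i ⊆ s := by
    refine Filter.Eventually.and ?_ (Filter.eventually_ge_atTop _)
    rw [Filter.eventually_all_finset]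
    intro j _
    refine (Modular.eventually_coeff_etaPoly j).mono fun s hs => ?_
    rw [← hs, ← Polynomial.coeff_coe]
    congr 1
    rw [Modular.etaPoly, ← Polynomial.coeToPowerSeries.ringHom_apply, map_prod]
    simp
  obtain ⟨s, hs, hsub⟩ := hev.exists
  have key := congrArg (PowerSeries.coeff i) (psTheta_prod (R := ℤ) s)
  rw [psTheta, PowerSeries.coeff_mk, hs i (by simp), PowerSeries.coeff_mul] at key
  rw [psTheta, PowerSeries.coeff_mk, key, PowerSeries.coeff_mul]
  refine sum_congr rfl fun jk hjk => ?_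
  have h12 := HasAntidiagonal.mem_antidiagonal.mp hjk
  rw [hs jk.1 (mem_range.mpr (by omega)), coeff_sum_dlogFactor
    (Subset.trans (range_mono (by omega)) hsub)]

theorem qTheta_ofPowerSeries (f : PowerSeries R) :
    qTheta (HahnSeries.ofPowerSeries ℤ R f) = HahnSeries.ofPowerSeries ℤ R (psTheta f) := by
  ext n
  rw [qTheta_coeff]
  rcases le_or_gt 0 n with h | h
  · obtain ⟨m, rfl⟩ := Int.eq_ofNat_of_zero_le h
    simp [psTheta, HahnSeries.ofPowerSeries_apply_coeff]
  · rw [HahnSeries.ofPowerSeries_apply, HahnSeries.ofPowerSeries_apply,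
      HahnSeries.embDomain_of_notMem_range, HahnSeries.embDomain_of_notMem_range, mul_zero] <;>
    · rintro ⟨m, rfl⟩
      exact absurd h (Int.natCast_nonneg m).not_gt

theorem psTheta_map {S : Type*} [CommRing S] (φ : R →+* S) (f : PowerSeries R) :
    psTheta (f.map φ) = (psTheta f).map φ := by
  ext n
  simp [psTheta]

theorem psTheta_pow (f : PowerSeries R) (n : ℕ) :
    f * psTheta (f ^ n) = (n : PowerSeries R) * f ^ n * psTheta f := by
  induction n with
  | zero => simp [psTheta_one]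
  | succ n ih =>
    rw [pow_succ, psTheta_mul]
    push_cast
    linear_combination f * ih

theorem psTheta_dedekindEtaUnit :
    psTheta dedekindEtaUnit = dedekindEtaUnit * (24 * negSigma) := by
  have h := psTheta_pow etaProd 24
  rw [psTheta_etaProd] at h
  have hne : etaProd ≠ 0 := fun e => by simpa [e] using constantCoeff_etaProd
  refine mul_left_cancel₀ hne ?_
  rw [dedekindEtaUnit]
  linear_combination h

end Eta

section Delta

variable {k : Type*} [Field k]

theorem deltaR_ne_zero (k : Type*) [Field k] : deltaR k ≠ 0 := by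
  refine mul_ne_zero (HahnSeries.single_ne_zero one_ne_zero) fun h => ?_
  have := congrArg (fun x : LaurentSeries k => x.coeff ((0 : ℕ) : ℤ)) h
  simp only [HahnSeries.ofPowerSeries_apply_coeff, PowerSeries.coeff_map,
    PowerSeries.coeff_zero_eq_constantCoeff, constantCoeff_dedekindEtaUnit] at this
  simp at this

/-- The coefficients of `E₂`. -/
def eTwo (k : Type*) [Field k] : LaurentSeries k :=
  HahnSeries.ofPowerSeries ℤ k ((1 + 24 * negSigma).map (Int.castRingHom k))

theorem qDlog_deltaR : qDlog (deltaR k) = eTwo k := by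
  have hne : HahnSeries.ofPowerSeries ℤ k (dedekindEtaUnit.map (Int.castRingHom k)) ≠ 0 :=
    right_ne_zero_of_mul (deltaR_ne_zero k)
  rw [deltaR, qDlog_mul (HahnSeries.single_ne_zero one_ne_zero) hne, eTwo, map_add, map_add]
  congr 1
  · rw [qDlog, qTheta_single, Int.cast_one, one_mul,
      div_self (HahnSeries.single_ne_zero one_ne_zero), map_one, map_one]
  · rw [qDlog, qTheta_ofPowerSeries, psTheta_map, psTheta_dedekindEtaUnit, map_mul, map_mul,
      mul_div_cancel_left₀ _ hne]

theorem sum_divisors_nat_mul {ℓ m : ℕ} (hℓ : ℓ.Prime) (hm : m ≠ 0) :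
    ∑ d ∈ (ℓ * m).divisors, (d : ℤ) +
        (if ℓ ∣ m then (ℓ : ℤ) * ∑ d ∈ (m / ℓ).divisors, (d : ℤ) else 0) =
      (1 + ℓ) * ∑ d ∈ m.divisors, (d : ℤ) := by
  have h := Eisen.sum_divisors_prime_mul hℓ hm (fun d => (d : ℤ))
  simp only [Nat.cast_mul, ← mul_sum] at h
  rw [h]
  ring

theorem heckeCoeff_eTwo {ℓ : ℕ} (hℓ : ℓ.Prime) (n : ℤ) :
    heckeCoeff ℓ (eTwo k) n = (1 + (ℓ : k)) * (eTwo k).coeff n := by
  have hℓ0 : (ℓ : ℤ) ≠ 0 := by exact_mod_cast hℓ.ne_zero
  rcases le_or_gt 0 n with h | h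
  · obtain ⟨m, rfl⟩ := Int.eq_ofNat_of_zero_le h
    have e : ∀ i : ℕ, (eTwo k).coeff (i : ℤ) =
        ((if i = 0 then (1 : ℤ) else -24 * ∑ d ∈ i.divisors, (d : ℤ) : ℤ) : k) := fun i => by
      rw [eTwo, HahnSeries.ofPowerSeries_apply_coeff, PowerSeries.coeff_map, map_add,
        PowerSeries.coeff_one, show (24 : PowerSeries ℤ) = PowerSeries.C 24 from rfl,
        PowerSeries.coeff_C_mul, negSigma, PowerSeries.coeff_mk]
      rcases eq_or_ne i 0 with rfl | hi <;> simp [*]
    rw [heckeCoeff, ← Int.natCast_mul, e, ← Int.natCast_div, e, e]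
    simp only [Int.natCast_dvd_natCast]
    rcases eq_or_ne m 0 with rfl | hm
    · simp
    · have h2 := congrArg (fun z : ℤ => ((-24 * z : ℤ) : k)) (sum_divisors_nat_mul hℓ hm)
      have hdiv : ℓ ∣ m → m / ℓ ≠ 0 := fun hd =>
        (Nat.div_pos (Nat.le_of_dvd (Nat.pos_of_ne_zero hm) hd) hℓ.pos).ne'
      rw [if_neg (mul_ne_zero hℓ.ne_zero hm), if_neg hm]
      split_ifs at h2 ⊢ with hd h0
      · exact absurd h0 (hdiv hd)
      · push_cast at h2 ⊢; linear_combination h2
      · push_cast at h2 ⊢; linear_combination h2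
  · have e : ∀ i : ℤ, i < 0 → (eTwo k).coeff i = 0 := fun i hi => by
      rw [eTwo, HahnSeries.ofPowerSeries_apply, HahnSeries.embDomain_of_notMem_range]
      rintro ⟨m, rfl⟩
      exact absurd hi (Int.natCast_nonneg m).not_gt
    have hℓn : (ℓ : ℤ) * n < 0 := mul_neg_of_pos_of_neg (by exact_mod_cast hℓ.pos) h
    rw [heckeCoeff, e n h, e _ hℓn, mul_zero]
    split_ifs with hd
    · rw [e _ (Int.ediv_neg_of_neg_of_pos h (by exact_mod_cast hℓ.pos))]
      simp
    · simp

/-- `dlog Δ^(1-p)` is `E₂` modulo `p`. -/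
theorem qDlog_ssUnit {p : ℕ} [Fact p.Prime] [CharP k p] : qDlog (ssUnit k p) = eTwo k := by
  rw [ssUnit, qDlog_inv, qDlog_pow (deltaR_ne_zero k), qDlog_deltaR]
  ext n
  have hp := (Fact.out : p.Prime).one_le
  rw [HahnSeries.coeff_neg, HahnSeries.coeff_smul, nsmul_eq_mul, Nat.cast_sub hp,
    CharP.cast_eq_zero]
  ring

end Delta

end FLTAgent.MazurP
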