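import Fermat.Agent.MazurP.QEigenSeries
import Fermat.Agent.Kronecker.Congruence
import Fermat.Agent.Kronecker.Swap
import Fermat.Agent.Kronecker.Inputs

/-!
# Integral norms and integral normalisation

The norm from level `N ℓ` to level `N` of an integral series is integral and given by the product
formula (`exists_integral_norm`), also after reduction (`reduced_norm`). Every modular function
is a constant times a quotient of integral series with nonzero reductions (`exists_normalised`),
and proportional ones have the same reduced logarithmic derivative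
(`qDlog_eq_of_proportional`).
-/

set_option autoImplicit false

noncomputable section

open AlgebraicCurve ModularCurve

namespace FLTAgent.MazurP

local notation "Qb" => AlgebraicClosure ℚ

open FLTAgent.Kronecker (twist HasSwap normAlpha)
open FLTAgent.ModularCosets (DivIdx qScale coeffMap_qScale)

section Norm

variable {L : Type*} [Field L] [Algebra ℚ L] {A : ValuationSubring L}
variable {N ℓ : ℕ} [NeZero N] [NeZero ℓ]

/-- The norm of an integral series is integral, with the product formula. -/
theorem exists_integral_norm [Fact ℓ.Prime] (hfin : FiniteAlong L (heckeAlphaBar L N ℓ))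
    (hfr : finrankAlong L (heckeAlphaBar L N ℓ) = ℓ + 1) (hswap : HasSwap L N ℓ)
    (ζ : A) (hζ : IsPrimitiveRoot ζ ℓ) (y : LaurentSeries A)
    (hy : coeffMap A.subtype y ∈ laurentBaseChange L (modularFunctionFieldFull N)) :
    ∃ (u : Aˣ) (z : LaurentSeries A), u ^ ℓ = 1 ∧
      coeffMap A.subtype z =
          ((normAlpha L N ℓ (heckeBetaBar L N ℓ ⟨coeffMap A.subtype y, hy⟩) :
            laurentBaseChange L (modularFunctionFieldFull N)) : LaurentSeries L) ∧
        qExpand A ℓ z = qExpand A ℓ (qExpand A ℓ y) * ∏ b : Fin ℓ, twist (u ^ (b : ℕ)) y := by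
  set u : Aˣ := (hζ.isUnit (NeZero.ne ℓ)).unit
  have hu : (u : A) = ζ := IsUnit.unit_spec _
  set ζL : Lˣ := Units.map (A.subtype : A →* L) u with hζL
  have hζL' : IsPrimitiveRoot (ζL : L) ℓ := by
    rw [hζL, Units.coe_map]
    show IsPrimitiveRoot (A.subtype (u : A)) ℓ
    rw [hu]
    exact hζ.map_of_injective Subtype.val_injective
  have hnorm := Kronecker.qExpand_normAlpha_heckeBetaBar hfin hfr hswap ζL hζL'
    ⟨coeffMap A.subtype y, hy⟩
  set Z := ((normAlpha L N ℓ (heckeBetaBar L N ℓ ⟨coeffMap A.subtype y, hy⟩) :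
    laurentBaseChange L (modularFunctionFieldFull N)) : LaurentSeries L)
  set w : LaurentSeries A := qExpand A ℓ (qExpand A ℓ y) *
    ∏ b : Fin ℓ, twist (u ^ (b : ℕ)) y with hw
  have hwL : coeffMap A.subtype w = qExpand L ℓ Z := by
    rw [hnorm, hw, map_mul, map_prod, ModularCurve.coeffMap_qExpand,
      ModularCurve.coeffMap_qExpand]
    simp only [Kronecker.coeffMap_twist, map_pow, hζL]
  have hmem : ∀ i, Z.coeff i ∈ A := fun i => by
    have h := congrArg (fun x : LaurentSeries L => x.coeff ((ℓ : ℤ) * i)) hwL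
    simp only [coeffMap_coeff, qExpand_coeff_mul] at h
    rw [← h]
    exact (w.coeff _).2
  let z : LaurentSeries A :=
    { coeff := fun i => ⟨Z.coeff i, hmem i⟩
      isPWO_support' := Z.isPWO_support.mono fun i hi h => hi (Subtype.ext h) }
  refine ⟨u, z, Units.ext ?_, HahnSeries.ext (funext fun i => rfl), ?_⟩
  · rw [Units.val_pow_eq_pow_val, hu, hζ.pow_eq_one, Units.val_one]
  · ext i
    have h := congrArg (fun x : LaurentSeries L => x.coeff i) hwL
    have h' : coeffMap A.subtype (qExpand A ℓ z) = qExpand L ℓ Z := by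
      rw [ModularCurve.coeffMap_qExpand]
      exact congrArg (qExpand L ℓ) (HahnSeries.ext (funext fun j => rfl))
    exact (congrArg (fun x : LaurentSeries L => x.coeff i) h').trans h.symm

omit [Algebra ℚ L] [NeZero N] in
/-- The reduction of the product formula: nonvanishing and logarithmic derivative. -/
theorem reduced_norm {k : Type*} [Field k] (π : A →+* k) (hℓ : (ℓ : k) ≠ 0) {u : Aˣ}
    (hu : u ^ ℓ = 1) {y z : LaurentSeries A}
    (h : qExpand A ℓ z = qExpand A ℓ (qExpand A ℓ y) * ∏ b : Fin ℓ, twist (u ^ (b : ℕ)) y)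
    (hy : coeffMap π y ≠ 0) :
    coeffMap π z ≠ 0 ∧
      ∀ n, (qDlog (coeffMap π z)).coeff n = heckeCoeff ℓ (qDlog (coeffMap π y)) n := by
  have hk := congrArg (coeffMap π) h
  rw [map_mul, map_prod, ModularCurve.coeffMap_qExpand, ModularCurve.coeffMap_qExpand,
    ModularCurve.coeffMap_qExpand] at hk
  simp only [Kronecker.coeffMap_twist, map_pow] at hk
  refine ⟨fun h0 => ?_, qDlog_norm_coeff ℓ hℓ (Units.map π.toMonoidHom u)
    (by rw [← map_pow, hu, map_one]) hy hk⟩
  rw [h0, map_zero, eq_comm, mul_eq_zero, map_eq_zero, map_eq_zero, Finset.prod_eq_zero_iff] at hk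
  rcases hk with h1 | ⟨b, -, h1⟩
  · exact hy h1
  · exact twist_ne_zero _ hy h1

end Norm

section Normalise

variable {L : Type*} [Field L]

theorem mul_mem_span_int {x y : LaurentSeries L}
    (hx : x ∈ Submodule.span L (Set.range (coeffMap (Int.castRingHom L))))
    (hy : y ∈ Submodule.span L (Set.range (coeffMap (Int.castRingHom L)))) :
    x * y ∈ Submodule.span L (Set.range (coeffMap (Int.castRingHom L))) := by
  induction hx using Submodule.span_induction with
  | mem x hx =>
    induction hy using Submodule.span_induction with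
    | mem y hy =>
      obtain ⟨m, rfl⟩ := hx
      obtain ⟨m', rfl⟩ := hy
      exact Submodule.subset_span ⟨m * m', map_mul _ _ _⟩
    | zero => simp
    | add y y' _ _ h h' => rw [mul_add]; exact add_mem h h'
    | smul c y _ h =>
      rw [← HahnSeries.C_mul_eq_smul, mul_left_comm, HahnSeries.C_mul_eq_smul]
      exact Submodule.smul_mem _ _ h
  | zero => simp
  | add x x' _ _ h h' => rw [add_mul]; exact add_mem h h'
  | smul c x _ h =>
    rw [← HahnSeries.C_mul_eq_smul, mul_assoc, HahnSeries.C_mul_eq_smul]
    exact Submodule.smul_mem _ _ h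

theorem adjoin_le_span_int (s : Set (LaurentSeries L))
    (hs : ∀ x ∈ s, x ∈ Set.range (coeffMap (Int.castRingHom L))) {x : LaurentSeries L}
    (hx : x ∈ Algebra.adjoin L s) :
    x ∈ Submodule.span L (Set.range (coeffMap (Int.castRingHom L))) := by
  induction hx using Algebra.adjoin_induction with
  | mem x hx => exact Submodule.subset_span (hs x hx)
  | algebraMap c =>
    rw [show algebraMap L (LaurentSeries L) c = c • (1 : LaurentSeries L) by
      rw [algebraMap_laurentSeries_eq_single, ← HahnSeries.C_apply, ← HahnSeries.C_mul_eq_smul,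
        mul_one]]
    have h1 : (1 : LaurentSeries L) ∈ Set.range (coeffMap (Int.castRingHom L)) :=
      ⟨1, map_one _⟩
    exact Submodule.smul_mem _ _ (Submodule.subset_span h1)
  | add x y _ _ hx hy => exact add_mem hx hy
  | mul x y _ _ hx hy => exact mul_mem_span_int hx hy

/-- A nonzero combination of integral-coefficient series has a coefficient of largest value. -/
theorem exists_max_coeff (A : ValuationSubring L) {P : LaurentSeries L}
    (hP : P ∈ Submodule.span L (Set.range (coeffMap (Int.castRingHom L)))) (hP0 : P ≠ 0) :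
    ∃ s : ℤ, P.coeff s ≠ 0 ∧ ∀ n, P.coeff n / P.coeff s ∈ A := by
  classical
  obtain ⟨c, rfl⟩ := (Finsupp.mem_span_range_iff_exists_finsupp (R := L)
    (v := fun z : LaurentSeries ℤ => coeffMap (Int.castRingHom L) z)).mp hP
  set P := c.sum fun i a => a • coeffMap (Int.castRingHom L) i with hPdef
  let v : ℤ → (c.support → ℤ) := fun n i => (i : LaurentSeries ℤ).coeff n
  let Λ : (c.support → ℤ) →ₗ[ℤ] L :=
    { toFun := fun w => ∑ i : c.support, c (i : LaurentSeries ℤ) * (w i : L)
      map_add' := fun w w' => by simp [mul_add, Finset.sum_add_distrib]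
      map_smul' := fun m w => by
        simp only [Pi.smul_apply, smul_eq_mul, Int.cast_mul, RingHom.id_apply, zsmul_eq_mul,
          Finset.mul_sum]
        exact Finset.sum_congr rfl fun i _ => by ring }
  have hΛ : ∀ n, P.coeff n = Λ (v n) := fun n => by
    rw [hPdef, Finsupp.sum, HahnSeries.coeff_sum, ← Finset.sum_coe_sort c.support]
    refine Finset.sum_congr rfl fun i _ => ?_
    rw [HahnSeries.coeff_smul, coeffMap_coeff, smul_eq_mul, eq_intCast]
  obtain ⟨S, hS, hspan⟩ := (Submodule.fg_span_iff_fg_span_finset_subset (Set.range v)).mp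
    (IsNoetherian.noetherian (R := ℤ) _)
  let T : Finset ℤ := S.attach.image fun w => (hS w.2).choose
  have hT : ∀ w ∈ S, ∃ t ∈ T, v t = w := fun w hw =>
    ⟨_, Finset.mem_image.mpr ⟨⟨w, hw⟩, Finset.mem_attach _ _, rfl⟩, (hS hw).choose_spec⟩
  obtain ⟨n₀, hn₀⟩ : ∃ n, P.coeff n ≠ 0 := by
    by_contra h
    push Not at h
    exact hP0 (HahnSeries.ext (funext h))
  have hTne : T.Nonempty := by
    by_contra h
    rw [Finset.not_nonempty_iff_eq_empty] at h
    refine hn₀ ?_
    have hv : v n₀ ∈ Submodule.span ℤ (S : Set (c.support → ℤ)) :=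
      hspan ▸ Submodule.subset_span ⟨n₀, rfl⟩
    have hS0 : S = ∅ := Finset.eq_empty_of_forall_notMem fun w hw => by
      obtain ⟨t, ht, -⟩ := hT w hw
      simp [h] at ht
    rw [hS0, Finset.coe_empty, Submodule.span_empty, Submodule.mem_bot] at hv
    rw [hΛ, hv, map_zero]
  obtain ⟨s, -, hmax⟩ := Finset.exists_max_image T (fun t => A.valuation (P.coeff t)) hTne
  have hle : ∀ n, A.valuation (P.coeff n) ≤ A.valuation (P.coeff s) := fun n => by
    have hv : v n ∈ Submodule.span ℤ (S : Set (c.support → ℤ)) :=
      hspan ▸ Submodule.subset_span ⟨n, rfl⟩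
    rw [hΛ n]
    generalize v n = vv at hv ⊢
    induction hv using Submodule.span_induction with
    | mem w hw =>
      obtain ⟨t, ht, rfl⟩ := hT w hw
      rw [← hΛ]
      exact hmax t ht
    | zero => simp
    | add w w' _ _ h h' => rw [map_add]; exact Valuation.map_add_le _ h h'
    | smul m w _ h =>
      rw [map_smul, zsmul_eq_mul, map_mul]
      refine le_trans (mul_le_of_le_one_left' ?_) h
      exact (A.valuation_le_one_iff _).mpr (intCast_mem A m)
  have hs0 : P.coeff s ≠ 0 := fun h => hn₀ (by simpa [h] using hle n₀)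
  refine ⟨s, hs0, fun n => (A.valuation_le_one_iff _).mp ?_⟩
  rw [map_div₀]
  exact (div_le_one₀ (by simpa [zero_lt_iff] using hs0)).mpr (hle n)

variable [Algebra ℚ L] {N : ℕ} [NeZero N]

/-- Every modular function is a constant times a quotient of integral series with nonzero
reduction. -/
theorem exists_normalised (A : ValuationSubring L) {k : Type*} [Field k] (π : A →+* k)
    (h : laurentBaseChange L (modularFunctionFieldFull N)) (h0 : h ≠ 0) :
    ∃ (c : L) (h₁ h₂ : LaurentSeries A)
      (m₁ : coeffMap A.subtype h₁ ∈ laurentBaseChange L (modularFunctionFieldFull N))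
      (m₂ : coeffMap A.subtype h₂ ∈ laurentBaseChange L (modularFunctionFieldFull N)),
      c ≠ 0 ∧ coeffMap π h₁ ≠ 0 ∧ coeffMap π h₂ ≠ 0 ∧
        h = algebraMap L _ c * (⟨coeffMap A.subtype h₁, m₁⟩ / ⟨coeffMap A.subtype h₂, m₂⟩) := by
  have hmem : (h : LaurentSeries L) ∈ IntermediateField.adjoin L
      (Set.range fun d : DivIdx N => Kronecker.jSeries L (d : ℕ)) := by
    rw [← Kronecker.laurentBaseChange_full_eq_adjoin]; exact h.2
  obtain ⟨P, hP, Q, hQ, hPQ⟩ := IntermediateField.mem_adjoin_iff_div.mp hmem
  have hP0 : P ≠ 0 := fun e => h0 (Subtype.ext (by rw [hPQ, e, zero_div]; rfl))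
  have hQ0 : Q ≠ 0 := fun e => h0 (Subtype.ext (by rw [hPQ, e, div_zero]; rfl))
  have key : ∀ X : LaurentSeries L,
      X ∈ Algebra.adjoin L (Set.range fun d : DivIdx N => Kronecker.jSeries L (d : ℕ)) → X ≠ 0 →
      ∃ (c : L) (x : LaurentSeries A), c ≠ 0 ∧ coeffMap π x ≠ 0 ∧ X = HahnSeries.C c * coeffMap A.subtype x ∧
        coeffMap A.subtype x ∈ laurentBaseChange L (modularFunctionFieldFull N) := by
    intro X hX hX0
    obtain ⟨s, hs, hdiv⟩ := exists_max_coeff A (adjoin_le_span_int _ (by
      rintro _ ⟨d, rfl⟩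
      exact ⟨qScale ℤ (d : ℕ) (jqModC ℤ), by
        show coeffMap (Int.castRingHom L) (qScale ℤ (d : ℕ) (jqModC ℤ)) =
          qScale L (d : ℕ) (jqModC L)
        rw [coeffMap_qScale, coeffMap_jqModC]⟩) hX) hX0
    let x : LaurentSeries A :=
      { coeff := fun n => ⟨_, hdiv n⟩
        isPWO_support' := X.isPWO_support.mono fun n hn h => hn (Subtype.ext (by simp [h])) }
    have hx : coeffMap A.subtype x = HahnSeries.C (X.coeff s)⁻¹ * X := by
      ext n
      simp [x, div_eq_inv_mul, HahnSeries.C_apply]
    refine ⟨X.coeff s, x, hs, fun e => ?_, ?_, ?_⟩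
    · have := congrArg (fun z : LaurentSeries k => z.coeff s) e
      simp only [coeffMap_coeff, HahnSeries.coeff_zero] at this
      rw [show x.coeff s = 1 from Subtype.ext (div_self hs), map_one] at this
      exact one_ne_zero this
    · rw [hx, ← mul_assoc, ← map_mul, mul_inv_cancel₀ hs, map_one, one_mul]
    · rw [hx, Kronecker.laurentBaseChange_full_eq_adjoin, HahnSeries.C_apply,
        ← algebraMap_laurentSeries_eq_single]
      exact mul_mem (IntermediateField.algebraMap_mem _ _)
        (IntermediateField.algebra_adjoin_le_adjoin L _ hX)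
  obtain ⟨c, x, hc, hx, rfl, mx⟩ := key P hP hP0
  obtain ⟨d, y, hd, hy, rfl, my⟩ := key Q hQ hQ0
  refine ⟨c / d, x, y, mx, my, div_ne_zero hc hd, hx, hy, Subtype.ext ?_⟩
  rw [hPQ, IntermediateField.coe_mul, IntermediateField.coe_div, mul_div_mul_comm, ← map_div₀,
    HahnSeries.C_apply, ← algebraMap_laurentSeries_eq_single]
  rfl

end Normalise

/-- Proportional integral series have the same reduced logarithmic derivative. -/
theorem qDlog_eq_of_proportional {L : Type*} [Field L] {A : ValuationSubring L} {k : Type*}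
    [Field k] (π : A →+* k) {X Y : LaurentSeries A} (hX : coeffMap π X ≠ 0)
    (hY : coeffMap π Y ≠ 0) {e : L}
    (h : coeffMap A.subtype X = HahnSeries.C e * coeffMap A.subtype Y) :
    qDlog (coeffMap π X) = qDlog (coeffMap π Y) := by
  have main : ∀ (e : A) (X Y : LaurentSeries A), coeffMap π X ≠ 0 →
      coeffMap A.subtype X = HahnSeries.C (e : L) * coeffMap A.subtype Y →
      qDlog (coeffMap π X) = qDlog (coeffMap π Y) := by
    intro e X Y hX h
    have h' : X = HahnSeries.C e * Y := by
      ext n
      have := congrArg (fun x : LaurentSeries L => x.coeff n) h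
      simpa [HahnSeries.C_apply, HahnSeries.coeff_single_zero_mul] using this
    have h'' : coeffMap π X = HahnSeries.C (π e) * coeffMap π Y := by
      rw [h', map_mul, HahnSeries.C_apply, coeffMap_single]; rfl
    rw [h''] at hX ⊢
    rw [qDlog_mul (left_ne_zero_of_mul hX) (right_ne_zero_of_mul hX), qDlog_C, zero_add]
  rcases A.mem_or_inv_mem e with he | he
  · exact main ⟨e, he⟩ X Y hX h
  · refine (main ⟨e⁻¹, he⟩ Y X hY ?_).symm
    rcases eq_or_ne e 0 with rfl | he0
    · refine absurd ?_ hX
      have : X = 0 := HahnSeries.ext (funext fun n => Subtype.ext (by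
        simpa [HahnSeries.C_apply] using congrArg (fun x : LaurentSeries L => x.coeff n) h))
      rw [this, map_zero]
    · rw [h, ← mul_assoc, ← map_mul]
      simp [he0]

end FLTAgent.MazurP
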