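import Fermat.Agent.EllP.Unramified
import Fermat.Agent.GalCommon.Frobenius
import Fermat.Agent.Mazur.Descent.Tame

/-!
# Valuations in fields fixed by kernels in inertia

An element fixed by the kernel of a finite image homomorphism of inertia has valuation with
denominator dividing the order of the image (`valuation_pow_card_range`); every integral element
is congruent to one fixed by inertia (`exists_fixed_approx`). Hence the motion of integral
elements of such a field is bounded by that of a uniformiser (`valuation_sub_le_max`), and an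
element of period `p` moves elements to smaller order (`valuation_sub_lt_self`).
-/

set_option autoImplicit false

noncomputable section

namespace FLTAgent.MazurP

local notation "Qb" => AlgebraicClosure ℚ
local notation "Γℚ" => (AlgebraicClosure ℚ ≃ₐ[ℚ] AlgebraicClosure ℚ)

variable {A : ValuationSubring (AlgebraicClosure ℚ)} {p : ℕ}

/-- An element fixed by the kernel of a finite-image homomorphism of inertia has valuation with
denominator dividing the order of the image. -/
theorem valuation_pow_card_range (hp : p.Prime) (hA : A.LiesOverPrime p) {G : Type*} [Group G]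
    (f : A.inertiaSubgroupIn ℚ →* G) [Finite f.range] {x : Qb} (hx0 : x ≠ 0)
    (hx : ∀ σ : A.inertiaSubgroupIn ℚ, f σ = 1 → (σ : Γℚ) x = x) :
    ∃ k : ℤ, A.valuation x ^ Nat.card f.range = A.valuation (p : Qb) ^ k := by
  classical
  have := Fintype.ofFinite f.range
  have hwd : ∀ σ τ : A.inertiaSubgroupIn ℚ, f σ = f τ → (σ : Γℚ) x = (τ : Γℚ) x := by
    intro σ τ h
    have h1 := hx (σ⁻¹ * τ) (by rw [map_mul, map_inv, h, inv_mul_cancel])
    conv_lhs => rw [← h1]
    rw [← AlgEquiv.mul_apply, Subgroup.coe_mul, Subgroup.coe_inv, mul_inv_cancel_left]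
  let rep : f.range → A.inertiaSubgroupIn ℚ := fun g => g.2.choose
  have hrep : ∀ g : f.range, f (rep g) = g := fun g => g.2.choose_spec
  let y : f.range → Qb := fun g => (rep g : Γℚ) x
  have hy0 : ∏ g, y g ≠ 0 :=
    Finset.prod_ne_zero_iff.mpr fun g _ => (map_ne_zero _).mpr hx0
  have hfix : ∀ σ ∈ A.inertiaSubgroupIn ℚ, σ (∏ g, y g) = ∏ g, y g := by
    intro σ hσ
    rw [map_prod]
    refine Fintype.prod_equiv (Equiv.mulLeft (f.rangeRestrict ⟨σ, hσ⟩)) _ _ fun g => ?_
    show σ ((rep g : Γℚ) x) = (rep _ : Γℚ) x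
    rw [← AlgEquiv.mul_apply]
    exact hwd (⟨σ, hσ⟩ * rep g) (rep (Equiv.mulLeft (f.rangeRestrict ⟨σ, hσ⟩) g))
      (by rw [map_mul, hrep, hrep]; rfl)
  obtain ⟨k, hk⟩ := EllP.exists_valuation_eq_zpow hp hA hy0 hfix
  refine ⟨k, ?_⟩
  rw [← hk, map_prod, Finset.prod_congr rfl fun g _ =>
    Mazur.Tame.valuation_map (GalCommon.inertiaSubgroupIn_le_decomposition (rep g).2) x,
    Finset.prod_const, Finset.card_univ, Nat.card_eq_fintype_card]

open Polynomial in
/-- Every element of the place is congruent to one fixed by inertia. -/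
theorem exists_fixed_approx (hp : p.Prime) (hA : A.LiesOverPrime p) {y : Qb} (hy : y ∈ A) :
    ∃ a : Qb, a ∈ A ∧ (∀ σ ∈ A.inertiaSubgroupIn ℚ, σ a = a) ∧ A.valuation (y - a) < 1 := by
  classical
  have : Fact p.Prime := ⟨hp⟩
  have := GalCommon.charP_residueField hp hA
  let : Algebra (ZMod p) (IsLocalRing.ResidueField A) := ZMod.algebra _ p
  have := GalCommon.isAlgebraic_residueField A hp hA
  set κ := IsLocalRing.ResidueField A
  set r := IsLocalRing.residue A ⟨y, hy⟩
  set F := IntermediateField.adjoin (ZMod p) ({r} : Set κ)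
  have : FiniteDimensional (ZMod p) F :=
    IntermediateField.adjoin.finiteDimensional (Algebra.IsIntegral.isIntegral r)
  have : Finite F := Module.finite_of_finite (ZMod p)
  have := Fintype.ofFinite F
  set q := Fintype.card F with hq
  have hq1 : 1 < q := Fintype.one_lt_card
  have hpq : p ∣ q := by
    have : CharP F p := charP_of_injective_algebraMap (algebraMap (ZMod p) F).injective p
    obtain ⟨n, -, hn⟩ := FiniteField.card F p
    rw [hq, hn]; exact dvd_pow_self p n.ne_zero
  have hr : r ^ q = r :=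
    congrArg Subtype.val (FiniteField.pow_card (⟨r, IntermediateField.mem_adjoin_simple_self _ r⟩ : F))
  set s := ((X ^ q - X : Qb[X]).roots) with hs
  have hmon : ((X : Qb[X]) ^ q - X).Monic :=
    monic_X_pow_sub (by rw [degree_X]; exact_mod_cast hq1)
  have hroot : ∀ a ∈ s, a ^ q = a := by
    intro a ha
    have := isRoot_of_mem_roots ha
    simp only [IsRoot, eval_sub, eval_pow, eval_X, sub_eq_zero] at this
    exact this
  have hmem : ∀ a ∈ s, a ∈ A := fun a ha =>
    GalCommon.mem_of_isIntegral A ⟨X ^ q - X, monic_X_pow_sub (by rw [degree_X]; exact_mod_cast hq1),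
      by simp [hroot a ha]⟩
  obtain ⟨a, ha, hlt⟩ : ∃ a ∈ s, A.valuation (y - a) < 1 := by
    by_contra hcon
    push Not at hcon
    have h1 : 1 ≤ A.valuation ((s.map fun a => y - a).prod) := by
      rw [map_multiset_prod, Multiset.map_map]
      refine Multiset.one_le_prod_of_one_le fun z hz => ?_
      obtain ⟨a, ha, rfl⟩ := Multiset.mem_map.mp hz
      exact hcon a ha
    have h2 : (s.map fun a => y - a).prod = y ^ q - y := by
      have h := congrArg (eval y) ((IsAlgClosed.splits ((X : Qb[X]) ^ q - X)).eq_prod_roots)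
      rw [hmon.leadingCoeff, C_1, one_mul, eval_multiset_prod, Multiset.map_map] at h
      simp only [eval_sub, eval_pow, eval_X] at h
      rw [h]
      simp [hs]
    have h3 : A.valuation (y ^ q - y) < 1 := by
      have h4 : (((⟨y, hy⟩ : A) ^ q - ⟨y, hy⟩ : A) : Qb) ∈ A.nonunits := by
        rw [GalCommon.coe_mem_nonunits_iff_residue, map_sub, map_pow, hr, sub_self]
      rw [ValuationSubring.mem_nonunits_iff] at h4
      simpa using h4
    rw [h2] at h1
    exact h3.not_ge h1
  refine ⟨a, hmem a ha, fun σ hσ => ?_, hlt⟩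
  rcases eq_or_ne a 0 with rfl | ha0
  · exact map_zero σ
  refine GalCommon.inertia_apply_of_pow_eq_one hp hA (n := q - 1) (fun h => ?_) hσ ?_
  · have h' := Nat.dvd_sub hpq h
    rw [Nat.sub_sub_self hq1.le] at h'
    exact hp.not_dvd_one h'
  · have h := hroot a ha
    nth_rw 1 [show q = q - 1 + 1 by omega] at h
    rw [pow_succ] at h
    exact mul_right_cancel₀ ha0 (h.trans (one_mul a).symm)

/-- Bound on `σ z - z` in a field whose value group is generated by `π`. -/
theorem valuation_sub_le_max (hp : p.Prime) (hA : A.LiesOverPrime p) (K : IntermediateField ℚ Qb)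
    (hK : ∀ a : Qb, (∀ σ ∈ A.inertiaSubgroupIn ℚ, σ a = a) → a ∈ K) {π : Qb} (hπK : π ∈ K)
    (hπ1 : A.valuation π < 1) (hπ0 : π ≠ 0)
    (hval : ∀ z ∈ K, z ≠ 0 → ∃ n : ℤ, A.valuation z = A.valuation π ^ n) {σ : Γℚ}
    (hσ : σ ∈ A.inertiaSubgroupIn ℚ) (N : ℕ) {z : Qb} (hzK : z ∈ K) (hz : A.valuation z ≤ 1) :
    A.valuation (σ z - z) ≤ max (A.valuation (σ π - π)) (A.valuation π ^ N) := by
  have hvm := Mazur.Tame.valuation_map (GalCommon.inertiaSubgroupIn_le_decomposition hσ)
  induction N generalizing z with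
  | zero =>
    rw [pow_zero]
    exact le_max_of_le_right (A.valuation.map_sub_le ((hvm z).trans_le hz) hz)
  | succ N ih =>
    obtain ⟨a, -, hafix, hlt⟩ := exists_fixed_approx hp hA ((A.valuation_le_one_iff z).mp hz)
    have haK := hK a hafix
    have e : σ z - z = σ (z - a) - (z - a) := by rw [map_sub, hafix σ hσ]; ring
    rw [e]
    set w := z - a with hw
    have hwK : w ∈ K := K.sub_mem hzK haK
    rcases eq_or_ne w 0 with h0 | h0
    · simp [h0]
    obtain ⟨n, hn⟩ := hval w hwK h0
    have hvπ : 0 < A.valuation π := zero_lt_iff.mpr ((Valuation.ne_zero_iff _).mpr hπ0)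
    have hn1 : 1 ≤ n := by
      by_contra hcon
      exact (hlt.trans_le (one_le_zpow_of_nonpos₀ hvπ hπ1.le (by omega))).ne hn
    set u := w / π with hu
    have huK : u ∈ K := K.div_mem hwK hπK
    have hu1 : A.valuation u ≤ 1 := by
      rw [hu, map_div₀, div_le_one₀ hvπ, hn]
      exact (zpow_le_zpow_right_of_le_one₀ hvπ hπ1.le hn1).trans_eq (zpow_one _)
    have e2 : σ w - w = (σ π - π) * σ u + π * (σ u - u) := by
      have hwu : w = π * u := by rw [hu, mul_div_cancel₀ _ hπ0]
      conv_lhs => rw [hwu]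
      rw [map_mul]; ring
    rw [e2]
    refine A.valuation.map_add_le ?_ ?_
    · rw [map_mul, hvm]
      exact le_max_of_le_left (mul_le_of_le_one_right' hu1)
    · rw [map_mul, pow_succ']
      refine le_trans (mul_le_mul_right (ih huK hu1) _) ?_
      rw [show ∀ a b c : A.ValueGroup, a * max b c = max (a * b) (a * c) from
        fun a b c => (Monotone.map_max (f := (a * ·)) fun _ _ h => mul_le_mul_right h a)]
      exact max_le_max_right _ (mul_le_of_le_one_left' hπ1.le)

/-- If `σ` fixes a generator of the value group, it fixes the field. -/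
theorem eq_self_of_fix_uniformizer (hp : p.Prime) (hA : A.LiesOverPrime p)
    (K : IntermediateField ℚ Qb)
    (hK : ∀ a : Qb, (∀ σ ∈ A.inertiaSubgroupIn ℚ, σ a = a) → a ∈ K) {π : Qb} (hπK : π ∈ K)
    (hπ1 : A.valuation π < 1) (hπ0 : π ≠ 0)
    (hval : ∀ z ∈ K, z ≠ 0 → ∃ n : ℤ, A.valuation z = A.valuation π ^ n) {σ : Γℚ}
    (hσ : σ ∈ A.inertiaSubgroupIn ℚ) (hσK : ∀ z ∈ K, σ z ∈ K) (hσπ : σ π = π) {z : Qb}
    (hzK : z ∈ K) (hz : A.valuation z ≤ 1) : σ z = z := by
  by_contra hne
  have hd : σ z - z ≠ 0 := sub_ne_zero.mpr hne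
  obtain ⟨n, hn⟩ := hval _ (K.sub_mem (hσK z hzK) hzK) hd
  have hvπ : 0 < A.valuation π := zero_lt_iff.mpr ((Valuation.ne_zero_iff _).mpr hπ0)
  have h := valuation_sub_le_max hp hA K hK hπK hπ1 hπ0 hval hσ (n.toNat + 1) hzK hz
  rw [hσπ, sub_self, map_zero, max_eq_right zero_le, hn, ← zpow_natCast,
    zpow_le_zpow_iff_right_of_lt_one₀ hvπ hπ1] at h
  omega

/-- An inertia element of period `p` on `x` moves it to a smaller order. -/
theorem valuation_sub_lt_self (hp : p.Prime) (hA : A.LiesOverPrime p) {σ : Γℚ}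
    (hσ : σ ∈ A.inertiaSubgroupIn ℚ) {x : Qb} (hx : x ≠ 0) (hper : (σ ^ p) x = x) :
    A.valuation (σ x - x) < A.valuation x := by
  have hdec := GalCommon.inertiaSubgroupIn_le_decomposition hσ
  set r := σ x / x with hr
  set t := Mazur.Tame.theta hdec x with ht
  have hr' : σ x = r * x := by rw [hr, div_mul_cancel₀ _ hx]
  have key : ∀ m : ℕ, ∃ h : (σ ^ m) x / x ∈ A,
      IsLocalRing.residue A ⟨(σ ^ m) x / x, h⟩ = t ^ m := by
    intro m
    induction m with
    | zero =>
      have h1 : (σ ^ 0) x / x = 1 := by simp [hx]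
      refine ⟨h1 ▸ A.one_mem, ?_⟩
      rw [show (⟨(σ ^ 0) x / x, h1 ▸ A.one_mem⟩ : A) = 1 from Subtype.ext h1, map_one]
      exact (pow_zero t).symm
    | succ m ih =>
      obtain ⟨hm, hres⟩ := ih
      set u := (σ ^ m) x / x with hu
      have e : (σ ^ (m + 1)) x / x = σ u * r := by
        rw [hu, map_div₀, pow_succ', AlgEquiv.mul_apply, hr]
        field_simp [hx, (map_ne_zero σ).mpr hx]
      have hσu : σ u ∈ A := (GalCommon.map_mem_iff_of_mem_decomposition hdec).mpr hm
      refine ⟨e ▸ A.mul_mem _ _ hσu (Mazur.Tame.map_div_self_mem hdec x), ?_⟩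
      have : (⟨(σ ^ (m + 1)) x / x, e ▸ A.mul_mem _ _ hσu (Mazur.Tame.map_div_self_mem hdec x)⟩ : A) =
          ⟨σ u, hσu⟩ * ⟨r, Mazur.Tame.map_div_self_mem hdec x⟩ := Subtype.ext e
      rw [this, map_mul, pow_succ, ← hres]
      congr 1
      rw [← sub_eq_zero, ← map_sub, ← GalCommon.coe_mem_nonunits_iff_residue]
      exact (GalCommon.mem_inertiaSubgroupIn_iff.mp hσ).2 u hm
  obtain ⟨hm, hres⟩ := key p
  have h1 : t ^ p = 1 := by
    rw [← hres, show (⟨(σ ^ p) x / x, hm⟩ : A) = 1 from
      Subtype.ext (show (σ ^ p) x / x = 1 by rw [hper, div_self hx]), map_one]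
  have := GalCommon.charP_residueField hp hA
  have : Fact p.Prime := ⟨hp⟩
  rw [← Mazur.Tame.theta_eq_one_iff hdec hx]
  have h2 : (t - 1) ^ p = 0 := by rw [sub_pow_char, h1, one_pow, sub_self]
  exact sub_eq_zero.mp (pow_eq_zero_iff hp.ne_zero |>.mp h2)

end FLTAgent.MazurP
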